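import Fermat.Prelude.Def_FLTPrelim_Modularity

set_option autoImplicit false

/-!
# The trace of Frobenius at `2` in terms of `c₄`, `c₆`
-/

open WeierstrassCurve WeierstrassCurve.Affine WeierstrassCurve.Affine.Point

namespace Fermat.Agent.Full.AP2

/-- number of affine solutions over `𝔽₂` -/
def cnt (W : WeierstrassCurve (ZMod 2)) : ℕ :=
  (Finset.univ.filter fun p : ZMod 2 × ZMod 2 =>
    p.2 ^ 2 + W.a₁ * p.1 * p.2 + W.a₃ * p.2 =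
      p.1 ^ 3 + W.a₂ * p.1 ^ 2 + W.a₄ * p.1 + W.a₆).card

theorem card_point (W : WeierstrassCurve (ZMod 2)) (hΔ : W.Δ ≠ 0) :
    Nat.card W.toAffine.Point = cnt W + 1 := by
  classical
  have : W.IsElliptic := by
    have h1 : ∀ b : ZMod 2, b ≠ 0 → b = 1 := by decide
    rw [WeierstrassCurve.isElliptic_iff, h1 _ hΔ]
    exact isUnit_one
  let S : Type := {p : ZMod 2 × ZMod 2 // p.2 ^ 2 + W.a₁ * p.1 * p.2 + W.a₃ * p.2 =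
      p.1 ^ 3 + W.a₂ * p.1 ^ 2 + W.a₄ * p.1 + W.a₆}
  have key : ∀ x y : ZMod 2, W.toAffine.Nonsingular x y ↔
      y ^ 2 + W.a₁ * x * y + W.a₃ * y = x ^ 3 + W.a₂ * x ^ 2 + W.a₄ * x + W.a₆ := by
    intro x y
    rw [← equation_iff_nonsingular, WeierstrassCurve.Affine.equation_iff]
  let f : W.toAffine.Point → Option S := fun P => match P with
    | 0 => none
    | .some x y h => some ⟨(x, y), (key x y).mp h⟩
  have hf : Function.Bijective f := by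
    constructor
    · intro P Q hPQ
      match P, Q, hPQ with
      | 0, 0, _ => rfl
      | 0, .some x y h, hPQ => exact absurd hPQ (by simp [f])
      | .some x y h, 0, hPQ => exact absurd hPQ (by simp [f])
      | .some x y h, .some x' y' h', hPQ =>
        have h2 := congrArg (fun s : S => s.1) (Option.some.inj hPQ)
        obtain ⟨rfl, rfl⟩ := Prod.mk.inj h2
        rfl
    · rintro (_ | ⟨⟨x, y⟩, h⟩)
      · exact ⟨0, rfl⟩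
      · exact ⟨.some x y ((key x y).mpr h), rfl⟩
  rw [Nat.card_eq_of_bijective f hf, Nat.card_eq_fintype_card, Fintype.card_option]
  congr 1
  rw [Fintype.card_subtype]
  rfl

theorem ap_two (Y : WeierstrassCurve ℤ) (hΔ : ¬ (2 : ℤ) ∣ Y.Δ) :
    Y.apOfModel 2 = 2 - (cnt (Y.reductionMod 2) : ℤ) := by
  have h1 : (Y.reductionMod 2).Δ ≠ 0 := by
    rw [reductionMod, WeierstrassCurve.map_Δ, eq_intCast, Ne, ZMod.intCast_zmod_eq_zero_iff_dvd]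
    exact_mod_cast hΔ
  rw [apOfModel, traceOfFrobenius, card, card_point _ h1, Nat.card_eq_fintype_card, ZMod.card]
  push_cast
  ring

/-- the table over `𝔽₂` -/
theorem table : ∀ a₁ a₂ a₃ a₄ a₆ : ZMod 2,
    (⟨a₁, a₂, a₃, a₄, a₆⟩ : WeierstrassCurve (ZMod 2)).Δ ≠ 0 →
    (a₁ = 1 → cnt ⟨a₁, a₂, a₃, a₄, a₆⟩ = if a₂ + a₃ = 0 then 3 else 1) ∧
    (a₁ = 0 → a₃ = 1 ∧ cnt ⟨a₁, a₂, a₃, a₄, a₆⟩ =
      if a₂ + a₄ = 0 then 2 else if a₆ = 0 then 4 else 0) := by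
  decide

theorem cast_two (a : ℤ) : ((a : ZMod 2) = 0 ↔ (2 : ℤ) ∣ a) := by
  rw [ZMod.intCast_zmod_eq_zero_iff_dvd]; norm_num

theorem cast_two_one {a : ℤ} (h : ¬ (2 : ℤ) ∣ a) : (a : ZMod 2) = 1 := by
  have : ∀ b : ZMod 2, b ≠ 0 → b = 1 := by decide
  exact this _ fun h' => h ((cast_two a).1 h')

/-- ordinary reduction at `2` -/
theorem ap_two_ord (Y : WeierstrassCurve ℤ) (hΔ : ¬ (2 : ℤ) ∣ Y.Δ) (h : ¬ (2 : ℤ) ∣ Y.c₄) :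
    (Y.apOfModel 2 = -1 ∧ (8 : ℤ) ∣ Y.c₆ + 1) ∨ (Y.apOfModel 2 = 1 ∧ (8 : ℤ) ∣ Y.c₆ - 3) := by
  have h1 : (Y.reductionMod 2).Δ ≠ 0 := by
    rw [reductionMod, WeierstrassCurve.map_Δ, eq_intCast, Ne, ZMod.intCast_zmod_eq_zero_iff_dvd]
    exact_mod_cast hΔ
  have ha1 : ¬ (2 : ℤ) ∣ Y.a₁ := by
    intro hd
    apply h
    obtain ⟨r, hr⟩ := hd
    simp only [WeierstrassCurve.c₄, WeierstrassCurve.b₂, WeierstrassCurve.b₄]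
    rw [hr]
    exact ⟨((2 * r) ^ 2 + 4 * Y.a₂) * (2 * r ^ 2 + 2 * Y.a₂) - 12 * (2 * Y.a₄ + 2 * r * Y.a₃),
      by ring⟩
  have h2 := (table (Y.a₁ : ZMod 2) Y.a₂ Y.a₃ Y.a₄ Y.a₆ h1).1 (cast_two_one ha1)
  have h3 : cnt (Y.reductionMod 2) = if (Y.a₂ : ZMod 2) + Y.a₃ = 0 then 3 else 1 := h2
  -- `c₆ = -1 + 4 (a₂ + a₃)` modulo `8`
  have hc : (8 : ℤ) ∣ Y.c₆ + 1 - 4 * (Y.a₂ + Y.a₃) := by
    obtain ⟨s, hs⟩ : ∃ s, Y.a₁ = 2 * s + 1 := by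
      have := Int.emod_two_eq_zero_or_one Y.a₁
      exact ⟨Y.a₁ / 2, by omega⟩
    obtain ⟨r, hr⟩ : (2 : ℤ) ∣ s * (s + 1) := (Int.even_mul_succ_self s).two_dvd
    have hb2 : Y.b₂ = 1 + 4 * Y.a₂ + 8 * r := by
      simp only [WeierstrassCurve.b₂]; rw [hs]; linear_combination 4 * hr
    have hb4 : Y.b₄ = 2 * Y.a₄ + (2 * s + 1) * Y.a₃ := by
      simp only [WeierstrassCurve.b₄]; rw [hs]
    have hc6 : Y.c₆ = -Y.b₂ ^ 3 + 36 * Y.b₂ * Y.b₄ - 216 * Y.b₆ := rfl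
    rw [hc6, hb2, hb4]
    have h8 : (8 : ZMod 8) = 0 := rfl
    have : ((-(1 + 4 * Y.a₂ + 8 * r) ^ 3 + 36 * (1 + 4 * Y.a₂ + 8 * r) *
        (2 * Y.a₄ + (2 * s + 1) * Y.a₃) - 216 * Y.b₆ + 1 - 4 * (Y.a₂ + Y.a₃) : ℤ) : ZMod 8) = 0 := by
      push_cast
      linear_combination (-8 * (r : ZMod 8) ^ 3 * 8 - 8 * (r : ZMod 8) ^ 2 * 3 * (1 + 4 * Y.a₂) -
        (r : ZMod 8) * 3 * (1 + 4 * Y.a₂) ^ 2 - 2 * (Y.a₂ : ZMod 8) - 6 * (Y.a₂ : ZMod 8) ^ 2 -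
        8 * (Y.a₂ : ZMod 8) ^ 3 + 36 * r * (2 * Y.a₄ + (2 * s + 1) * Y.a₃) +
        18 * Y.a₂ * (2 * Y.a₄ + (2 * s + 1) * Y.a₃) + 9 * Y.a₄ + 9 * s * Y.a₃ + 4 * Y.a₃ -
        27 * Y.b₆) * h8
    exact (ZMod.intCast_zmod_eq_zero_iff_dvd _ 8).1 this
  rw [ap_two Y hΔ, h3]
  by_cases h4 : (Y.a₂ : ZMod 2) + Y.a₃ = 0
  · left
    rw [if_pos h4]
    rw [← Int.cast_add, cast_two] at h4
    obtain ⟨t, ht⟩ := h4
    refine ⟨by norm_num, ?_⟩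
    rw [ht] at hc
    have : Y.c₆ + 1 = (Y.c₆ + 1 - 4 * (2 * t)) + 8 * t := by ring
    rw [this]
    exact dvd_add hc (dvd_mul_right _ _)
  · right
    rw [if_neg h4]
    rw [← Int.cast_add, cast_two] at h4
    refine ⟨by norm_num, ?_⟩
    obtain ⟨t, ht⟩ : ∃ t, Y.a₂ + Y.a₃ = 2 * t + 1 := by
      have := Int.emod_two_eq_zero_or_one (Y.a₂ + Y.a₃)
      exact ⟨(Y.a₂ + Y.a₃) / 2, by omega⟩
    rw [ht] at hc
    have : Y.c₆ - 3 = (Y.c₆ + 1 - 4 * (2 * t + 1)) + 8 * t := by ring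
    rw [this]
    exact dvd_add hc (dvd_mul_right _ _)

/-- supersingular reduction at `2` -/
theorem ap_two_ss (Y : WeierstrassCurve ℤ) (hΔ : ¬ (2 : ℤ) ∣ Y.Δ) (h : (2 : ℤ) ∣ Y.c₄) :
    ∃ c e : ℤ, Y.c₄ = 16 * c ∧ Y.c₆ = 8 * e ∧ ¬ (2 : ℤ) ∣ e ∧
      (((2 : ℤ) ∣ c ∧ Y.apOfModel 2 = 0) ∨
        (¬ (2 : ℤ) ∣ c ∧ (8 : ℤ) ∣ e - 5 ∧ Y.apOfModel 2 = -2) ∨
        (¬ (2 : ℤ) ∣ c ∧ (8 : ℤ) ∣ e - 1 ∧ Y.apOfModel 2 = 2)) := by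
  have h1 : (Y.reductionMod 2).Δ ≠ 0 := by
    rw [reductionMod, WeierstrassCurve.map_Δ, eq_intCast, Ne, ZMod.intCast_zmod_eq_zero_iff_dvd]
    exact_mod_cast hΔ
  have ha1 : (2 : ℤ) ∣ Y.a₁ := by
    by_contra hd
    obtain ⟨s, hs⟩ : ∃ s, Y.a₁ = 2 * s + 1 := by
      have := Int.emod_two_eq_zero_or_one Y.a₁
      exact ⟨Y.a₁ / 2, by omega⟩
    obtain ⟨w, hw⟩ := h
    have h2 : Y.c₄ = Y.b₂ ^ 2 - 24 * Y.b₄ := rfl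
    have h3 : Y.b₂ = 2 * (2 * s ^ 2 + 2 * s + 2 * Y.a₂) + 1 := by
      simp only [WeierstrassCurve.b₂]; rw [hs]; ring
    rw [hw, h3] at h2
    obtain ⟨z, hz⟩ : ∃ z, z = 2 * s ^ 2 + 2 * s + 2 * Y.a₂ := ⟨_, rfl⟩
    rw [← hz] at h2
    have h4 : 2 * w = 2 * (2 * z ^ 2 + 2 * z - 12 * Y.b₄) + 1 := by linear_combination h2
    omega
  have h2 := (table (Y.a₁ : ZMod 2) Y.a₂ Y.a₃ Y.a₄ Y.a₆ h1).2 ((cast_two _).2 ha1)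
  obtain ⟨ha3, h3⟩ := h2
  have h3 : cnt (Y.reductionMod 2) = if (Y.a₂ : ZMod 2) + Y.a₄ = 0 then 2 else
    if (Y.a₆ : ZMod 2) = 0 then 4 else 0 := h3
  have ha3' : ¬ (2 : ℤ) ∣ Y.a₃ := by
    rw [← cast_two, ha3]; decide
  obtain ⟨s, hs⟩ := ha1
  obtain ⟨t, ht⟩ : ∃ t, Y.a₃ = 2 * t + 1 := by
    have := Int.emod_two_eq_zero_or_one Y.a₃
    exact ⟨Y.a₃ / 2, by omega⟩
  obtain ⟨r, hr⟩ : (2 : ℤ) ∣ t * (t + 1) := (Int.even_mul_succ_self t).two_dvd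
  obtain ⟨v, hv⟩ : (2 : ℤ) ∣ s * (s + 1) := (Int.even_mul_succ_self s).two_dvd
  obtain ⟨β, hβ⟩ : ∃ β, β = s ^ 2 + Y.a₂ := ⟨_, rfl⟩
  obtain ⟨γ, hγ⟩ : ∃ γ, γ = Y.a₄ + s * Y.a₃ := ⟨_, rfl⟩
  have hb2 : Y.b₂ = 4 * β := by
    simp only [WeierstrassCurve.b₂]; rw [hs, hβ]; ring
  have hb4 : Y.b₄ = 2 * γ := by
    simp only [WeierstrassCurve.b₄]; rw [hs, hγ]; ring
  have hb6 : Y.b₆ = 8 * r + 1 + 4 * Y.a₆ := by
    simp only [WeierstrassCurve.b₆]; rw [ht]; linear_combination 4 * hr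
  have hc4 : Y.c₄ = 16 * (β ^ 2 - 3 * γ) := by
    have : Y.c₄ = Y.b₂ ^ 2 - 24 * Y.b₄ := rfl
    rw [this, hb2, hb4]; ring
  have hc6 : Y.c₆ = 8 * (-8 * β ^ 3 + 36 * β * γ - 27 * (8 * r + 1 + 4 * Y.a₆)) := by
    have : Y.c₆ = -Y.b₂ ^ 3 + 36 * Y.b₂ * Y.b₄ - 216 * Y.b₆ := rfl
    rw [this, hb2, hb4, hb6]; ring
  refine ⟨_, _, hc4, hc6, ?_, ?_⟩
  · intro hd
    obtain ⟨w, hw⟩ := hd
    have : 2 * (-4 * β ^ 3 + 18 * β * γ - 27 * (4 * r + 2 * Y.a₆) - 14) + 1 = 2 * w := by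
      linear_combination hw
    omega
  -- parity of `c`
  have hpar : (2 : ℤ) ∣ (β ^ 2 - 3 * γ) ↔ (2 : ℤ) ∣ Y.a₂ + Y.a₄ := by
    obtain ⟨w, hw⟩ : (2 : ℤ) ∣ β * (β + 1) := (Int.even_mul_succ_self β).two_dvd
    have e : β ^ 2 - 3 * γ = (Y.a₂ + Y.a₄) + 2 * (w - β - 2 * γ + v + s * t) := by
      have e1 : β ^ 2 = 2 * w - β := by linear_combination hw
      have e2 : β + γ = Y.a₂ + Y.a₄ + 2 * (v + s * t) := by
        rw [hβ, hγ, ht]; linear_combination hv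
      linear_combination e1 + e2
    rw [e]
    exact dvd_add_left (dvd_mul_right _ _)
  rw [ap_two Y hΔ, h3]
  by_cases h4 : (Y.a₂ : ZMod 2) + Y.a₄ = 0
  · left
    rw [if_pos h4]
    rw [← Int.cast_add, cast_two] at h4
    exact ⟨hpar.2 h4, by norm_num⟩
  · right
    rw [if_neg h4]
    rw [← Int.cast_add, cast_two] at h4
    have hodd : ¬ (2 : ℤ) ∣ (β ^ 2 - 3 * γ) := fun h => h4 (hpar.1 h)
    have hβγ : (2 : ℤ) ∣ β * γ := by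
      by_contra hd
      have h5 : ¬ (2 : ℤ) ∣ β := fun h => hd (h.mul_right γ)
      have h6 : ¬ (2 : ℤ) ∣ γ := fun h => hd (h.mul_left β)
      obtain ⟨x, hx⟩ : ∃ x, β = 2 * x + 1 := ⟨β / 2, by omega⟩
      obtain ⟨y, hy⟩ : ∃ y, γ = 2 * y + 1 := ⟨γ / 2, by omega⟩
      exact hodd ⟨2 * x ^ 2 + 2 * x - 3 * y - 1, by rw [hx, hy]; ring⟩
    obtain ⟨w, hw⟩ := hβγ
    by_cases h5 : (Y.a₆ : ZMod 2) = 0
    · left
      rw [if_pos h5]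
      rw [cast_two] at h5
      obtain ⟨y, hy⟩ := h5
      refine ⟨hodd, ⟨-β ^ 3 + 9 * w - 27 * r - 4 - 27 * y, ?_⟩, by norm_num⟩
      rw [hy]
      linear_combination 36 * hw
    · right
      rw [if_neg h5]
      rw [cast_two] at h5
      obtain ⟨y, hy⟩ : ∃ y, Y.a₆ = 2 * y + 1 := ⟨Y.a₆ / 2, by omega⟩
      refine ⟨hodd, ⟨-β ^ 3 + 9 * w - 27 * r - 17 - 27 * y, ?_⟩, by norm_num⟩
      rw [hy]
      linear_combination 36 * hw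

end Fermat.Agent.Full.AP2
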