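import Fermat.Agent.LL.Excl

set_option autoImplicit false

/-!
# Harmless primes: primes at which no Steinberg lift exists
-/

open IsLocalRing Polynomial

namespace Fermat.Agent.Full

open Fermat.Agent.LL

local notation "Γℚ" => (AlgebraicClosure ℚ ≃ₐ[ℚ] AlgebraicClosure ℚ)

/-- `q ≠ p`, and no lift of `ρbar` is Steinberg at `q` (up to an unramified quadratic twist). -/
def Harmless {k : Type} [Field k] (p : ℕ) (ρbar : ResidualGaloisRep k) (q : ℕ) : Prop :=
  q ≠ p ∧ ∀ P : ValuationSubring (AlgebraicClosure ℚ), P.LiesOverPrime q →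
    ∀ σ : Γℚ, P.IsFrobeniusAt σ q →
      LinearMap.charpoly (ρbar.ρ σ) ≠ X ^ 2 - C ((q : k) + 1) * X + C (q : k) ∧
      LinearMap.charpoly (ρbar.ρ σ) ≠ X ^ 2 + C ((q : k) + 1) * X + C (q : k)

/-- The level of a newform congruent to `ρbar` is not exactly divisible by a harmless prime. -/
theorem Harmless.not_dvd {𝒪 : Type} [CommRing 𝒪] [IsLocalRing 𝒪] {j : 𝒪 →+* ℂ}
    {ρbar : ResidualGaloisRep (ResidueField 𝒪)} {S : Finset ℕ} {t : ℕ → ℂ} {p M q : ℕ}
    (h : Harmless p ρbar q) (P : Pt j ρbar S t) (hP : NFProps p M P.ρ) (hq : q.Prime)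
    (hsq : ¬ q ^ 2 ∣ M) : ¬ q ∣ M := by
  intro h1
  obtain ⟨A, hA⟩ := Fermat.Agent.Frob.exists_liesOverPrime (AlgebraicClosure ℚ) hq
  obtain ⟨σ, hσ⟩ := Fermat.Agent.Frob.exists_isFrobeniusAt A hq hA
  have h3 := P.charpoly_map σ
  have hφ := (ResidueField.map (algebraMap 𝒪 P.R)).injective
  obtain ⟨h5, h6⟩ := h.2 A hA σ hσ
  rcases (hP.st q hq h.1 h1 hsq).2 A hA σ hσ with h4 | h4
  · apply h5
    apply Polynomial.map_injective _ hφ
    rw [← h3, h4]
    simp
  · apply h6
    apply Polynomial.map_injective _ hφ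
    rw [← h3, h4]
    simp

/-- A criterion in terms of the trace. -/
theorem harmless_of_trace {k : Type} [Field k] {p : ℕ} {ρbar : ResidualGaloisRep k} {q : ℕ}
    (hqp : q ≠ p)
    (h : ∀ P : ValuationSubring (AlgebraicClosure ℚ), P.LiesOverPrime q →
      ∀ σ : Γℚ, P.IsFrobeniusAt σ q → ∃ a : k,
        LinearMap.charpoly (ρbar.ρ σ) = X ^ 2 - C a * X + C (q : k) ∧ a ^ 2 ≠ ((q : k) + 1) ^ 2) :
    Harmless p ρbar q := by
  refine ⟨hqp, fun P hP σ hσ ↦ ?_⟩
  obtain ⟨a, ha, hne⟩ := h P hP σ hσ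
  constructor
  · intro h1
    rw [ha] at h1
    have c1 := congrArg (fun f ↦ Polynomial.coeff f 1) h1
    simp only [coeff_add, coeff_sub, coeff_X_pow, coeff_C_mul, coeff_X_one, coeff_C] at c1
    norm_num at c1
    have h2 : a = (q : k) + 1 := by linear_combination -c1
    exact hne (by rw [h2])
  · intro h1
    rw [ha] at h1
    have c1 := congrArg (fun f ↦ Polynomial.coeff f 1) h1
    simp only [coeff_add, coeff_sub, coeff_X_pow, coeff_C_mul, coeff_X_one, coeff_C] at c1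
    norm_num at c1
    have h2 : a = -((q : k) + 1) := by linear_combination -c1
    exact hne (by rw [h2, neg_sq])

end Fermat.Agent.Full
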