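import Fermat.Agent.LL.AutBuild
import Fermat.Agent.Full.Harmless

set_option autoImplicit false
set_option linter.unusedSectionVars false

/-!
# Construction of `AutOutP` at levels with harmless primes
-/

open CongruenceSubgroup Fermat.Agent.Top IsLocalRing Fermat.Agent.TWMod
open scoped MatrixGroups TensorProduct

namespace Fermat.Agent.Full

open Fermat.Agent.LL

section

variable {p : ℕ} {𝒪 : Type} [CommRing 𝒪] [IsDomain 𝒪] [IsDiscreteValuationRing 𝒪]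
    [IsAdicComplete (maximalIdeal 𝒪) 𝒪] [Finite (ResidueField 𝒪)] [CharZero 𝒪] {j : 𝒪 →+* ℂ}
    {ρbar : ResidualGaloisRep (ResidueField 𝒪)}
    {r : ℕ} {av : Fin r → ℕ}
    {G : GrpRing 𝒪 p av} {S : Finset ℕ} {N M : ℕ} {F : Finset ℕ} {z : ℕ → G.Λ}

/-- deformation conditions at a point, with harmless primes in the level -/
theorem condType_of (L : Lev G S N F z) {S' : Finset ℕ} {t : ℕ → ℂ} (P : Pt j ρbar S' t)
    (hP : NFProps p M P.ρ) {ψ : G.Λ →+* ℂ}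
    (hM : M ∣ N * cond F (fun q ↦ ψ (z q))) {Smin : Finset ℕ} (hpS : p ∈ Smin)
    (hSF : ∀ q ∈ Smin, q ∉ F)
    (hN : ∀ q : ℕ, q.Prime → q ∣ N → q ∉ Smin → q ∉ F → Harmless p ρbar q)
    {Pc : TW.LCond} (hPc : Pc P.ρ) :
    TW.CondType 𝒪 p Smin Pc F P.ρ := by
  refine ⟨⟨hP.det, hPc, fun q hq hqS ↦ ?_⟩,
    fun q hqS hq hqp ↦ ?_⟩
  · rw [Finset.mem_union, not_or] at hqS
    refine hP.unr q hq (fun h ↦ hqS.1 (h ▸ hpS)) fun h ↦ ?_
    refine (hN q hq (L.dvd_of hM hq h) hqS.1 hqS.2).not_dvd P hP hq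
      (not_sq_dvd L.sqf hM hq fun h' ↦ ?_) h
    exact hqS.2 ((dvd_cond_iff L.prime hq).1 h').1
  · by_cases hqM : q ∣ M
    · refine (hP.st q hq hqp hqM (not_sq_dvd L.sqf hM hq fun h ↦ ?_)).1
      exact hSF q hqS ((dvd_cond_iff L.prime hq).1 h).1
    · exact unip_of_unr (hP.unr q hq hqp hqM)

end

/-- The base data, with a general condition `PC` at `p`, allowing harmless primes in the level. -/
structure BaseR (p : ℕ) {𝒪 : Type} [CommRing 𝒪] [IsDomain 𝒪] [IsDiscreteValuationRing 𝒪]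
    [IsAdicComplete (maximalIdeal 𝒪) 𝒪] [Finite (ResidueField 𝒪)] [CharZero 𝒪] (j : 𝒪 →+* ℂ)
    (ρbar : ResidualGaloisRep (ResidueField 𝒪)) (S0 : Finset ℕ) (b : ℕ → 𝒪) (N0 : ℕ)
    (Smin T : Finset ℕ) (ζ : 𝒪) (PC : TW.LCond) : Prop extends Ctx p j ρbar S0 b where
  sqf : Squarefree N0
  three : p ≠ 3 ∨ ∃ r : ℕ, r.Prime ∧ r % 3 = 2 ∧ r ∣ N0
  memS : ∀ q : ℕ, q.Prime → q ∣ N0 → q ∈ S0
  /-- `ρbar` occurs at a level dividing `N0` -/
  form : ∃ (M0 : ℕ) (f : CuspForm (Gamma0 M0) 2), M0 ∣ N0 ∧ f.IsNormalizedEigenform ∧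
    CongTo j b S0 (fun ℓ ↦ ModularFormClass.qCoeff f ℓ)
  pT : p ∉ T
  Tdvd : ∀ l ∈ T, l ∣ N0
  Tpr : ∀ l ∈ T, l.Prime
  Tone : ∀ l ∈ T, p ∣ l - 1
  ζpow : ζ ^ p = 1
  ζne : ζ ≠ 1
  min : ∀ S : Finset ℕ, S0 ⊆ S → ∀ (M : ℕ) (_ : NeZero M) (g : CuspForm (Gamma0 M) 2),
    g.IsNewform → M ∣ N0 → CongTo j b S (fun ℓ ↦ ModularFormClass.qCoeff g ℓ) → ∀ l ∈ T, l ∣ M
  /-- if `p` divides `N0`, `p` divides the level of all congruent newforms -/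
  pmin : p ∣ N0 → ∀ S : Finset ℕ, S0 ⊆ S → ∀ (M : ℕ) (_ : NeZero M) (g : CuspForm (Gamma0 M) 2),
    g.IsNewform → M ∣ N0 → CongTo j b S (fun ℓ ↦ ModularFormClass.qCoeff g ℓ) → p ∣ M
  Sp : p ∈ Smin
  SS0 : Smin ⊆ S0
  ST : ∀ l ∈ Smin, l ∉ T
  SN : ∀ q : ℕ, q.Prime → q ∣ N0 → q ∈ Smin ∨ q ∈ T ∨ Harmless p ρbar q
  /-- the condition at `p` -/
  pcond : PCond p j ρbar PC (fun M ↦ (p ∣ M ↔ p ∣ N0))

section

variable {p : ℕ} {𝒪 : Type} [CommRing 𝒪] [IsDomain 𝒪] [IsDiscreteValuationRing 𝒪]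
    [IsAdicComplete (maximalIdeal 𝒪) 𝒪] [Finite (ResidueField 𝒪)] [CharZero 𝒪] {j : 𝒪 →+* ℂ}
    {ρbar : ResidualGaloisRep (ResidueField 𝒪)} {S0 : Finset ℕ} {b : ℕ → 𝒪} {N0 : ℕ}
    {Smin T : Finset ℕ} {ζ : 𝒪} {PC : TW.LCond} (B : BaseR p j ρbar S0 b N0 Smin T ζ PC)
    {r : ℕ} {qv : Fin r → ℕ} (W : TWP p ρbar S0 qv) {av : Fin r → ℕ} (G : GrpRing 𝒪 p av)

include B in
theorem BaseR.res_ζ : residue 𝒪 ζ = 1 := by
  have := B.prime
  have : Fact p.Prime := ⟨B.prime⟩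
  have h0 : (p : ResidueField 𝒪) = 0 := by
    rw [← map_natCast (residue 𝒪)]
    exact (residue_eq_zero_iff _).2 B.mem
  have : CharP (ResidueField 𝒪) p := (CharP.charP_iff_prime_eq_zero B.prime).2 h0
  have h1 : (residue 𝒪 ζ - 1) ^ p = 0 := by
    rw [sub_pow_char, one_pow, ← map_pow, B.ζpow, map_one, sub_self]
  exact sub_eq_zero.1 (pow_eq_zero_iff B.prime.ne_zero |>.1 h1)

include B in
theorem BaseR.isUnit_three_or {N : ℕ} (hN : N0 ∣ N) : Three G.Λ N := by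
  rcases B.three with h | ⟨r, h1, h2, h3⟩
  · left
    have h := isUnit_natCast_of_coprime (pΛ B.toCtx G) (m := 3)
      ((Nat.coprime_primes Nat.prime_three B.prime).2 h.symm)
    exact_mod_cast h
  · exact Or.inr ⟨r, h1, h2, h3.trans hN⟩

include B in
/-- the hypothesis for removing `l` from the level -/
theorem BaseR.three_lower {l : ℕ} (hl : l = p ∨ l ∈ T) : IsUnit (3 : G.Λ) ∨ l % 3 ≠ 2 := by
  rcases eq_or_ne p 3 with h | h
  · right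
    rcases hl with rfl | hl
    · rw [h]
      decide
    · have h1 := B.Tone l hl
      have h2 := (B.Tpr l hl).one_lt
      rw [h] at h1
      omega
  · left
    have h := isUnit_natCast_of_coprime (pΛ B.toCtx G) (m := 3)
      ((Nat.coprime_primes Nat.prime_three B.prime).2 h.symm)
    exact_mod_cast h

include B W

theorem BaseR.prod_coprime {q : ℕ} (hq : q ∈ Finset.univ.image qv) : ¬ q ∣ N0 := by
  obtain ⟨k, rfl⟩ := W.mem_iff.1 hq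
  exact fun h ↦ W.notin k (B.memS _ (W.prime k) h)

/-- the levels -/
theorem BaseR.lev {N : ℕ} (hN : N = N0 * ∏ q ∈ Finset.univ.image qv, q)
    (hav : ∀ k, p ^ av k ∣ qv k - 1) {z : ℕ → G.Λ} (hz : ∀ k, z (qv k) = G.d k)
    (hzT : ∀ l ∈ T, z l = 1 ∨ z l = algebraMap 𝒪 G.Λ ζ) :
    Lev G (S0 ∪ Finset.univ.image qv) N (T ∪ Finset.univ.image qv) z where
  sqf := by
    rw [hN, Nat.squarefree_mul]
    · refine ⟨B.sqf, Finset.squarefree_prod_of_pairwise_isCoprime ?_ ?_⟩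
      · intro a ha b hb hab
        exact Nat.coprime_iff_isRelPrime.1 ((Nat.coprime_primes (W.prime' (Finset.mem_coe.1 ha))
          (W.prime' (Finset.mem_coe.1 hb))).2 hab)
      · intro q hq
        exact (W.prime' hq).prime.squarefree
    · refine Nat.Coprime.prod_right fun q hq ↦ ?_
      exact ((Nat.Prime.coprime_iff_not_dvd (W.prime' hq)).2 (B.prod_coprime W hq)).symm
  mem q hq hqN := by
    rw [hN] at hqN
    rcases hq.dvd_mul.1 hqN with h | h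
    · exact Finset.mem_union_left _ (B.memS q hq h)
    · exact Finset.mem_union_right _ (W.dvd_prod hq h)
  three := B.isUnit_three_or G (hN ▸ dvd_mul_right N0 _)
  dvd q hq := by
    rw [hN]
    rcases Finset.mem_union.1 hq with h | h
    · exact (B.Tdvd q h).mul_right _
    · exact (Finset.dvd_prod_of_mem (fun q ↦ q) h).mul_left _
  prime q hq := by
    rcases Finset.mem_union.1 hq with h | h
    · exact B.Tpr q h
    · exact W.prime' h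
  one q hq := by
    rcases Finset.mem_union.1 hq with h | h
    · exact B.Tone q h
    · obtain ⟨k, rfl⟩ := W.mem_iff.1 h
      exact W.one k
  pow q hq := by
    rcases Finset.mem_union.1 hq with h | h
    · rcases hzT q h with h1 | h1
      · exact ⟨0, by simp, by rw [h1, one_pow]⟩
      · refine ⟨1, by rw [pow_one]; exact B.Tone q h, ?_⟩
        rw [h1, pow_one, ← map_pow, B.ζpow, map_one]
    · obtain ⟨k, rfl⟩ := W.mem_iff.1 h
      exact ⟨av k, hav k, by rw [hz, G.d_pow]⟩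
  res q hq := by
    rcases Finset.mem_union.1 hq with h | h
    · rcases hzT q h with h1 | h1
      · rw [h1, map_one]
      · rw [h1, ← ResidueField.map_residue, B.res_ζ, map_one]
    · obtain ⟨k, rfl⟩ := W.mem_iff.1 h
      rw [hz, G.d_res]

theorem BaseR.notMemT (k : Fin r) : qv k ∉ T := fun h ↦
  W.notin k (B.memS _ (W.prime k) (B.Tdvd _ h))

theorem BaseR.zQ_T {l : ℕ} (hl : l ∈ T) : zQ G qv l = 1 :=
  zQ_of_notMem G fun k hk ↦ B.notMemT W k (hk ▸ hl)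

omit B W in
/-- occurrence -/
theorem BaseR.exists_loc {N : ℕ} [NeZero N] (B : BaseR p j ρbar S0 b N0 Smin T ζ PC)
    (hN : N = N0 * ∏ q ∈ Finset.univ.image qv, q)
    {F : Finset ℕ} (L : Lev G (S0 ∪ Finset.univ.image qv) N F (zQ G qv))
    (χ₂ : DirichletCharacter G.Λ N) :
    ∃ E, IsLoc (chz N F (zQ G qv)) χ₂ ↑(S0 ∪ Finset.univ.image qv)
      (aL G (S0 ∪ Finset.univ.image qv) b) E ∧
      ∃ x ∈ MP (psi0 G j) (chz N F (zQ G qv)) ↑(S0 ∪ Finset.univ.image qv) E, x ≠ 0 := by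
  obtain ⟨M0, f, hM0, hf, hfb⟩ := B.form
  exact exists_loc_of G B.toCtx (hM0.trans (hN ▸ dvd_mul_right _ _)) L
    (fun q _ ↦ psi0_zQ G j q) hf
    (hfb.mono Finset.subset_union_left) χ₂

omit B W in
set_option maxHeartbeats 2000000 in
/-- **The automorphic output.** -/
theorem exists_autOutR (B : BaseR p j ρbar S0 b N0 Smin T ζ PC) (I : Inputs) (hSS : SpecSS)
    (hNew : SpecNew) (hLow : TWLow.SpecLowerStrong) {ϖ : 𝒪} (hϖ : Irreducible ϖ)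
    (W : TWP p ρbar S0 qv) :
    Nonempty (AutOutP p j ρbar PC ϖ Smin T qv (S0 ∪ Finset.univ.image qv)
      (2 ^ r * Module.finrank ℂ (H1 (kap (1 : DirichletCharacter ℂ N0)) ℂ))) := by
  classical
  have C : Ctx p j ρbar S0 b := B.toCtx
  have hLow' : SpecLower := TWLow.specLower
  -- the group ring
  let av : Fin r → ℕ := fun k ↦ padicValNat p (qv k - 1)
  have : Fact p.Prime := ⟨B.prime⟩
  have hav : ∀ k, p ^ av k ∣ qv k - 1 := fun k ↦ pow_padicValNat_dvd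
  have hav' : ∀ k, ¬ p ^ (av k + 1) ∣ qv k - 1 := fun k ↦
    pow_succ_padicValNat_not_dvd (Nat.sub_ne_zero_of_lt (W.prime k).one_lt)
  obtain ⟨G⟩ := nonempty_grpRing (𝒪 := 𝒪) B.prime B.mem av
  -- the levels
  obtain ⟨S, hS⟩ : ∃ S, S = S0 ∪ Finset.univ.image qv := ⟨_, rfl⟩
  obtain ⟨F, hF⟩ : ∃ F, F = T ∪ Finset.univ.image qv := ⟨_, rfl⟩
  obtain ⟨N, hN⟩ : ∃ N, N = N0 * ∏ q ∈ Finset.univ.image qv, q := ⟨_, rfl⟩
  have L₁ : Lev G S N F (zQ G qv) := by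
    rw [hS, hF]
    exact B.lev W G hN hav (fun k ↦ zQ_apply G W.inj k) (fun l hl ↦ Or.inl (B.zQ_T W G hl))
  have L₂ : Lev G S N F (zT G qv T ζ) := by
    rw [hS, hF]
    refine B.lev W G hN hav (fun k ↦ ?_) (fun l hl ↦ Or.inr (zT_mem G T ζ hl))
    rw [zT_notMem G T ζ (B.notMemT W k), zQ_apply G W.inj k]
  have : NeZero N := ⟨L₁.ne_zero⟩
  have hS0 : S0 ⊆ S := hS ▸ Finset.subset_union_left
  obtain ⟨E, hE, x₀, hx₀M, hx₀⟩ : ∃ E, IsLoc (chz N F (zQ G qv)) (chz N F (zT G qv T ζ)) ↑S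
      (aL G S b) E ∧ ∃ x ∈ MP (psi0 G j) (chz N F (zQ G qv)) ↑S E, x ≠ 0 := by
    have h := B.exists_loc G hN (hS ▸ L₁) (chz N F (zT G qv T ζ))
    rwa [← hS] at h
  have hfree₁ := L₁.free C hE (Or.inl rfl)
  have hfree₂ := L₂.free C hE (Or.inr rfl)
  have hfin₁ := finite_MM (χ := chz N F (zQ G qv)) hE
  have hfin₂ := finite_MM (χ := chz N F (zT G qv T ζ)) hE
  have D₁ : ∀ ψ : Pts G j, EigData G (chz N F (zQ G qv)) S E ψ.1 := fun ψ ↦
    (nonempty_eigData G (L₁.ss C hSS hE (Or.inl rfl))).some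
  have D₂ : ∀ ψ : Pts G j, EigData G (chz N F (zT G qv T ζ)) S E ψ.1 := fun ψ ↦
    (nonempty_eigData G (L₂.ss C hSS hE (Or.inr rfl))).some
  have hpt₁ := exists_autPt L₁ C I hS0 hNew hE (Or.inl rfl) D₁
  have hpt₂ := exists_autPt L₂ C I hS0 hNew hE (Or.inr rfl) D₂
  -- congruence of the characters
  let ϖ' : G.Λ := algebraMap 𝒪 G.Λ ϖ
  have hϖ' : ϖ' ∈ maximalIdeal G.Λ := map_nonunit _ _ (by
    rw [mem_maximalIdeal]
    exact hϖ.not_isUnit)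
  -- minimality
  have hz0 : ∀ q ∈ F, psi0 G j (zQ G qv q) = 1 := fun q _ ↦ psi0_zQ G j q
  have hQF : ∀ k, qv k ∈ F := fun k ↦ by
    rw [hF]
    exact Finset.mem_union_right _ (Finset.mem_image_of_mem _ (Finset.mem_univ k))
  have hTF : ∀ l ∈ T, l ∈ F := fun l hl ↦ by
    rw [hF]
    exact Finset.mem_union_left _ hl
  have hqp : ∀ k, qv k ≠ p := fun k h ↦ W.notin k (h ▸ B.pS)
  have hlp : ∀ l ∈ T, l ≠ p := fun l hl h ↦ B.pT (h ▸ hl)
  have hzz : ∀ q ∈ F, zT G qv T ζ q - zQ G qv q ∈ Ideal.span {ϖ'} := by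
    intro q hq
    by_cases hqT : q ∈ T
    · rw [zT_mem G T ζ hqT, B.zQ_T W G hqT, ← map_one (algebraMap 𝒪 G.Λ), ← map_sub,
        Ideal.mem_span_singleton]
      refine (algebraMap 𝒪 G.Λ).map_dvd ?_
      have h1 : ζ - 1 ∈ maximalIdeal 𝒪 := by
        rw [← residue_eq_zero_iff, map_sub, B.res_ζ, map_one, sub_self]
      rwa [hϖ.maximalIdeal_eq, Ideal.mem_span_singleton] at h1
    · rw [zT_notMem G T ζ hqT, sub_self]
      exact Ideal.zero_mem _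
  have h12 : ∀ u : ZMod N, chz N F (zT G qv T ζ) u - chz N F (zQ G qv) u ∈ Ideal.span {ϖ'} :=
    chz_sub_mem L₁.dvd L₁.prime L₁.pow' L₂.pow' hzz
  have hlow : ∀ {z : ℕ → G.Λ} (_ : Lev G S N F z) (_ : chz N F z ∈
      ({chz N F (zQ G qv), chz N F (zT G qv T ζ)} : Set (DirichletCharacter G.Λ N)))
      (_ : ∀ q ∈ F, z q - zQ G qv q ∈ Ideal.span {ϖ'})
      (D : ∀ ψ : Pts G j, EigData G (chz N F z) S E ψ.1) (ψ : Pts G j) (c : (D ψ).ι) (M : ℕ)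
      (_ : NeZero M) (g : CuspForm (Gamma0 M) 2), g.IsNewform →
      (∀ ℓ : ℕ, ℓ.Prime → ℓ ∉ S → ModularFormClass.qCoeff g ℓ = evF D ψ c ℓ) →
      ∀ l : ℕ, l.Prime → l ∣ N0 → (l = p ∨ l ∈ T) → z l = 1 →
      (∀ (M : ℕ) (_ : NeZero M) (g : CuspForm (Gamma0 M) 2), g.IsNewform → M ∣ N0 →
        CongTo j b S (fun ℓ ↦ ModularFormClass.qCoeff g ℓ) → l ∣ M) → l ∣ M := by
    intro z L hχ hzz D ψ c M _ g hg hgt l hl hlN0 hlT hzl hm
    by_contra hlM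
    obtain ⟨M', hM', g', hg', hd, hc, hex⟩ := exists_newform_lower₂ L L₁ hϖ' hzz C I hS0 hSS hNew
      hLow' hE hχ (psi0_comp G j) hz0 ((D ψ).eig c)
      (fun h ↦ (D ψ).b.ne_zero c (Subtype.ext h)) ((D ψ).b c).2 hl
      (B.three_lower G hlT) (hlN0.trans (hN ▸ dvd_mul_right N0 _)) hzl hg
      (fun ℓ h ↦ (hgt ℓ h.1 fun h' ↦ h.2 (Finset.mem_coe.2 h')).trans (evF_of D h ψ c)) hlM
    have h1 : M' ∣ N0 := by
      have h2 : M' ∣ N0 * ∏ q ∈ Finset.univ.image qv, q := by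
        rw [← hN]
        exact (dvd_mul_right M' l).trans hd
      refine Nat.Coprime.dvd_of_dvd_mul_right ?_ h2
      refine Nat.Coprime.prod_right fun q hq ↦ ?_
      obtain ⟨k, rfl⟩ := W.mem_iff.1 hq
      exact ((Nat.Prime.coprime_iff_not_dvd (W.prime k)).2
        (hex _ (W.prime k) (hqp k) (W.one k) (W.dist k))).symm
    have h3 := hm M' hM' g' hg' h1 hc
    exact Nat.squarefree_iff_prime_squarefree.1 L₁.sqf l hl
      ((Nat.mul_dvd_mul h3 dvd_rfl).trans hd)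
  have hmin : ∀ (ψ : Pts G j) (c : (D₁ ψ).ι) (M : ℕ) (_ : NeZero M)
      (g : CuspForm (Gamma0 M) 2), g.IsNewform →
      (∀ ℓ : ℕ, ℓ.Prime → ℓ ∉ S → ModularFormClass.qCoeff g ℓ = evF D₁ ψ c ℓ) →
      ∀ l ∈ T, l ∣ M := fun ψ c M hM g hg hgt l hl ↦
    hlow L₁ (Or.inl rfl) (fun q _ ↦ by rw [sub_self]; exact Ideal.zero_mem _) D₁ ψ c M hM g hg hgt
      l (B.Tpr l hl) (B.Tdvd l hl) (Or.inr hl) (B.zQ_T W G hl)
      fun M hM g hg h1 h2 ↦ B.min S hS0 M hM g hg h1 h2 l hl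
  -- conditions
  have hpN : p ∣ N → p ∣ N0 := fun h ↦ by
    rw [hN] at h
    rcases B.prime.dvd_mul.1 h with h | h
    · exact h
    · obtain ⟨k, hk⟩ := W.mem_iff.1 (W.dvd_prod B.prime h)
      exact absurd (hk ▸ B.pS) (W.notin k)
  have hzQp : zQ G qv p = 1 := zQ_of_notMem G hqp
  have hzTp : zT G qv T ζ p = 1 := by rw [zT_notMem G T ζ B.pT, hzQp]
  have hSF : ∀ q ∈ Smin, q ∉ F := by
    intro q hq hqF
    rw [hF] at hqF
    rcases Finset.mem_union.1 hqF with h | h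
    · exact B.ST q hq h
    · obtain ⟨k, rfl⟩ := W.mem_iff.1 h
      exact W.notin k (B.SS0 hq)
  have hNF : ∀ q : ℕ, q.Prime → q ∣ N → q ∉ Smin → q ∉ F → Harmless p ρbar q := by
    intro q hq hqN h1 h2
    rw [hN] at hqN
    rcases hq.dvd_mul.1 hqN with h | h
    · rcases B.SN q hq h with h | h | h
      · exact absurd h h1
      · exact absurd (hTF q h) h2
      · exact h
    · exact absurd (by rw [hF]; exact Finset.mem_union_right _ (W.dvd_prod hq h)) h2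
  -- the rank
  have hrank : Module.finrank G.Λ (MM G.Λ (chz N F (zT G qv T ζ)) ↑S E) =
      Module.finrank G.Λ (MM G.Λ (chz N F (zQ G qv)) ↑S E) := finrank_MM_eq hE hϖ' h12
  have hrank₁ := finrank_MM_eq_MP hE (χ := chz N F (zQ G qv)) (Or.inl rfl) (psi0 G j)
  have hpos : 0 < Module.finrank G.Λ (MM G.Λ (chz N F (zQ G qv)) ↑S E) := by
    rw [hrank₁]
    have : Module.Finite ℂ (H1 (kap ((chz N F (zQ G qv)).ringHomComp (psi0 G j)))
      (PtMod (psi0 G j))) := finite_H1C ((chz N F (zQ G qv)).ringHomComp (psi0 G j))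
    exact Module.finrank_pos_iff_exists_ne_zero.2
      ⟨⟨x₀, hx₀M⟩, fun h ↦ hx₀ (congrArg Subtype.val h)⟩
  have hle : Module.finrank G.Λ (MM G.Λ (chz N F (zQ G qv)) ↑S E) ≤
      2 ^ r * Module.finrank ℂ (H1 (kap (1 : DirichletCharacter ℂ N0)) ℂ) := by
    rw [hrank₁]
    have : NeZero N0 := ⟨B.sqf.ne_zero⟩
    have hJ := sysJ (ψ := psi0 G j) L₁ C I hS0 hSS hNew hE (Or.inl rfl) (psi0_comp G j) hz0
      (Q := Finset.univ.image qv) (fun q hq ↦ by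
        obtain ⟨k, rfl⟩ := W.mem_iff.1 hq
        exact ⟨W.prime k, hqp k, W.one k, W.dist k⟩)
    have h1 := rank_bound hSS hLow hJ (N₀ := N0) (fun q hq h ↦ hS0 (B.memS q hq h))
      (hS ▸ Finset.subset_union_right) (fun q hq ↦ W.prime' hq)
      (fun q hq ↦ B.prod_coprime W hq) (Finset.univ.image qv) (Finset.Subset.refl _) N hN
      ((chz N F (zQ G qv)).ringHomComp (psi0 G j)) (by
        rw [L₁.comp]
        exact chz_eq_one L₁.dvd L₁.prime hz0)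
      (MP (psi0 G j) (chz N F (zQ G qv)) ↑S E) (fun ℓ hℓ hℓS x hx ↦
        hk_mem_MP (ψ := psi0 G j) (χ := chz N F (zQ G qv)) (E := E)
          ⟨ℓ, hℓ, fun h ↦ hℓS (Finset.mem_coe.1 h)⟩ hx)
      (fun P hP x hx ↦ hP x hx)
    rwa [Finset.card_image_of_injective _ W.inj, Finset.card_univ, Fintype.card_fin] at h1
  choose M₁ hM₁ g₁ hg₁ hd₁ hsq₁ hgt₁ P₁ hP₁ using hpt₁
  choose M₂ hM₂ g₂ hg₂ hd₂ hsq₂ hgt₂ P₂ hP₂ using hpt₂
  have hmemS : ∀ {ℓ : ℕ}, ℓ.Prime → ℓ ∉ S → ℓ.Prime ∧ ℓ ∉ (↑S : Set ℕ) :=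
    fun h1 h2 ↦ ⟨h1, fun h ↦ h2 (Finset.mem_coe.1 h)⟩
  rw [← hS]
  refine ⟨{
    a := av
    a_dvd := hav
    a_max := hav'
    G := G
    U := autMod B.inj hE (Or.inr rfl) D₂
    V := autMod B.inj hE (Or.inl rfl) D₁
    rank_pos := ?_
    rank_le := ?_
    Z := MM (G.Λ ⧸ Ideal.span {ϖ'}) (chz N F (zQ G qv)) ↑S E
    addCommGroupZ := inferInstance
    moduleZ := Module.compHom _ (algebraMap 𝒪 G.Λ)
    TZ := fun ℓ ↦ (TZ (chz N F (zQ G qv)) ↑S E (G.Λ ⧸ Ideal.span {ϖ'}) ℓ).toAddMonoidHom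
    πU := ((cmpM h12 ↑S E).comp (redM (chz N F (zT G qv T ζ)) ↑S E _)).toAddMonoidHom
    πV := (redM (chz N F (zQ G qv)) ↑S E (Ideal.span {ϖ'})).toAddMonoidHom
    πU_surj := ?_
    πV_surj := ?_
    πU_smul := ?_
    πV_smul := ?_
    πU_zero := ?_
    πV_zero := ?_
    πU_T := ?_
    πV_T := ?_
    ptU := fun i ↦ P₂ i.1 i.2
    ptV := fun i ↦ P₁ i.1 i.2
    condU := ?_
    condV := ?_
    unrU := ?_
    ramU := ?_
    TU := ?_
    TV := ?_ }⟩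
  · exact hrank ▸ hpos
  · exact hrank.trans_le hle
  · exact (cmpM_surjective h12).comp (redM_surjective hE _)
  · exact redM_surjective hE _
  · intro c m
    exact map_smul ((cmpM h12 ↑S E).comp (redM (chz N F (zT G qv T ζ)) ↑S E _))
      (algebraMap 𝒪 G.Λ c) m
  · intro c m
    exact map_smul (redM (chz N F (zQ G qv)) ↑S E (Ideal.span {ϖ'})) (algebraMap 𝒪 G.Λ c) m
  · intro m
    constructor
    · intro h
      refine redM_eq_zero hE (Or.inr rfl) (cmpM_injective h12 (h.trans (map_zero _).symm))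
    · rintro ⟨m', rfl⟩
      exact (congrArg (cmpM h12 ↑S E) (redM_smul_self ϖ' m')).trans (map_zero _)
  · intro m
    constructor
    · intro h
      exact redM_eq_zero hE (Or.inl rfl) h
    · rintro ⟨m', rfl⟩
      exact redM_smul_self ϖ' m'
  · intro ℓ hℓ hℓS m
    exact (congrArg (cmpM h12 ↑S E) (redM_TM G _ (hmemS hℓ hℓS) m)).trans
      (cmpM_TZ h12 (hmemS hℓ hℓS) _)
  · intro ℓ hℓ hℓS m
    exact redM_TM G _ (hmemS hℓ hℓS) m
  · intro i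
    refine condType_congr hF (condType_of L₂ (P₂ i.1 i.2) (hP₂ i.1 i.2) (hd₂ i.1 i.2) B.Sp hSF
      hNF ?_)
    refine B.pcond S _ (P₂ i.1 i.2) (M₂ i.1 i.2) (hM₂ i.1 i.2) (g₂ i.1 i.2) (hg₂ i.1 i.2)
      (hS0 B.pS) (fun q hq hqM ↦ L₂.mem q hq (L₂.dvd_of (hd₂ i.1 i.2) hq hqM)) (hgt₂ i.1 i.2)
      (hP₂ i.1 i.2) (not_sq_dvd L₂.sqf (hd₂ i.1 i.2) B.prime fun h ↦
        ((dvd_cond_iff L₂.prime B.prime).1 h).2 (by rw [hzTp, map_one]))
      ⟨fun h ↦ hpN (L₂.dvd_of (hd₂ i.1 i.2) B.prime h), fun h ↦ ?_⟩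
    exact hlow L₂ (Or.inr rfl) hzz D₂ i.1 i.2 (M₂ i.1 i.2) (hM₂ i.1 i.2) (g₂ i.1 i.2)
      (hg₂ i.1 i.2) (hgt₂ i.1 i.2) p B.prime h (Or.inl rfl) hzTp
      fun M hM g hg h1 h2 ↦ B.pmin h S hS0 M hM g hg h1 h2
  · intro i
    refine condType_congr hF (condType_of L₁ (P₁ i.1 i.2) (hP₁ i.1 i.2) (hd₁ i.1 i.2) B.Sp hSF
      hNF ?_)
    refine B.pcond S _ (P₁ i.1 i.2) (M₁ i.1 i.2) (hM₁ i.1 i.2) (g₁ i.1 i.2) (hg₁ i.1 i.2)
      (hS0 B.pS) (fun q hq hqM ↦ L₁.mem q hq (L₁.dvd_of (hd₁ i.1 i.2) hq hqM)) (hgt₁ i.1 i.2)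
      (hP₁ i.1 i.2) (not_sq_dvd L₁.sqf (hd₁ i.1 i.2) B.prime fun h ↦
        ((dvd_cond_iff L₁.prime B.prime).1 h).2 (by rw [hzQp, map_one]))
      ⟨fun h ↦ hpN (L₁.dvd_of (hd₁ i.1 i.2) B.prime h), fun h ↦ ?_⟩
    exact hlow L₁ (Or.inl rfl) (fun q _ ↦ by rw [sub_self]; exact Ideal.zero_mem _) D₁ i.1 i.2
      (M₁ i.1 i.2) (hM₁ i.1 i.2) (g₁ i.1 i.2)
      (hg₁ i.1 i.2) (hgt₁ i.1 i.2) p B.prime h (Or.inl rfl) hzQp
      fun M hM g hg h1 h2 ↦ B.pmin h S hS0 M hM g hg h1 h2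
  · intro i k hk
    refine L₂.unr (P₂ i.1 i.2) (hP₂ i.1 i.2) (hd₂ i.1 i.2) B.mem (hQF k) (hqp k) ?_ (W.dist k)
    rw [zT_notMem G T ζ (B.notMemT W k), zQ_apply G W.inj k]
    exact hk
  · intro i k hk
    refine L₂.ram (hP₂ i.1 i.2) (hd₂ i.1 i.2) (hsq₂ i.1 i.2) (hQF k) (hqp k) ?_
    rw [zT_notMem G T ζ (B.notMemT W k), zQ_apply G W.inj k]
    exact hk
  · intro i l hl
    refine L₂.ram (hP₂ i.1 i.2) (hd₂ i.1 i.2) (hsq₂ i.1 i.2) (hTF l hl) (hlp l hl) ?_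
    rw [zT_mem G T ζ hl]
    intro h
    have h1 : j ζ = 1 := (RingHom.congr_fun i.1.2 ζ).symm.trans h
    exact B.ζne (B.inj (h1.trans (map_one j).symm))
  · intro i l hl
    refine ((hP₁ i.1 i.2).st l (B.Tpr l hl) (hlp l hl)
      (hmin i.1 i.2 (M₁ i.1 i.2) (hM₁ i.1 i.2) (g₁ i.1 i.2) (hg₁ i.1 i.2) (hgt₁ i.1 i.2) l hl)
      (not_sq_dvd L₁.sqf (hd₁ i.1 i.2) (B.Tpr l hl) fun h ↦ ?_)).2
    refine ((dvd_cond_iff L₁.prime (B.Tpr l hl)).1 h).2 ?_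
    rw [B.zQ_T W G hl, map_one]

end

end Fermat.Agent.Full
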