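import Fermat.Agent.LL.CBase
import Fermat.Agent.Full.Harmless

set_option autoImplicit false
set_option linter.unusedSectionVars false

/-!
# Base data for the production of `AutChain`, with harmless primes in the level
-/

open CongruenceSubgroup Fermat.Agent.Top IsLocalRing Fermat.Agent.TWMod Fermat.Agent.LL
open scoped MatrixGroups TensorProduct

namespace Fermat.Agent.Full

section

variable {𝒪 : Type} [CommRing 𝒪] [IsDomain 𝒪] [IsDiscreteValuationRing 𝒪]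
    [IsAdicComplete (maximalIdeal 𝒪) 𝒪] [Finite (ResidueField 𝒪)] [CharZero 𝒪]

/-- The base data for the production of `AutChain`: `N0` is the level at the start, the primes
`ql 0, …, ql (m - 1)` are added one after the other; `Pc i` is the condition at `p` at stage `i`;
`F` kills all newforms of level dividing `N0 * ∏ ql k`. The level `N0` may be divisible by harmless
primes which are not in `Smin`. -/
structure ChainBaseR (p : ℕ) (j : 𝒪 →+* ℂ) (ρbar : ResidualGaloisRep (ResidueField 𝒪))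
    (S0 : Finset ℕ) (b : ℕ → 𝒪) (N0 : ℕ) (Smin : Finset ℕ) {m : ℕ} (ql : Fin m → ℕ)
    (Pc : ℕ → TW.LCond) (F : MvPolynomial ℕ 𝒪) : Prop extends Ctx p j ρbar S0 b where
  ql_prime : ∀ k, (ql k).Prime
  sqf : Squarefree (N0 * ∏ k, ql k)
  three : p ≠ 3 ∨ ∃ r : ℕ, r.Prime ∧ r % 3 = 2 ∧ r ∣ N0
  memS : ∀ q : ℕ, q.Prime → q ∣ N0 * ∏ k, ql k → q ∈ S0
  /-- `ρbar` occurs at a level dividing `N0` -/
  form : ∃ (M0 : ℕ) (_ : NeZero M0) (f : CuspForm (Gamma0 M0) 2), M0 ∣ N0 ∧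
    f.IsNormalizedEigenform ∧ CongTo j b S0 (fun ℓ ↦ ModularFormClass.qCoeff f ℓ)
  Sp : p ∈ Smin
  SS0 : Smin ⊆ S0
  SN : ∀ q : ℕ, q.Prime → q ∣ N0 → q ∈ Smin ∨ Harmless p ρbar q
  /-- if `p` divides the level at the start, `p` divides the level of all congruent newforms -/
  pmin : p ∣ N0 → ∀ S : Finset ℕ, S0 ⊆ S → ∀ (M : ℕ) (_ : NeZero M) (g : CuspForm (Gamma0 M) 2),
    g.IsNewform → M ∣ N0 * ∏ k, ql k → CongTo j b S (fun ℓ ↦ ModularFormClass.qCoeff g ℓ) → p ∣ M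
  /-- the condition at `p` at stage `i` -/
  pcond : ∀ i ≤ m, PCond p j ρbar (Pc i)
    (fun M ↦ (p ∣ N0 → p ∣ M) ∧ (p ∣ M → p ∣ lvN N0 ql i))
  F_vars : ∀ ℓ ∈ F.vars, ℓ.Prime ∧ ℓ ∉ S0
  F_zero : ∀ (M : ℕ) (_ : NeZero M) (g : CuspForm (Gamma0 M) 2), g.IsNewform →
    M ∣ N0 * ∏ k, ql k → MvPolynomial.eval₂ j (fun ℓ ↦ ModularFormClass.qCoeff g ℓ) F = 0

end

end Fermat.Agent.Full
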