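import Fermat.Agent.LL.ChainLev
import Fermat.Agent.Full.ChainBaseR

set_option autoImplicit false
set_option linter.unusedSectionVars false

/-!
# The levels of the chain, with harmless primes in the level
-/

open CongruenceSubgroup Fermat.Agent.Top IsLocalRing Fermat.Agent.TWMod Fermat.Agent.LL
open scoped MatrixGroups TensorProduct

namespace Fermat.Agent.Full

section

variable {p : ℕ} {𝒪 : Type} [CommRing 𝒪] [IsDomain 𝒪] [IsDiscreteValuationRing 𝒪]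
    [IsAdicComplete (maximalIdeal 𝒪) 𝒪] [Finite (ResidueField 𝒪)] [CharZero 𝒪]
    {r : ℕ} {av : Fin r → ℕ}
    {G : GrpRing 𝒪 p av} {S : Finset ℕ} {N : ℕ} {F : Finset ℕ} {z : ℕ → G.Λ} {ψ : G.Λ →+* ℂ}
    {R : Type} [CommRing R] [IsLocalRing R] [Algebra 𝒪 R] {ρ : GaloisRepAdic R} {M : ℕ}

/-- deformation conditions at a point -/
theorem condTypeR (L : Lev G S N F z) (hP : NFProps p M ρ)
    (hM : M ∣ N * cond F (fun q ↦ ψ (z q))) {Smin F' : Finset ℕ} (hpS : p ∈ Smin)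
    (hSF : ∀ q ∈ Smin, q ∉ F)
    (hN : ∀ q : ℕ, q.Prime → q ≠ p → q ∣ M → q ∈ Smin ∨ q ∈ F')
    {Pc : TW.LCond} (hPc : Pc ρ) :
    TW.CondType 𝒪 p Smin Pc F' ρ := by
  refine ⟨⟨hP.det, hPc, fun q hq hqS ↦ ?_⟩,
    fun q hqS hq hqp ↦ ?_⟩
  · rw [Finset.mem_union, not_or] at hqS
    have hqp : q ≠ p := fun h ↦ hqS.1 (h ▸ hpS)
    refine hP.unr q hq hqp fun h ↦ ?_
    rcases hN q hq hqp h with h | h
    · exact hqS.1 h
    · exact hqS.2 h
  · by_cases hqM : q ∣ M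
    · refine (hP.st q hq hqp hqM (not_sq_dvd L.sqf hM hq fun h ↦ ?_)).1
      exact hSF q hqS ((dvd_cond_iff L.prime hq).1 h).1
    · exact unip_of_unr (hP.unr q hq hqp hqM)

end

section Base

variable {p : ℕ} {𝒪 : Type} [CommRing 𝒪] [IsDomain 𝒪] [IsDiscreteValuationRing 𝒪]
    [IsAdicComplete (maximalIdeal 𝒪) 𝒪] [Finite (ResidueField 𝒪)] [CharZero 𝒪] {j : 𝒪 →+* ℂ}
    {ρbar : ResidualGaloisRep (ResidueField 𝒪)} {S0 : Finset ℕ} {b : ℕ → 𝒪} {N0 : ℕ}
    {Smin : Finset ℕ} {m : ℕ} {ql : Fin m → ℕ} {Pc : ℕ → TW.LCond} {F : MvPolynomial ℕ 𝒪}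
    (B : ChainBaseR p j ρbar S0 b N0 Smin ql Pc F)
    {r : ℕ} {qv : Fin r → ℕ} (W : TWP p ρbar S0 qv) {av : Fin r → ℕ} (G : GrpRing 𝒪 p av)

include B in
theorem ChainBaseR.three' : IsUnit (3 : G.Λ) ∨ p = 3 := by
  by_cases h : p = 3
  · exact Or.inr h
  · left
    have h1 := isUnit_natCast_of_coprime (pΛ B.toCtx G) (m := 3)
      ((Nat.coprime_primes Nat.prime_three B.prime).2 (Ne.symm h))
    exact_mod_cast h1

include B in
theorem ChainBaseR.threeN {n : ℕ} (h : N0 ∣ n) : Three G.Λ n := by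
  rcases B.three' G with h3 | h3
  · exact Or.inl h3
  · rcases B.three with h' | ⟨r, h1, h2, h4⟩
    · exact absurd h3 h'
    · exact Or.inr ⟨r, h1, h2, h4.trans h⟩

include B W

theorem ChainBaseR.qv_notMem {k : Fin r} : ¬ qv k ∣ N0 * ∏ k, ql k := fun h ↦
  W.notin k (B.memS _ (W.prime k) h)

theorem ChainBaseR.coprime (i : ℕ) :
    Nat.Coprime (lvN N0 ql i) (∏ q ∈ Finset.univ.image qv, q) := by
  refine Nat.Coprime.prod_right fun q hq ↦ ?_
  obtain ⟨k, rfl⟩ := W.mem_iff.1 hq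
  exact ((Nat.Prime.coprime_iff_not_dvd (W.prime k)).2 fun h ↦
    B.qv_notMem W (h.trans (lvN_dvd i))).symm

theorem ChainBaseR.sqf_nQ (i : ℕ) : Squarefree (nQ N0 ql qv i) := by
  rw [nQ, Nat.squarefree_mul (B.coprime W i)]
  refine ⟨B.sqf.squarefree_of_dvd (lvN_dvd i), Finset.squarefree_prod_of_pairwise_isCoprime ?_ ?_⟩
  · intro a ha b hb hab
    exact Nat.coprime_iff_isRelPrime.1 ((Nat.coprime_primes (W.prime' (Finset.mem_coe.1 ha))
      (W.prime' (Finset.mem_coe.1 hb))).2 hab)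
  · intro q hq
    exact (W.prime' hq).prime.squarefree

theorem ChainBaseR.neZero (i : ℕ) : NeZero (nQ N0 ql qv i) := ⟨(B.sqf_nQ W i).ne_zero⟩

theorem ChainBaseR.lev (hav : ∀ k, p ^ av k ∣ qv k - 1) (i : ℕ) :
    Lev G (sS S0 qv ql i) (nQ N0 ql qv i) (Finset.univ.image qv) (zQ G qv) where
  sqf := B.sqf_nQ W i
  mem q hq hqN := by
    rw [mem_sS, Finset.mem_union]
    rcases hq.dvd_mul.1 hqN with h | h
    · refine ⟨Or.inl (B.memS q hq (h.trans (lvN_dvd i))), ?_⟩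
      rintro k hk rfl
      exact not_dvd_lvN B.sqf B.ql_prime hk h
    · refine ⟨Or.inr (W.dvd_prod hq h), ?_⟩
      rintro k hk rfl
      obtain ⟨k', hk'⟩ := W.mem_iff.1 (W.dvd_prod hq h)
      refine W.notin k' (hk' ▸ B.memS _ hq ?_)
      exact (Finset.dvd_prod_of_mem ql (Finset.mem_univ k)).mul_left _
  three := B.threeN G (dvd_lvN_zero.mul_right _)
  dvd q hq := (Finset.dvd_prod_of_mem (fun q ↦ q) hq).mul_left _
  prime q hq := W.prime' hq
  one q hq := by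
    obtain ⟨k, rfl⟩ := W.mem_iff.1 hq
    exact W.one k
  pow q hq := by
    obtain ⟨k, rfl⟩ := W.mem_iff.1 hq
    exact ⟨av k, hav k, by rw [zQ_apply G W.inj, G.d_pow]⟩
  res q hq := by
    obtain ⟨k, rfl⟩ := W.mem_iff.1 hq
    rw [zQ_apply G W.inj, G.d_res]

theorem ChainBaseR.S0_top : S0 ⊆ sS S0 qv ql m := by
  rw [sS_top le_rfl]
  exact Finset.subset_union_left

theorem ChainBaseR.step (i : Fin m) : nQ N0 ql qv (i + 1) = ql i * nQ N0 ql qv i := by
  rw [nQ, nQ, lvN_succ]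
  ring

/-- the levels and the common projector -/
theorem ChainBaseR.exists_clev (hav : ∀ k, p ^ av k ∣ qv k - 1) :
    haveI := B.neZero W
    ∃ E : MvPolynomial (Pr (↑(sS S0 qv ql m) : Set ℕ)) G.Λ,
      CLev G b ql (sS S0 qv ql) (nQ N0 ql qv) (Finset.univ.image qv) (zQ G qv) E := by
  have hne := B.neZero W
  have hlev := B.lev W G hav
  have hS0 := B.S0_top W
  obtain ⟨M0, _, f, hM0, hf, hc⟩ := B.form
  have hocc : ∀ i, (∀ P, ev (chz (nQ N0 ql qv i) (Finset.univ.image qv) (zQ G qv))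
      ↑(sS S0 qv ql m) G.Λ P = 0 → resE ↑(sS S0 qv ql m) (aL G (sS S0 qv ql m) b) P = 0) := by
    intro i
    exact (exists_eig_lev B.toCtx ((hlev i).mono (sS_le_top i)) hS0 (fun q _ ↦ psi0_zQ G j q)
      (N0 := M0) (hM0.trans (dvd_lvN_zero.mul_right _)) hf hc).1
  have h2 := isUnit_two B.prime B.ne2 (pΛ B.toCtx G)
  obtain ⟨E, hE⟩ := Deg.exists_isProjF (ι := Fin (m + 1)) (fun i ↦ nQ N0 ql qv i)
    (fun i ↦ chz (nQ N0 ql qv i) (Finset.univ.image qv) (zQ G qv)) ↑(sS S0 qv ql m)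
    (aL G (sS S0 qv ql m) b) (fun i ↦ isGood_kap _ h2 (hlev i).three)
    (fun P hP ↦ hocc 0 P (hP 0))
  refine ⟨E, hlev, sS_mono, sS_le_top, B.ql_prime, fun i h ↦ ?_, fun i h ↦ ?_, B.step W,
    fun i ↦ ?_⟩
  · have h1 := mul_dvd_mul (dvd_refl (ql i)) h
    rw [← B.step W] at h1
    exact Nat.squarefree_iff_prime_squarefree.1 (B.sqf_nQ W _) _ (B.ql_prime i) h1
  · exact (mem_sS.1 h).2 i le_rfl rfl
  · have key : ∀ i' : ℕ, i' ≤ m → IsLoc (chz (nQ N0 ql qv i') (Finset.univ.image qv) (zQ G qv))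
        (chz (nQ N0 ql qv i') (Finset.univ.image qv) (zQ G qv)) ↑(sS S0 qv ql m)
        (aL G (sS S0 qv ql m) b) E := by
      intro i' hi'
      exact ⟨hE.isProj ⟨i', Nat.lt_succ_of_le hi'⟩, h2, (hlev i').three,
        fun P hP _ ↦ hocc i' P hP⟩
    by_cases hi : i ≤ m
    · exact key i hi
    · have h3 : nQ N0 ql qv i = nQ N0 ql qv m := by
        rw [nQ, nQ, lvN_top (not_le.1 hi).le, lvN_top le_rfl]
      have h4 : ∀ (n n' : ℕ) [NeZero n] [NeZero n'], n = n' →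
          IsLoc (chz n' (Finset.univ.image qv) (zQ G qv))
            (chz n' (Finset.univ.image qv) (zQ G qv)) ↑(sS S0 qv ql m)
            (aL G (sS S0 qv ql m) b) E →
          IsLoc (chz n (Finset.univ.image qv) (zQ G qv))
            (chz n (Finset.univ.image qv) (zQ G qv)) ↑(sS S0 qv ql m)
            (aL G (sS S0 qv ql m) b) E := by
        intro n n' _ _ h
        subst h
        exact id
      exact h4 _ _ h3 (key m le_rfl)

end Base

end Fermat.Agent.Full
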