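import Fermat.Agent.Full.LiftSetup
import Fermat.Agent.Full.ChainBuildR
import Fermat.Agent.LL.S59PeuB

set_option autoImplicit false

/-!
# The raising steps of the modularity lifting theorem without conditions at `2`
-/

open CongruenceSubgroup IsLocalRing Polynomial ModularFormClass

namespace Fermat.Agent.Full

open Fermat.Agent.LL Fermat.Agent.TWMod

local notation "Γℚ" => (AlgebraicClosure ℚ ≃ₐ[ℚ] AlgebraicClosure ℚ)

section

variable {p : ℕ} [hpp : Fact p.Prime] {W : WeierstrassCurve ℤ} {hΔ : W.Δ ≠ 0} {N0 r : ℕ}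
    {𝒪 : Type} [CommRing 𝒪] [IsDomain 𝒪] [IsDiscreteValuationRing 𝒪]
    [IsAdicComplete (maximalIdeal 𝒪) 𝒪] [Finite (ResidueField 𝒪)] [CharZero 𝒪]
    [Algebra (ZMod p) (ResidueField 𝒪)] {j : 𝒪 →+* ℂ} {S0 Smin : Finset ℕ} {m : ℕ}
    {ql : Fin m → ℕ} {F : MvPolynomial ℕ 𝒪}

section

variable (h : SetupL p W hΔ N0 r j S0 Smin ql F)

include h

theorem SetupL.ql_dvd (k : Fin m) : (ql k : ℤ) ∣ W.Δ := by
  rw [← Wire.dvd_cond hΔ (h.ql_prime k), ← h.lev]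
  exact (Finset.dvd_prod_of_mem ql (Finset.mem_univ k)).mul_left _

theorem SetupL.bad_mem {q : ℕ} (hq : q.Prime) (hqΔ : (q : ℤ) ∣ W.Δ) :
    q ∈ Smin ∪ Finset.univ.image ql := by
  rw [← Wire.dvd_cond hΔ hq, ← h.lev] at hqΔ
  rw [Finset.mem_union]
  rcases hq.dvd_mul.1 hqΔ with h' | h'
  · left
    by_cases hqp : q = p
    · exact hqp ▸ h.Smin_p
    · exact (h.dvd_iff q hq hqp).1 h'
  · right
    obtain ⟨k, -, hk⟩ := (Prime.dvd_finsetProd_iff hq.prime _).1 h'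
    rw [(Nat.prime_dvd_prime_iff_eq hq (h.ql_prime k)).1 hk]
    exact Finset.mem_image_of_mem _ (Finset.mem_univ k)

theorem SetupL.dvd_of_dvd_mul (hp : p ∣ N0 * r) : p ∣ N0 := by
  refine (hpp.out.dvd_mul.1 hp).resolve_right fun h' ↦ h.aux.ne ?_
  exact ((Nat.prime_dvd_prime_iff_eq hpp.out h.aux.prime).1 h').symm

theorem SetupL.dvd_of_lvN {i : ℕ} (hp : p ∣ lvN (N0 * r) ql i) : p ∣ N0 * ∏ k, ql k := by
  rcases dvd_lvN_iff h.ql_prime hpp.out hp with h' | ⟨k, -, h'⟩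
  · exact (h.dvd_of_dvd_mul h').mul_right _
  · exact h' ▸ (Finset.dvd_prod_of_mem ql (Finset.mem_univ k)).mul_left _

end

/-- **The raising steps when the condition at `p` is constant.** -/
theorem SetupL.false_const (hIT : IndexTwoStmt) (H : HypL p W)
    (h : SetupL p W H.Δ_ne N0 r j S0 Smin ql F)
    (I : Inputs) (hSS : SpecSS) (hNew : SpecNew) (hLow : TWLow.SpecLowerStrong)
    (hqlp : ∀ k, ql k ≠ p) {P : TW.LCond} (hP : GlueStable p P)
    (hGenW : ∀ (Tsc Tns : Finset ℕ) (_ : TW.GenWHyp p (rhoBar59 p W H.Δ_ne 𝒪) Smin Tsc Tns)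
      (L : ∀ l : ℕ, l ∈ Tsc ∪ Tns → LocGen l p),
      TW.GenWConcl p (rhoBar59 p W H.Δ_ne 𝒪) Smin Tsc Tns L 0 0 P (fun _ => True))
    (hPW : ∀ ρW : GaloisRepAdic 𝒪, ECRep.CurvePt p W H.Δ_ne ρW → P ρW)
    (hPC : ∀ i ≤ m, PCond p j (rhoBar59 p W H.Δ_ne 𝒪) P
      (fun M ↦ (p ∣ N0 * r → p ∣ M) ∧ (p ∣ M → p ∣ lvN (N0 * r) ql i))) : False := by
  obtain ⟨habs, -, hdet, hsplit, hind, -⟩ := curveResL (k := ResidueField 𝒪) hIT H h.split
  obtain ⟨ρW, hρ⟩ := ECRep.exists_curvePt p W H.Δ_ne 𝒪 h.mem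
  have B := h.base (fun _ => P) hPC
  choose D hD using fun s => exists_autChainR B I hSS hNew hLow s
  refine raise_const H.ne2 h.mem h.inj habs hdet hsplit hind h.Smin_p h.Smin_iff h.ql_inj
    (fun k => ⟨h.ql_prime k, h.ql_notMem k (hqlp k)⟩) hP hGenW (ρW := ρW)
    (tW := fun ℓ => ((W.apOfModel ℓ : ℤ) : 𝒪)) (S₁ := S0) (hρ.frobChar h.S0_p h.S0_bad) hρ.res'
    (hρ.condType H.ss (hPW ρW hρ) (fun q hq hqΔ => h.bad_mem hq hqΔ)
      (Finset.mem_union_left _ h.Smin_p)) (fun k => ?_) h.F_W (S0 ∪ F.vars) D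
    fun s qv hinj hqv hdist => ?_
  · have hc := H.ss _ (h.ql_prime k) (h.ql_dvd k)
    exact ⟨hρ.unip _ (h.ql_prime k) (hqlp k) (h.ql_dvd k) hc,
      hρ.frobSt _ (h.ql_prime k) (hqlp k) (h.ql_dvd k) hc⟩
  · have W' : TWP p (rhoBar59 p W H.Δ_ne 𝒪) S0 qv :=
      { inj := hinj
        prime := fun k => (hqv k).1
        notin := fun k hk => (hqv k).2.1 (Finset.mem_union_left _ hk)
        one := fun k => (hqv k).2.2
        dist := hdist }
    obtain ⟨C, hCS, -⟩ := hD s qv W' fun ℓ hℓ k hk =>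
      (hqv k).2.1 (Finset.mem_union_right _ (hk ▸ hℓ))
    refine ⟨C, fun q hq => Finset.mem_insert_of_mem ?_⟩
    rw [hCS, sS_top le_rfl]
    exact Finset.mem_union_left _ hq

end

/-- **The flat case.** -/
theorem caseFlatL (hIT : IndexTwoStmt) (I : Inputs) (hSS : SpecSS) (hNew : SpecNew)
    (hLow : TWLow.SpecLowerStrong) : CaseFlatL := by
  intro p hpp W H N0 r 𝒪 _ _ _ _ _ _ _ j S0 Smin m ql F h hpW
  have hpN : ¬ p ∣ N0 * ∏ k, ql k := by
    rw [h.lev, Wire.dvd_cond H.Δ_ne hpp.out]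
    exact hpW
  exact h.false_const hIT H I hSS hNew hLow (fun k hk => hpW (hk ▸ h.ql_dvd k))
    (glueStable_flat p) (fun _ _ HG L => TW.genW_flat HG L)
    (fun ρW hρ => hρ.flat H.ne2 hpW) fun i _ =>
    pcond_flat fun M hM hpM => hpN (h.dvd_of_lvN (hM.2 hpM))

/-- **The strict case.** -/
theorem caseStrictL (hIT : IndexTwoStmt) (I : Inputs) (hSS : SpecSS) (hNew : SpecNew)
    (hLow : TWLow.SpecLowerStrong) (hO : NFOrdStmt) : CaseStrictL := by
  intro p hpp W H N0 r 𝒪 _ _ _ _ _ _ _ j S0 Smin m ql F h hpN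
  have hpΔ : (p : ℤ) ∣ W.Δ := by
    rw [← Wire.dvd_cond H.Δ_ne hpp.out, ← h.lev]
    exact hpN.mul_right _
  have hql : ∀ k, ql k ≠ p := by
    intro k hk
    have h1 : p * p ∣ N0 * ∏ k, ql k :=
      Nat.mul_dvd_mul hpN (hk ▸ Finset.dvd_prod_of_mem ql (Finset.mem_univ k))
    rw [h.lev] at h1
    exact Nat.squarefree_iff_prime_squarefree.1 (Wire.squarefree_cond W) p hpp.out h1
  obtain ⟨habs, -⟩ := curveResL (k := ResidueField 𝒪) hIT H h.split
  exact h.false_const hIT H I hSS hNew hLow hql (glueStable_strict H.ne2)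
    (fun _ _ HG L => TW.genW_ord HG L)
    (fun ρW hρ => hρ.strict hpΔ (H.ss p hpp.out hpΔ)) fun i _ =>
    pcond_strict hO hpp.out H.ne2 h.mem habs fun M hM => hM.1 (hpN.mul_right _)

/-- **The peu ramifie case.** -/
theorem casePeuL (hIT : IndexTwoStmt) (I : Inputs) (hSS : SpecSS) (hNew : SpecNew)
    (hLow : TWLow.SpecLowerStrong) (hO : NFOrdStmt) : CasePeuL := by
  intro p hpp W H N0 r 𝒪 _ _ _ _ _ _ _ j S0 Smin m ql F St hp
  obtain ⟨hpN, hpW⟩ := hp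
  obtain ⟨habs, -, hcyc, hspl, hind, -⟩ := curveResL (k := ResidueField 𝒪) hIT H St.split
  obtain ⟨ρW, hρW⟩ := ECRep.exists_curvePt p W H.Δ_ne 𝒪 St.mem
  have B := St.base (fun _ _ _ _ _ ↦ True) fun i _ S t P M _ g _ _ _ _ _ _ _ ↦ trivial
  choose D hD using fun s => exists_autChainR B I hSS hNew hLow s
  obtain ⟨k0, hk0⟩ : ∃ k0, ql k0 = p := by
    have h1 : p ∣ N0 * ∏ k, ql k := by
      rw [St.lev]
      exact (Wire.dvd_cond H.Δ_ne hpp.out).2 hpW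
    obtain ⟨k, -, hk⟩ :=
      (hpp.out.prime.dvd_finsetProd_iff _).1 ((hpp.out.dvd_mul.1 h1).resolve_left hpN)
    rw [Nat.prime_dvd_prime_iff_eq hpp.out (St.ql_prime k)] at hk
    exact ⟨k, hk.symm⟩
  refine raise_peu H.ne2 St.mem St.inj habs hcyc hspl hind St.Smin_p St.Smin_iff St.ql_inj
    St.ql_prime St.ql_notMem hk0 (P := fun _ _ _ _ _ ↦ True)
    (hρW.frobChar St.S0_p St.S0_bad) hρW.res'
    (hρW.condType H.ss (P := fun _ _ _ _ ↦ True) trivial (fun q hq hqΔ => St.bad_mem hq hqΔ)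
      (Finset.mem_union_left _ St.Smin_p)) (hρW.strict hpW (H.ss p hpp.out hpW)) ?_ St.F_W
    (S0 ∪ F.vars) D ?_
  · intro k hk
    exact ⟨hρW.unip _ (St.ql_prime k) hk (St.ql_dvd k) (H.ss _ (St.ql_prime k) (St.ql_dvd k)),
      hρW.frobSt _ (St.ql_prime k) hk (St.ql_dvd k) (H.ss _ (St.ql_prime k) (St.ql_dvd k))⟩
  · intro s qv h1 h2 h3
    have hTW : TWP p (rhoBar59 p W H.Δ_ne 𝒪) S0 qv :=
      { inj := h1
        prime := fun k ↦ (h2 k).1
        notin := fun k h ↦ (h2 k).2.1 (Finset.mem_union_left _ h)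
        one := fun k ↦ (h2 k).2.2
        dist := h3 }
    obtain ⟨C, hC, hCF⟩ := hD s qv hTW (fun ℓ hℓ k hk ↦ (h2 k).2.1
      (Finset.mem_union_right _ (hk ▸ hℓ)))
    refine ⟨C, fun q hq => Finset.mem_insert_of_mem ?_,
      ChainForms.peuEx H.ne2 hCF hO St.mem habs hk0 St.ql_inj St.ql_prime
        (fun h => hpN (St.dvd_of_dvd_mul h)) hC⟩
    rw [hC, sS_top le_rfl]
    exact Finset.mem_union_left _ hq

end Fermat.Agent.Full
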