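import Fermat.Agent.Full.LiftDef
import Fermat.Agent.Wire.StartStmt

set_option autoImplicit false

/-!
# A Hecke polynomial killing all newforms of level dividing `N`, but not a given integral system
-/

open IsLocalRing Polynomial WeierstrassCurve ModularFormClass

namespace Fermat.Agent.Full

open Fermat.Agent.Wire Fermat.Agent.LL

/-- an integral polynomial killing one newform but not `c` -/
theorem exists_poly_oneR {c : ℕ → ℤ} (S : Finset ℕ) {M : ℕ} [NeZero M]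
    {g : CuspForm (CongruenceSubgroup.Gamma0 M) 2} (hg : g.IsNewform)
    (hne : ∃ ℓ : ℕ, ℓ.Prime ∧ ℓ ∉ S ∧ qCoeff g ℓ ≠ (c ℓ : ℂ)) :
    ∃ F : MvPolynomial ℕ ℤ, (∀ ℓ ∈ F.vars, ℓ.Prime ∧ ℓ ∉ S) ∧
      MvPolynomial.aeval (fun ℓ => qCoeff g ℓ) F = 0 ∧
      MvPolynomial.aeval c F ≠ 0 := by
  classical
  obtain ⟨ℓ, hℓ, hℓS, hne⟩ := hne
  obtain ⟨F₀, hF₀⟩ := TwoAdic.exists_coeff_gen hg.isNormalizedEigenform
  obtain ⟨a, -, ha⟩ := hF₀ ℓ hℓ
  have hint : IsIntegral ℤ (qCoeff g ℓ) := by rw [← ha]; exact a.2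
  refine ⟨Polynomial.aeval (MvPolynomial.X ℓ) (minpoly ℤ (qCoeff g ℓ)), ?_, ?_, ?_⟩
  · intro l hl
    have h1 : (Polynomial.aeval (MvPolynomial.X ℓ : MvPolynomial ℕ ℤ)
        (minpoly ℤ (qCoeff g ℓ))).vars ⊆ {ℓ} := by
      rw [Polynomial.aeval_eq_sum_range]
      refine (MvPolynomial.vars_sum_subset _ _).trans ?_
      rw [Finset.biUnion_subset]
      intro i _
      rw [Algebra.smul_def, MvPolynomial.algebraMap_eq]
      refine (MvPolynomial.vars_mul _ _).trans ?_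
      rw [MvPolynomial.vars_C, Finset.empty_union]
      refine (MvPolynomial.vars_pow _ _).trans ?_
      rw [MvPolynomial.vars_X]
    rw [Finset.mem_singleton.mp (h1 hl)]
    exact ⟨hℓ, hℓS⟩
  · rw [← Polynomial.aeval_algHom_apply, MvPolynomial.aeval_X, minpoly.aeval]
  · rw [← Polynomial.aeval_algHom_apply, MvPolynomial.aeval_X]
    intro h0
    have hroot : (minpoly ℤ (qCoeff g ℓ)).IsRoot (c ℓ) := by
      rwa [Polynomial.coe_aeval_eq_eval] at h0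
    obtain ⟨Q, hQ⟩ := Polynomial.dvd_iff_isRoot.mpr hroot
    have hirr := minpoly.prime_of_isIntegrallyClosed hint
    have hXm : (X - C (c ℓ) : ℤ[X]).Monic := monic_X_sub_C _
    have h1 : minpoly ℤ (qCoeff g ℓ) = X - C (c ℓ) := by
      rcases hirr.irreducible.isUnit_or_isUnit hQ with h | h
      · exact absurd h (by
          intro hu
          have := Polynomial.natDegree_eq_zero_of_isUnit hu
          rw [natDegree_X_sub_C] at this
          omega)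
      · obtain ⟨e, he, he'⟩ := Polynomial.isUnit_iff.mp h
        have h2 := congrArg Polynomial.leadingCoeff hQ
        rw [(minpoly.monic hint).leadingCoeff, Polynomial.leadingCoeff_mul, hXm.leadingCoeff,
          one_mul, ← he', leadingCoeff_C] at h2
        rw [hQ, ← he', ← h2, C_1, mul_one]
    have h3 := minpoly.aeval ℤ (qCoeff g ℓ)
    rw [h1, map_sub, aeval_X, aeval_C, sub_eq_zero] at h3
    exact hne h3

/-- **the polynomial `F`** -/
theorem exists_FR {c : ℕ → ℤ} (S : Finset ℕ) {N : ℕ} (hN : N ≠ 0)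
    (hne : ∀ (M : ℕ) (_ : NeZero M) (g : CuspForm (CongruenceSubgroup.Gamma0 M) 2), g.IsNewform →
      M ∣ N → ∃ ℓ : ℕ, ℓ.Prime ∧ ℓ ∉ S ∧ qCoeff g ℓ ≠ (c ℓ : ℂ)) :
    ∃ F : MvPolynomial ℕ ℤ, (∀ ℓ ∈ F.vars, ℓ.Prime ∧ ℓ ∉ S) ∧
      (∀ (M : ℕ) (_ : NeZero M) (g : CuspForm (CongruenceSubgroup.Gamma0 M) 2), g.IsNewform →
        M ∣ N → MvPolynomial.aeval (fun ℓ => qCoeff g ℓ) F = 0) ∧
      MvPolynomial.aeval c F ≠ 0 := by
  classical
  -- one level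
  have hlev : ∀ M : ℕ, ∃ F : MvPolynomial ℕ ℤ, (∀ ℓ ∈ F.vars, ℓ.Prime ∧ ℓ ∉ S) ∧
      (∀ (_ : NeZero M) (g : CuspForm (CongruenceSubgroup.Gamma0 M) 2), g.IsNewform →
        M ∣ N → MvPolynomial.aeval (fun ℓ => qCoeff g ℓ) F = 0) ∧
      MvPolynomial.aeval c F ≠ 0 := by
    intro M
    by_cases hM : M ∣ N
    · have hM0 : M ≠ 0 := fun h => hN (Nat.eq_zero_of_zero_dvd (h ▸ hM))
      have : NeZero M := ⟨hM0⟩
      have hex : ∀ g ∈ (finite_newforms M).toFinset, ∃ F : MvPolynomial ℕ ℤ,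
          (∀ ℓ ∈ F.vars, ℓ.Prime ∧ ℓ ∉ S) ∧
          MvPolynomial.aeval (fun ℓ => qCoeff g ℓ) F = 0 ∧
          MvPolynomial.aeval c F ≠ 0 := fun g hg =>
        have hg' : g.IsNewform := (Set.Finite.mem_toFinset (finite_newforms M)).mp hg
        exists_poly_oneR S hg' (hne M this g hg' hM)
      choose! F hF1 hF2 hF3 using hex
      refine ⟨∏ g ∈ (finite_newforms M).toFinset, F g, ?_, ?_, ?_⟩
      · intro ℓ hℓ
        obtain ⟨g, hg, hg'⟩ := Finset.mem_biUnion.mp (MvPolynomial.vars_prod _ hℓ)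
        exact hF1 g hg ℓ hg'
      · intro _ g hg _
        rw [map_prod]
        exact Finset.prod_eq_zero ((Set.Finite.mem_toFinset _).mpr hg)
          (hF2 g ((Set.Finite.mem_toFinset _).mpr hg))
      · rw [map_prod]
        exact Finset.prod_ne_zero_iff.mpr fun g hg => hF3 g hg
    · refine ⟨1, ?_, ?_, ?_⟩
      · intro ℓ hℓ
        rw [MvPolynomial.vars_one] at hℓ
        exact absurd hℓ (Finset.notMem_empty _)
      · intro _ _ _ h
        exact absurd h hM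
      · rw [map_one]; exact one_ne_zero
  choose F hF1 hF2 hF3 using hlev
  refine ⟨∏ M ∈ N.divisors, F M, ?_, ?_, ?_⟩
  · intro ℓ hℓ
    obtain ⟨M, -, hM'⟩ := Finset.mem_biUnion.mp (MvPolynomial.vars_prod _ hℓ)
    exact hF1 M ℓ hM'
  · intro M hM0 g hg hM
    rw [map_prod]
    exact Finset.prod_eq_zero (Nat.mem_divisors.mpr ⟨hM, hN⟩) (hF2 M hM0 g hg hM)
  · rw [map_prod]
    exact Finset.prod_ne_zero_iff.mpr fun M _ => hF3 M

/-- `F` over a coefficient ring -/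
theorem exists_FR' {c : ℕ → ℤ} (S : Finset ℕ) {N : ℕ} (hN : N ≠ 0)
    (hne : ∀ (M : ℕ) (_ : NeZero M) (g : CuspForm (CongruenceSubgroup.Gamma0 M) 2), g.IsNewform →
      M ∣ N → ∃ ℓ : ℕ, ℓ.Prime ∧ ℓ ∉ S ∧ qCoeff g ℓ ≠ (c ℓ : ℂ)) {𝒪 : Type} [CommRing 𝒪]
    [CharZero 𝒪] (j : 𝒪 →+* ℂ) :
    ∃ F : MvPolynomial ℕ 𝒪, (∀ ℓ ∈ F.vars, ℓ.Prime ∧ ℓ ∉ S) ∧
      (∀ (M : ℕ) (_ : NeZero M) (g : CuspForm (CongruenceSubgroup.Gamma0 M) 2), g.IsNewform →
        M ∣ N → MvPolynomial.eval₂ j (fun ℓ => qCoeff g ℓ) F = 0) ∧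
      MvPolynomial.eval (fun ℓ => ((c ℓ : ℤ) : 𝒪)) F ≠ 0 := by
  obtain ⟨F, h1, h2, h3⟩ := exists_FR S hN hne
  refine ⟨MvPolynomial.map (Int.castRingHom 𝒪) F, ?_, ?_, ?_⟩
  · intro ℓ hℓ
    exact h1 ℓ (MvPolynomial.vars_map _ _ hℓ)
  · intro M hM0 g hg hM
    rw [MvPolynomial.eval₂_map]
    have h5 : j.comp (Int.castRingHom 𝒪) = Int.castRingHom ℂ := RingHom.ext_int _ _
    rw [h5]
    exact h2 M hM0 g hg hM
  · rw [MvPolynomial.eval_map]
    have h5 : MvPolynomial.eval₂ (Int.castRingHom 𝒪) (fun ℓ => ((c ℓ : ℤ) : 𝒪)) F =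
        Int.castRingHom 𝒪 (MvPolynomial.aeval c F) := by
      have := MvPolynomial.eval₂_comp_left (Int.castRingHom 𝒪) (RingHom.id ℤ) c F
      rw [RingHom.comp_id] at this
      exact this.symm
    rw [h5]
    exact (map_ne_zero_iff _ (RingHom.injective_int _)).mpr h3

/-- `F` for the levels dividing `cond W * r` -/
theorem exists_F_aux {p : ℕ} [Fact p.Prime] {W : WeierstrassCurve ℤ} (hp2 : p ≠ 2)
    (hΔ : W.Δ ≠ 0) (hirr : W.ModRepIsIrreducible p)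
    (hW : ¬ Mlc1IsModularModelOfExactConductorLevel W) {r : ℕ} (A : Aux p W r) (S : Finset ℕ)
    {𝒪 : Type} [CommRing 𝒪] [CharZero 𝒪] (j : 𝒪 →+* ℂ) :
    ∃ F : MvPolynomial ℕ 𝒪, (∀ ℓ ∈ F.vars, ℓ.Prime ∧ ℓ ∉ S) ∧
      (∀ (M : ℕ) (_ : NeZero M) (g : CuspForm (CongruenceSubgroup.Gamma0 M) 2), g.IsNewform →
        M ∣ cond W * r → MvPolynomial.eval₂ j (fun ℓ => qCoeff g ℓ) F = 0) ∧
      MvPolynomial.eval (fun ℓ => ((W.apOfModel ℓ : ℤ) : 𝒪)) F ≠ 0 := by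
  classical
  have hp : p.Prime := Fact.out
  have hrc : ¬ r ∣ cond W := fun h => A.good ((dvd_cond hΔ A.prime).1 h)
  have hsq : Squarefree (cond W * r) := (Nat.squarefree_mul_iff.2
    ⟨((Nat.Prime.coprime_iff_not_dvd A.prime).2 hrc).symm, squarefree_cond W,
      A.prime.prime.squarefree⟩)
  refine exists_FR' S (c := fun ℓ => W.apOfModel ℓ) hsq.ne_zero ?_ j
  intro M _ g hg hM
  by_contra hcon
  push Not at hcon
  -- the form has the same eigenvalues as the curve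
  have hrM : ¬ r ∣ M := by
    refine A.not_dvd hp2 hΔ hirr ?_ fun h => ?_
    · obtain ⟨𝔪, h𝔪, hp𝔪⟩ := exists_maximal_over hp
      refine ⟨inferInstance, 𝔪, h𝔪, hp𝔪, g, S, hg, fun ℓ hℓ hℓS z hz => ?_⟩
      have : z = ((W.apOfModel ℓ : ℤ) : integralClosure ℤ ℂ) := by
        apply Subtype.ext
        rw [hz, hcon ℓ hℓ hℓS]
        rfl
      rw [this, cW, sub_self]
      exact Ideal.zero_mem _
    · exact A.prime.one_lt.ne' (Nat.isUnit_iff.1
        ((hsq.squarefree_of_dvd hM) r (by rw [← sq]; exact h)))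
  have hMc : M ∣ cond W :=
    (Nat.Coprime.symm ((Nat.Prime.coprime_iff_not_dvd A.prime).2 hrM)).dvd_of_dvd_mul_right hM
  exact hW (exactLevel_of_newform hΔ ((squarefree_cond W).squarefree_of_dvd hMc)
      (fun q hq hqM => (dvd_cond hΔ hq).mp (hqM.trans hMc)) hg S fun ℓ hℓ hS hgood =>
        hcon ℓ hℓ hS)

end Fermat.Agent.Full
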