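import Fermat.Agent.Icosa.FrobC
import Fermat.Agent.Switch.Main
import Fermat.Agent.TwoAdic.HesseTr
import Fermat.Agent.Wire.CongrAll

set_option autoImplicit false

/-!
# Congruences of the coefficients `a_ℓ` in the families with the same `3`- or `5`-torsion
-/

open WeierstrassCurve
open Fermat.Agent.Icosa Fermat.Agent.Schoof
open Fermat.Agent.Switch Fermat.Agent.TwoAdic

namespace Fermat.Agent.Full

section Homog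

variable {R : Type*} [CommRing R] (c4 c6 l m s : R)

theorem CC4_homog : CC4 c4 c6 (s * l) (s * m) = s ^ 20 * CC4 c4 c6 l m := by
  unfold CC4 CC4_0 CC4_1 CC4_2
  ring

theorem CC6_homog : CC6 c4 c6 (s * l) (s * m) = s ^ 30 * CC6 c4 c6 l m := by
  unfold CC6 CC6_0 CC6_1 CC6_2 CC6_3
  ring

theorem DD_homog : DD c4 c6 (s * l) (s * m) = s ^ 12 * DD c4 c6 l m := by
  unfold DD
  ring

theorem hC4_homog : hC4 c4 c6 (s * l) (s * m) = s ^ 4 * hC4 c4 c6 l m := by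
  unfold hC4
  ring

theorem hC6_homog : hC6 c4 c6 (s * l) (s * m) = s ^ 6 * hC6 c4 c6 l m := by
  unfold hC6
  ring

theorem hD_homog : hD c4 c6 (s * l) (s * m) = s ^ 4 * hD c4 c6 l m := by
  unfold hD
  ring

theorem map_hC4 {S : Type*} [CommRing S] (φ : R →+* S) :
    φ (hC4 c4 c6 l m) = hC4 (φ c4) (φ c6) (φ l) (φ m) := by
  simp only [hC4, map_add, map_sub, map_mul, map_pow, map_ofNat]

theorem map_hC6 {S : Type*} [CommRing S] (φ : R →+* S) :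
    φ (hC6 c4 c6 l m) = hC6 (φ c4) (φ c6) (φ l) (φ m) := by
  simp only [hC6, map_add, map_sub, map_mul, map_pow, map_ofNat]

end Homog

section Good

variable {ℓ : ℕ} [Fact ℓ.Prime]

theorem zmod_ne_zero_of {n : ℕ} (h : ¬ ℓ ∣ n) : ((n : ℕ) : ZMod ℓ) ≠ 0 := by
  rw [Ne, ZMod.natCast_eq_zero_iff]
  exact h

theorem zmod_disc_ne {W : WeierstrassCurve ℤ} (h2 : (2 : ZMod ℓ) ≠ 0) (h3 : (3 : ZMod ℓ) ≠ 0)
    (hg : ((W.Δ : ℤ) : ZMod ℓ) ≠ 0) :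
    ((W.c₄ : ℤ) : ZMod ℓ) ^ 3 ≠ ((W.c₆ : ℤ) : ZMod ℓ) ^ 2 := by
  intro h
  have h1728 : (1728 : ZMod ℓ) ≠ 0 := by
    have : (1728 : ZMod ℓ) = 2^6 * 3^3 := by norm_num
    rw [this]; exact mul_ne_zero (pow_ne_zero _ h2) (pow_ne_zero _ h3)
  have h1 := congrArg (fun z : ℤ => (z : ZMod ℓ)) W.c_relation
  push_cast at h1
  rw [h, sub_self] at h1
  exact mul_ne_zero h1728 hg h1

end Good

/-- **Congruence modulo 5** of the coefficients `a_ℓ` of two curves of the icosahedral family. -/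
theorem congr5_of_family {W Z : WeierstrassCurve ℤ} (hΔ : W.Δ ≠ 0) (hΔ' : Z.Δ ≠ 0) {s l m : ℤ}
    (hs : s ≠ 0) (h4 : CC4 W.c₄ W.c₆ l m = s ^ 20 * Z.c₄)
    (h6 : CC6 W.c₄ W.c₆ l m = s ^ 30 * Z.c₆) :
    ∀ ℓ : ℕ, ℓ.Prime → W.IsGoodPrimeFor ℓ → Z.IsGoodPrimeFor ℓ → ℓ ≠ 5 →
      (5 : ℤ) ∣ (Z.apOfModel ℓ - W.apOfModel ℓ) := by
  have : Fact (Nat.Prime 5) := ⟨by norm_num⟩
  refine Wire.congr_all (p := 5) hΔ hΔ' ({2, 3, 5} ∪ s.natAbs.primeFactors) ?_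
  intro ℓ hℓ hℓS hg hg'
  have : Fact ℓ.Prime := ⟨hℓ⟩
  simp only [Finset.mem_union, Finset.mem_insert, Finset.mem_singleton, not_or] at hℓS
  obtain ⟨⟨hℓ2, hℓ3, hℓ5⟩, hℓs⟩ := hℓS
  have hne : ∀ q : ℕ, q.Prime → ℓ ≠ q → ((q : ℕ) : ZMod ℓ) ≠ 0 := fun q hq h =>
    zmod_ne_zero_of fun hd => h ((Nat.prime_dvd_prime_iff_eq hℓ hq).mp hd)
  have k2 : (2 : ZMod ℓ) ≠ 0 := by exact_mod_cast hne 2 Nat.prime_two hℓ2
  have k3 : (3 : ZMod ℓ) ≠ 0 := by exact_mod_cast hne 3 Nat.prime_three hℓ3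
  have k5 : (5 : ZMod ℓ) ≠ 0 := by exact_mod_cast hne 5 (by norm_num) hℓ5
  have ks : ((s : ℤ) : ZMod ℓ) ≠ 0 := by
    rw [Ne, ZMod.intCast_zmod_eq_zero_iff_dvd]
    intro h
    exact hℓs (Nat.mem_primeFactors.mpr ⟨hℓ, Int.natCast_dvd.mp h, Int.natAbs_ne_zero.mpr hs⟩)
  have gW : ((W.Δ : ℤ) : ZMod ℓ) ≠ 0 := by
    rw [Ne, ZMod.intCast_zmod_eq_zero_iff_dvd]; exact hg
  have gZ : ((Z.Δ : ℤ) : ZMod ℓ) ≠ 0 := by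
    rw [Ne, ZMod.intCast_zmod_eq_zero_iff_dvd]; exact hg'
  -- the invariants of `Z`
  have e4 : ((Z.c₄ : ℤ) : ZMod ℓ) = CC4 ((W.c₄ : ℤ) : ZMod ℓ) ((W.c₆ : ℤ) : ZMod ℓ)
      (((s : ℤ) : ZMod ℓ)⁻¹ * (l : ZMod ℓ)) (((s : ℤ) : ZMod ℓ)⁻¹ * (m : ZMod ℓ)) := by
    have h := congrArg (Int.castRingHom (ZMod ℓ)) h4
    rw [map_CC4, map_mul, map_pow] at h
    simp only [eq_intCast] at h
    rw [CC4_homog, h, ← mul_assoc, ← mul_pow, inv_mul_cancel₀ ks, one_pow, one_mul]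
  have e6 : ((Z.c₆ : ℤ) : ZMod ℓ) = CC6 ((W.c₄ : ℤ) : ZMod ℓ) ((W.c₆ : ℤ) : ZMod ℓ)
      (((s : ℤ) : ZMod ℓ)⁻¹ * (l : ZMod ℓ)) (((s : ℤ) : ZMod ℓ)⁻¹ * (m : ZMod ℓ)) := by
    have h := congrArg (Int.castRingHom (ZMod ℓ)) h6
    rw [map_CC6, map_mul, map_pow] at h
    simp only [eq_intCast] at h
    rw [CC6_homog, h, ← mul_assoc, ← mul_pow, inv_mul_cancel₀ ks, one_pow, one_mul]
  have dZ := zmod_disc_ne k2 k3 gZ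
  rw [e4, e6] at dZ
  rw [apOfModel_eq k2 k3 W gW, apOfModel_eq k2 k3 Z gZ, e4, e6]
  refine tr_congr k2 k3 k5 ?_ (zmod_disc_ne k2 k3 gW) dZ
  rw [ZMod.card]
  intro h
  exact hℓ5 ((Nat.prime_dvd_prime_iff_eq (by norm_num) hℓ).mp h).symm

/-- **Congruence modulo 3** of the coefficients `a_ℓ` of two curves of the Hesse pencil. -/
theorem congr3_of_family {W Z : WeierstrassCurve ℤ} (hΔ : W.Δ ≠ 0) (hΔ' : Z.Δ ≠ 0) {s l m : ℤ}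
    (hs : s ≠ 0) (h4 : hC4 W.c₄ W.c₆ l m = s ^ 4 * Z.c₄)
    (h6 : hC6 W.c₄ W.c₆ l m = s ^ 6 * Z.c₆) :
    ∀ ℓ : ℕ, ℓ.Prime → W.IsGoodPrimeFor ℓ → Z.IsGoodPrimeFor ℓ → ℓ ≠ 3 →
      (3 : ℤ) ∣ (Z.apOfModel ℓ - W.apOfModel ℓ) := by
  have : Fact (Nat.Prime 3) := ⟨by norm_num⟩
  refine Wire.congr_all (p := 3) hΔ hΔ' ({2, 3} ∪ s.natAbs.primeFactors) ?_
  intro ℓ hℓ hℓS hg hg'
  have : Fact ℓ.Prime := ⟨hℓ⟩
  simp only [Finset.mem_union, Finset.mem_insert, Finset.mem_singleton, not_or] at hℓS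
  obtain ⟨⟨hℓ2, hℓ3⟩, hℓs⟩ := hℓS
  have hne : ∀ q : ℕ, q.Prime → ℓ ≠ q → ((q : ℕ) : ZMod ℓ) ≠ 0 := fun q hq h =>
    zmod_ne_zero_of fun hd => h ((Nat.prime_dvd_prime_iff_eq hℓ hq).mp hd)
  have k2 : (2 : ZMod ℓ) ≠ 0 := by exact_mod_cast hne 2 Nat.prime_two hℓ2
  have k3 : (3 : ZMod ℓ) ≠ 0 := by exact_mod_cast hne 3 Nat.prime_three hℓ3
  have ks : ((s : ℤ) : ZMod ℓ) ≠ 0 := by
    rw [Ne, ZMod.intCast_zmod_eq_zero_iff_dvd]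
    intro h
    exact hℓs (Nat.mem_primeFactors.mpr ⟨hℓ, Int.natCast_dvd.mp h, Int.natAbs_ne_zero.mpr hs⟩)
  have gW : ((W.Δ : ℤ) : ZMod ℓ) ≠ 0 := by
    rw [Ne, ZMod.intCast_zmod_eq_zero_iff_dvd]; exact hg
  have gZ : ((Z.Δ : ℤ) : ZMod ℓ) ≠ 0 := by
    rw [Ne, ZMod.intCast_zmod_eq_zero_iff_dvd]; exact hg'
  have e4 : ((Z.c₄ : ℤ) : ZMod ℓ) = hC4 ((W.c₄ : ℤ) : ZMod ℓ) ((W.c₆ : ℤ) : ZMod ℓ)
      (((s : ℤ) : ZMod ℓ)⁻¹ * (l : ZMod ℓ)) (((s : ℤ) : ZMod ℓ)⁻¹ * (m : ZMod ℓ)) := by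
    have h := congrArg (Int.castRingHom (ZMod ℓ)) h4
    rw [map_hC4, map_mul, map_pow] at h
    simp only [eq_intCast] at h
    rw [hC4_homog, h, ← mul_assoc, ← mul_pow, inv_mul_cancel₀ ks, one_pow, one_mul]
  have e6 : ((Z.c₆ : ℤ) : ZMod ℓ) = hC6 ((W.c₄ : ℤ) : ZMod ℓ) ((W.c₆ : ℤ) : ZMod ℓ)
      (((s : ℤ) : ZMod ℓ)⁻¹ * (l : ZMod ℓ)) (((s : ℤ) : ZMod ℓ)⁻¹ * (m : ZMod ℓ)) := by
    have h := congrArg (Int.castRingHom (ZMod ℓ)) h6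
    rw [map_hC6, map_mul, map_pow] at h
    simp only [eq_intCast] at h
    rw [hC6_homog, h, ← mul_assoc, ← mul_pow, inv_mul_cancel₀ ks, one_pow, one_mul]
  have dZ := zmod_disc_ne k2 k3 gZ
  rw [e4, e6] at dZ
  rw [apOfModel_eq k2 k3 W gW, apOfModel_eq k2 k3 Z gZ, e4, e6]
  exact tr_congr_three k2 k3 (zmod_disc_ne k2 k3 gW) dZ

end Fermat.Agent.Full
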