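import Fermat.Prelude.Def_WeierstrassCurve_Mlc1RowStatement
import Fermat.Prelude.Def_FLTPrelim_Ramification
import Fermat.Agent.Wire.TwoAdicWire

/-!
# Consequences of the modularity of all semistable curves
-/

set_option autoImplicit false
open WeierstrassCurve WeierstrassCurve.Affine WeierstrassCurve.Affine.Point
open scoped WeierstrassCurve.Affine

namespace Fermat.Agent.Full

/-- all semistable curves are modular of exact conductor level -/
def ModAll : Prop := ∀ W : WeierstrassCurve ℤ, W.Δ ≠ 0 → W.IsSemistableModel →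
  Mlc1IsModularModelOfExactConductorLevel W

/-- `S59` -/
theorem s59_of_mod (h : ModAll) (p : ℕ) (_hp : p = 3 ∨ p = 5)
    (W : WeierstrassCurve ℤ) (hΔ : W.Δ ≠ 0) (hW : W.IsSemistableModel)
    (_hirr : W.ModRepIsIrreducible p)
    (M₀ : ℕ) [NeZero M₀] (_hres₀ : W.IsResiduallyModularOfLevel p M₀)
    (_hM₀ : ¬ p ^ 2 ∣ M₀)
    (_hM₀3 : ∀ q : ℕ, q.Prime → q ≠ p → ¬ q ^ 3 ∣ M₀) :
    Mlc1IsModularModelOfExactConductorLevel W :=
  h W hΔ hW

/-- `S60` -/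
theorem s60_of_mod (h : ModAll) (W : WeierstrassCurve ℤ) (hΔ : W.Δ ≠ 0)
    (hW : W.IsSemistableModel) : (W.map (Int.castRingHom ℚ)).IsModular := by
  obtain ⟨N, hN, -, -, hmod⟩ := h W hΔ hW
  exact ⟨W, ⟨1, one_smul _ _⟩, N, hN, hmod⟩

/-- `S50` -/
theorem s50_of_mod (h : ModAll)
    (W : WeierstrassCurve ℤ) (hΔ : W.Δ ≠ 0) (hW : W.IsSemistableModel)
    (_h3 : W.ModRepIsIrreducible 3) :
    ∃ M : ℕ, 0 < M ∧ W.IsResiduallyModularOfLevel 3 M ∧
      (∀ q : ℕ, q.Prime → q ≠ 3 → ¬ q ^ 3 ∣ M) ∧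
      (3 ^ 2 ∣ M →
        ∀ A : ValuationSubring (AlgebraicClosure ℚ), A.LiesOverPrime 3 →
          ∀ x : Submodule.torsionBy ℤ
              ((W.map (Int.castRingHom ℚ))⁄(AlgebraicClosure ℚ)).Point (3 : ℕ),
            (∀ σ ∈ A.inertiaSubgroupIn ℚ, σ • x = x) → x = 0) := by
  obtain ⟨M, hsq, -, hres⟩ := Wire.residually_of_congr (p := 3) (E := W) Nat.prime_three
    (fun ℓ _ _ _ _ => by rw [sub_self]; exact dvd_zero _) (h W hΔ hW)
  refine ⟨M, Nat.pos_of_ne_zero hsq.ne_zero, hres, fun q hq _ hd => ?_, fun hd => ?_⟩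
  · have h1 := hsq q (dvd_trans ⟨q, by ring⟩ hd)
    exact hq.one_lt.ne' (Nat.isUnit_iff.mp h1)
  · exfalso
    have h1 := hsq 3 (dvd_trans ⟨1, by norm_num⟩ hd)
    exact absurd (Nat.isUnit_iff.mp h1) (by norm_num)

end Fermat.Agent.Full
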