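import Fermat.Agent.Wire.StepL
import Fermat.Agent.X015.Galois
import Fermat.Agent.ECRep.Char2

set_option autoImplicit false

/-!
# Irreducibility of `W[p]`, `p = 3, 5`, on subgroups of index two, without `2 ∣ Δ`
-/

open Matrix Polynomial WeierstrassCurve Fermat.Agent.ECRep Fermat.Agent.Wire

namespace Fermat.Agent.Full

local notation "Γℚ" => (AlgebraicClosure ℚ ≃ₐ[ℚ] AlgebraicClosure ℚ)
local notation "Qb" => AlgebraicClosure ℚ

/-- a prime which is not a square modulo `5`, with nonzero trace of Frobenius on `W[5]` -/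
def Ind5 (W : WeierstrassCurve ℤ) : Prop :=
  ∃ q : ℕ, q.Prime ∧ (q % 5 = 2 ∨ q % 5 = 3) ∧
    ((q : ℤ) ∣ W.Δ ∨ ¬ (5 : ℤ) ∣ W.apOfModel q)

theorem not_sq_two_three : ¬ IsSquare (2 : ZMod 5) ∧ ¬ IsSquare (3 : ZMod 5) := by decide

section general

variable {p : ℕ} [hp : Fact p.Prime] (W : WeierstrassCurve ℤ)

theorem quadChar_two_three [Fact (Nat.Prime 5)] {q : ℕ} (hq : q % 5 = 2 ∨ q % 5 = 3) :
    quadraticChar (ZMod 5) (q : ZMod 5) = -1 := by
  have h1 : (q : ZMod 5) = 2 ∨ (q : ZMod 5) = 3 := by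
    rcases hq with h | h
    · left
      rw [← ZMod.natCast_mod, h]; rfl
    · right
      rw [← ZMod.natCast_mod, h]; rfl
  rw [quadraticChar_neg_one_iff_not_isSquare]
  rcases h1 with h | h
  · rw [h]; exact not_sq_two_three.1
  · rw [h]; exact not_sq_two_three.2

/-- no common eigenvector on subgroups of index two, over any extension. -/
theorem curve_index_two_full (h35 : p = 3 ∨ p = 5) (hΔ : W.Δ ≠ 0) (hW : W.IsSemistableModel)
    (h5 : p = 5 → Ind5 W) (hirr : W.ModRepIsIrreducible p) (k : Type) [Field k]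
    [Algebra (ZMod p) k] (K : Type) [Field K] [Algebra k K] (G : Subgroup Γℚ) (hG : G.index = 2)
    (V : Submodule K (((curveRho p W hΔ).baseChange k).baseChange K).V)
    (hV : ∀ τ ∈ G, ∀ x ∈ V, (((curveRho p W hΔ).baseChange k).baseChange K).ρ τ x ∈ V) :
    V = ⊥ ∨ V = ⊤ := by
  have hirr0 := curveRho_irr W hΔ hirr
  have hp2 : p ≠ 2 := by rcases h35 with rfl | rfl <;> norm_num
  by_cases htr : ∃ σ : Γℚ, (curveRho p W hΔ).ρ σ ^ p = 1 ∧ (curveRho p W hΔ).ρ σ ≠ 1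
  · obtain ⟨σ, hσ, hσ1⟩ := htr
    have := Subgroup.normal_of_index_eq_two hG
    exact LL.irr_of_transvection _ k K hirr0 hp2 hσ hσ1 G
      (fun γ => this.conj_mem _ (Subgroup.sq_mem_of_index_two hG σ) γ) V hV
  · push Not at htr
    have hc := complexConjugation_mul_self
    have hc1 := LL.complexConjugation_ne_one
    rcases h35 with rfl | rfl
    · exact absurd hirr0 (not_irreducible_three _ htr
        (fun q hq hq3 A hA σ hσ => curveRho_unip W hΔ hW hq hq3 hA hσ) hc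
        (curveRho_det_conj W hΔ hc hc1))
    · obtain ⟨q, hq, hq5, hqt⟩ := h5 rfl
      have hqne : q ≠ 5 := by rintro rfl; omega
      obtain ⟨A, hA⟩ := Frob.exists_liesOverPrime Qb hq
      obtain ⟨φ, hφ⟩ := Frob.exists_isFrobeniusAt A hq hA
      have hdet0 := det_frob_of_detIsCyclotomic Fact.out _ (detIsCyclotomic (l := 5) W hΔ)
        hq hqne hA hφ
      have hdet : LinearMap.det ((curveRho 5 W hΔ).ρ φ) = (q : ZMod 5) := by
        rw [curveRho, det_resRep W 5 hΔ, hdet0, map_natCast]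
      have hq1 : ((q : ZMod 5) + 1) ≠ 0 := by
        intro h
        have h1 : ((q + 1 : ℕ) : ZMod 5) = 0 := by push_cast; exact h
        rw [ZMod.natCast_eq_zero_iff] at h1
        omega
      have htr2 : LinearMap.trace _ _ ((curveRho 5 W hΔ).ρ φ) ≠ 0 := by
        by_cases hqΔ : (q : ℤ) ∣ W.Δ
        · have hch := charpoly_frob_mult (l := 5) hΔ hq hqne hqΔ (hW q hq hqΔ) hA hφ
          rw [curveRho, trace_resRep W 5 hΔ]
          have key : ∀ t : ℤ_[5], LinearMap.charpoly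
              ((tateRep (toRat W) 5 (toRat_Δ_ne_zero hΔ)).ρ φ) =
              X ^ 2 - C t * X + C ((q : ℕ) : ℤ_[5]) → LinearMap.trace _ _
                ((tateRep (toRat W) 5 (toRat_Δ_ne_zero hΔ)).ρ φ) = t := by
            intro t ht
            rw [Cheb.charpoly_eq (tateRep (toRat W) 5 (toRat_Δ_ne_zero hΔ)).finrank_eq] at ht
            have h0 := congrArg (fun f => Polynomial.coeff f 1) ht
            simpa [Polynomial.coeff_X, Polynomial.coeff_one, Polynomial.coeff_C] using h0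
          rcases hch with h | h
          · rw [key _ h, map_add, map_natCast, map_one]
            exact hq1
          · have h' : LinearMap.charpoly ((tateRep (toRat W) 5 (toRat_Δ_ne_zero hΔ)).ρ φ) =
                X ^ 2 - C (-(((q : ℕ) : ℤ_[5]) + 1)) * X + C ((q : ℕ) : ℤ_[5]) := by
              rw [h, map_neg]; ring
            rw [key _ h', map_neg, map_add, map_natCast, map_one]
            exact neg_ne_zero.mpr hq1
        · have h1 : ¬ (5 : ℤ) ∣ W.apOfModel q := hqt.resolve_left hqΔ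
          have h2 := (Cheb.trace_det_of_charpoly_eq (curveRho 5 W hΔ).finrank_eq _
            (charpoly_frob_res (l := 5) W hΔ hq hqne hA hqΔ hφ)).1
          rw [h2]
          intro h3
          exact h1 ((ZMod.intCast_zmod_eq_zero_iff_dvd _ 5).mp h3)
      refine bot_or_top_of_no_eigen _ k K G (fun w hw => ?_) V hV
      let _ : Algebra (ZMod 5) K := ((algebraMap k K).comp (algebraMap (ZMod 5) k)).toAlgebra
      exact no_eigen_index_two (curveRho 5 W hΔ) htr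
        (fun q hq hq3 A hA σ hσ => curveRho_unip W hΔ hW hq hq3 hA hσ) K (by norm_num) hirr0 hc
        (curveRho_det_conj W hΔ hc hc1) (φ := φ) (by
          apply Units.ext
          rw [psi_coe, hdet, quadChar_two_three hq5]
          rfl) htr2 hG hw

/-- inertia acts unipotently outside `p` -/
theorem curve_trace_inertia_full (hΔ : W.Δ ≠ 0) (hW : W.IsSemistableModel) (k : Type) [Field k]
    [Algebra (ZMod p) k] {q : ℕ} (hq : q.Prime) (hqp : q ≠ p) {A : ValuationSubring Qb}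
    (hA : A.LiesOverPrime q) {σ : Γℚ} (hσ : σ ∈ A.inertiaSubgroupIn ℚ) :
    LinearMap.trace k _ (((curveRho p W hΔ).baseChange k).ρ σ) = 2 := by
  by_cases hqΔ : (q : ℤ) ∣ W.Δ
  · exact curve_trace_inertia hΔ hW k hq hqp hqΔ hA hσ
  · have h1 : ((curveRho p W hΔ).baseChange k).ρ σ = 1 :=
      curve_unr_of_good W k hΔ hq hqp hqΔ A hA σ hσ
    rw [h1, LinearMap.trace_one, ((curveRho p W hΔ).baseChange k).finrank_eq]
    norm_num

variable (k : Type) [Field k] [Algebra (ZMod p) k]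

/-- **Block (R1)** without `2 ∣ Δ`. -/
theorem curveRes_full (h35 : p = 3 ∨ p = 5) (hΔ : W.Δ ≠ 0) (hW : W.IsSemistableModel)
    (h5 : p = 5 → Ind5 W) (hirr : W.ModRepIsIrreducible p) [CharP k p]
    (hsplit : ∀ a b : ℤ, ∃ α β : k, (X ^ 2 - C (a : k) * X + C (b : k) : Polynomial k) =
      (X - C α) * (X - C β)) :
    ∃ ρbar : ResidualGaloisRep k, ρbar.IsAbsolutelyIrreducible ∧ ρbar.IsOdd ∧
    (GaloisRepAdic.ofResidualGaloisRep ρbar).DetIsCyclotomic p ∧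
    (∀ σ : Γℚ, ∃ α β : k, LinearMap.charpoly (ρbar.ρ σ) = (X - C α) * (X - C β)) ∧
    (∀ (K : Type) [Field K] [Algebra k K] (G : Subgroup Γℚ), G.index = 2 →
      ∀ V : Submodule K (ρbar.baseChange K).V,
        (∀ σ ∈ G, ∀ x ∈ V, (ρbar.baseChange K).ρ σ x ∈ V) → V = ⊥ ∨ V = ⊤) ∧
    (∀ q : ℕ, q.Prime → q ≠ p → W.IsGoodPrimeFor q → ρbar.IsUnramifiedAt q) ∧
    (∀ q : ℕ, q.Prime → q ≠ p → (q : ℤ) ∣ W.Δ → (ρbar.IsUnramifiedAt q ↔
      p ∣ padicValInt q W.Δ)) ∧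
    (∀ q : ℕ, q.Prime → q ≠ p → W.IsGoodPrimeFor q → ∀ A : ValuationSubring Qb,
      A.LiesOverPrime q → ∀ σ : Γℚ, A.IsFrobeniusAt σ q →
      LinearMap.charpoly (ρbar.ρ σ) = X ^ 2 - C ((W.apOfModel q : ℤ) : k) * X + C (q : k)) := by
  have hp2 : p ≠ 2 := by rcases h35 with rfl | rfl <;> norm_num
  exact ⟨(curveRho p W hΔ).baseChange k, curve_absIrr W hp2 hΔ hirr k, curve_isOdd W k hΔ,
    curve_det W k hΔ, curve_split W k hΔ hsplit,
    fun K _ _ G hG V hV => curve_index_two_full W h35 hΔ hW h5 hirr k K G hG V hV,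
    fun q hq hqp hg => curve_unr_of_good W k hΔ hq hqp hg,
    fun q hq hqp hqΔ => curve_unr_iff W k hΔ hW hq hqp hqΔ,
    fun q hq hqp hg A hA σ hσ => curve_charpoly_frob W k hΔ hq hqp hg hA hσ⟩

end general

section Hyp

theorem ind5_of_two_dvd {W : WeierstrassCurve ℤ} (h : (2 : ℤ) ∣ W.Δ) : Ind5 W :=
  ⟨2, Nat.prime_two, Or.inl rfl, Or.inl (by exact_mod_cast h)⟩

theorem ind5_of_three_dvd {W : WeierstrassCurve ℤ} (h : (3 : ℤ) ∣ W.Δ) : Ind5 W :=
  ⟨3, Nat.prime_three, Or.inr rfl, Or.inl (by exact_mod_cast h)⟩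

/-- `|a_2| ≤ 2` -/
theorem ap_two_bound (W : WeierstrassCurve ℤ) : -2 ≤ W.apOfModel 2 ∧ W.apOfModel 2 ≤ 2 := by
  classical
  have h1 : W.apOfModel 2 = (W.reductionMod 2).traceOfFrobenius := rfl
  have h2 := Fintype.card_subtype_le (fun p : ZMod 2 × ZMod 2 =>
      (p.2 ^ 2 + (W.reductionMod 2).a₁ * p.1 * p.2 + (W.reductionMod 2).a₃ * p.2 =
        p.1 ^ 3 + (W.reductionMod 2).a₂ * p.1 ^ 2 + (W.reductionMod 2).a₄ * p.1 +
          (W.reductionMod 2).a₆) ∧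
      ((W.reductionMod 2).a₁ * p.2 ≠ 3 * p.1 ^ 2 + 2 * (W.reductionMod 2).a₂ * p.1 +
        (W.reductionMod 2).a₄ ∨
        p.2 ≠ -p.2 - (W.reductionMod 2).a₁ * p.1 - (W.reductionMod 2).a₃))
  rw [Fintype.card_prod, ZMod.card] at h2
  rw [h1, traceOfFrobenius, card, card_point_two, Nat.card_zmod]
  constructor <;> omega

theorem ind5_of_a2 {W : WeierstrassCurve ℤ} (h : W.apOfModel 2 ≠ 0) : Ind5 W := by
  refine ⟨2, Nat.prime_two, Or.inl rfl, Or.inr ?_⟩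
  have := ap_two_bound W
  omega

/-! ### `W[3]` reducible -/

/-- `ψ₃` has no rational root at a supersingular prime above `3` -/
theorem no_root_of_ss {b₂ b₄ b₆ b₈ Δ : ℤ} (h8 : 4 * b₈ = b₂ * b₆ - b₄ ^ 2)
    (hD : Δ = -b₂ ^ 2 * b₈ - 8 * b₄ ^ 3 - 27 * b₆ ^ 2 + 9 * b₂ * b₄ * b₆) (h2 : (3 : ℤ) ∣ b₂)
    (hΔ : ¬ (3 : ℤ) ∣ Δ) (x : ℚ)
    (hx : 3 * x ^ 4 + b₂ * x ^ 3 + 3 * b₄ * x ^ 2 + 3 * b₆ * x + b₈ = 0) : False := by
  have h3 : Prime (3 : ℤ) := Int.prime_three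
  have hb4 : ¬ (3 : ℤ) ∣ b₄ := by
    intro h
    apply hΔ
    obtain ⟨u, hu⟩ := h
    obtain ⟨v, hv⟩ := h2
    exact ⟨-3 * v ^ 2 * b₈ - 8 * 9 * u ^ 3 - 9 * b₆ ^ 2 + 27 * v * u * b₆, by
      rw [hD, hu, hv]; ring⟩
  have hb8 : ¬ (3 : ℤ) ∣ b₈ := by
    intro h
    apply hb4
    obtain ⟨u, hu⟩ := h
    obtain ⟨v, hv⟩ := h2
    exact h3.dvd_of_dvd_pow (n := 2) ⟨v * b₆ - 4 * u, by
      rw [hu, hv] at h8; linear_combination h8⟩
  have hn : (x.den : ℚ) ≠ 0 := by exact_mod_cast x.den_nz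
  have hx' : (x.num : ℚ) = x * x.den := (Rat.mul_den_eq_num x).symm
  have e : 3 * x.num ^ 4 + b₂ * x.num ^ 3 * x.den + 3 * b₄ * x.num ^ 2 * x.den ^ 2 +
      3 * b₆ * x.num * x.den ^ 3 + b₈ * x.den ^ 4 = 0 := by
    have : ((3 * x.num ^ 4 + b₂ * x.num ^ 3 * x.den + 3 * b₄ * x.num ^ 2 * x.den ^ 2 +
      3 * b₆ * x.num * x.den ^ 3 + b₈ * x.den ^ 4 : ℤ) : ℚ) = 0 := by
      push_cast
      rw [hx']
      linear_combination (x.den : ℚ) ^ 4 * hx
    exact_mod_cast this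
  obtain ⟨v, hv⟩ := h2
  have hden : (3 : ℤ) ∣ x.den := by
    have h4 : (3 : ℤ) ∣ b₈ * (x.den : ℤ) ^ 4 := ⟨-(x.num ^ 4 + v * x.num ^ 3 * x.den +
      b₄ * x.num ^ 2 * x.den ^ 2 + b₆ * x.num * x.den ^ 3), by
        rw [hv] at e; linear_combination e⟩
    exact h3.dvd_of_dvd_pow ((h3.dvd_or_dvd h4).resolve_left hb8)
  obtain ⟨w, hw⟩ := hden
  have hnum : (3 : ℤ) ∣ x.num := by
    have h4 : (3 : ℤ) ∣ x.num ^ 4 := ⟨-(v * x.num ^ 3 * w +
      3 * b₄ * x.num ^ 2 * w ^ 2 + 9 * b₆ * x.num * w ^ 3 + 9 * b₈ * w ^ 4), by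
        rw [hv, hw] at e
        have e' : (3 : ℤ) * (x.num ^ 4) = 3 * (3 * -(v * x.num ^ 3 * w +
          3 * b₄ * x.num ^ 2 * w ^ 2 + 9 * b₆ * x.num * w ^ 3 + 9 * b₈ * w ^ 4)) := by
          linear_combination e
        exact mul_left_cancel₀ (by norm_num) e'⟩
    exact h3.dvd_of_dvd_pow h4
  have hcop := x.reduced
  have h5 : (3 : ℕ) ∣ x.num.natAbs := Int.natCast_dvd.mp (by exact_mod_cast hnum)
  have h6 : (3 : ℕ) ∣ x.den := by
    have : ((3 : ℕ) : ℤ) ∣ (x.den : ℤ) := ⟨w, by exact_mod_cast hw⟩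
    exact_mod_cast this
  have h7 := Nat.dvd_gcd h5 h6
  rw [hcop] at h7
  omega

lemma card_point_three (W : WeierstrassCurve (ZMod 3)) (hΔ : W.Δ ≠ 0) :
    Nat.card W.toAffine.Point = Fintype.card {p : ZMod 3 × ZMod 3 //
      (p.2 ^ 2 + W.a₁ * p.1 * p.2 + W.a₃ * p.2 =
        p.1 ^ 3 + W.a₂ * p.1 ^ 2 + W.a₄ * p.1 + W.a₆)} + 1 := by
  classical
  rw [Nat.card_congr (pointEquiv W.toAffine), Nat.card_eq_fintype_card, Fintype.card_option]
  congr 1
  refine Fintype.card_congr (Equiv.subtypeEquivRight fun p => ?_)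
  rw [← Affine.equation_iff_nonsingular_of_Δ_ne_zero hΔ, Affine.equation_iff]

set_option maxRecDepth 100000 in
theorem count_three : ∀ a₁ a₂ a₃ a₄ a₆ : ZMod 3, a₁ ^ 2 + 4 * a₂ ≠ 0 →
    Fintype.card {p : ZMod 3 × ZMod 3 // (p.2 ^ 2 + a₁ * p.1 * p.2 + a₃ * p.2 =
        p.1 ^ 3 + a₂ * p.1 ^ 2 + a₄ * p.1 + a₆)} ≠ 3 := by
  decide +kernel

set_option maxRecDepth 100000 in
theorem count_three_le : ∀ a₁ a₂ a₃ a₄ a₆ : ZMod 3,
    Fintype.card {p : ZMod 3 × ZMod 3 // (p.2 ^ 2 + a₁ * p.1 * p.2 + a₃ * p.2 =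
        p.1 ^ 3 + a₂ * p.1 ^ 2 + a₄ * p.1 + a₆)} ≤ 6 := by
  decide +kernel

/-- a good prime `3` with `3 ∤ b₂` is ordinary -/
theorem ap_three {W : WeierstrassCurve ℤ} (hg : W.IsGoodPrimeFor 3) (hb : ¬ (3 : ℤ) ∣ W.b₂) :
    ¬ (5 : ℤ) ∣ W.apOfModel 3 := by
  classical
  have h1 : W.apOfModel 3 = (W.reductionMod 3).traceOfFrobenius := rfl
  have hΔ : (W.reductionMod 3).Δ ≠ 0 := by
    rw [reductionMod, map_Δ, Ne, eq_intCast, ZMod.intCast_zmod_eq_zero_iff_dvd]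
    exact hg
  have hb2 : (W.reductionMod 3).a₁ ^ 2 + 4 * (W.reductionMod 3).a₂ ≠ 0 := by
    have h2 : (W.reductionMod 3).b₂ ≠ 0 := by
      rw [reductionMod, map_b₂, Ne, eq_intCast, ZMod.intCast_zmod_eq_zero_iff_dvd]
      exact hb
    exact h2
  rw [h1, traceOfFrobenius, card, card_point_three _ hΔ, Nat.card_zmod]
  have h3 := count_three (W.reductionMod 3).a₁ (W.reductionMod 3).a₂ (W.reductionMod 3).a₃
    (W.reductionMod 3).a₄ (W.reductionMod 3).a₆ hb2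
  have h4 := count_three_le (W.reductionMod 3).a₁ (W.reductionMod 3).a₂ (W.reductionMod 3).a₃
    (W.reductionMod 3).a₄ (W.reductionMod 3).a₆
  omega

/-- **The case where `W[3]` is reducible.** -/
theorem ind5_of_red3 {W : WeierstrassCurve ℤ} (hΔ : W.Δ ≠ 0)
    (h : ¬ W.ModRepIsIrreducible 3) : Ind5 W := by
  by_cases h3 : (3 : ℤ) ∣ W.Δ
  · exact ind5_of_three_dvd h3
  refine ⟨3, Nat.prime_three, Or.inr rfl, Or.inr (ap_three (by exact_mod_cast h3) fun hb => ?_)⟩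
  have hΔ' : (W.map (Int.castRingHom ℚ)).Δ ≠ 0 := by
    rw [map_Δ]
    simpa using hΔ
  obtain ⟨x, hx⟩ := Fermat.Agent.X015.exists_rat_root_three _ hΔ' h
  unfold Fermat.Agent.X015.P3 at hx
  rw [map_b₂, map_b₄, map_b₆, map_b₈] at hx
  exact no_root_of_ss (b₂ := W.b₂) (b₄ := W.b₄) (b₆ := W.b₆) (b₈ := W.b₈) (Δ := W.Δ)
    W.b_relation rfl hb h3 x hx

end Hyp

end Fermat.Agent.Full
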