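import Fermat.Agent.Full.LiftDef
import Fermat.Agent.Full.IndexTwo
import Fermat.Agent.MazurQ.Exist

set_option autoImplicit false

/-!
# Existence of the auxiliary rigid prime
-/

open Polynomial WeierstrassCurve Fermat.Agent.ECRep Fermat.Agent.Wire Fermat.Agent.MazurQ.Exist

namespace Fermat.Agent.Full

local notation "Γℚ" => (AlgebraicClosure ℚ ≃ₐ[ℚ] AlgebraicClosure ℚ)
local notation "Qb" => AlgebraicClosure ℚ

/-- a good Galois element -/
theorem exists_good_elt {p : ℕ} [Fact p.Prime] {W : WeierstrassCurve ℤ} (H : HypL p W) :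
    ∃ g : Γℚ, (∀ ζ : Qb, ζ ^ 12 = 1 → g ζ = ζ⁻¹) ∧
      LinearMap.trace (ZMod p) _ (((curveRho p W H.Δ_ne).baseChange (ZMod p)).ρ g) ^ 2 ≠
        (1 + LinearMap.det (((curveRho p W H.Δ_ne).baseChange (ZMod p)).ρ g)) ^ 2 := by
  have hdet : ∀ (σ : Γℚ) (c : ℕ), (∀ μ : Qb, μ ^ p = 1 → σ μ = μ ^ c) →
      LinearMap.det (((curveRho p W H.Δ_ne).baseChange (ZMod p)).ρ σ) = (c : ZMod p) := by
    intro σ c hc
    rw [LL.det_baseChange, curveRho, det_resRep_eq _ _ H.Δ_ne σ c hc, map_natCast]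
  by_cases h5 : 5 ≤ p
  · exact exists_good_five Fact.out h5 _ (curve_absIrr W H.ne2 H.Δ_ne H.irr (ZMod p)) hdet
  · have h3 : p = 3 := by
      rcases H.h35 with h | h
      · exact h
      · omega
    subst h3
    obtain ⟨P, hP⟩ := Frob.exists_liesOverPrime Qb Nat.prime_two
    exact exists_good_three _ hdet (fun K' _ _ G hG V hV =>
      curve_index_two_full W (Or.inl rfl) H.Δ_ne H.ss (fun h => absurd h (by norm_num)) H.irr
        (ZMod 3) K' G hG V hV) hP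
      (fun σ hσ => curve_trace_inertia_full W H.Δ_ne H.ss (ZMod 3) Nat.prime_two (by norm_num)
        hP hσ)

/-- **Block EXISTR** -/
theorem existRStmt : ExistRStmt := by
  intro p W H S
  classical
  have hp := H.prime
  have : Fact p.Prime := ⟨hp⟩
  obtain ⟨g, hg, hgt⟩ := exists_good_elt H
  set ρ := (curveRho p W H.Δ_ne).baseChange (ZMod p) with hρ
  obtain ⟨F₁, hF₁, h1⟩ := ρ.factorsThroughFiniteLevel
  obtain ⟨μ, hμ⟩ : ∃ μ : Qb, IsPrimitiveRoot μ 12 := HasEnoughRootsOfUnity.exists_primitiveRoot Qb 12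
  have hF₂ : FiniteDimensional ℚ (IntermediateField.adjoin ℚ {μ}) :=
    IntermediateField.adjoin.finiteDimensional (Algebra.IsIntegral.isIntegral μ)
  obtain ⟨r, hr, hrS, -, P, hP, φ, hφ, hφg⟩ := ChebFull.exists_frobenius_eq
    (F₁ ⊔ IntermediateField.adjoin ℚ {μ}) g (S ∪ {2, 3, p} ∪ W.Δ.natAbs.primeFactors)
  simp only [Finset.mem_union, Finset.mem_insert, Finset.mem_singleton, not_or,
    Nat.mem_primeFactors, not_and] at hrS
  obtain ⟨⟨hrS, hr2, hr3, hrp⟩, hrΔ⟩ := hrS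
  have hgood : W.IsGoodPrimeFor r := fun hd =>
    hrΔ hr (Int.natCast_dvd.mp hd) (Int.natAbs_ne_zero.mpr H.Δ_ne)
  have h2 : ρ.ρ φ = ρ.ρ g := by
    have h3 : ρ.ρ (g⁻¹ * φ) = 1 := h1 _ fun x hx => by
      rw [AlgEquiv.mul_apply, hφg x ((le_sup_left : F₁ ≤ _) hx)]
      exact AlgEquiv.symm_apply_apply g x
    rw [← mul_inv_cancel_left g φ, map_mul, h3, mul_one]
  have hcop : Nat.Coprime 12 r := by
    rw [Nat.coprime_comm, hr.coprime_iff_not_dvd]
    intro h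
    have h4 : r ∣ 2 * 2 * 3 := h
    rw [hr.dvd_mul, hr.dvd_mul, Nat.prime_dvd_prime_iff_eq hr Nat.prime_two,
      Nat.prime_dvd_prime_iff_eq hr Nat.prime_three] at h4
    omega
  have hmod : r % 12 = 11 := by
    have h3 : φ μ = g μ := hφg μ ((le_sup_right : IntermediateField.adjoin ℚ {μ} ≤ _)
      (IntermediateField.mem_adjoin_simple_self ℚ μ))
    rw [CycChar.frobenius_apply_eq hP hcop hφ hμ.pow_eq_one, hg μ hμ.pow_eq_one,
      inv_eq_pow hμ.pow_eq_one, pow_eq_of_modEq hμ.pow_eq_one (Nat.mod_modEq r 12).symm] at h3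
    exact hμ.pow_inj (Nat.mod_lt _ (by norm_num)) (by norm_num) h3
  refine ⟨r, hrS, hr, hmod, hrp, hgood, fun hd => hgt ?_⟩
  have hch := curve_charpoly_frob W (ZMod p) H.Δ_ne hr hrp hgood hP hφ
  have e1 := (Cheb.trace_det_of_charpoly_eq ρ.finrank_eq _ hch).1
  have e2 : LinearMap.det (ρ.ρ φ) = (r : ZMod p) := curve_det_frob H.Δ_ne (ZMod p) hr hrp hP hφ
  rw [← h2, e1, e2, ← sub_eq_zero]
  have h5 : ((W.apOfModel r ^ 2 - (r + 1) ^ 2 : ℤ) : ZMod p) = 0 :=
    (ZMod.intCast_zmod_eq_zero_iff_dvd _ p).mpr hd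
  push_cast at h5
  linear_combination h5

end Fermat.Agent.Full
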