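import Fermat.Agent.Switch.Main
import Fermat.Agent.TwoAdic.Kraus
import Fermat.Agent.TwoAdic.Scale
import Fermat.Agent.Wire.CongrAll

set_option autoImplicit false

/-!
# The `5`-family at a prime where the reduction at `2` changes
-/

open WeierstrassCurve
open Fermat.Agent.Icosa Fermat.Agent.Schoof
open Fermat.Agent.Switch

namespace Fermat.Agent.Full

section congr

variable {R : Type*} [CommRing R]

theorem CC4_zero (c4 c6 l : R) : CC4 c4 c6 l 0 = c4 * l ^ 20 := by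
  unfold CC4 CC4_0 CC4_1 CC4_2; ring

theorem CC6_zero (c4 c6 l : R) : CC6 c4 c6 l 0 = c6 * l ^ 30 := by
  unfold CC6 CC6_0 CC6_1 CC6_2 CC6_3; ring

theorem DD_zero (c4 c6 l : R) : DD c4 c6 l 0 = l ^ 12 := by
  unfold DD; ring

theorem castM (M : ℤ) : ((M : ℤ) : ZMod M.natAbs) = 0 := by
  rw [ZMod.intCast_zmod_eq_zero_iff_dvd]
  exact Int.natAbs_dvd.mpr (dvd_refl M)

theorem CC4_dvd (c4 c6 l M : ℤ) : M ∣ CC4 c4 c6 l M - c4 * l ^ 20 := by
  rw [← Int.natAbs_dvd, ← ZMod.intCast_zmod_eq_zero_iff_dvd]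
  have h := map_CC4 (Int.castRingHom (ZMod M.natAbs)) c4 c6 l M
  simp only [eq_intCast] at h
  rw [Int.cast_sub, h, castM, CC4_zero]
  push_cast
  ring

theorem CC6_dvd (c4 c6 l M : ℤ) : M ∣ CC6 c4 c6 l M - c6 * l ^ 30 := by
  rw [← Int.natAbs_dvd, ← ZMod.intCast_zmod_eq_zero_iff_dvd]
  have h := map_CC6 (Int.castRingHom (ZMod M.natAbs)) c4 c6 l M
  simp only [eq_intCast] at h
  rw [Int.cast_sub, h, castM, CC6_zero]
  push_cast
  ring

theorem DD_dvd (c4 c6 l M : ℤ) : M ∣ DD c4 c6 l M - l ^ 12 := by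
  rw [← Int.natAbs_dvd, ← ZMod.intCast_zmod_eq_zero_iff_dvd]
  have h := map_DD (Int.castRingHom (ZMod M.natAbs)) c4 c6 l M
  simp only [eq_intCast] at h
  rw [Int.cast_sub, h, castM, DD_zero]
  push_cast
  ring

end congr

theorem fam5 (W : WeierstrassCurve ℤ) (hΔ : W.Δ ≠ 0) (hW : W.IsSemistableModel)
    (h2 : ¬ (2 : ℤ) ∣ W.Δ)
    (key : ∀ M : ℤ, Odd M → ∃ c4' c6' D' : ℤ, CC4 W.c₄ W.c₆ 4 M = 2 ^ 40 * c4' ∧
      CC6 W.c₄ W.c₆ 4 M = 2 ^ 60 * c6' ∧ DD W.c₄ W.c₆ 4 M = 2 ^ 24 * D' ∧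
      Odd c4' ∧ (4 : ℤ) ∣ c6' + 1 ∧ Even D') :
    ∃ Z : WeierstrassCurve ℤ, Z.Δ ≠ 0 ∧ Z.IsSemistableModel ∧ (2 : ℤ) ∣ Z.Δ ∧
      ((5 : ℤ) ∣ Z.Δ ↔ (5 : ℤ) ∣ W.Δ) ∧
      (∀ q : ℕ, q.Prime → (q : ℤ) ∣ W.Δ → (q : ℤ) ∣ Z.Δ) ∧
      (∀ ℓ : ℕ, ℓ.Prime → W.IsGoodPrimeFor ℓ → Z.IsGoodPrimeFor ℓ → ℓ ≠ 5 →
        (5 : ℤ) ∣ (Z.apOfModel ℓ - W.apOfModel ℓ)) := by
  obtain ⟨M, hMdef⟩ : ∃ M : ℤ, M = 27 * 5 * W.Δ := ⟨_, rfl⟩
  have hΔo : Odd W.Δ := by
    rwa [← even_iff_two_dvd, Int.not_even_iff_odd] at h2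
  have hMo : Odd M := by
    rw [hMdef]
    exact (by decide : Odd (27 * 5 : ℤ)).mul hΔo
  have hM2 : IsCoprime (2 : ℤ) M := by
    rw [Prime.coprime_iff_not_dvd Int.prime_two]
    intro h
    exact (Int.not_even_iff_odd.mpr hMo) (even_iff_two_dvd.mpr h)
  obtain ⟨c4', c6', D', h4, h6, hD, ho4, ho6, hoD⟩ := key M hMo
  -- closeness
  have k4 : M ∣ c4' - W.c₄ := by
    have h := CC4_dvd W.c₄ W.c₆ 4 M
    have e : CC4 W.c₄ W.c₆ 4 M - W.c₄ * 4 ^ 20 = 2 ^ 40 * (c4' - W.c₄) := by rw [h4]; ring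
    rw [e] at h
    exact (hM2.pow_left (m := 40)).symm.dvd_of_dvd_mul_left h
  have k6 : M ∣ c6' - W.c₆ := by
    have h := CC6_dvd W.c₄ W.c₆ 4 M
    have e : CC6 W.c₄ W.c₆ 4 M - W.c₆ * 4 ^ 30 = 2 ^ 60 * (c6' - W.c₆) := by rw [h6]; ring
    rw [e] at h
    exact (hM2.pow_left (m := 60)).symm.dvd_of_dvd_mul_left h
  have kD : M ∣ D' - 1 := by
    have h := DD_dvd W.c₄ W.c₆ 4 M
    have e : DD W.c₄ W.c₆ 4 M - 4 ^ 12 = 2 ^ 24 * (D' - 1) := by rw [hD]; ring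
    rw [e] at h
    exact (hM2.pow_left (m := 24)).symm.dvd_of_dvd_mul_left h
  -- the discriminant
  have hdisc : c4' ^ 3 - c6' ^ 2 = 1728 * (W.Δ * D' ^ 5) := by
    have h := CC_disc W.c₄ W.c₆ 4 M
    have hc := W.c_relation
    rw [h4, h6, hD, ← hc] at h
    have h120 : (2 : ℤ) ^ 120 ≠ 0 := by norm_num
    apply mul_left_cancel₀ h120
    linear_combination h
  have h3' : ¬ (3 : ℤ) ∣ c4' ∨ ((3 : ℤ) ∣ c4' ∧ (27 : ℤ) ∣ c6') := by
    have h27 : (27 : ℤ) ∣ M := ⟨5 * W.Δ, by rw [hMdef]; ring⟩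
    have h3 : (3 : ℤ) ∣ M := dvd_trans (by norm_num) h27
    rcases TwoAdic.three_cond W with h | ⟨h, h'⟩
    · left
      intro hc
      exact h ((dvd_sub_right hc).mp (h3.trans k4))
    · right
      exact ⟨(dvd_iff_dvd_of_dvd_sub (h3.trans k4)).mpr h,
        (dvd_iff_dvd_of_dvd_sub (h27.trans k6)).mpr h'⟩
  have ho4' : ¬ (2 : ℤ) ∣ c4' := fun h =>
    (Int.not_even_iff_odd.mpr ho4) (even_iff_two_dvd.mpr h)
  obtain ⟨Z, e4, e6, eΔ⟩ := TwoAdic.kraus hdisc ho4' ho6 h3'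
  have hD0 : D' ≠ 0 := by
    rintro rfl
    have h27 : (27 : ℤ) ∣ M := ⟨5 * W.Δ, by rw [hMdef]; ring⟩
    have := h27.trans kD
    norm_num at this
  have hZ0 : Z.Δ ≠ 0 := by rw [eΔ]; exact mul_ne_zero hΔ (pow_ne_zero _ hD0)
  have h5D : ¬ (5 : ℤ) ∣ D' := by
    intro h
    have h5 : (5 : ℤ) ∣ M := ⟨27 * W.Δ, by rw [hMdef]; ring⟩
    have h' := (dvd_sub_right h).mp (h5.trans kD)
    norm_num at h'
  refine ⟨Z, hZ0, ?_, ?_, ?_, ?_, ?_⟩
  · -- semistability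
    intro p hp hpΔ hpc
    have hpp : Prime (p : ℤ) := Nat.prime_iff_prime_int.mp hp
    rw [eΔ] at hpΔ
    rw [e4] at hpc
    by_cases hpM : (p : ℤ) ∣ M
    · have hpD : ¬ (p : ℤ) ∣ D' := by
        intro h
        exact hpp.not_dvd_one ((dvd_sub_right h).mp (hpM.trans kD))
      have hpΔ' : (p : ℤ) ∣ W.Δ := (hpp.dvd_or_dvd hpΔ).resolve_right
        (fun h => hpD (hpp.dvd_of_dvd_pow h))
      exact hW p hp hpΔ' ((dvd_sub_right hpc).mp (hpM.trans k4))
    · have hp2 : ¬ p ∣ 2 := by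
        intro h
        apply ho4'
        have : p = 2 := (Nat.prime_dvd_prime_iff_eq hp Nat.prime_two).mp h
        rw [this] at hpc
        exact_mod_cast hpc
      have hp3 : ¬ p ∣ 3 := fun h => hpM (by
        rw [hMdef]
        have h' : (p : ℤ) ∣ 3 := by exact_mod_cast h
        exact Dvd.dvd.mul_right (Dvd.dvd.mul_right (h'.trans (by norm_num)) _) _)
      have hp5 : ¬ p ∣ 5 := fun h => hpM (by
        rw [hMdef]
        have h' : (p : ℤ) ∣ 5 := by exact_mod_cast h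
        exact Dvd.dvd.mul_right (Dvd.dvd.mul_left h' _) _)
      have hpΔ2 : ¬ (p : ℤ) ∣ W.Δ := fun h => hpM (by
        rw [hMdef]; exact Dvd.dvd.mul_left h _)
      have hpD : (p : ℤ) ∣ D' := hpp.dvd_of_dvd_pow ((hpp.dvd_or_dvd hpΔ).resolve_left hpΔ2)
      have hFact : Fact p.Prime := ⟨hp⟩
      let K := AlgebraicClosure (ZMod p)
      have hinj : Function.Injective (algebraMap (ZMod p) K) := (algebraMap (ZMod p) K).injective
      have hcast : ∀ n : ℕ, ¬ p ∣ n → ((n : ℕ) : K) ≠ 0 := by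
        intro n hn h
        apply zmod_ne hn
        apply hinj
        rw [map_natCast, h, map_zero]
      let φ : ℤ →+* K := (algebraMap (ZMod p) K).comp (Int.castRingHom (ZMod p))
      have hφ : ∀ a : ℤ, φ a = 0 ↔ (p : ℤ) ∣ a := by
        intro a
        rw [← ZMod.intCast_zmod_eq_zero_iff_dvd]
        simp only [φ, RingHom.comp_apply]
        constructor
        · intro h; apply hinj; rw [map_zero]; exact h
        · intro h
          change algebraMap (ZMod p) K ((a : ℤ) : ZMod p) = 0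
          rw [h, map_zero]
      have h1 : φ W.c₄ ^ 3 ≠ φ W.c₆ ^ 2 := by
        intro h
        apply hpΔ2
        have h2 : φ (1728 * W.Δ) = 0 := by
          rw [W.c_relation, map_sub, map_pow, map_pow, h, sub_self]
        rw [hφ] at h2
        rcases hpp.dvd_or_dvd h2 with h3 | h3
        · exfalso
          have h4 : p ∣ 2 ^ 6 * 3 ^ 3 := by
            have : (p : ℤ) ∣ ((2 ^ 6 * 3 ^ 3 : ℕ) : ℤ) := by
              have e : ((2 ^ 6 * 3 ^ 3 : ℕ) : ℤ) = 1728 := by norm_num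
              rw [e]; exact h3
            exact_mod_cast this
          rcases hp.dvd_mul.mp h4 with h5 | h5
          · exact hp2 (hp.dvd_of_dvd_pow h5)
          · exact hp3 (hp.dvd_of_dvd_pow h5)
        · exact h3
      have h2' : DD (φ W.c₄) (φ W.c₆) (φ 4) (φ M) = 0 := by
        rw [← map_DD, hD, hφ]; exact Dvd.dvd.mul_left hpD _
      have h3 : CC4 (φ W.c₄) (φ W.c₆) (φ 4) (φ M) = 0 := by
        rw [← map_CC4, h4, hφ]; exact Dvd.dvd.mul_left hpc _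
      have k2 : (2 : K) ≠ 0 := by exact_mod_cast hcast 2 hp2
      have k3 : (3 : K) ≠ 0 := by exact_mod_cast hcast 3 hp3
      have k5 : (5 : K) ≠ 0 := by exact_mod_cast hcast 5 hp5
      have h4' := (common_zero k2 k3 k5 h1 h2' h3).2
      rw [hφ] at h4'
      exact hpM h4'
  · rw [eΔ]
    exact Dvd.dvd.mul_left ((even_iff_two_dvd.mp hoD).trans (dvd_pow_self _ (by norm_num))) _
  · rw [eΔ]
    constructor
    · intro h
      exact ((Int.prime_iff_natAbs_prime.mpr (by norm_num)).dvd_or_dvd h).resolve_right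
        (fun h' => h5D (Prime.dvd_of_dvd_pow (Int.prime_iff_natAbs_prime.mpr (by norm_num)) h'))
    · intro h
      exact Dvd.dvd.mul_right h _
  · intro q _ h
    rw [eΔ]
    exact Dvd.dvd.mul_right h _
  · -- congruences
    have : Fact (Nat.Prime 5) := ⟨by norm_num⟩
    have hall := Wire.congr_all (p := 5) hΔ hZ0 {2, 3, 5} (by
      intro l hl hlS hg hg'
      simp only [Finset.mem_insert, Finset.mem_singleton, not_or] at hlS
      obtain ⟨hl2, hl3, hl5⟩ := hlS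
      have hFact : Fact l.Prime := ⟨hl⟩
      have k2 : (2 : ZMod l) ≠ 0 := by
        have := zmod_ne (l := l) (n := 2) (fun h =>
          hl2 ((Nat.prime_dvd_prime_iff_eq hl (by norm_num)).mp h))
        exact_mod_cast this
      have k3 : (3 : ZMod l) ≠ 0 := by
        have := zmod_ne (l := l) (n := 3) (fun h =>
          hl3 ((Nat.prime_dvd_prime_iff_eq hl (by norm_num)).mp h))
        exact_mod_cast this
      have k5 : (5 : ZMod l) ≠ 0 := by
        have := zmod_ne (l := l) (n := 5) (fun h =>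
          hl5 ((Nat.prime_dvd_prime_iff_eq hl (by norm_num)).mp h))
        exact_mod_cast this
      have h1728 : (1728 : ZMod l) ≠ 0 := by
        have : (1728 : ZMod l) = 2^6 * 3^3 := by norm_num
        rw [this]; exact mul_ne_zero (pow_ne_zero _ k2) (pow_ne_zero _ k3)
      have hgΔ : ((W.Δ : ℤ) : ZMod l) ≠ 0 := by
        rw [Ne, ZMod.intCast_zmod_eq_zero_iff_dvd]; exact hg
      have hgΔ' : ((Z.Δ : ℤ) : ZMod l) ≠ 0 := by
        rw [Ne, ZMod.intCast_zmod_eq_zero_iff_dvd]; exact hg'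
      rw [apOfModel_eq k2 k3 W hgΔ, apOfModel_eq k2 k3 Z hgΔ', e4, e6]
      have m4 := map_CC4 (Int.castRingHom (ZMod l)) W.c₄ W.c₆ 4 M
      have m6 := map_CC6 (Int.castRingHom (ZMod l)) W.c₄ W.c₆ 4 M
      simp only [eq_intCast] at m4 m6
      rw [h4] at m4
      rw [h6] at m6
      push_cast at m4 m6
      have hu : (2 ^ 10 : ZMod l) ≠ 0 := pow_ne_zero _ k2
      have hs := TwoAdic.tr_scale (F := ZMod l) hu (-27 * ((c4' : ℤ) : ZMod l))
        (-54 * ((c6' : ℤ) : ZMod l))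
      have s4 : (2 ^ 10 : ZMod l) ^ 4 * (-27 * ((c4' : ℤ) : ZMod l)) =
          -27 * CC4 ((W.c₄ : ℤ) : ZMod l) ((W.c₆ : ℤ) : ZMod l) 4 ((M : ℤ) : ZMod l) := by
        rw [← m4]; ring
      have s6 : (2 ^ 10 : ZMod l) ^ 6 * (-54 * ((c6' : ℤ) : ZMod l)) =
          -54 * CC6 ((W.c₄ : ℤ) : ZMod l) ((W.c₆ : ℤ) : ZMod l) 4 ((M : ℤ) : ZMod l) := by
        rw [← m6]; ring
      rw [s4, s6] at hs
      rw [← hs]
      apply tr_congr k2 k3 k5
      · rw [ZMod.card]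
        intro h
        exact hl5 ((Nat.prime_dvd_prime_iff_eq (by norm_num) hl).mp h).symm
      · intro h
        have h1 := congrArg (fun z : ℤ => (z : ZMod l)) W.c_relation
        push_cast at h1
        rw [h, sub_self] at h1
        exact mul_ne_zero h1728 hgΔ h1
      · rw [← m4, ← m6]
        intro h
        have h1 := congrArg (fun z : ℤ => (z : ZMod l)) Z.c_relation
        push_cast at h1
        rw [e4, e6] at h1
        have h3 : (2 : ZMod l) ^ 120 * (((c4' : ℤ) : ZMod l) ^ 3 - ((c6' : ℤ) : ZMod l) ^ 2) = 0 := by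
          linear_combination h
        rw [← h1] at h3
        rcases mul_eq_zero.mp h3 with h5 | h5
        · exact pow_ne_zero _ k2 h5
        · exact mul_ne_zero h1728 hgΔ' h5)
    exact hall

end Fermat.Agent.Full
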