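import Fermat.Agent.MazurQ.ExistGrp

/-!
# Group theory: subgroups of index four from subgroups of index two
-/

set_option autoImplicit false

namespace Fermat.Agent.Full

open Fermat.Agent.MazurQ.Exist

section Mat

variable {k : Type*} [Field k]

theorem eig_root {m : Matrix (Fin 2) (Fin 2) k} {v : Fin 2 → k} (hv : v ≠ 0) {a : k}
    (h : m.mulVec v = a • v) : a ^ 2 = m.trace * a - m.det := by
  have h1 : (m * m).mulVec v = a ^ 2 • v := by
    rw [← Matrix.mulVec_mulVec, h, Matrix.mulVec_smul, h, smul_smul, pow_two]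
  rw [cayley, Matrix.sub_mulVec, Matrix.smul_mulVec, Matrix.smul_mulVec, Matrix.one_mulVec, h,
    smul_smul, ← sub_smul] at h1
  exact (smul_left_injective k hv h1).symm

/-- three eigenlines -/
theorem three_eig {m : Matrix (Fin 2) (Fin 2) k} {u v w : Fin 2 → k} (hu : u ≠ 0) (hv : v ≠ 0)
    (hw : w ≠ 0) {a b c : k} (e1 : m.mulVec u = a • u) (e2 : m.mulVec v = b • v)
    (e3 : m.mulVec w = c • w) (huv : ∀ t : k, v ≠ t • u) (huw : ∀ t : k, w ≠ t • u)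
    (hvw : ∀ t : k, w ≠ t • v) : m = a • 1 := by
  have ker : ∀ {x y : Fin 2 → k} {s : k}, x ≠ 0 → m ≠ s • 1 → m.mulVec x = s • x →
      m.mulVec y = s • y → ∃ t : k, y = t • x := by
    intro x y s hx hm h1 h2
    refine ker_line (sub_ne_zero.2 hm) hx ?_ ?_
    · rw [Matrix.sub_mulVec, Matrix.smul_mulVec, Matrix.one_mulVec, h1, sub_self]
    · rw [Matrix.sub_mulVec, Matrix.smul_mulVec, Matrix.one_mulVec, h2, sub_self]
  by_contra hm
  have hab : b ≠ a := by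
    rintro rfl
    obtain ⟨t, ht⟩ := ker hu hm e1 e2
    exact huv t ht
  have hac : c ≠ a := by
    rintro rfl
    obtain ⟨t, ht⟩ := ker hu hm e1 e3
    exact huw t ht
  have hm' : m ≠ b • 1 := by
    rintro rfl
    rw [Matrix.smul_mulVec, Matrix.one_mulVec] at e1
    exact hab (smul_left_injective k hu e1)
  have hbc : c ≠ b := by
    rintro rfl
    obtain ⟨t, ht⟩ := ker hv hm' e2 e3
    exact hvw t ht
  have r1 := eig_root hu e1
  have r2 := eig_root hv e2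
  have r3 := eig_root hw e3
  have s1 : a + b = m.trace := by
    apply mul_left_cancel₀ (sub_ne_zero.2 hab)
    linear_combination r2 - r1
  have s2 : a + c = m.trace := by
    apply mul_left_cancel₀ (sub_ne_zero.2 hac)
    linear_combination r3 - r1
  exact hbc (by linear_combination s2 - s1)

end Mat

variable {G : Type*} [Group G] {k : Type*} [Field k] (ρ : G →* Matrix (Fin 2) (Fin 2) k)

theorem rho_ne_zero (g : G) {v : Fin 2 → k} (hv : v ≠ 0) : (ρ g).mulVec v ≠ 0 := by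
  intro h
  apply hv
  have h1 : (ρ g⁻¹).mulVec ((ρ g).mulVec v) = v := by
    rw [Matrix.mulVec_mulVec, ← map_mul, inv_mul_cancel, map_one, Matrix.one_mulVec]
  rw [← h1, h, Matrix.mulVec_zero]

/-- the stabilizer of a line -/
def stabLine (v : Fin 2 → k) : Subgroup G where
  carrier := {g | ∃ c : k, (ρ g).mulVec v = c • v}
  one_mem' := ⟨1, by rw [map_one, Matrix.one_mulVec, one_smul]⟩
  mul_mem' := by
    rintro a b ⟨c, hc⟩ ⟨d, hd⟩
    exact ⟨d * c, by rw [map_mul, ← Matrix.mulVec_mulVec, hd, Matrix.mulVec_smul, hc, smul_smul]⟩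
  inv_mem' := by
    rintro a ⟨c, hc⟩
    have h1 : (ρ a⁻¹).mulVec ((ρ a).mulVec v) = v := by
      rw [Matrix.mulVec_mulVec, ← map_mul, inv_mul_cancel, map_one, Matrix.one_mulVec]
    rw [hc, Matrix.mulVec_smul] at h1
    by_cases h0 : c = 0
    · rw [h0, zero_smul] at h1
      exact ⟨0, by rw [← h1, smul_zero, Matrix.mulVec_zero]⟩
    · refine ⟨c⁻¹, ?_⟩
      calc (ρ a⁻¹).mulVec v = c⁻¹ • (c • (ρ a⁻¹).mulVec v) := by
            rw [smul_smul, inv_mul_cancel₀ h0, one_smul]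
        _ = c⁻¹ • v := by rw [h1]

variable {ρ}

theorem mem_stabLine {v : Fin 2 → k} {g : G} :
    g ∈ stabLine ρ v ↔ ∃ c : k, (ρ g).mulVec v = c • v := Iff.rfl

theorem stabLine_index {N : Subgroup G} (hN : ∀ g : G, ∀ x ∈ N, g⁻¹ * x * g ∈ N)
    {v : Fin 2 → k} (hv : v ≠ 0) (hev : ∀ x ∈ N, ∃ c : k, (ρ x).mulVec v = c • v) {x : G}
    (hx : x ∈ N) (hxs : ∀ c : k, ρ x ≠ c • 1) {a : G} (ha : a ∉ stabLine ρ v) :
    (stabLine ρ v).index = 2 := by
  have heig : ∀ g : G, ∃ c : k, (ρ x).mulVec ((ρ g).mulVec v) = c • (ρ g).mulVec v := by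
    intro g
    obtain ⟨c, hc⟩ := hev _ (hN g x hx)
    refine ⟨c, ?_⟩
    rw [← Matrix.mulVec_smul, ← hc, Matrix.mulVec_mulVec, Matrix.mulVec_mulVec, ← map_mul,
      ← map_mul]
    congr 2
    group
  rw [Subgroup.index_eq_two_iff]
  refine ⟨a, fun b => ?_⟩
  by_cases hb : b ∈ stabLine ρ v
  · refine Or.inr ⟨hb, fun h => ha ?_⟩
    have := (stabLine ρ v).mul_mem ((stabLine ρ v).inv_mem hb) h
    rwa [inv_mul_cancel_left] at this
  · refine Or.inl ⟨?_, hb⟩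
    obtain ⟨c1, h1⟩ := heig 1
    rw [map_one, Matrix.one_mulVec] at h1
    obtain ⟨c2, h2⟩ := heig a
    obtain ⟨c3, h3⟩ := heig b⁻¹
    by_contra hab
    refine hxs c1 (three_eig hv (rho_ne_zero ρ a hv) (rho_ne_zero ρ b⁻¹ hv) h1 h2 h3
      (fun t ht => ha ⟨t, ht⟩) (fun t ht => hb ?_) (fun t ht => hab ?_))
    · have : b⁻¹ ∈ stabLine ρ v := ⟨t, ht⟩
      have := (stabLine ρ v).inv_mem this
      rwa [inv_inv] at this
    · have h4 : (ρ b).mulVec ((ρ b⁻¹).mulVec v) = v := by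
        rw [Matrix.mulVec_mulVec, ← map_mul, mul_inv_cancel, map_one, Matrix.one_mulVec]
      rw [ht, Matrix.mulVec_smul, Matrix.mulVec_mulVec, ← map_mul] at h4
      have h0 : t ≠ 0 := by
        rintro rfl
        rw [zero_smul] at h4
        exact hv h4.symm
      refine ⟨t⁻¹, ?_⟩
      calc (ρ (b * a)).mulVec v = t⁻¹ • (t • (ρ (b * a)).mulVec v) := by
            rw [smul_smul, inv_mul_cancel₀ h0, one_smul]
        _ = t⁻¹ • v := by rw [h4]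

variable [IsAlgClosed k]

theorem exists_eig (m : Matrix (Fin 2) (Fin 2) k) : ∃ v : Fin 2 → k, v ≠ 0 ∧
    ∃ c : k, m.mulVec v = c • v := by
  obtain ⟨c, hc⟩ := IsAlgClosed.exists_root (m.charpoly) (by
    rw [Matrix.charpoly_degree_eq_dim]; simp)
  have hdet : (m - c • 1).det = 0 := by
    rw [Polynomial.IsRoot, Matrix.eval_charpoly] at hc
    have h1 : m - c • 1 = -(Matrix.scalar (Fin 2) c - m) := by
      rw [neg_sub]
      congr 1
      ext i j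
      simp [Matrix.scalar_apply, Matrix.diagonal_apply, Matrix.one_apply]
    rw [h1, Matrix.det_neg, hc, mul_zero]
  obtain ⟨v, hv0, hv⟩ := Matrix.exists_mulVec_eq_zero_iff.2 hdet
  refine ⟨v, hv0, c, ?_⟩
  rwa [Matrix.sub_mulVec, Matrix.smul_mulVec, Matrix.one_mulVec, sub_eq_zero] at hv

/-- **no abelian normal subgroup `N` with `G/N` of exponent two and order at most four** if
no line is stable under a subgroup of index two. -/
theorem false_of_ind {N H : Subgroup G} (hN : ∀ g : G, ∀ x ∈ N, g⁻¹ * x * g ∈ N)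
    (hab : ∀ x ∈ N, ∀ y ∈ N, ρ x * ρ y = ρ y * ρ x) (hH : NoLine ρ H) {τ : G}
    (hHN : ∀ g ∈ H, g ∈ N ∨ τ⁻¹ * g ∈ N)
    (hind : ∀ H' : Subgroup G, H'.index = 2 → NoLine ρ H') : False := by
  by_cases hsc : ∀ x ∈ N, ∃ c : k, ρ x = c • 1
  · obtain ⟨v, hv0, c, hc⟩ := exists_eig (ρ τ)
    obtain ⟨g, hg, hgc⟩ := hH v hv0
    rcases hHN g hg with h1 | h1
    · obtain ⟨d, hd⟩ := hsc g h1
      exact hgc d (by rw [hd, Matrix.smul_mulVec, Matrix.one_mulVec])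
    · obtain ⟨d, hd⟩ := hsc _ h1
      apply hgc (d * c)
      have h2 : ρ g = ρ τ * ρ (τ⁻¹ * g) := by rw [← map_mul, mul_inv_cancel_left]
      rw [h2, ← Matrix.mulVec_mulVec, hd, Matrix.smul_mulVec, Matrix.one_mulVec,
        Matrix.mulVec_smul, hc, smul_smul]
  · push Not at hsc
    obtain ⟨x, hx, hxs⟩ := hsc
    obtain ⟨v, hv0, hv⟩ := exists_eigenvector hab
    obtain ⟨g, -, hgc⟩ := hH v hv0
    have hidx := stabLine_index hN hv0 hv hx hxs (a := g) (by rintro ⟨c, hc⟩; exact hgc c hc)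
    obtain ⟨g', ⟨c, hc⟩, hgc'⟩ := hind _ hidx v hv0
    exact hgc' c hc

omit [IsAlgClosed k] in
/-- a subgroup inverted by an involution is abelian -/
theorem comm_of {N : Subgroup G} {g₀ : G}
    (hC : ∀ x ∈ N, (ρ (g₀ * x)).trace = 0 ∧ (ρ (g₀ * x)).det = -1) :
    ∀ x ∈ N, ∀ y ∈ N, ρ x * ρ y = ρ y * ρ x := by
  have hinv : ∀ x ∈ N, ρ g₀ * ρ x * (ρ g₀ * ρ x) = 1 := by
    intro x hx
    obtain ⟨h1, h2⟩ := hC x hx
    rw [← map_mul, cayley, h1, h2, zero_smul, neg_one_smul, zero_sub, neg_neg]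
  have hg : ρ g₀ * ρ g₀ = 1 := by
    have := hinv 1 N.one_mem
    rwa [map_one, mul_one] at this
  intro x hx y hy
  have e : ∀ x ∈ N, ρ x⁻¹ = ρ g₀ * ρ x * ρ g₀ := by
    intro x hx
    have h1 := hinv x hx
    have h2 : ρ x * ρ x⁻¹ = 1 := by rw [← map_mul, mul_inv_cancel, map_one]
    calc ρ x⁻¹ = ρ g₀ * ρ x * (ρ g₀ * ρ x) * ρ x⁻¹ := by rw [h1, one_mul]
      _ = ρ g₀ * ρ x * ρ g₀ := by
        rw [mul_assoc, mul_assoc (ρ g₀) (ρ x) (ρ x⁻¹), h2, mul_one]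
  have h3 : ρ (x * y)⁻¹ = ρ x⁻¹ * ρ y⁻¹ := by
    rw [e _ (N.mul_mem hx hy), e x hx, e y hy, map_mul]
    calc ρ g₀ * (ρ x * ρ y) * ρ g₀ = ρ g₀ * ρ x * 1 * ρ y * ρ g₀ := by noncomm_ring
      _ = ρ g₀ * ρ x * (ρ g₀ * ρ g₀) * ρ y * ρ g₀ := by rw [hg]
      _ = _ := by noncomm_ring
  rw [mul_inv_rev, map_mul] at h3
  have h4 : ρ y * ρ y⁻¹ = 1 := by rw [← map_mul, mul_inv_cancel, map_one]
  have h5 : ρ x * ρ x⁻¹ = 1 := by rw [← map_mul, mul_inv_cancel, map_one]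
  have h6 : ρ x⁻¹ * ρ x = 1 := by rw [← map_mul, inv_mul_cancel, map_one]
  have h7 : ρ y⁻¹ * ρ y = 1 := by rw [← map_mul, inv_mul_cancel, map_one]
  calc ρ x * ρ y = ρ x * ρ y * (ρ y⁻¹ * ρ x⁻¹) * (ρ x * ρ y) := by
        rw [show ρ x * ρ y * (ρ y⁻¹ * ρ x⁻¹) = ρ x * (ρ y * ρ y⁻¹) * ρ x⁻¹ by noncomm_ring,
          h4, mul_one, h5, one_mul]
    _ = ρ y * ρ x * (ρ x⁻¹ * ρ y⁻¹) * (ρ x * ρ y) := by
        rw [show ρ x * ρ y * (ρ y⁻¹ * ρ x⁻¹) = ρ x * (ρ y * ρ y⁻¹) * ρ x⁻¹ by noncomm_ring,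
          show ρ y * ρ x * (ρ x⁻¹ * ρ y⁻¹) = ρ y * (ρ x * ρ x⁻¹) * ρ y⁻¹ by noncomm_ring,
          h4, h5, mul_one, mul_one, h4, h5]
    _ = ρ y * ρ x * (ρ y⁻¹ * ρ x⁻¹) * (ρ x * ρ y) := by rw [h3]
    _ = ρ y * ρ x := by
        rw [show ρ y * ρ x * (ρ y⁻¹ * ρ x⁻¹) * (ρ x * ρ y) =
          ρ y * ρ x * (ρ y⁻¹ * (ρ x⁻¹ * ρ x) * ρ y) by noncomm_ring, h6, mul_one, h7, mul_one]

end Fermat.Agent.Full
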