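import Fermat.Agent.Flat.Final
import Fermat.Agent.LL.FlatGlue
import Fermat.Agent.LL.BN
import Fermat.Agent.PPart.OrdLoc
import Fermat.Agent.Wire.QuadChar
import Fermat.Agent.TW.Main

set_option autoImplicit false
set_option linter.unusedSectionVars false
set_option linter.style.haveILetI false
set_option linter.unusedSimpArgs false

/-!
# Irreducibility on subgroups of index two, `p ≥ 5`, by the action of inertia at `p`
-/

open GaloisRep Fermat.Agent.CFT.Loc Fermat.Agent.CFT Matrix Fermat.Agent.TW Fermat.Agent.DefRing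
  Fermat.Agent.Flat Fermat.Agent.PPart

namespace Fermat.Agent.Full

local notation "Γℚ" => (AlgebraicClosure ℚ ≃ₐ[ℚ] AlgebraicClosure ℚ)
local notation "M₂" => Matrix (Fin 2) (Fin 2)
local notation "Qb" => AlgebraicClosure ℚ

section Local

variable {p : ℕ} [hp : Fact p.Prime] {k : Type*} [Field k] [CharP k p]

theorem generator_pow_ne {π : PadicAlgCl p} (hπ : IsPi π) {σ₀ : inertiaLoc p}
    (hord : orderOf (hπ.psiI σ₀) = p ^ 2 - 1) {n : ℕ} (h0 : 0 < n) (hn : n < p ^ 2 - 1) :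
    psi π (σ₀ : GalLoc p) ^ n ≠ 1 := by
  intro h
  have h1 : psi π (σ₀ : GalLoc p) ^ n = psi π (σ₀ : GalLoc p) ^ 0 := by rw [h, pow_zero]
  rw [psi_pow_eq_iff hπ hord] at h1
  have h2 := (Nat.modEq_zero_iff_dvd).1 h1
  exact absurd (Nat.le_of_dvd h0 h2) (by omega)

/-- the ordinary case -/
theorem tame_of_cyc (hp5 : 5 ≤ p) {ζ : PadicAlgCl p} (hζ : IsPrimitiveRoot ζ p)
    {r : GalLoc p →* M₂ k}
    (htr : ∀ τ ∈ inertiaLoc p, ∀ a : ℕ, τ ζ = ζ ^ a → (r τ).trace = a + 1) :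
    ∃ σ₀ ∈ inertiaLoc p, (r σ₀).trace ≠ 0 ∧
      ∀ τ ∈ inertiaLoc p, (r τ).trace = 0 → (r (τ * σ₀)).trace ≠ 0 := by
  obtain ⟨π, hπ⟩ := exists_isPi (p := p)
  obtain ⟨σ₀, hord, -⟩ := hπ.exists_generator
  obtain ⟨a, ha⟩ := exists_zmod_val hζ (σ₀ : GalLoc p)
  have hsq : ((a.val : ℕ) : k) ^ 2 ≠ 1 := by
    intro h1
    have h2 : ((a.val ^ 2 : ℕ) : k) = ((1 : ℕ) : k) := by push_cast; exact h1
    have h3 := (CharP.natCast_eq_natCast k p).mp h2
    have h4 := (CharP.natCast_eq_natCast (ResF p) p).mpr h3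
    push_cast at h4
    rw [← hπ.psi_cyc hζ σ₀.2 ha, ← pow_mul] at h4
    refine generator_pow_ne hπ hord (by positivity) ?_ h4
    have : p ^ 2 = p * p := sq p
    have : 5 * p ≤ p * p := Nat.mul_le_mul_right p hp5
    omega
  refine ⟨σ₀, σ₀.2, ?_, fun τ hτ h0 => ?_⟩
  · rw [htr σ₀ σ₀.2 _ ha]
    intro h
    apply hsq
    linear_combination ((a.val : ℕ) - 1 : k) * h
  · obtain ⟨b, hb⟩ := exists_zmod_val hζ τ
    have h1 := htr τ hτ _ hb
    rw [h0] at h1
    have h2 : (τ * (σ₀ : GalLoc p)) ζ = ζ ^ (b.val * a.val) := by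
      rw [AlgEquiv.mul_apply, ha, map_pow, hb, ← pow_mul]
    rw [htr _ (mul_mem hτ σ₀.2) _ h2]
    intro h3
    push_cast at h3
    apply hsq
    linear_combination (-1 - ((a.val : ℕ) : k)) * h3 + ((a.val : ℕ) : k) * (1 + ((a.val : ℕ) : k)) * (-h1)

/-- the irreducible flat case -/
theorem tame_of_super (hp5 : 5 ≤ p) [Finite k] {r : GalLoc p →* M₂ k} {F : GalLoc p}
    {χ : inertiaLoc p →* kˣ} {β γ : k} {π ζ : PadicAlgCl p} (hS : SD p r F χ β γ π ζ) :
    ∃ σ₀ ∈ inertiaLoc p, (r σ₀).trace ≠ 0 ∧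
      ∀ τ ∈ inertiaLoc p, (r τ).trace = 0 → (r (τ * σ₀)).trace ≠ 0 := by
  obtain ⟨lam, hlam⟩ := hS.exists_lam
  obtain ⟨σ₀, hord, -⟩ := hS.hπ.exists_generator
  have htr : ∀ τ : inertiaLoc p, (r τ).trace = (χ τ : k) + (χ τ : k) ^ p := fun τ => by
    rw [hS.form.inertia, Matrix.trace_fin_two_of]
  have hpow : ∀ n : ℕ, 0 < n → n < p ^ 2 - 1 → (χ σ₀ : k) ^ n ≠ 1 := by
    intro n h0 hn h
    refine generator_pow_ne hS.hπ hord h0 hn ?_
    rw [← hlam, ← map_pow]
    have : (chi2 χ hS.form.sq σ₀ : K2 p k) ^ n = 1 := Subtype.ext h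
    rw [this, map_one]
  have hlt : 2 * (p - 1) < p ^ 2 - 1 := by
    have : p ^ 2 = p * p := sq p
    have : 5 * p ≤ p * p := Nat.mul_le_mul_right p hp5
    omega
  have hp1 : p = (p - 1) + 1 := by omega
  refine ⟨σ₀, σ₀.2, ?_, fun τ hτ h0 => ?_⟩
  · rw [htr]
    intro h
    refine hpow (2 * (p - 1)) (by omega) hlt ?_
    have h1 : (χ σ₀ : k) * ((χ σ₀ : k) ^ (p - 1) + 1) = 0 := by
      rw [mul_add, mul_one, ← pow_succ', ← hp1, add_comm]; exact h
    have h2 := (mul_eq_zero.1 h1).resolve_left (χ σ₀).ne_zero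
    rw [mul_comm, pow_mul]
    have h3 : (χ σ₀ : k) ^ (p - 1) = -1 := by linear_combination h2
    rw [h3]; ring
  · intro h
    have e1 := htr ⟨τ, hτ⟩
    have e2 := htr (⟨τ, hτ⟩ * σ₀)
    change (r τ).trace = _ at e1
    change (r (τ * σ₀)).trace = _ at e2
    rw [h0] at e1
    rw [h, map_mul, Units.val_mul, mul_pow] at e2
    refine hpow (p - 1) (by omega) (by omega) ?_
    have h3 : (χ ⟨τ, hτ⟩ : k) * ((χ σ₀ : k) * ((χ σ₀ : k) ^ (p - 1) - 1)) = 0 := by
      have h4 : (χ σ₀ : k) * (χ σ₀ : k) ^ (p - 1) = (χ σ₀ : k) ^ p := by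
        rw [← pow_succ', ← hp1]
      linear_combination (χ ⟨τ, hτ⟩ : k) * h4 + e2 - (χ σ₀ : k) ^ p * e1
    have h5 := (mul_eq_zero.1 h3).resolve_left (χ ⟨τ, hτ⟩).ne_zero
    have h6 := (mul_eq_zero.1 h5).resolve_left (χ σ₀).ne_zero
    exact sub_eq_zero.1 h6

theorem trace_conj' {r r' : GalLoc p →* M₂ k} {P : M₂ k} (hP : IsUnit P.det)
    (h : ∀ g, r g * P = P * r' g) (g : GalLoc p) : (r g).trace = (r' g).trace := by
  have h1 : r g = P * r' g * P⁻¹ := by
    rw [← h, Matrix.mul_assoc, Matrix.mul_nonsing_inv _ hP, Matrix.mul_one]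
  rw [h1, Matrix.trace_mul_comm, ← Matrix.mul_assoc, Matrix.nonsing_inv_mul _ hP, Matrix.one_mul]

/-- the flat case -/
theorem tame_of_flat (hp5 : 5 ≤ p) [Finite k] {r : GalLoc p →* M₂ k}
    (hlc : (locLevels p).LC r)
    (hdet : ∀ τ ∈ inertiaLoc p, ∀ (ζ : PadicAlgCl p) (a : ℕ), IsPrimitiveRoot ζ p →
      τ ζ = ζ ^ a → (r τ).det = a)
    (hsplit : ∀ σ, ∃ α β : k,
      (r σ).charpoly = (Polynomial.X - Polynomial.C α) * (Polynomial.X - Polynomial.C β))
    (hfl : FlatV r) :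
    ∃ σ₀ ∈ inertiaLoc p, (r σ₀).trace ≠ 0 ∧
      ∀ τ ∈ inertiaLoc p, (r τ).trace = 0 → (r (τ * σ₀)).trace ≠ 0 := by
  have hp2 : p ≠ 2 := by omega
  obtain ⟨π, hπ⟩ : ∃ π : PadicAlgCl p, IsPi π := exists_isPi
  obtain ⟨ζ, hζ⟩ : ∃ ζ : PadicAlgCl p, IsPrimitiveRoot ζ p := exists_primitive
  obtain ⟨F, hF, hFπ⟩ := hπ.exists_frob
  by_cases hline : NoLine r
  · obtain ⟨O, hO⟩ := hfl
    obtain ⟨σ₀, a, ha, hne⟩ := exists_cyc_ne hp2 hπ hζ k
    obtain ⟨P, r', χ, β, γ, hP, h, hform⟩ := exists_superForm hO hlc hline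
      ⟨σ₀, σ₀.2, fun h1 => by
        have h2 := hdet σ₀ σ₀.2 ζ a.val hζ ha
        rw [h1, Matrix.det_one] at h2
        exact hne h2.symm⟩ hsplit hF
    have hS : SD p r' F χ β γ π ζ :=
      { hp2 := hp2
        form := hform
        hπ := hπ
        hζ := hζ
        frob := hF
        fix := hFπ
        cyc := fun τ a ha => by
          have h1 := hdet τ τ.2 ζ a hζ ha
          rw [← det_conj hP h, hform.inertia, Matrix.det_fin_two_of, mul_zero, sub_zero] at h1
          rw [pow_succ', h1]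
        flat := FlatV_conj hP h ⟨O, hO⟩ }
    obtain ⟨σ₀, h1, h2, h3⟩ := tame_of_super hp5 hS
    refine ⟨σ₀, h1, ?_, fun τ hτ => ?_⟩
    · rw [trace_conj' hP h]; exact h2
    · rw [trace_conj' hP h, trace_conj' hP h]; exact h3 τ hτ
  · obtain ⟨P, r', hP, h, hR⟩ := exists_RD hp2 hπ hζ hF hFπ hfl hlc
      (fun τ hτ a ha => hdet τ hτ ζ a hζ ha) hline
    refine tame_of_cyc hp5 hζ fun τ hτ a ha => ?_
    rw [trace_conj' hP h, Matrix.trace_fin_two, hR.cyc τ hτ a ha, hR.one τ hτ]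

end Local

section Linear

variable {K M Γ : Type*} [Field K] [AddCommGroup M] [Module K M] [Group Γ]

/-- elements outside a subgroup of index two with a stable line have trace zero -/
theorem trace_eq_zero_of_stable (hfr : Module.finrank K M = 2) (T : Γ →* Module.End K M)
    (hspan : Submodule.span K (Set.range T) = ⊤) (G : Subgroup Γ) (hG : G.index = 2)
    (V : Submodule K M) (hV : ∀ σ ∈ G, ∀ x ∈ V, T σ x ∈ V) (hb : V ≠ ⊥) (ht : V ≠ ⊤) {σ : Γ}
    (hσ : σ ∉ G) : LinearMap.trace K M (T σ) = 0 := by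
  have hfin : Module.Finite K M := Module.finite_of_finrank_eq_succ hfr
  have h1 : Module.finrank K V = 1 := by
    have h2 : Module.finrank K V < 2 := hfr ▸ Submodule.finrank_lt ht
    have h3 : Module.finrank K V ≠ 0 := fun h => hb (Submodule.finrank_eq_zero.mp h)
    omega
  obtain ⟨x, hx0, hx⟩ := finrank_eq_one_iff'.mp h1
  have hx0' : (x : M) ≠ 0 := fun h => hx0 (Subtype.ext h)
  -- `T σ x ∉ V`
  have hnot : T σ x ∉ V := by
    intro hmem
    apply ht
    have hall : ∀ γ : Γ, ∀ y ∈ V, T γ y ∈ V := by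
      intro γ y hy
      by_cases hγ : γ ∈ G
      · exact hV γ hγ y hy
      · have h2 : γ * σ⁻¹ ∈ G := by
          rw [Subgroup.mul_mem_iff_of_index_two hG, inv_mem_iff]
          simp [hσ, hγ]
        obtain ⟨c, hc⟩ := hx ⟨y, hy⟩
        have h3 : T γ y = T (γ * σ⁻¹) (T σ y) := by
          rw [← Module.End.mul_apply, ← map_mul, inv_mul_cancel_right]
        rw [h3]
        refine hV _ h2 _ ?_
        have h4 : y = c • (x : M) := (congrArg Subtype.val hc).symm
        rw [h4, map_smul]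
        exact V.smul_mem c hmem
    have hEnd : ∀ E : Module.End K M, ∀ y ∈ V, E y ∈ V := by
      intro E y hy
      have hE : E ∈ Submodule.span K (Set.range T) := by rw [hspan]; trivial
      induction hE using Submodule.span_induction with
      | mem E hE => obtain ⟨γ, rfl⟩ := hE; exact hall γ y hy
      | zero => exact V.zero_mem
      | add E E' _ _ h h' => exact V.add_mem h h'
      | smul c E _ h => exact V.smul_mem c h
    rw [eq_top_iff]
    rintro v -
    obtain ⟨g, hg⟩ := Module.Projective.exists_dual_ne_zero K hx0'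
    have h5 := hEnd (g.smulRight ((g x)⁻¹ • v)) x x.2
    rwa [LinearMap.smulRight_apply, smul_smul, mul_inv_cancel₀ hg, one_smul] at h5
  -- Cayley-Hamilton
  have hsq : T σ (T σ x) ∈ V := by
    rw [← Module.End.mul_apply, ← map_mul]
    have := Subgroup.sq_mem_of_index_two hG σ
    rw [sq] at this
    exact hV _ this x x.2
  have hCH := LinearMap.aeval_self_charpoly (T σ)
  rw [Cheb.charpoly_eq hfr] at hCH
  have hCH' := LinearMap.congr_fun hCH (x : M)
  simp only [map_add, map_sub, map_mul, map_pow, Polynomial.aeval_X, Polynomial.aeval_C,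
    LinearMap.add_apply, LinearMap.sub_apply, Module.End.mul_apply, LinearMap.zero_apply,
    Module.algebraMap_end_apply, sq] at hCH'
  by_contra hne
  apply hnot
  have h6 : LinearMap.trace K M (T σ) • (T σ) x ∈ V := by
    have h7 : LinearMap.trace K M (T σ) • (T σ) x =
        T σ (T σ x) + LinearMap.det (T σ) • (x : M) := by
      rw [eq_comm, ← sub_eq_zero, ← hCH']
      abel
    rw [h7]
    exact V.add_mem hsq (V.smul_mem _ x.2)
  have h8 := V.smul_mem (LinearMap.trace K M (T σ))⁻¹ h6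
  rwa [smul_smul, inv_mul_cancel₀ hne, one_smul] at h8

end Linear

section Global

variable {p : ℕ} [hp : Fact p.Prime] {k : Type} [Field k] {ρbar : ResidualGaloisRep k}

/-- elements outside a subgroup of index two with a stable line have trace zero -/
theorem trace_eq_zero_of_index_two (habs : ρbar.IsAbsolutelyIrreducible) (K : Type) [Field K]
    [Algebra k K] (G : Subgroup Γℚ) (hG : G.index = 2) (V : Submodule K (ρbar.baseChange K).V)
    (hV : ∀ σ ∈ G, ∀ x ∈ V, (ρbar.baseChange K).ρ σ x ∈ V) (hb : V ≠ ⊥) (ht : V ≠ ⊤) {σ : Γℚ}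
    (hσ : σ ∉ G) : LinearMap.trace k ρbar.V (ρbar.ρ σ) = 0 := by
  have htr0 := trace_eq_zero_of_stable (ρbar.baseChange K).finrank_eq (ρbar.baseChange K).ρ
    (LL.span_range_baseChange (k' := K) ρbar (LL.span_range_of_absIrr ρbar habs)) G hG V hV hb ht hσ
  have h9 : LinearMap.trace K (ρbar.baseChange K).V ((ρbar.baseChange K).ρ σ) =
      algebraMap k K (LinearMap.trace k ρbar.V (ρbar.ρ σ)) :=
    LinearMap.trace_baseChange (ρbar.ρ σ) K
  rw [h9] at htr0
  exact (map_eq_zero_iff _ (algebraMap k K).injective).1 htr0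

/-- a subgroup of index two such that inertia at all primes outside it has nonzero trace -/
theorem false_of_index_two {t : Γℚ → k} (ht1 : ∀ σ, ρbar.ρ σ = 1 → t σ ≠ 0) (G : Subgroup Γℚ)
    (hG : G.index = 2) (ht : ∀ σ, σ ∉ G → t σ = 0)
    (hq : ∀ q : ℕ, q.Prime → q ≠ p → ∀ A : ValuationSubring Qb, A.LiesOverPrime q →
      ∀ σ ∈ A.inertiaSubgroupIn ℚ, t σ ≠ 0)
    (hp' : ∃ σ₀ ∈ inertiaLoc p, t (localGaloisToGlobal p σ₀) ≠ 0 ∧
      ∀ τ ∈ inertiaLoc p, t (localGaloisToGlobal p τ) = 0 →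
        t (localGaloisToGlobal p (τ * σ₀)) ≠ 0) : False := by
  classical
  have hker : ∀ σ, ρbar.ρ σ = 1 → σ ∈ G := fun σ h => by
    by_contra hσ
    exact ht1 σ h (ht σ hσ)
  -- inertia at the chosen place over `p`
  have hI : ∀ τ ∈ (padicPlace p).inertiaSubgroupIn ℚ, τ ∈ G := by
    obtain ⟨σ₀, hσ₀, h1, h2⟩ := hp'
    have hσ₀G : localGaloisToGlobal p σ₀ ∈ G := by
      by_contra h
      exact h1 (ht _ h)
    intro τ hτ
    obtain ⟨s, rfl⟩ : ∃ s : GalLoc p, localGaloisToGlobal p s = τ := by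
      have : τ ∈ (padicPlace p).decompositionSubgroup ℚ :=
        ((Frob.mem_inertiaSubgroupIn_iff _ _).1 hτ).1
      rw [← range_localGaloisToGlobal] at this
      exact this
    have hs := (localGaloisToGlobal_mem_inertia_iff p s).1 hτ
    by_contra hG'
    refine h2 s hs (ht _ hG') (ht _ ?_)
    rw [map_mul, Subgroup.mul_mem_iff_of_index_two hG]
    simp [hG', hσ₀G]

  have hnorm := Subgroup.normal_of_index_eq_two hG
  have hIp : ∀ A : ValuationSubring Qb, A.LiesOverPrime p → ∀ τ ∈ A.inertiaSubgroupIn ℚ,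
      τ ∈ G := by
    intro A hA τ hτ
    obtain ⟨g, rfl⟩ := Frob.exists_smul_eq hp.out (padicPlace_liesOverPrime p) hA
    rw [Frob.mem_inertiaSubgroupIn_smul_iff] at hτ
    have h2 := hnorm.conj_mem _ (hI _ hτ) g
    have h3 : g * (g⁻¹ * τ * g) * g⁻¹ = τ := by group
    rwa [h3] at h2
  refine Wire.idxChar_ne_one hG ?_
  ext σ
  refine congrArg _ (Frob.eq_one_of_unramified (Wire.idxChar G hG) ?_ ?_ σ)
  · obtain ⟨L, hL, h⟩ := ρbar.factorsThroughFiniteLevel
    exact ⟨L, hL, fun σ hσ => Wire.idxChar_of_mem hG (hker σ (h σ hσ))⟩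
  · intro ℓ hℓ A hA τ hτ
    refine Wire.idxChar_of_mem hG ?_
    by_cases hℓp : ℓ = p
    · subst hℓp
      exact hIp A hA τ hτ
    · by_contra h
      exact hq ℓ hℓ hℓp A hA τ hτ (ht τ h)

theorem trace_of_realizes {rb : Γℚ → M₂ k} (h : RealizesRes ρbar rb) (σ : Γℚ) :
    LinearMap.trace k ρbar.V (ρbar.ρ σ) = (rb σ).trace := by
  obtain ⟨b, hb⟩ := h
  rw [← hb σ, LinearMap.trace_eq_matrix_trace k b]

/-- unipotent elements have trace `2` -/
theorem trace_eq_two [Finite k] [CharP k p] {σ : Γℚ} (h : ρbar.ρ σ ^ p = 1) :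
    LinearMap.trace k ρbar.V (ρbar.ρ σ) = 2 := by
  obtain ⟨rb, hrb⟩ := exists_realizesRes ρbar
  have h0 : (rb σ) ^ p = 1 := by
    obtain ⟨b, hb⟩ := hrb
    rw [← hb σ, LinearMap.toMatrix_pow, h]
    exact LinearMap.toMatrix_one b
  haveI := Fintype.ofFinite k
  obtain ⟨n, -, hn⟩ := FiniteField.card k p
  have h1 := FiniteField.trace_pow_card (rb σ)
  have h2 : (rb σ) ^ Fintype.card k = 1 := by
    obtain ⟨m, hm⟩ := Nat.exists_eq_succ_of_ne_zero n.ne_zero
    rw [hn, hm, pow_succ', pow_mul, h0, one_pow]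
  rw [FiniteField.pow_card, h2, Matrix.trace_one, Fintype.card_fin] at h1
  rw [trace_of_realizes hrb, ← h1]
  norm_num

/-- flatness of a lift gives flatness of `ρbar`, locally -/
theorem flatV_of_lift [Finite k] {rb : Γℚ → M₂ k} (hrb : RealizesRes ρbar rb) {O' : Type}
    [CommRing O'] [IsLocalRing O'] (φ : k →+* IsLocalRing.ResidueField O') {ρ' : GaloisRepAdic O'}
    (hflat : ρ'.IsFlatAt p) (hres : ρ'.residual.IsEquiv (ρbar.baseChangeAlong φ)) :
    FlatV ((rHom hrb).comp (localGaloisToGlobal p)) := by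
  obtain ⟨r, hr, hrr⟩ := exists_realizes_of_residual_isEquiv ρ' (hrb.baseChangeAlong φ) hres
  have h1 := (LL.isFlatAt_iff_mv hr p).mp hflat
  haveI : Finite (IsLocalRing.ResidueField O') := h1.1
  have h2 := h1.2 (IsLocalRing.maximalIdeal O') ‹Finite (IsLocalRing.ResidueField O')›
  refine IsFlat.of_injective h2.toLocal
    (AddMonoidHom.mk' (fun (x : Fin 2 → k) i => (φ (x i) : O' ⧸ IsLocalRing.maximalIdeal O'))
      fun x y => ?_) ?_ ?_
  · funext i
    exact map_add φ _ _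
  · intro x y hxy
    funext i
    exact φ.injective (congrFun hxy i)
  · intro g x
    change (fun i => φ (((rb (localGaloisToGlobal p g)).mulVec x) i)) =
      ((r (localGaloisToGlobal p g)).map (Ideal.Quotient.mk (IsLocalRing.maximalIdeal O'))).mulVec
        (fun i => φ (x i))
    have h3 : (r (localGaloisToGlobal p g)).map
        (Ideal.Quotient.mk (IsLocalRing.maximalIdeal O')) =
        (rb (localGaloisToGlobal p g)).map φ := hrr _
    rw [h3]
    exact (LL.map_mulVec φ _ x).symm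

/-- **Irreducibility on subgroups of index two.** -/
theorem irr_index_two [Finite k] [CharP k p] (hp5 : 5 ≤ p) (habs : ρbar.IsAbsolutelyIrreducible)
    (hdet : (GaloisRepAdic.ofResidualGaloisRep ρbar).DetIsCyclotomic p)
    (hsplit : ∀ σ : Γℚ, ∃ α β : k, LinearMap.charpoly (ρbar.ρ σ) =
      (Polynomial.X - Polynomial.C α) * (Polynomial.X - Polynomial.C β))
    (hunip : ∀ q : ℕ, q.Prime → q ≠ p → ∀ A : ValuationSubring Qb, A.LiesOverPrime q →
      ∀ σ ∈ A.inertiaSubgroupIn ℚ, ρbar.ρ σ ^ p = 1)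
    (hloc : (∃ (O' : Type) (_ : CommRing O') (_ : IsLocalRing O')
      (φ : k →+* IsLocalRing.ResidueField O') (ρ' : GaloisRepAdic O'), ρ'.IsFlatAt p ∧
        ρ'.residual.IsEquiv (ρbar.baseChangeAlong φ)) ∨
      ∃ rb, RealizesRes ρbar rb ∧ OrdMat p (padicPlace p) rb)
    (K : Type) [Field K] [Algebra k K] (G : Subgroup Γℚ) (hG : G.index = 2)
    (V : Submodule K (ρbar.baseChange K).V)
    (hV : ∀ σ ∈ G, ∀ x ∈ V, (ρbar.baseChange K).ρ σ x ∈ V) : V = ⊥ ∨ V = ⊤ := by
  by_contra hcon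
  push Not at hcon
  letI : Algebra (ZMod p) k := ZMod.algebra k p
  have hdr : ∀ {rb : Γℚ → M₂ k} (hrb : RealizesRes ρbar rb) (τ : GalLoc p)
      {ζ : PadicAlgCl p} {a : ℕ}, IsPrimitiveRoot ζ p → τ ζ = ζ ^ a →
      (((rHom hrb).comp (localGaloisToGlobal p)) τ).det = (a : k) := by
    intro rb hrb τ ζ a hζ ha
    exact det_cyc (r := rHom hrb) (fun σ => det_eq_of_detIsCyclotomic hdet hrb σ) τ hζ ha
  have h2 : (2 : k) ≠ 0 := by
    intro h
    have h1 : ((2 : ℕ) : k) = 0 := by exact_mod_cast h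
    rw [CharP.cast_eq_zero_iff k p] at h1
    exact absurd (Nat.le_of_dvd (by norm_num) h1) (by omega)
  refine false_of_index_two (p := p) (ρbar := ρbar)
    (t := fun σ => LinearMap.trace k ρbar.V (ρbar.ρ σ)) (fun σ h => ?_) G hG
    (fun σ hσ => trace_eq_zero_of_index_two habs K G hG V hV hcon.1 hcon.2 hσ)
    (fun q hq hqp A hA σ hσ => ?_) ?_
  · rw [trace_eq_two (p := p) (by rw [h, one_pow])]; exact h2
  · rw [trace_eq_two (p := p) (hunip q hq hqp A hA σ hσ)]; exact h2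
  · rcases hloc with ⟨O', _, _, φ, ρ', hflat, hres⟩ | ⟨rb, hrb, hord⟩
    · obtain ⟨rb, hrb⟩ := exists_realizesRes ρbar
      have hlc : (locLevels p).LC ((rHom hrb).comp (localGaloisToGlobal p)) := by
        obtain ⟨L, hL, hLr⟩ := factors_rHom hrb
        have h1 : (galLevels ℚ (AlgebraicClosure ℚ)).LC (rHom hrb) :=
          ⟨L.fixingSubgroup, fixingSubgroup_mem_galLevels L, fun g s hs => by
            rw [map_mul, hLr s (fun x hx =>
              (IntermediateField.mem_fixingSubgroup_iff L s).mp hs x hx), mul_one]⟩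
        exact h1.precomp (Levels.cont_comap (𝓛 := galLevels ℚ (AlgebraicClosure ℚ))
          (localGaloisToGlobal p))
      obtain ⟨σ₀, h3, h4, h5⟩ := tame_of_flat hp5 hlc
        (fun τ _ ζ a hζ ha => hdr hrb τ hζ ha)
        (fun σ => by
          obtain ⟨α, β, h⟩ := hsplit (localGaloisToGlobal p σ)
          refine ⟨α, β, ?_⟩
          rw [← h]
          obtain ⟨b, hb⟩ := hrb
          change (rb (localGaloisToGlobal p σ)).charpoly = _
          rw [← hb, LinearMap.charpoly_toMatrix])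
        (flatV_of_lift hrb φ hflat hres)
      refine ⟨σ₀, h3, ?_, fun τ hτ => ?_⟩
      · rw [trace_of_realizes hrb]; exact h4
      · rw [trace_of_realizes hrb, trace_of_realizes hrb]; exact h5 τ hτ
    · have hl := OrdLoc.of_ordMat hord
      obtain ⟨ζ, hζ⟩ : ∃ ζ : PadicAlgCl p, IsPrimitiveRoot ζ p := exists_primitive
      obtain ⟨σ₀, h3, h4, h5⟩ := tame_of_cyc hp5 hζ
        (r := (rHom hrb).comp (localGaloisToGlobal p)) (fun τ hτ a ha => by
          have h6 : (rb (localGaloisToGlobal p τ)).det = (a : k) := hdr hrb τ hζ ha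
          rw [Matrix.det_fin_two, hl.dec τ, hl.ine τ hτ, mul_one, mul_zero,
            sub_zero] at h6
          change (rb (localGaloisToGlobal p τ)).trace = _
          rw [Matrix.trace_fin_two, hl.ine τ hτ, h6])
      refine ⟨σ₀, h3, ?_, fun τ hτ => ?_⟩
      · rw [trace_of_realizes hrb]; exact h4
      · rw [trace_of_realizes hrb, trace_of_realizes hrb]; exact h5 τ hτ

/-- the version with a lift of `ρbar` which is flat or strictly ordinary at `p` -/
theorem irr_index_two_of_lift {𝒪 : Type} [CommRing 𝒪] [IsDomain 𝒪] [IsDiscreteValuationRing 𝒪]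
    [IsAdicComplete (IsLocalRing.maximalIdeal 𝒪) 𝒪] [Finite (IsLocalRing.ResidueField 𝒪)]
    (hp𝒪 : (p : 𝒪) ∈ IsLocalRing.maximalIdeal 𝒪)
    {ρbar : ResidualGaloisRep (IsLocalRing.ResidueField 𝒪)} {ρW : GaloisRepAdic 𝒪} (hp5 : 5 ≤ p)
    (habs : ρbar.IsAbsolutelyIrreducible)
    (hdet : (GaloisRepAdic.ofResidualGaloisRep ρbar).DetIsCyclotomic p)
    (hsplit : ∀ σ : Γℚ, ∃ α β : IsLocalRing.ResidueField 𝒪, LinearMap.charpoly (ρbar.ρ σ) =
      (Polynomial.X - Polynomial.C α) * (Polynomial.X - Polynomial.C β))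
    (hunip : ∀ q : ℕ, q.Prime → q ≠ p → ∀ A : ValuationSubring Qb, A.LiesOverPrime q →
      ∀ σ ∈ A.inertiaSubgroupIn ℚ, ρbar.ρ σ ^ p = 1)
    (hres : ρW.residual.IsEquiv (ρbar.baseChangeAlong
      (IsLocalRing.ResidueField.map (algebraMap 𝒪 𝒪))))
    (hloc : ρW.IsFlatAt p ∨ ρW.IsStrictOrdinaryAt p)
    (K : Type) [Field K] [Algebra (IsLocalRing.ResidueField 𝒪) K] (G : Subgroup Γℚ)
    (hG : G.index = 2) (V : Submodule K (ρbar.baseChange K).V)
    (hV : ∀ σ ∈ G, ∀ x ∈ V, (ρbar.baseChange K).ρ σ x ∈ V) : V = ⊥ ∨ V = ⊤ := by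
  haveI : CharP (IsLocalRing.ResidueField 𝒪) p := by
    have h0 : (p : IsLocalRing.ResidueField 𝒪) = 0 := by
      rw [← map_natCast (IsLocalRing.residue 𝒪), IsLocalRing.residue_eq_zero_iff]
      exact hp𝒪
    obtain ⟨q, hq⟩ := CharP.exists (IsLocalRing.ResidueField 𝒪)
    have h1 : q ∣ p := (CharP.cast_eq_zero_iff _ q p).1 h0
    rcases (Nat.dvd_prime hp.out).1 h1 with h | h
    · exact absurd h (CharP.char_ne_one (IsLocalRing.ResidueField 𝒪) q)
    · exact h ▸ hq
  refine irr_index_two hp5 habs hdet hsplit hunip ?_ K G hG V hV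
  rcases hloc with h | h
  · exact Or.inl ⟨𝒪, inferInstance, inferInstance, _, ρW, h, hres⟩
  · obtain ⟨r, hr, hord⟩ := ((isStrictOrdinaryAt_iff ρW p).1 h).2 (padicPlace p)
      (padicPlace_liesOverPrime p)
    refine Or.inr ⟨_, ?_, hord.map (IsLocalRing.residue 𝒪)⟩
    obtain ⟨rb, hrb⟩ := exists_realizesRes ρbar
    have h1 := hrb.baseChangeAlong (IsLocalRing.ResidueField.map (algebraMap 𝒪 𝒪))
    have h2 : ∀ x : IsLocalRing.ResidueField 𝒪,
        IsLocalRing.ResidueField.map (algebraMap 𝒪 𝒪) x = x := by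
      intro x
      obtain ⟨y, rfl⟩ := IsLocalRing.residue_surjective x
      rfl
    have h3 : (fun σ => (rb σ).map (IsLocalRing.ResidueField.map (algebraMap 𝒪 𝒪))) = rb := by
      funext σ
      ext i j
      exact h2 _
    rw [h3] at h1
    exact (hr.residual.of_isEquiv hres).of_isEquiv (h1.isEquiv hrb)

end Global

end Fermat.Agent.Full
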