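import Fermat.Agent.Wire.CurveRes

set_option autoImplicit false

/-!
# Subgroups of index two: the case `p = 5`, without a condition at `2`

If the image of `ρ : Γℚ → GL₂(𝔽₅)` has no element of order `5`, `ρ` is unramified outside `5`, odd
and irreducible, then no subgroup `G` of index two has an eigenvector, over any extension `K`.

Suppose it has one. Then `ker ρ ⊆ G`, so `G` is the kernel of the quadratic character of `det ρ`
and contains the complex conjugation `c`. On `G` the representation is diagonal with eigenvalues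
`a, a'`, both in `𝔽₅` since `c ∈ G` has two different eigenvalues, and `a a' = ± 1`, so `a = ± a'`.
Hence every `ρ g` commutes or anticommutes with `ρ σ`, `σ ∉ G`, and the centralizer of `ρ σ` gives
another subgroup of index two, which does not contain `c`. This contradicts the uniqueness of the
quadratic character unramified outside `5`.
-/

open Matrix Polynomial WeierstrassCurve Fermat.Agent.ECRep Fermat.Agent.Wire

namespace Fermat.Agent.Full

local notation "Γℚ" => (AlgebraicClosure ℚ ≃ₐ[ℚ] AlgebraicClosure ℚ)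
local notation "Qb" => AlgebraicClosure ℚ

section lin

variable {K : Type*} [Field K] {P M M' R R' : Matrix (Fin 2) (Fin 2) K}

theorem conj_trace_det (hP : P.det ≠ 0) (h : R * P = P * M) :
    R.trace = M.trace ∧ R.det = M.det := by
  have hu : IsUnit P.det := isUnit_iff_ne_zero.mpr hP
  have h1 : R = P * M * P⁻¹ := by
    rw [← h, Matrix.mul_assoc, Matrix.mul_nonsing_inv _ hu, Matrix.mul_one]
  constructor
  · rw [h1, Matrix.trace_mul_comm, ← Matrix.mul_assoc, Matrix.nonsing_inv_mul _ hu,
      Matrix.one_mul]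
  · have h2 := congrArg Matrix.det h
    rw [Matrix.det_mul, Matrix.det_mul, mul_comm] at h2
    exact mul_left_cancel₀ hP h2

theorem conj_comm (hP : P.det ≠ 0) (h : R * P = P * M) (h' : R' * P = P * M') {s : K}
    (hs : M * M' = s • (M' * M)) : R * R' = s • (R' * R) := by
  have hu : IsUnit P.det := isUnit_iff_ne_zero.mpr hP
  have h1 : R * R' * P = s • (R' * R) * P := by
    rw [Matrix.mul_assoc, h', ← Matrix.mul_assoc, h, Matrix.mul_assoc, hs, Matrix.smul_mul,
      Matrix.mul_assoc R' R P, h, ← Matrix.mul_assoc R' P M, h', Matrix.mul_smul,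
      Matrix.mul_assoc]
  have h2 := congrArg (· * P⁻¹) h1
  simp only [Matrix.mul_assoc, Matrix.mul_nonsing_inv _ hu, Matrix.mul_one] at h2
  exact h2

theorem num_five : (2 : ZMod 5) ≠ 0 ∧ (-1 : ZMod 5) ≠ 0 ∧ (-1 : ZMod 5) = 2 * 2 := by decide

theorem sq_five : ∀ d : ZMod 5, d ≠ 0 → IsSquare d → d = 1 ∨ d = -1 := by decide

theorem eq_or_neg_five : ∀ a b : ZMod 5, a * b = 1 ∨ a * b = -1 → b = a ∨ b = -a := by decide

end lin

section five

variable [h5 : Fact (Nat.Prime 5)] (ρ : ResidualGaloisRep (ZMod 5))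

/-- **No common eigenvector on subgroups of index two**, `p = 5`. -/
theorem no_eigen_index_two_five (hno : ∀ σ : Γℚ, ρ.ρ σ ^ 5 = 1 → ρ.ρ σ = 1)
    (hunip : ∀ q : ℕ, q.Prime → q ≠ 5 → ∀ A : ValuationSubring Qb, A.LiesOverPrime q →
      ∀ σ ∈ A.inertiaSubgroupIn ℚ, ρ.ρ σ ^ 5 = 1) (K : Type*) [Field K] [Algebra (ZMod 5) K]
    (hirr : ρ.IsIrreducible) {c : Γℚ} (hc : c * c = 1)
    (hdet : LinearMap.det (ρ.ρ c) = -1) (hψ : psi (l := 5) ρ ≠ 1) {G : Subgroup Γℚ}
    (hG : G.index = 2) {w : Fin 2 → K} (hw : w ≠ 0) :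
    ∃ γ ∈ G, ∀ a : K, (LL.rm ρ γ).map (algebraMap (ZMod 5) K) *ᵥ w ≠ a • w := by
  by_contra hcon
  push Not at hcon

  have hnorm := Subgroup.normal_of_index_eq_two hG
  have h2K : (2 : K) ≠ 0 := by
    intro h
    have h1 : algebraMap (ZMod 5) K 2 = 0 := by rw [map_ofNat, h]
    rw [map_eq_zero_iff _ (algebraMap (ZMod 5) K).injective] at h1
    exact num_five.1 h1
  let R : Γℚ →* Matrix (Fin 2) (Fin 2) K :=
    ((algebraMap (ZMod 5) K).mapMatrix : Matrix (Fin 2) (Fin 2) (ZMod 5) →+* _).toMonoidHom.comp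
      (LL.rm ρ)
  have hR : ∀ g, R g = (LL.rm ρ g).map (algebraMap (ZMod 5) K) := fun g => rfl
  have htrR : ∀ g, (R g).trace = algebraMap (ZMod 5) K (LL.rm ρ g).trace := by
    intro g
    rw [hR, Matrix.trace_fin_two, Matrix.trace_fin_two, map_add]
    rfl
  have hdetR : ∀ g, (R g).det = algebraMap (ZMod 5) K (LL.rm ρ g).det := by
    intro g
    rw [hR, Matrix.det_fin_two, Matrix.det_fin_two, map_sub, map_mul, map_mul]
    rfl
  have hcon' : ∀ g ∈ G, ∃ a : K, R g *ᵥ w = a • w := hcon
  -- an element outside `G` with eigenvector `w` gives a contradiction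
  have key : ∀ σ : Γℚ, σ ∉ G → ∀ a : K, R σ *ᵥ w = a • w → False := by
    intro σ hσ a ha
    obtain ⟨γ, hγ⟩ := no_eigen_all ρ K (by norm_num) hirr hc hdet hw
    by_cases hγG : γ ∈ G
    · obtain ⟨b, hb⟩ := hcon γ hγG
      exact hγ b hb
    · have h1 : σ⁻¹ * γ ∈ G := by
        rw [Subgroup.mul_mem_iff_of_index_two hG, inv_mem_iff]
        simp [hσ, hγG]
      obtain ⟨b, hb⟩ := hcon' _ h1
      apply hγ (b * a)
      have h2 : γ = σ * (σ⁻¹ * γ) := by group
      change R γ *ᵥ w = _
      rw [h2, map_mul, ← Matrix.mulVec_mulVec, hb, Matrix.mulVec_smul, ha, smul_smul]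
  have hone : ∀ σ : Γℚ, ρ.ρ σ = 1 → R σ = 1 := by
    intro σ hσ
    rw [hR, LL.rm_apply, hσ, LinearMap.toMatrix_one, Matrix.map_one _ (map_zero _) (map_one _)]
  -- the kernel is contained in `G`
  have hker : ∀ σ : Γℚ, ρ.ρ σ = 1 → σ ∈ G := by
    intro σ hσ
    by_contra hσG
    refine key σ hσG 1 ?_
    rw [hone σ hσ, Matrix.one_mulVec, one_smul]
  have hidx := idxChar_eq_psi ρ hno hunip (by norm_num) hG hker hψ
  -- complex conjugation is in `G`
  have hψc : psi ρ c = 1 := by
    apply Units.ext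
    rw [psi_coe, hdet, Units.val_one, quadraticChar_one_iff_isSquare num_five.2.1]
    exact ⟨2, num_five.2.2⟩
  have hcG : c ∈ G := by
    by_contra h
    have h1 := DFunLike.congr_fun hidx c
    rw [idxChar_of_not_mem hG h, hψc] at h1
    exact absurd h1 (by decide)
  -- an element outside `G`
  obtain ⟨σ, hσ⟩ : ∃ σ : Γℚ, σ ∉ G := by
    by_contra h
    push Not at h
    rw [(Subgroup.eq_top_iff' G).mpr h, Subgroup.index_top] at hG
    omega
  have hP0 : (w 0 * (R σ *ᵥ w) 1 - (R σ *ᵥ w) 0 * w 1) ≠ 0 := by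
    intro h
    rcases eq_or_ne (w 0) 0 with h0 | h0
    · have h1 : w 1 ≠ 0 := by
        intro h1
        apply hw
        ext i
        fin_cases i
        · exact h0
        · exact h1
      refine key σ hσ ((R σ *ᵥ w) 1 / w 1) ?_
      rw [h0, zero_mul, zero_sub, neg_eq_zero, mul_eq_zero, or_iff_left h1] at h
      ext i
      fin_cases i
      · simp only [Fin.zero_eta, Pi.smul_apply, h0, smul_zero]
        exact h
      · simp only [Fin.mk_one, Pi.smul_apply, smul_eq_mul]
        rw [div_mul_cancel₀ _ h1]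
    · refine key σ hσ ((R σ *ᵥ w) 0 / w 0) ?_
      ext i
      fin_cases i
      · simp only [Fin.zero_eta, Pi.smul_apply, smul_eq_mul]
        rw [div_mul_cancel₀ _ h0]
      · simp only [Fin.mk_one, Pi.smul_apply, smul_eq_mul]
        rw [div_mul_eq_mul_div, eq_div_iff h0]
        linear_combination h
  set w' : Fin 2 → K := R σ *ᵥ w with hw'
  let P : Matrix (Fin 2) (Fin 2) K := !![w 0, w' 0; w 1, w' 1]
  have hP : P.det ≠ 0 := by
    rw [Matrix.det_fin_two]
    exact hP0
  -- from eigenvectors to matrices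
  have hmat : ∀ (Q : Matrix (Fin 2) (Fin 2) K) (a b a' b' : K), Q *ᵥ w = a • w + b • w' →
      Q *ᵥ w' = a' • w + b' • w' → Q * P = P * !![a, a'; b, b'] := by
    intro Q a b a' b' h h'
    have h0 := congrFun h 0
    have h1 := congrFun h 1
    have h2 := congrFun h' 0
    have h3 := congrFun h' 1
    simp only [Matrix.mulVec, dotProduct, Fin.sum_univ_two, Pi.add_apply, Pi.smul_apply,
      smul_eq_mul] at h0 h1 h2 h3
    ext i j
    fin_cases i <;> fin_cases j <;>
      simp only [P, Matrix.mul_apply, Fin.sum_univ_two, Matrix.of_apply, Matrix.cons_val',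
        Matrix.cons_val_zero, Matrix.cons_val_one, Matrix.cons_val_fin_one, Fin.zero_eta,
        Fin.mk_one]
    · linear_combination h0
    · linear_combination h2
    · linear_combination h1
    · linear_combination h3
  -- elements of `G` are diagonal
  have hdiag : ∀ g ∈ G, ∃ a a' : K, R g * P = P * !![a, 0; 0, a'] := by
    intro g hg
    obtain ⟨a, ha⟩ := hcon' g hg
    obtain ⟨a', ha'⟩ := hcon' (σ⁻¹ * g * σ) (by simpa using hnorm.conj_mem g hg σ⁻¹)
    refine ⟨a, a', hmat _ _ _ _ _ ?_ ?_⟩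
    · rw [ha, zero_smul, add_zero]
    · rw [zero_smul, zero_add, hw', Matrix.mulVec_mulVec, ← map_mul,
        show g * σ = σ * (σ⁻¹ * g * σ) by group, map_mul, ← Matrix.mulVec_mulVec, ha',
        Matrix.mulVec_smul]
  obtain ⟨β, hβ⟩ : ∃ β : K, R σ * P = P * !![0, β; 1, 0] := by
    obtain ⟨β, hβ⟩ := hcon' (σ * σ) (by rw [Subgroup.mul_mem_iff_of_index_two hG])
    refine ⟨β, hmat _ _ _ _ _ ?_ ?_⟩
    · rw [zero_smul, zero_add, one_smul]
    · rw [zero_smul, add_zero, hw', Matrix.mulVec_mulVec, ← map_mul, hβ]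
  -- the complex conjugation
  obtain ⟨e, e', he⟩ := hdiag c hcG
  have hee : e * e' = -1 := by
    have h1 := (conj_trace_det hP he).2
    rw [hdetR, det_rm, hdet, map_neg, map_one, Matrix.det_fin_two_of] at h1
    linear_combination -h1
  have hee' : e * e = 1 := by
    have h1 : R c * R c = 1 := by rw [← map_mul, hc, map_one]
    have h2 : R c * R c * P = P * (!![e, 0; 0, e'] * !![e, 0; 0, e']) := by
      rw [Matrix.mul_assoc, he, ← Matrix.mul_assoc, he, Matrix.mul_assoc]
    have h3 := (conj_trace_det hP h2).2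
    have h4 := (conj_trace_det hP h2).1
    rw [h1] at h4 h3
    simp only [Matrix.trace_fin_two, Matrix.one_apply_eq, Matrix.mul_apply, Fin.sum_univ_two,
      Matrix.of_apply, Matrix.cons_val', Matrix.cons_val_zero, Matrix.cons_val_one,
      Matrix.cons_val_fin_one, mul_zero, add_zero, zero_add] at h4
    -- `e ^ 2 + e' ^ 2 = 2`, `e e' = - 1`
    have h5 : (e * e - 1) * (e * e - 1) = 0 := by
      linear_combination (-(e * e)) * h4 + (1 - e * e') * hee
    exact sub_eq_zero.mp (mul_self_eq_zero.mp h5)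
  have he' : e' = -e := by linear_combination e * hee - e' * hee'
  -- elements of `G` commute or anticommute with `σ`
  have hsgn : ∀ g ∈ G, R g * R σ = R σ * R g ∨ R g * R σ = -(R σ * R g) := by
    intro g hg
    obtain ⟨a, a', ha⟩ := hdiag g hg
    have h1 := conj_trace_det hP ha
    rw [htrR, hdetR, Matrix.trace_fin_two_of, Matrix.det_fin_two_of, mul_zero, sub_zero] at h1
    have h2 : R (g * c) * P = P * (!![a, 0; 0, a'] * !![e, 0; 0, e']) := by
      rw [map_mul, Matrix.mul_assoc, he, ← Matrix.mul_assoc, ha, Matrix.mul_assoc]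
    have h3 := (conj_trace_det hP h2).1
    rw [htrR] at h3
    simp only [Matrix.trace_fin_two, Matrix.mul_apply, Fin.sum_univ_two,
      Matrix.of_apply, Matrix.cons_val', Matrix.cons_val_zero, Matrix.cons_val_one,
      Matrix.cons_val_fin_one, mul_zero, add_zero, zero_add] at h3
    have hbase : ∃ ε : ZMod 5, e = algebraMap (ZMod 5) K ε := by
      have h4 : (e - 1) * (e + 1) = 0 := by linear_combination hee'
      rcases mul_eq_zero.mp h4 with h5 | h5
      · exact ⟨1, by rw [map_one]; linear_combination h5⟩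
      · exact ⟨-1, by rw [map_neg, map_one]; linear_combination h5⟩
    obtain ⟨ε, hε⟩ := hbase
    obtain ⟨α, hα⟩ : ∃ α : ZMod 5, a = algebraMap (ZMod 5) K α := by
      refine ⟨3 * ((LL.rm ρ g).trace + ε * ((LL.rm ρ (g * c)) 0 0 + (LL.rm ρ (g * c)) 1 1)), ?_⟩
      rw [map_mul, map_add, map_mul, h1.1, h3, ← hε]
      have h6 : (algebraMap (ZMod 5) K 3) * 2 = 1 := by
        rw [← map_ofNat (algebraMap (ZMod 5) K) 2, ← map_mul, ← map_one (algebraMap (ZMod 5) K)]
        congr 1
      rw [he']
      linear_combination (-a) * h6 - (algebraMap (ZMod 5) K 3) * (a - a') * hee'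
    obtain ⟨α', hα'⟩ : ∃ α' : ZMod 5, a' = algebraMap (ZMod 5) K α' := by
      refine ⟨(LL.rm ρ g).trace - α, ?_⟩
      rw [map_sub, h1.1, hα]
      ring
    have hd : α * α' = 1 ∨ α * α' = -1 := by
      have h6 : α * α' = (LL.rm ρ g).det := by
        apply (algebraMap (ZMod 5) K).injective
        rw [map_mul, ← hα, ← hα', h1.2]
      have h7 : psi ρ g = 1 := by rw [← hidx]; exact idxChar_of_mem hG hg
      have h8 := congrArg (fun u : ℤˣ => (u : ℤ)) h7
      simp only [Units.val_one] at h8
      rw [psi_coe, ← det_rm, ← h6] at h8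
      have h9 : α * α' ≠ 0 := by
        intro h
        rw [h] at h8
        simp at h8
      rw [quadraticChar_one_iff_isSquare h9] at h8
      exact sq_five _ h9 h8
    rcases eq_or_neg_five α α' hd with h6 | h6
    · left
      have h7 : a' = a := by rw [hα', h6, hα]
      have := conj_comm hP ha hβ (s := 1) (by
        rw [h7, one_smul]
        ext i j
        fin_cases i <;> fin_cases j <;> simp [Matrix.mul_apply, Fin.sum_univ_two, mul_comm])
      rwa [one_smul] at this
    · right
      have h7 : a' = -a := by rw [hα', h6, map_neg, hα]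
      have := conj_comm hP ha hβ (s := -1) (by
        rw [h7]
        ext i j
        fin_cases i <;> fin_cases j <;> simp [Matrix.mul_apply, Fin.sum_univ_two, mul_comm])
      rwa [neg_one_smul] at this
  have hanti : R c * R σ = -(R σ * R c) := by
    have := conj_comm hP he hβ (s := -1) (by
        rw [he']
        ext i j
        fin_cases i <;> fin_cases j <;> simp [Matrix.mul_apply, Fin.sum_univ_two, mul_comm])
    rwa [neg_one_smul] at this
  have hall : ∀ g : Γℚ, R g * R σ = R σ * R g ∨ R g * R σ = -(R σ * R g) := by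
    intro g
    by_cases hg : g ∈ G
    · exact hsgn g hg
    · have h1 : g * σ⁻¹ ∈ G := by
        rw [Subgroup.mul_mem_iff_of_index_two hG, inv_mem_iff]
        simp [hσ, hg]
      have h2 : R g = R (g * σ⁻¹) * R σ := by rw [← map_mul]; congr 1; group
      rcases hsgn _ h1 with h3 | h3
      · left
        rw [h2, h3, Matrix.mul_assoc, h3]
      · right
        rw [h2, h3, Matrix.neg_mul, Matrix.mul_assoc, h3, Matrix.mul_neg, neg_neg]
  have hRu : ∀ g : Γℚ, IsUnit (R g) := fun g => (Group.isUnit g).map R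
  have hne : ∀ g : Γℚ, R σ * R g ≠ -(R σ * R g) := by
    intro g h
    have h1 : (2 : K) • (R σ * R g) = 0 := by
      rw [two_smul]
      nth_rewrite 1 [h]
      exact neg_add_cancel _
    have h2 : R σ * R g = 0 := by
      rcases smul_eq_zero.mp h1 with h3 | h3
      · exact absurd h3 h2K
      · exact h3
    have h3 : IsUnit (R σ * R g) := (hRu σ).mul (hRu g)
    rw [h2] at h3
    exact not_isUnit_zero h3
  -- the second subgroup
  let G₂ : Subgroup Γℚ :=
    { carrier := {g | R g * R σ = R σ * R g}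
      mul_mem' := by
        intro g g' hg hg'
        change R (g * g') * R σ = R σ * R (g * g')
        rw [map_mul, Matrix.mul_assoc, show R g' * R σ = R σ * R g' from hg', ← Matrix.mul_assoc,
          show R g * R σ = R σ * R g from hg, Matrix.mul_assoc]
      one_mem' := by
        change R 1 * R σ = R σ * R 1
        rw [map_one, Matrix.one_mul, Matrix.mul_one]
      inv_mem' := by
        intro g hg
        change R g⁻¹ * R σ = R σ * R g⁻¹
        have h1 : R g⁻¹ * R g = 1 := by rw [← map_mul, inv_mul_cancel, map_one]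
        have h2 : R g * R g⁻¹ = 1 := by rw [← map_mul, mul_inv_cancel, map_one]
        calc R g⁻¹ * R σ = R g⁻¹ * (R σ * R g) * R g⁻¹ := by
              rw [Matrix.mul_assoc, Matrix.mul_assoc, h2, Matrix.mul_one]
          _ = R g⁻¹ * (R g * R σ) * R g⁻¹ := by rw [show R g * R σ = R σ * R g from hg]
          _ = R σ * R g⁻¹ := by rw [← Matrix.mul_assoc (R g⁻¹), h1, Matrix.one_mul] }
  have hG₂ : ∀ g, g ∈ G₂ ↔ R g * R σ = R σ * R g := fun g => Iff.rfl
  have hidx₂ : G₂.index = 2 := by
    rw [Subgroup.index_eq_two_iff]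
    refine ⟨c, fun g => ?_⟩
    have h1 : R (g * c) * R σ = -(R g * R σ * R c) := by
      rw [map_mul, Matrix.mul_assoc, hanti, Matrix.mul_neg, ← Matrix.mul_assoc]
    rcases hall g with h2 | h2
    · refine Or.inr ⟨(hG₂ g).mpr h2, fun h3 => ?_⟩
      rw [hG₂, h1, h2, map_mul, ← Matrix.mul_assoc, Matrix.mul_assoc, ← map_mul] at h3
      exact hne _ h3.symm
    · refine Or.inl ⟨?_, fun h3 => ?_⟩
      · rw [hG₂, h1, h2, map_mul, Matrix.neg_mul, neg_neg, Matrix.mul_assoc]
      · rw [hG₂, h2] at h3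
        exact hne _ h3.symm
  have hker₂ : ∀ τ : Γℚ, ρ.ρ τ = 1 → τ ∈ G₂ := by
    intro τ hτ
    rw [hG₂, hone τ hτ, Matrix.one_mul, Matrix.mul_one]
  have hcG₂ : c ∉ G₂ := by
    rw [hG₂, hanti]
    exact fun h => hne _ h.symm
  have h3 := idxChar_eq_psi ρ hno hunip (by norm_num) hidx₂ hker₂ hψ
  have h4 := DFunLike.congr_fun h3 c
  rw [idxChar_of_not_mem hidx₂ hcG₂, hψc] at h4
  exact absurd h4 (by decide)

end five

end Fermat.Agent.Full
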