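import Fermat.Agent.Full.Harmless
import Fermat.Agent.LL.S59Ram
import Fermat.Agent.LL.S59Def
import Fermat.Agent.Wire.Start59
import Fermat.Agent.Wire.CurveRes

set_option autoImplicit false

/-!
# Modularity lifting for `p = 3, 5` without conditions at `2`: interfaces
-/

open CongruenceSubgroup IsLocalRing Polynomial ModularFormClass WeierstrassCurve
  Fermat.Agent.ECRep Fermat.Agent.Wire

namespace Fermat.Agent.Full

open Fermat.Agent.LL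

local notation "Γℚ" => (AlgebraicClosure ℚ ≃ₐ[ℚ] AlgebraicClosure ℚ)
local notation "Qb" => AlgebraicClosure ℚ

/-- **Modularity lifting** for `p = 3, 5`. -/
def LiftStmt : Prop := ∀ (p : ℕ) (_ : p = 3 ∨ p = 5) (W W₀ : WeierstrassCurve ℤ),
    W.Δ ≠ 0 → W.IsSemistableModel → W.ModRepIsIrreducible p →
    W₀.Δ ≠ 0 → W₀.IsSemistableModel →
    ((p : ℤ) ∣ W₀.Δ → (p : ℤ) ∣ W.Δ) →
    (∀ ℓ : ℕ, ℓ.Prime → W.IsGoodPrimeFor ℓ → W₀.IsGoodPrimeFor ℓ → ℓ ≠ p →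
      (p : ℤ) ∣ (W₀.apOfModel ℓ - W.apOfModel ℓ)) →
    Mlc1IsModularModelOfExactConductorLevel W₀ →
    Mlc1IsModularModelOfExactConductorLevel W

/-- the hypotheses on the curve -/
structure HypL (p : ℕ) (W : WeierstrassCurve ℤ) : Prop where
  h35 : p = 3 ∨ p = 5
  Δ_ne : W.Δ ≠ 0
  ss : W.IsSemistableModel
  irr : W.ModRepIsIrreducible p

theorem HypL.prime {p : ℕ} {W : WeierstrassCurve ℤ} (H : HypL p W) : p.Prime := by
  rcases H.h35 with rfl | rfl <;> norm_num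

theorem HypL.ne2 {p : ℕ} {W : WeierstrassCurve ℤ} (H : HypL p W) : p ≠ 2 := by
  rcases H.h35 with rfl | rfl <;> norm_num

/-- **Block INDEXTWO**: irreducibility on subgroups of index two. -/
def IndexTwoStmt : Prop :=
  ∀ (p : ℕ) [Fact p.Prime] (W : WeierstrassCurve ℤ) (H : HypL p W) (k : Type) [Field k]
    [Algebra (ZMod p) k] (K : Type) [Field K] [Algebra k K] (G : Subgroup Γℚ), G.index = 2 →
    ∀ V : Submodule K (((curveRho p W H.Δ_ne).baseChange k).baseChange K).V,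
      (∀ τ ∈ G, ∀ x ∈ V, (((curveRho p W H.Δ_ne).baseChange k).baseChange K).ρ τ x ∈ V) →
      V = ⊥ ∨ V = ⊤

/-- all properties of `W[p]` over a large coefficient field -/
theorem curveResL (hIT : IndexTwoStmt) {p : ℕ} [Fact p.Prime] {W : WeierstrassCurve ℤ}
    {k : Type} [Field k] [Algebra (ZMod p) k] (H : HypL p W)
    (hsplit : ∀ a b : ℤ, ∃ α β : k, (X ^ 2 - C (a : k) * X + C (b : k) : Polynomial k) =
      (X - C α) * (X - C β)) :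
    let ρbar : ResidualGaloisRep k := (curveRho p W H.Δ_ne).baseChange k
    ρbar.IsAbsolutelyIrreducible ∧ ρbar.IsOdd ∧
    (GaloisRepAdic.ofResidualGaloisRep ρbar).DetIsCyclotomic p ∧
    (∀ σ : Γℚ, ∃ α β : k, LinearMap.charpoly (ρbar.ρ σ) = (X - C α) * (X - C β)) ∧
    (∀ (K : Type) [Field K] [Algebra k K] (G : Subgroup Γℚ), G.index = 2 →
      ∀ V : Submodule K (ρbar.baseChange K).V,
        (∀ σ ∈ G, ∀ x ∈ V, (ρbar.baseChange K).ρ σ x ∈ V) → V = ⊥ ∨ V = ⊤) ∧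
    (∀ q : ℕ, q.Prime → q ≠ p → W.IsGoodPrimeFor q → ρbar.IsUnramifiedAt q) ∧
    (∀ q : ℕ, q.Prime → q ≠ p → (q : ℤ) ∣ W.Δ → (ρbar.IsUnramifiedAt q ↔
      p ∣ padicValInt q W.Δ)) ∧
    (∀ q : ℕ, q.Prime → q ≠ p → W.IsGoodPrimeFor q → ∀ A : ValuationSubring Qb,
      A.LiesOverPrime q → ∀ σ : Γℚ, A.IsFrobeniusAt σ q →
      LinearMap.charpoly (ρbar.ρ σ) = X ^ 2 - C ((W.apOfModel q : ℤ) : k) * X + C (q : k)) := by
  have : CharP k p := charP_of_injective_algebraMap (algebraMap (ZMod p) k).injective p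
  exact ⟨curve_absIrr W H.ne2 H.Δ_ne H.irr k, curve_isOdd W k H.Δ_ne,
    curve_det W k H.Δ_ne, curve_split W k H.Δ_ne hsplit,
    fun K _ _ G hG V hV => hIT p W H k K G hG V hV,
    fun q hq hqp hg => curve_unr_of_good W k H.Δ_ne hq hqp hg,
    fun q hq hqp hqΔ => curve_unr_iff W k H.Δ_ne H.ss hq hqp hqΔ,
    fun q hq hqp hg A hA σ hσ => curve_charpoly_frob W k H.Δ_ne hq hqp hg hA hσ⟩

/-- an auxiliary rigid prime at which no Steinberg lift exists -/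
structure Aux (p : ℕ) (W : WeierstrassCurve ℤ) (r : ℕ) : Prop where
  prime : r.Prime
  mod : r % 12 = 11
  ne : r ≠ p
  good : W.IsGoodPrimeFor r
  ap : ¬ (p : ℤ) ∣ W.apOfModel r ^ 2 - (r + 1) ^ 2

/-- **Block EXISTR** -/
def ExistRStmt : Prop :=
  ∀ (p : ℕ) (W : WeierstrassCurve ℤ), HypL p W → ∀ S : Finset ℕ, ∃ r : ℕ, r ∉ S ∧ Aux p W r

theorem Aux.harmless {p : ℕ} [Fact p.Prime] {W : WeierstrassCurve ℤ} {r : ℕ} (A : Aux p W r)
    (hΔ : W.Δ ≠ 0) (k : Type) [Field k] [Algebra (ZMod p) k] :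
    Harmless p ((curveRho p W hΔ).baseChange k) r := by
  have : CharP k p := charP_of_injective_algebraMap (algebraMap (ZMod p) k).injective p
  refine harmless_of_trace A.ne fun P hP σ hσ => ⟨((W.apOfModel r : ℤ) : k),
    curve_charpoly_frob W k hΔ A.prime A.ne A.good hP hσ, fun h => A.ap ?_⟩
  rw [← CharP.intCast_eq_zero_iff k p]
  push_cast
  rw [h, sub_self]

/-- The level of a congruent newform is prime to the auxiliary prime. -/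
theorem Aux.not_dvd {p : ℕ} [Fact p.Prime] {W : WeierstrassCurve ℤ} (hp2 : p ≠ 2)
    (hΔ : W.Δ ≠ 0) (hirr : W.ModRepIsIrreducible p) {r : ℕ} (A : Aux p W r) {M : ℕ}
    (hocc : OccZ p (cW W) M) (hsq : ¬ r ^ 2 ∣ M) : ¬ r ∣ M := by
  classical
  have hp : p.Prime := Fact.out
  obtain ⟨hM, 𝔪, h𝔪, hpm, g, S, hg, hc⟩ := hocc
  obtain ⟨𝒪, i1, i2, i3, i4, i5, i6, hp𝒪, j, ι, b, hj, -, hι, hb⟩ :=
    exists_dvr_eigen hp 𝔪 h𝔪 hpm hg.isNormalizedEigenform ∅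
  have hchar : CharP (ResidueField 𝒪) p := (CharP.charP_iff_prime_eq_zero hp).2 (by
    rw [← map_natCast (residue 𝒪), residue_eq_zero_iff]; exact hp𝒪)
  let _ : Algebra (ZMod p) (ResidueField 𝒪) := ZMod.algebra _ p
  have hres : ∀ ℓ : ℕ, ℓ.Prime → ℓ ∉ S →
      residue 𝒪 (b ℓ) = ((W.apOfModel ℓ : ℤ) : ResidueField 𝒪) := fun ℓ hℓ hℓS ↦
    residue_of_dvr h𝔪.ne_top hι hg.isNormalizedEigenform hb hℓ (hc ℓ hℓ hℓS)
  let S0 : Finset ℕ := insert p (S ∪ (W.Δ.natAbs).primeFactors)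
  have hΔS : ∀ q : ℕ, q.Prime → (q : ℤ) ∣ W.Δ → q ∈ S0 := fun q hq hd ↦
    Finset.mem_insert_of_mem (Finset.mem_union_right _ (Nat.mem_primeFactors.2
      ⟨hq, Int.natCast_dvd.1 hd, Int.natAbs_ne_zero.2 hΔ⟩))
  have C : Ctx p j ((curveRho p W hΔ).baseChange (ResidueField 𝒪)) S0 b :=
    ctxW hp2 hp𝒪 hj hΔ hirr (Finset.mem_insert_self _ _) hΔS fun ℓ hℓ hℓS ↦
      hres ℓ hℓ fun h ↦ hℓS (Finset.mem_insert_of_mem (Finset.mem_union_left _ h))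
  have hc0 : CongTo j b S0 (fun ℓ ↦ qCoeff g ℓ) :=
    congTo_of_eq (c := b) (fun ℓ hℓ _ ↦ hb ℓ hℓ) fun ℓ _ _ ↦ by
      rw [sub_self]; exact Ideal.zero_mem _
  obtain ⟨A', i1, i2, i3, i4, i5, φ, t', hφ, ht⟩ := hc0
  obtain ⟨P, hP⟩ := exists_pt_of_congTo C inputs (S := S0 ∪ M.primeFactors)
    Finset.subset_union_left
    ⟨A', i1, i2, i3, i4, i5, φ, t', hφ, fun ℓ h1 h2 ↦ ht ℓ h1 fun h ↦
      h2 (Finset.mem_union_left _ h)⟩ hg
    (fun q hq hqM ↦ Finset.mem_union_right _ (Nat.mem_primeFactors.2 ⟨hq, hqM, NeZero.ne M⟩))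
    (fun _ _ _ ↦ rfl)
  exact (A.harmless hΔ (ResidueField 𝒪)).not_dvd P hP A.prime hsq

/-- **Step L** (level lowering at `q ≠ p`: Mazur's principle and patching). -/
def StepLStmtR : Prop :=
  ∀ (p : ℕ) (W : WeierstrassCurve ℤ), HypL p W → ∀ M₀ : ℕ, Squarefree M₀ → OccZ p (cW W) M₀ →
    (p ∣ M₀ → (p : ℤ) ∣ W.Δ) →
  ∃ N0 : ℕ, OccZ p (cW W) N0 ∧ LevOK W N0 ∧
    (∀ q : ℕ, q.Prime → q ∣ N0 → q ≠ p → ¬ p ∣ padicValInt q W.Δ) ∧
    (p ∣ N0 → ∀ M : ℕ, LevOK W M → OccZ p (cW W) M → p ∣ M)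

end Fermat.Agent.Full
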