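import Fermat.Agent.Full.IndexFive
import Fermat.Agent.Full.LiftDef

set_option autoImplicit false

/-!
# Irreducibility of `W[p]`, `p = 3, 5`, on subgroups of index two: all semistable curves
-/

open Matrix Polynomial WeierstrassCurve Fermat.Agent.ECRep Fermat.Agent.Wire

namespace Fermat.Agent.Full

local notation "Γℚ" => (AlgebraicClosure ℚ ≃ₐ[ℚ] AlgebraicClosure ℚ)
local notation "Qb" => AlgebraicClosure ℚ

/-- the quadratic character of `det` is not trivial -/
theorem psi_ne_one_five [Fact (Nat.Prime 5)] (W : WeierstrassCurve ℤ) (hΔ : W.Δ ≠ 0) :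
    psi (l := 5) (curveRho 5 W hΔ) ≠ 1 := by
  obtain ⟨A, hA⟩ := Frob.exists_liesOverPrime Qb Nat.prime_two
  obtain ⟨φ, hφ⟩ := Frob.exists_isFrobeniusAt A Nat.prime_two hA
  have hdet0 := det_frob_of_detIsCyclotomic Fact.out _ (detIsCyclotomic (l := 5) W hΔ)
    Nat.prime_two (by norm_num) hA hφ
  have hdet : LinearMap.det ((curveRho 5 W hΔ).ρ φ) = 2 := by
    rw [curveRho, det_resRep W 5 hΔ, hdet0, map_natCast]; rfl
  intro h
  have h1 := DFunLike.congr_fun h φ
  have h2 := congrArg (fun u : ℤˣ => (u : ℤ)) h1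
  simp only [MonoidHom.one_apply, Units.val_one] at h2
  rw [psi_coe, hdet, quadChar_five] at h2
  exact absurd h2 (by decide)

variable {p : ℕ} [hp : Fact p.Prime] (W : WeierstrassCurve ℤ)

/-- **No common eigenvector on subgroups of index two, over any extension**, for every semistable
curve with `W[p]` irreducible, `p = 3, 5`. -/
theorem curve_index_two_all (h35 : p = 3 ∨ p = 5) (hΔ : W.Δ ≠ 0) (hW : W.IsSemistableModel)
    (hirr : W.ModRepIsIrreducible p) (k : Type) [Field k]
    [Algebra (ZMod p) k] (K : Type) [Field K] [Algebra k K] (G : Subgroup Γℚ) (hG : G.index = 2)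
    (V : Submodule K (((curveRho p W hΔ).baseChange k).baseChange K).V)
    (hV : ∀ τ ∈ G, ∀ x ∈ V, (((curveRho p W hΔ).baseChange k).baseChange K).ρ τ x ∈ V) :
    V = ⊥ ∨ V = ⊤ := by
  have hirr0 := curveRho_irr W hΔ hirr
  have hp2 : p ≠ 2 := by rcases h35 with rfl | rfl <;> norm_num
  by_cases htr : ∃ σ : Γℚ, (curveRho p W hΔ).ρ σ ^ p = 1 ∧ (curveRho p W hΔ).ρ σ ≠ 1
  · obtain ⟨σ, hσ, hσ1⟩ := htr
    haveI := Subgroup.normal_of_index_eq_two hG
    exact LL.irr_of_transvection _ k K hirr0 hp2 hσ hσ1 G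
      (fun γ => this.conj_mem _ (Subgroup.sq_mem_of_index_two hG σ) γ) V hV
  · push Not at htr
    have hc := complexConjugation_mul_self
    have hc1 := LL.complexConjugation_ne_one
    rcases h35 with rfl | rfl
    · exact absurd hirr0 (not_irreducible_three _ htr
        (fun q hq hq3 A hA σ hσ => curveRho_unip W hΔ hW hq hq3 hA hσ) hc
        (curveRho_det_conj W hΔ hc hc1))
    · refine bot_or_top_of_no_eigen _ k K G (fun w hw => ?_) V hV
      letI : Algebra (ZMod 5) K := ((algebraMap k K).comp (algebraMap (ZMod 5) k)).toAlgebra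
      exact no_eigen_index_two_five (curveRho 5 W hΔ) htr
        (fun q hq hq3 A hA σ hσ => curveRho_unip W hΔ hW hq hq3 hA hσ) K hirr0 hc
        (curveRho_det_conj W hΔ hc hc1) (psi_ne_one_five W hΔ) hG hw

/-- **Block INDEXTWO** -/
theorem indexTwoStmt : IndexTwoStmt := by
  intro p _ W H k _ _ K _ _ G hG V hV
  exact curve_index_two_all W H.h35 H.Δ_ne H.ss H.irr k K G hG V hV

end Fermat.Agent.Full
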