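import Fermat.Agent.Full.LocTau
import Fermat.Agent.Full.IndexTwoAll
import Fermat.Agent.ECRep.FlatBase
import Fermat.Agent.ECRep.FlatAt
import Fermat.Agent.ECRep.MultLine
import Fermat.Agent.ECRep.ResEquiv

set_option autoImplicit false

/-!
# Irreducibility of `W[p]`, `p ≥ 5`, on subgroups of index two
-/

open Polynomial WeierstrassCurve Fermat.Agent.ECRep Fermat.Agent.Wire Fermat.Agent.DefRing
  Fermat.Agent.CFT.Loc Fermat.Agent.CFT

namespace Fermat.Agent.Full

open Fermat.Agent.Flat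

local notation "Γℚ" => (AlgebraicClosure ℚ ≃ₐ[ℚ] AlgebraicClosure ℚ)
local notation "Qb" => AlgebraicClosure ℚ
local notation "M₂" => Matrix (Fin 2) (Fin 2)

theorem exists_splitting {p : ℕ} [Fact p.Prime] (P : (ZMod p)[X]) :
    ∃ (k : Type) (_ : Field k) (_ : Algebra (ZMod p) k) (_ : Finite k),
      (P.map (algebraMap (ZMod p) k)).Splits :=
  ⟨P.SplittingField, inferInstance, inferInstance, Module.finite_of_finite (ZMod p),
    SplittingField.splits P⟩

theorem exists_common_mult {F ι : Type} [Field F] [Finite ι] (f : ι → F[X])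
    (hf : ∀ i, f i ≠ 0) : ∃ P : F[X], P ≠ 0 ∧ ∀ i, f i ∣ P := by
  haveI := Fintype.ofFinite ι
  exact ⟨∏ i, f i, Finset.prod_ne_zero_iff.mpr fun i _ => hf i,
    fun i => Finset.dvd_prod_of_mem f (Finset.mem_univ i)⟩

theorem quad_ne_zero {F : Type} [Field F] (a b : F) : (X ^ 2 - C a * X + C b : F[X]) ≠ 0 := by
  have h : (X ^ 2 - C a * X + C b : F[X]).Monic := by monicity!
  exact h.ne_zero

theorem exists_quad_prod (F : Type) [Field F] [Finite F] :
    ∃ P : F[X], P ≠ 0 ∧ ∀ a b : F, (X ^ 2 - C a * X + C b : F[X]) ∣ P := by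
  obtain ⟨P, hP, h⟩ := exists_common_mult (fun ab : F × F => X ^ 2 - C ab.1 * X + C ab.2)
    (fun ab => quad_ne_zero ab.1 ab.2)
  exact ⟨P, hP, fun a b => h (a, b)⟩

/-- a finite extension of `𝔽_p` over which all quadratic polynomials over `𝔽_p` split -/
theorem exists_quad_split (p : ℕ) [Fact p.Prime] :
    ∃ (k : Type) (_ : Field k) (_ : Algebra (ZMod p) k) (_ : Finite k),
      ∀ a b : ZMod p, ∃ α β : k, (X ^ 2 - C (algebraMap (ZMod p) k a) * X +
        C (algebraMap (ZMod p) k b) : k[X]) = (X - C α) * (X - C β) := by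
  obtain ⟨P, hP0, hP⟩ := exists_quad_prod (ZMod p)
  obtain ⟨k, i1, i2, i3, hs⟩ := exists_splitting P
  refine ⟨k, i1, i2, i3, fun a b => ?_⟩
  have hs' : ((X ^ 2 - C a * X + C b : (ZMod p)[X]).map (algebraMap (ZMod p) k)).Splits :=
    hs.of_dvd (Polynomial.map_ne_zero hP0) (Polynomial.map_dvd _ (hP a b))
  have hdeg : ((X ^ 2 - C a * X + C b : (ZMod p)[X]).map (algebraMap (ZMod p) k)).degree ≠ 0 := by
    rw [Polynomial.degree_map]
    have : (X ^ 2 - C a * X + C b : (ZMod p)[X]).degree = 2 := by compute_degree!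
    rw [this]
    norm_num
  obtain ⟨α, hα⟩ := hs'.exists_eval_eq_zero hdeg
  refine ⟨α, algebraMap (ZMod p) k a - α, ?_⟩
  simp only [Polynomial.map_add, Polynomial.map_sub, Polynomial.map_mul, Polynomial.map_pow,
    Polynomial.map_X, Polynomial.map_C, eval_add, eval_sub, eval_mul, eval_pow, eval_X,
    eval_C] at hα
  have h1 : algebraMap (ZMod p) k b = α * (algebraMap (ZMod p) k a - α) := by
    linear_combination hα
  rw [h1, map_mul, map_sub]
  ring

/-- flatness of the local representation -/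
theorem flatV_of_realizes {p : ℕ} [hp : Fact p.Prime] {k : Type} [Field k] [Finite k]
    {r : Γℚ →* M₂ k} {ρ : GaloisRepAdic k} (hρ : Realizes ρ r) (hfl : ρ.IsFlatAt p) :
    FlatV (r.comp (localGaloisToGlobal p)) := by
  obtain ⟨b, hb⟩ := hρ
  haveI : Finite (k ⧸ (⊥ : Ideal k)) :=
    Finite.of_surjective _ (Ideal.Quotient.mk_surjective (I := (⊥ : Ideal k)))
  have h1 := ((isFlatAt_iff ρ p).mp hfl).2 ⊥ inferInstance
  have h2 := h1.toLocal
  refine IsFlat.of_injective h2 ((Submodule.mkQ (⊥ • (⊤ : Submodule k ρ.V))).toAddMonoidHom.comp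
    b.equivFun.symm.toLinearMap.toAddMonoidHom) ?_ ?_
  · intro x y hxy
    change Submodule.mkQ _ (b.equivFun.symm x) = Submodule.mkQ _ (b.equivFun.symm y) at hxy
    apply b.equivFun.symm.injective
    have h3 := (Submodule.Quotient.eq _).mp hxy
    have h4 : ((⊥ : Ideal k) • (⊤ : Submodule k ρ.V)) = ⊥ := Submodule.bot_smul _
    rw [h4, Submodule.mem_bot] at h3
    exact sub_eq_zero.mp h3
  · intro g x
    change Submodule.mkQ _ (b.equivFun.symm (Matrix.mulVec (r (localGaloisToGlobal p g)) x)) =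
      Submodule.mkQ _ (ρ.ρ (localGaloisToGlobal p g) (b.equivFun.symm x))
    congr 1
    apply b.equivFun.injective
    rw [LinearEquiv.apply_symm_apply]
    have h5 := LinearMap.toMatrix_mulVec_repr b b (ρ.ρ (localGaloisToGlobal p g))
      (b.equivFun.symm x)
    have h6 : ∀ v : ρ.V, b.equivFun v = ⇑(b.repr v) := fun v => rfl
    rw [h6, ← h5, hb, ← h6, LinearEquiv.apply_symm_apply]

variable {p : ℕ} [hp : Fact p.Prime] (W : WeierstrassCurve ℤ)

/-- the determinant of `W[p]` -/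
theorem curveRho_det_cyc (hΔ : W.Δ ≠ 0) (σ : Γℚ) :
    LinearMap.det ((curveRho p W hΔ).ρ σ) = (ExtCitation.cycloChar p σ : ZMod p) := by
  rw [curveRho, det_resRep_eq W p hΔ σ _ fun μ hμ => CycChar.apply_eq_pow_cycloChar p σ hμ,
    ZMod.natCast_zmod_val]

theorem curveRho_det_loc (hΔ : W.Δ ≠ 0) (τ : GalLoc p) {ζ : PadicAlgCl p} {a : ℕ}
    (hζ : IsPrimitiveRoot ζ p) (ha : τ ζ = ζ ^ a) :
    LinearMap.det ((curveRho p W hΔ).ρ (localGaloisToGlobal p τ)) = a := by
  have h := det_cyc (p := p) (k := ZMod p) (r := LL.rm (curveRho p W hΔ)) (fun σ => by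
    rw [det_rm, curveRho_det_cyc]; rfl) τ hζ ha
  rwa [det_rm] at h

/-- the element of inertia, good reduction -/
theorem exists_phi_good (h5 : 5 ≤ p) (hΔ : W.Δ ≠ 0) (hg : W.IsGoodPrimeFor p) :
    ∃ φ : Γℚ, psi (l := p) (curveRho p W hΔ) φ = -1 ∧
      LinearMap.trace _ _ ((curveRho p W hΔ).ρ φ) ≠ 0 := by
  classical
  have hp2 : p ≠ 2 := by omega
  obtain ⟨k, _, _, _, hsplit⟩ := exists_quad_split p
  haveI : CharP k p := charP_of_injective_algebraMap (algebraMap (ZMod p) k).injective p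
  obtain ⟨r, h1, ⟨b', h2⟩⟩ := exists_realizes_pair (l := p) (W := toRat W)
    (toRat_Δ_ne_zero hΔ)
  let φ : ℤ_[p] →+* k := (algebraMap (ZMod p) k).comp PadicInt.toZMod
  have hφ : IsLocalHom φ := by
    refine ⟨fun x hx => ?_⟩
    by_contra hx'
    have h3 : x ∈ IsLocalRing.maximalIdeal ℤ_[p] := (IsLocalRing.mem_maximalIdeal x).mpr hx'
    rw [← PadicInt.ker_toZMod, RingHom.mem_ker] at h3
    have h4 : φ x = 0 := by
      change algebraMap (ZMod p) k (PadicInt.toZMod x) = 0
      rw [h3, map_zero]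
    rw [h4] at hx
    exact not_isUnit_zero hx
  have h3 := h1.baseChange φ hφ
  let R : Γℚ →* M₂ k :=
    { toFun := fun σ => (r σ).map φ
      map_one' := h3.map_one
      map_mul' := h3.map_mul }
  haveI : Finite (IsLocalRing.ResidueField k) :=
    Finite.of_surjective _ (IsLocalRing.residue_surjective (R := k))
  have hfl : FlatV (R.comp (localGaloisToGlobal p)) :=
    flatV_of_realizes (r := R) h3 (isFlatAt_baseChangeAlong φ hφ (isFlatAt hp2 hΔ hg))
  have hR : ∀ σ, R σ = (LinearMap.toMatrix b' b' ((curveRho p W hΔ).ρ σ)).map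
      (algebraMap (ZMod p) k) := by
    intro σ
    change (r σ).map φ = _
    rw [show LinearMap.toMatrix b' b' ((curveRho p W hΔ).ρ σ) = (r σ).map PadicInt.toZMod from
      h2 σ]
    rfl
  have htr : ∀ σ, (R σ).trace = algebraMap (ZMod p) k
      (LinearMap.trace _ _ ((curveRho p W hΔ).ρ σ)) := by
    intro σ
    rw [hR, LinearMap.trace_eq_matrix_trace _ b', Matrix.trace_fin_two, Matrix.trace_fin_two,
      map_add]
    rfl
  have hdt : ∀ σ, (R σ).det = algebraMap (ZMod p) k
      (LinearMap.det ((curveRho p W hΔ).ρ σ)) := by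
    intro σ
    rw [hR, ← LinearMap.det_toMatrix b', Matrix.det_fin_two, Matrix.det_fin_two, map_sub,
      map_mul, map_mul]
    rfl
  have hlc : (locLevels p).LC (R.comp (localGaloisToGlobal p)) := by
    obtain ⟨L, hL, hLr⟩ := (curveRho p W hΔ).factorsThroughFiniteLevel
    have hL1 : ∀ σ : Γℚ, (∀ x ∈ L, σ x = x) → R σ = 1 := by
      intro σ hσ
      rw [hR, hLr σ hσ, LinearMap.toMatrix_one, Matrix.map_one _ (map_zero _) (map_one _)]
    have h1 : (galLevels ℚ (AlgebraicClosure ℚ)).LC R :=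
      ⟨L.fixingSubgroup, fixingSubgroup_mem_galLevels L, fun g s hs => by
        rw [map_mul, hL1 s (fun x hx => (IntermediateField.mem_fixingSubgroup_iff L s).mp hs x
          hx), mul_one]⟩
    exact h1.precomp (Levels.cont_comap (𝓛 := galLevels ℚ (AlgebraicClosure ℚ))
      (localGaloisToGlobal p))
  obtain ⟨τ, hτ, a, hsq, hdeta, htra⟩ := exists_tau h5 hlc hfl
    (fun τ _ ζ a hζ ha => by
      change (R (localGaloisToGlobal p τ)).det = a
      rw [hdt, curveRho_det_loc W hΔ τ hζ ha, map_natCast])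
    (fun σ => by
      change ∃ α β : k, (R (localGaloisToGlobal p σ)).charpoly = _
      rw [Matrix.charpoly_fin_two, htr, hdt]
      exact hsplit _ _)
  change (R (localGaloisToGlobal p τ)).det = _ at hdeta
  change (R (localGaloisToGlobal p τ)).trace ≠ 0 at htra
  refine ⟨localGaloisToGlobal p τ, ?_, fun h0 => ?_⟩
  · apply Units.ext
    rw [psi_coe]
    rw [hdt] at hdeta
    rw [(algebraMap (ZMod p) k).injective hdeta, (quadraticChar_neg_one_iff_not_isSquare).mpr hsq]
    rfl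
  · rw [htr, h0, map_zero] at htra
    exact htra rfl

/-- the element of inertia, multiplicative reduction -/
theorem exists_phi_mult (h5 : 5 ≤ p) (hΔ : W.Δ ≠ 0) (hpΔ : (p : ℤ) ∣ W.Δ)
    (hc : ¬ (p : ℤ) ∣ W.c₄) :
    ∃ φ : Γℚ, psi (l := p) (curveRho p W hΔ) φ = -1 ∧
      LinearMap.trace _ _ ((curveRho p W hΔ).ρ φ) ≠ 0 := by
  classical
  have hp2 : p ≠ 2 := by omega
  obtain ⟨π, hπ⟩ : ∃ π : PadicAlgCl p, IsPi π := exists_isPi
  obtain ⟨ζ, hζ⟩ : ∃ ζ : PadicAlgCl p, IsPrimitiveRoot ζ p := exists_primitive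
  obtain ⟨σ₀, a, hord, ha, hcyc, horda⟩ := exists_gen_data hπ hζ
  have hdet := curveRho_det_loc W hΔ (σ₀ : GalLoc p) hζ ha
  rw [ZMod.natCast_zmod_val] at hdet
  obtain ⟨L, ⟨b, hL⟩, -, hin, -⟩ := mult_strict_aux (W := W) (l := p) hΔ hpΔ hc
    (padicPlace_liesOverPrime (l := p))
  have hσ : localGaloisToGlobal p (σ₀ : GalLoc p) ∈ (padicPlace p).inertiaSubgroupIn ℚ :=
    (localGaloisToGlobal_mem_inertia_iff p _).2 σ₀.2
  set σ := localGaloisToGlobal p (σ₀ : GalLoc p) with hσdef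
  have h0 := hin σ hσ (b 0)
  have h1 := hin σ hσ (b 1)
  rw [hL, Submodule.mem_span_singleton] at h0 h1
  obtain ⟨x, hx⟩ := h0
  obtain ⟨y, hy⟩ := h1
  have e0 : tateGal (toRat W) p σ (b 0) = (x + 1) • b 0 := by
    have h2 := @add_smul ℤ_[p] (TateW (toRat W) p) _ _ _ x 1 (b 0)
    rw [h2, hx, one_smul, sub_add_cancel]
  have e1 : tateGal (toRat W) p σ (b 1) = y • b 0 + b 1 := by
    rw [hy, sub_add_cancel]
  have hM : LinearMap.toMatrix b b (tateGal (toRat W) p σ) = !![x + 1, y; 0, 1] := by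
    ext i j
    rw [LinearMap.toMatrix_apply]
    fin_cases j
    · simp only [Fin.zero_eta]
      rw [e0]
      fin_cases i <;> simp
    · simp only [Fin.mk_one]
      rw [e1]
      fin_cases i <;> simp
  have htr : LinearMap.trace ℤ_[p] _ (tateGal (toRat W) p σ) = x + 1 + 1 := by
    rw [LinearMap.trace_eq_matrix_trace _ b, hM, Matrix.trace_fin_two_of]
  have hdt : LinearMap.det (tateGal (toRat W) p σ) = x + 1 := by
    rw [← LinearMap.det_toMatrix b, hM, Matrix.det_fin_two_of]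
    ring
  have h3 : LinearMap.trace _ _ ((curveRho p W hΔ).ρ σ) = a + 1 := by
    rw [← hdet, curveRho, trace_resRep W p hΔ, det_resRep W p hΔ]
    change PadicInt.toZMod (LinearMap.trace ℤ_[p] _ (tateGal (toRat W) p σ)) =
      PadicInt.toZMod (LinearMap.det (tateGal (toRat W) p σ)) + 1
    rw [htr, hdt, map_add _ (x + 1) 1, map_one]
  refine ⟨σ, ?_, ?_⟩
  · apply Units.ext
    rw [psi_coe, hdet, (quadraticChar_neg_one_iff_not_isSquare).mpr
      (not_isSquare_of_orderOf hp2 horda)]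
    rfl
  · rw [h3]
    intro h0
    have h2 : a ^ 2 = 1 := by
      have : a = -1 := by linear_combination h0
      rw [this, neg_sq, one_pow]
    have h3 := orderOf_dvd_of_pow_eq_one h2
    rw [horda] at h3
    have := Nat.le_of_dvd (by omega) h3
    omega

/-- **No common eigenvector on subgroups of index two, over any extension**, for every semistable
curve with `W[p]` irreducible, `p` odd. -/
theorem curve_index_two_odd (hp2 : p ≠ 2) (hΔ : W.Δ ≠ 0) (hW : W.IsSemistableModel)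
    (hirr : W.ModRepIsIrreducible p) (k : Type) [Field k]
    [Algebra (ZMod p) k] (K : Type) [Field K] [Algebra k K] (G : Subgroup Γℚ) (hG : G.index = 2)
    (V : Submodule K (((curveRho p W hΔ).baseChange k).baseChange K).V)
    (hV : ∀ τ ∈ G, ∀ x ∈ V, (((curveRho p W hΔ).baseChange k).baseChange K).ρ τ x ∈ V) :
    V = ⊥ ∨ V = ⊤ := by
  by_cases h5 : p < 5
  · have h3 : p = 3 := by
      have h1 := hp.out.two_le
      have h4 : p ≠ 4 := by
        rintro rfl
        exact absurd hp.out (by norm_num)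
      omega
    exact curve_index_two_all W (Or.inl h3) hΔ hW hirr k K G hG V hV
  push Not at h5
  have hirr0 := curveRho_irr W hΔ hirr
  by_cases htr : ∃ σ : Γℚ, (curveRho p W hΔ).ρ σ ^ p = 1 ∧ (curveRho p W hΔ).ρ σ ≠ 1
  · obtain ⟨σ, hσ, hσ1⟩ := htr
    haveI := Subgroup.normal_of_index_eq_two hG
    exact LL.irr_of_transvection _ k K hirr0 hp2 hσ hσ1 G
      (fun γ => this.conj_mem _ (Subgroup.sq_mem_of_index_two hG σ) γ) V hV
  · push Not at htr
    have hc := complexConjugation_mul_self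
    have hc1 := LL.complexConjugation_ne_one
    obtain ⟨φ, hφ, hφ'⟩ : ∃ φ : Γℚ, psi (l := p) (curveRho p W hΔ) φ = -1 ∧
        LinearMap.trace _ _ ((curveRho p W hΔ).ρ φ) ≠ 0 := by
      by_cases hpΔ : (p : ℤ) ∣ W.Δ
      · exact exists_phi_mult W h5 hΔ hpΔ (hW p hp.out hpΔ)
      · exact exists_phi_good W h5 hΔ hpΔ
    refine bot_or_top_of_no_eigen _ k K G (fun w hw => ?_) V hV
    letI : Algebra (ZMod p) K := ((algebraMap k K).comp (algebraMap (ZMod p) k)).toAlgebra
    exact no_eigen_index_two (curveRho p W hΔ) htr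
      (fun q hq hq3 A hA σ hσ => curveRho_unip W hΔ hW hq hq3 hA hσ) K hp2 hirr0 hc
      (curveRho_det_conj W hΔ hc hc1) hφ hφ' hG hw

end Fermat.Agent.Full
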