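import Fermat.Agent.S13
import Fermat.Agent.ECRep.MultTors
import Fermat.Agent.ECRep.FrobAll
import Fermat.Agent.Ihara.NonEis

set_option autoImplicit false
set_option linter.unusedSectionVars false

/-!
# Reducible mod `p` representations of semistable curves: `a_ℓ = ℓ + 1` modulo `p`
-/

namespace Fermat.Agent.Full

open WeierstrassCurve WeierstrassCurve.Affine WeierstrassCurve.Affine.Point
open Fermat.Agent.EC Fermat.Agent.DivPoly Fermat.Agent.S13lib Fermat.Agent.ECRep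

local notation "Γℚ" => (AlgebraicClosure ℚ ≃ₐ[ℚ] AlgebraicClosure ℚ)
local notation "Qb" => AlgebraicClosure ℚ

section local_

variable {W : WeierstrassCurve ℤ}

theorem Δ_bar_ne (hΔ : W.Δ ≠ 0) : ((toRat W)⁄Qb).Δ ≠ 0 := Δ_baseChange_ne_zero (toRat W) (toRat_Δ_ne_zero hΔ)

/-- `(σ - 1)²` maps into the kernel of reduction, for `σ` in an inertia group -/
theorem sq_E1 (hΔ : W.Δ ≠ 0) (hW : W.IsSemistableModel) {q : ℕ} (hq : q.Prime)
    {A : ValuationSubring Qb} (hA : A.LiesOverPrime q) {σ : Γℚ}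
    (hσ : σ ∈ A.inertiaSubgroupIn ℚ) (P : ((toRat W)⁄Qb).Point) :
    E1 A.valuation (σ • (σ • P - P) - (σ • P - P)) := by
  by_cases hg : (q : ℤ) ∣ W.Δ
  · obtain ⟨x₀, y₀, α, β, D, hM⟩ := exists_multData W hΔ hq hA hg (hW q hq hg)
    exact E1_smul_sub_of_NS hM.int (hM.inertia_ns hσ P) hσ
  · exact E1_smul_sub_of_NS (integralFor_int W A) (ns_of_good W hq hA hg _) hσ

theorem preΨ_coeff (A : ValuationSubring Qb) (n : ℕ) (i : ℕ) :
    A.valuation ((((toRat W)⁄Qb).preΨ n).coeff i) ≤ 1 := by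
  have h1 : ((toRat W)⁄Qb) = W.map (algebraMap ℤ Qb) := by
    change (W.map (Int.castRingHom ℚ)).map (algebraMap ℚ Qb) = _
    rw [WeierstrassCurve.map_map]
    congr 1
  rw [h1, map_preΨ, Polynomial.coeff_map]
  exact v_intCast_le_one _ _

variable {p : ℕ} [hp : Fact p.Prime]

/-- the torsion module -/
noncomputable abbrev Tor (W : WeierstrassCurve ℤ) (p : ℕ) :=
  Submodule.torsionBy ℤ ((toRat W)⁄Qb).Point (p : ℤ)

/-- A stable subgroup contained in the kernel of reduction is the whole kernel of reduction. -/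
theorem mem_of_E1 (hΔ : W.Δ ≠ 0) (hp2 : p ≠ 2) {A : ValuationSubring Qb} (hA : A.LiesOverPrime p)
    (N : Submodule (ZMod p) (Tor W p))
    (hst : IsGaloisStable ℚ N) (hN : N ≠ ⊥) (hE : ∀ x ∈ N, E1 A.valuation x.1)
    (y : Tor W p) (hy : E1 A.valuation y.1) : y ∈ N := by
  classical
  by_contra hyN
  have hp0 : p ≠ 0 := hp.out.ne_zero
  have hodd : Odd p := hp.out.odd_of_ne_two hp2
  have hgal : IsGalois ℚ Qb := inferInstance
  have hfin : Finite (Tor W p) := finite_torsionBy_baseChange _ (Δ_bar_ne hΔ) p hp0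
  set v := A.valuation with hv
  have hSfin : {r : Qb | ∃ x ∈ N, x ≠ 0 ∧ xc x.1 = r}.Finite := by
    have : {r : Qb | ∃ x ∈ N, x ≠ 0 ∧ xc x.1 = r} ⊆
      Set.range (fun x : Tor W p => xc x.1) := by
      rintro r ⟨x, -, -, rfl⟩
      exact ⟨x, rfl⟩
    exact (Set.finite_range _).subset this
  set S := hSfin.toFinset with hS
  have hmemS : ∀ r, r ∈ S ↔ ∃ x ∈ N, x ≠ 0 ∧ xc x.1 = r := by
    intro r; rw [hS, Set.Finite.mem_toFinset, Set.mem_ofPred_eq]
  have hSv : ∀ r ∈ S, 1 < v r := by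
    intro r hr
    obtain ⟨x, hx, hx0, rfl⟩ := (hmemS r).mp hr
    exact (S13lib.E1_iff_xc (fun h => hx0 (Subtype.ext h))).mp (hE x hx)
  set t := ∏ r ∈ S, r with ht
  have htfix : ∀ σ : Γℚ, σ t = t := by
    intro σ
    rw [ht, map_prod]
    have himg : S.image σ = S := by
      apply Finset.eq_of_subset_of_card_le
      · intro r hr
        rw [Finset.mem_image] at hr
        obtain ⟨s, hs, rfl⟩ := hr
        obtain ⟨x, hx, hx0, rfl⟩ := (hmemS s).mp hs
        rw [hmemS]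
        refine ⟨σ • x, hst σ x hx, ?_, ?_⟩
        · intro h
          apply hx0
          have := congrArg (fun z => σ⁻¹ • z) h
          simpa using this
        · rw [← S13lib.xc_smul]; rfl
      · rw [Finset.card_image_of_injective _ σ.injective]
    conv_rhs => rw [← himg]
    rw [Finset.prod_image (fun a _ b _ h => σ.injective h)]
  obtain ⟨q, hq⟩ := exists_rat_of_fixed htfix
  obtain ⟨x0, hx0, hx0'⟩ : ∃ x ∈ N, x ≠ 0 := by
    by_contra hcon
    push Not at hcon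
    exact hN (Submodule.eq_bot_iff _ |>.mpr hcon)
  have htv : 1 < v t := by
    have hmem : xc x0.1 ∈ S := (hmemS _).mpr ⟨x0, hx0, hx0', rfl⟩
    rw [ht, ← Finset.mul_prod_erase S (fun r => r) hmem, map_mul, map_prod]
    have h1 : 1 ≤ ∏ r ∈ S.erase (xc x0.1), v r :=
      Finset.one_le_prod' fun r hr => (hSv r (Finset.mem_of_mem_erase hr)).le
    exact lt_of_lt_of_le (hSv _ hmem) (le_mul_of_one_le_right' h1)
  have hpt : 1 ≤ v ((p : Qb) * t) := by
    rw [← hq] at htv ⊢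
    exact one_le_of_one_lt hp.out hA htv
  have hy0 : y ≠ 0 := by rintro rfl; exact hyN N.zero_mem
  have hy0' : y.1 ≠ 0 := fun h => hy0 (Subtype.ext h)
  have hyS : xc y.1 ∉ S := by
    intro h
    obtain ⟨x, hx, hx0, hxy⟩ := (hmemS _).mp h
    have hx0' : x.1 ≠ 0 := fun h => hx0 (Subtype.ext h)
    rcases eq_or_eq_neg hx0' hy0' hxy with h1 | h1
    · apply hyN
      have : y = x := Subtype.ext h1.symm
      rw [this]; exact hx
    · apply hyN
      have : y = -x := Subtype.ext (by rw [Submodule.coe_neg, h1, neg_neg])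
      rw [this]; exact N.neg_mem hx
  have hyv : 1 < v (xc y.1) := (S13lib.E1_iff_xc hy0').mp hy
  have hroot : ∀ x : Tor W p, x ≠ 0 → (((toRat W)⁄Qb).preΨ p).IsRoot (xc x.1) := by
    intro x hx
    have hx' : x.1 ≠ 0 := fun h => hx (Subtype.ext h)
    rw [Polynomial.IsRoot, eval_preΨ_eq_zero_iff (Δ_bar_ne hΔ) hx' p hodd]
    have := (Submodule.mem_torsionBy_iff _ _).mp x.2
    rwa [natCast_zsmul] at this
  have hpne : ((p : ℤ) : Qb) ≠ 0 := by exact_mod_cast hp0
  have hlead : (((toRat W)⁄Qb).preΨ p).leadingCoeff = (p : Qb) := by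
    have hodd : ¬ Even (p : ℤ) := by
      rw [Int.even_coe_nat]; exact Nat.not_even_iff_odd.mpr hodd
    rw [leadingCoeff_preΨ _ hpne, if_neg hodd]
    simp
  have hf0 : ((toRat W)⁄Qb).preΨ p ≠ 0 := by
    intro h0
    rw [h0, Polynomial.leadingCoeff_zero] at hlead
    exact hpne (by exact_mod_cast hlead.symm)
  have hg := gauss_leading v hf0 (preΨ_coeff A p) (insert (xc y.1) S)
    (by
      intro r hr
      rcases Finset.mem_insert.mp hr with rfl | h
      · exact hyv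
      · exact hSv r h)
    (by
      intro r hr
      rcases Finset.mem_insert.mp hr with rfl | h
      · exact hroot y hy0
      · obtain ⟨x, -, hx0, rfl⟩ := (hmemS r).mp h
        exact hroot x hx0)
  rw [Finset.prod_insert hyS, hlead, ← ht, mul_assoc, map_mul, mul_comm t] at hg
  exact absurd hg (not_le.mpr (lt_of_lt_of_le hyv (le_mul_of_one_le_right' hpt)))

/-- the action of `σ` as a linear map -/
noncomputable def smulLin (W : WeierstrassCurve ℤ) (p : ℕ) (σ : Γℚ) :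
    Tor W p →ₗ[ZMod p] Tor W p :=
  AddMonoidHom.toZModLinearMap p (DistribSMul.toAddMonoidHom (Tor W p) σ)

@[simp] theorem smulLin_apply (σ : Γℚ) (x : Tor W p) : smulLin W p σ x = σ • x := rfl

/-- the subgroup of elements acting trivially on `E[p]` is open -/
theorem isOpen_trivial (hΔ : W.Δ ≠ 0) (H : Subgroup Γℚ)
    (hH : ∀ σ : Γℚ, (∀ x : Tor W p, σ • x = x) → σ ∈ H) : IsOpen (H : Set Γℚ) := by
  have hfin : Finite (Tor W p) :=
    finite_torsionBy_baseChange _ (Δ_bar_ne hΔ) p hp.out.ne_zero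
  have halg : Algebra.IsAlgebraic ℚ Qb := AlgebraicClosure.isAlgebraic ℚ
  let K : Subgroup Γℚ :=
    ⨅ x : Tor W p, (MulAction.stabilizer Γℚ (xc x.1) ⊓ MulAction.stabilizer Γℚ (yc x.1))
  have hK : IsOpen (K : Set Γℚ) := by
    rw [Subgroup.coe_iInf]
    apply isOpen_iInter_of_finite
    intro x
    rw [Subgroup.coe_inf]
    exact (stabilizer_isOpen_of_isIntegral (K := ℚ) (xc x.1)).inter
      (stabilizer_isOpen_of_isIntegral (K := ℚ) (yc x.1))
  refine Subgroup.isOpen_mono (H₁ := K) ?_ hK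
  intro σ hσ
  apply hH
  intro x
  rw [Subgroup.mem_iInf] at hσ
  obtain ⟨h1, h2⟩ := Subgroup.mem_inf.mp (hσ x)
  rw [MulAction.mem_stabilizer_iff] at h1 h2
  apply Subtype.ext
  change σ • x.1 = x.1
  rcases hx : x.1 with _ | ⟨a, b, hab⟩
  · rfl
  · rw [hx] at h1 h2
    rw [algEquiv_smul_def, Point.map_some]
    congr 1

/-- elements acting trivially on `N` -/
def Hsub (N : Submodule (ZMod p) (Tor W p)) : Subgroup Γℚ where
  carrier := {σ | ∀ x ∈ N, σ • x = x}
  one_mem' := fun x _ => one_smul _ x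
  mul_mem' := fun {σ τ} hσ hτ x hx => by rw [mul_smul, hτ x hx, hσ x hx]
  inv_mem' := fun {σ} hσ x hx => by
    rw [inv_smul_eq_iff]; exact (hσ x hx).symm

/-- elements acting trivially on `E[p] / N` -/
def Hquo (N : Submodule (ZMod p) (Tor W p)) (hst : IsGaloisStable ℚ N) : Subgroup Γℚ where
  carrier := {σ | ∀ x, σ • x - x ∈ N}
  one_mem' := fun x => by rw [one_smul, sub_self]; exact N.zero_mem
  mul_mem' := fun {σ τ} hσ hτ x => by
    have : (σ * τ) • x - x = σ • (τ • x - x) + (σ • x - x) := by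
      rw [mul_smul, smul_sub]; abel
    rw [this]
    exact N.add_mem (hst σ _ (hτ x)) (hσ x)
  inv_mem' := fun {σ} hσ x => by
    have : σ⁻¹ • x - x = -(σ⁻¹ • (σ • x - x)) := by
      rw [smul_sub, inv_smul_smul]; abel
    rw [this]
    exact N.neg_mem (hst _ _ (hσ x))

theorem Hsub_normal (N : Submodule (ZMod p) (Tor W p)) (hst : IsGaloisStable ℚ N) :
    (Hsub N).Normal := by
  constructor
  intro σ hσ g x hx
  change (g * σ * g⁻¹) • x = x
  rw [mul_smul, mul_smul, hσ _ (hst g⁻¹ x hx), smul_inv_smul]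

theorem Hquo_normal (N : Submodule (ZMod p) (Tor W p)) (hst : IsGaloisStable ℚ N) :
    (Hquo N hst).Normal := by
  constructor
  intro σ hσ g x
  have : (g * σ * g⁻¹) • x - x = g • (σ • (g⁻¹ • x) - g⁻¹ • x) := by
    rw [smul_sub, mul_smul, mul_smul, smul_inv_smul]
  rw [this]
  exact hst g _ (hσ _)

/-- **Global structure of a reducible `W[p]`.** -/
theorem trivial_or (hΔ : W.Δ ≠ 0) (hW : W.IsSemistableModel) (hp2 : p ≠ 2)
    (N : Submodule (ZMod p) (Tor W p)) (hst : IsGaloisStable ℚ N) (hbot : N ≠ ⊥) (htop : N ≠ ⊤) :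
    (∀ (σ : Γℚ) (x : Tor W p), σ • x - x ∈ N) ∨ (∀ (σ : Γℚ), ∀ x ∈ N, σ • x = x) := by
  have hΔ' := Δ_bar_ne hΔ
  obtain ⟨hN1, -⟩ := DivPoly.natCard_submodule _ hΔ' p N hbot htop
  have hN2 : Module.finrank (ZMod p) (Tor W p ⧸ N) = 1 := by
    have h1 := DivPoly.finrank_torsionBy_baseChange (toRat W) hΔ' p
    have := DivPoly.finite_torsionBy_baseChange _ hΔ' p hp.out.ne_zero
    have : Module.Finite (ZMod p) (Tor W p) := Module.Finite.of_finite
    have h2 := Submodule.finrank_quotient_add_finrank N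
    rw [h1, hN1] at h2
    omega
  obtain ⟨A, hA⟩ := Frob.exists_liesOverPrime (AlgebraicClosure ℚ) hp.out
  have hother : ∀ ℓ : ℕ, ℓ.Prime → ℓ ≠ p → ∃ B : ValuationSubring (AlgebraicClosure ℚ),
      B.LiesOverPrime ℓ ∧ ∀ σ ∈ B.inertiaSubgroupIn ℚ, ∀ x : Tor W p,
        σ • (σ • x - x) - (σ • x - x) = 0 := by
    intro ℓ hℓ hℓp
    obtain ⟨B, hB⟩ := Frob.exists_liesOverPrime (AlgebraicClosure ℚ) hℓ
    refine ⟨B, hB, fun σ hσ x => ?_⟩
    have h1 := sq_E1 hΔ hW hℓ hB hσ x.1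
    apply Subtype.ext
    refine h1.eq_zero_of_nsmul_eq_zero (integralFor_int W B) (n := p) ?_ ?_
    · have := v_intCast_eq_one' (L := AlgebraicClosure ℚ) hℓ hB (n := (p : ℤ)) (by
        intro h
        have h1 : ℓ ∣ p := by exact_mod_cast h
        exact hℓp ((Nat.prime_dvd_prime_iff_eq hℓ hp.out).1 h1))
      simpa using this
    · have := (Submodule.mem_torsionBy_iff _ _).mp (σ • (σ • x - x) - (σ • x - x)).2
      rwa [natCast_zsmul] at this
  by_cases hE : ∃ x ∈ N, x ≠ 0 ∧ E1 A.valuation x.1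
  · left
    obtain ⟨x0, hx0, hx0', hxE⟩ := hE
    have hNE : ∀ x ∈ N, E1 A.valuation x.1 := by
      intro x hx
      have hx0n : (⟨x0, hx0⟩ : N) ≠ 0 := fun h => hx0' (congrArg Subtype.val h)
      obtain ⟨c, hc⟩ := (finrank_eq_one_iff_of_nonzero' (⟨x0, hx0⟩ : N) hx0n).mp hN1 ⟨x, hx⟩
      have h1 : x = (ZMod.cast c : ℤ) • x0 := by
        have h2 : x = c • x0 := (congrArg Subtype.val hc).symm
        rw [h2, ← Int.cast_smul_eq_zsmul (ZMod p), ZMod.intCast_zmod_cast]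
      rw [h1]
      have h3 : (((ZMod.cast c : ℤ) • x0 : Tor W p)).1 = (ZMod.cast c : ℤ) • x0.1 := rfl
      rw [h3]
      exact AddSubgroup.zsmul_mem (E1Subgroup (integralFor_int W A)) hxE _
    have hnormal := Hquo_normal N hst
    have hopen : IsOpen (Hquo N hst : Set Γℚ) := by
      apply isOpen_trivial (p := p) hΔ
      intro σ hσ x
      rw [hσ, sub_self]
      exact N.zero_mem
    have htop' := Frob.subgroup_eq_top_of_normal (Hquo N hst) hopen (by
      intro ℓ hℓ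
      by_cases hℓp : ℓ = p
      · subst hℓp
        refine ⟨A, hA, fun σ hσ => ?_⟩
        refine unipotent_quot N hN2 (smulLin W ℓ σ) (fun x hx => hst σ x hx) (fun x => ?_)
        exact mem_of_E1 hΔ hp2 hA N hst hbot hNE _ (sq_E1 hΔ hW hℓ hA hσ x.1)
      · obtain ⟨B, hB, h⟩ := hother ℓ hℓ hℓp
        refine ⟨B, hB, fun σ hσ => ?_⟩
        refine unipotent_quot N hN2 (smulLin W p σ) (fun x hx => hst σ x hx) (fun x => ?_)
        have : smulLin W p σ (smulLin W p σ x - x) - (smulLin W p σ x - x) = 0 := h σ hσ x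
        rw [this]
        exact N.zero_mem)
    intro σ x
    have : σ ∈ Hquo N hst := by rw [htop']; exact Subgroup.mem_top σ
    exact this x
  · right
    push Not at hE
    have hnormal := Hsub_normal N hst
    have hopen : IsOpen (Hsub N : Set Γℚ) := by
      apply isOpen_trivial (p := p) hΔ
      intro σ hσ x _
      exact hσ x
    have htop' := Frob.subgroup_eq_top_of_normal (Hsub N) hopen (by
      intro ℓ hℓ
      by_cases hℓp : ℓ = p
      · subst hℓp
        refine ⟨A, hA, fun σ hσ => ?_⟩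
        refine unipotent_sub N hN1 (smulLin W ℓ σ) (fun x hx => hst σ x hx) (fun x hx => ?_)
        by_contra hne
        refine hE _ ?_ hne (sq_E1 hΔ hW hℓ hA hσ x.1)
        have h1 : σ • x - x ∈ N := N.sub_mem (hst σ x hx) hx
        exact N.sub_mem (hst σ _ h1) h1
      · obtain ⟨B, hB, h⟩ := hother ℓ hℓ hℓp
        refine ⟨B, hB, fun σ hσ => ?_⟩
        exact unipotent_sub N hN1 (smulLin W p σ) (fun x hx => hst σ x hx) (fun x hx => h σ hσ x))
    intro σ x hx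
    have : σ ∈ Hsub N := by rw [htop']; exact Subgroup.mem_top σ
    exact this x hx

/-- a fixed vector, for every element of the Galois group -/
theorem exists_fixed (hΔ : W.Δ ≠ 0) (hW : W.IsSemistableModel) (hp2 : p ≠ 2)
    (N : Submodule (ZMod p) (Tor W p)) (hst : IsGaloisStable ℚ N) (hbot : N ≠ ⊥) (htop : N ≠ ⊤)
    (σ : Γℚ) : ∃ x : Tor W p, x ≠ 0 ∧ σ • x = x := by
  have hfin := DivPoly.finite_torsionBy_baseChange _ (Δ_bar_ne hΔ) p hp.out.ne_zero
  rcases trivial_or hΔ hW hp2 N hst hbot htop with h | h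
  · by_contra hcon
    push Not at hcon
    have hinj : Function.Injective (fun x : Tor W p => σ • x - x) := by
      intro x y hxy
      by_contra hne
      refine hcon (x - y) (sub_ne_zero.mpr hne) ?_
      rw [smul_sub]
      have h1 : σ • x - x = σ • y - y := hxy
      rw [sub_eq_sub_iff_add_eq_add] at h1 ⊢
      rw [h1]
      exact add_comm _ _
    have hsurj := Finite.surjective_of_injective hinj
    apply htop
    rw [eq_top_iff]
    intro x _
    obtain ⟨y, hy⟩ := hsurj x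
    rw [← hy]
    exact h σ y
  · obtain ⟨x0, hx0, hx0'⟩ := Submodule.exists_mem_ne_zero_of_ne_bot hbot
    exact ⟨x0, hx0', h σ x0 hx0⟩

omit hp in
theorem isRoot_of_fixed {k V : Type*} [Field k] [AddCommGroup V] [Module k V] [Module.Finite k V]
    (f : Module.End k V) {x : V} (hx0 : x ≠ 0) (hx : f x = x) :
    (LinearMap.charpoly f).IsRoot 1 := by
  have h2 : f.HasEigenvalue 1 := Module.End.hasEigenvalue_of_hasEigenvector (x := x)
    ⟨Module.End.mem_eigenspace_iff.mpr (by rw [one_smul]; exact hx), hx0⟩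
  exact Module.End.hasEigenvalue_iff_isRoot_charpoly _ _ |>.mp h2

/-- **`a_ℓ ≡ ℓ + 1 mod p` when `W[p]` is reducible.** -/
theorem ap_of_red (hΔ : W.Δ ≠ 0) (hW : W.IsSemistableModel) (hp2 : p ≠ 2)
    (hred : ¬ W.ModRepIsIrreducible p) {ℓ : ℕ} (hℓ : ℓ.Prime) (hℓp : ℓ ≠ p)
    (hg : W.IsGoodPrimeFor ℓ) : (p : ℤ) ∣ W.apOfModel ℓ - (ℓ + 1) := by
  obtain ⟨N, hst, hbot, htop⟩ : ∃ N : Submodule (ZMod p) (Tor W p), IsGaloisStable ℚ N ∧
      N ≠ ⊥ ∧ N ≠ ⊤ := by
    unfold WeierstrassCurve.ModRepIsIrreducible at hred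
    rw [GaloisRepIsIrreducible, not_and_or] at hred
    rcases hred with h | h
    · exact absurd (DivPoly.nontrivial_torsionBy_baseChange _ (Δ_bar_ne hΔ) p hp.out.two_le) h
    · push Not at h
      exact h
  obtain ⟨A, hA⟩ := Frob.exists_liesOverPrime Qb hℓ
  obtain ⟨σ, hσ⟩ := Frob.exists_isFrobeniusAt A hℓ hA
  obtain ⟨x, hx0, hx⟩ := exists_fixed hΔ hW hp2 N hst hbot htop σ
  have h1 := charpoly_frob_res (l := p) W hΔ hℓ hℓp hA hg hσ
  have h3 := isRoot_of_fixed ((resRep (toRat W) p (toRat_Δ_ne_zero hΔ)).ρ σ) (x := x) hx0 hx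
  rw [h1, Polynomial.IsRoot] at h3
  simp only [Polynomial.eval_add, Polynomial.eval_sub, Polynomial.eval_mul, Polynomial.eval_pow,
    Polynomial.eval_X, Polynomial.eval_C, one_pow, mul_one] at h3
  rw [← ZMod.intCast_zmod_eq_zero_iff_dvd]
  push_cast
  linear_combination -h3

theorem irr_of_ap (hΔ : W.Δ ≠ 0) (hW : W.IsSemistableModel) (hp2 : p ≠ 2)
    {ℓ : ℕ} (hℓ : ℓ.Prime) (hℓp : ℓ ≠ p) (hg : W.IsGoodPrimeFor ℓ)
    (h : ¬ (p : ℤ) ∣ W.apOfModel ℓ - (ℓ + 1)) : W.ModRepIsIrreducible p := by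
  by_contra hred
  exact h (ap_of_red hΔ hW hp2 hred hℓ hℓp hg)

/-- non-Eisenstein primes for an irreducible `W[p]` -/
theorem exists_good_of_irr (hΔ : W.Δ ≠ 0) (hp2 : p ≠ 2) (hirr : W.ModRepIsIrreducible p)
    (S : Finset ℕ) : ∃ ℓ : ℕ, ℓ.Prime ∧ ℓ ∉ S ∧ W.IsGoodPrimeFor ℓ ∧
      ¬ (p : ℤ) ∣ W.apOfModel ℓ - (ℓ + 1) := by
  have : (toRat W).IsElliptic := ⟨isUnit_iff_ne_zero.mpr (toRat_Δ_ne_zero hΔ)⟩
  obtain ⟨ℓ, h1, h2, -, h3, h4⟩ := Ihara.exists_prime_ap_of_model (E := toRat W) (W := W)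
    ⟨1, one_smul _ _⟩ hp2 hirr one_ne_zero S
  exact ⟨ℓ, h1, h2, h3, h4⟩

/-- irreducibility of `W[p]` only depends on the system modulo `p` -/
theorem irr_of_congr {W' : WeierstrassCurve ℤ} (hΔ : W.Δ ≠ 0) (hp2 : p ≠ 2) (hΔ' : W'.Δ ≠ 0)
    (hW' : W'.IsSemistableModel) (S : Finset ℕ)
    (h : ∀ ℓ : ℕ, ℓ.Prime → ℓ ∉ S → W.IsGoodPrimeFor ℓ → W'.IsGoodPrimeFor ℓ →
      (p : ℤ) ∣ (W'.apOfModel ℓ - W.apOfModel ℓ)) (hirr : W.ModRepIsIrreducible p) :
    W'.ModRepIsIrreducible p := by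
  classical
  obtain ⟨ℓ, h1, h2, h3, h4⟩ := exists_good_of_irr hΔ hp2 hirr
    (insert p S ∪ W'.Δ.natAbs.primeFactors)
  simp only [Finset.mem_union, Finset.mem_insert, not_or] at h2
  obtain ⟨⟨hℓp, hℓS⟩, hℓW⟩ := h2
  have hg' : W'.IsGoodPrimeFor ℓ := fun hd => hℓW (Nat.mem_primeFactors.mpr
    ⟨h1, Int.natCast_dvd.mp hd, Int.natAbs_ne_zero.mpr hΔ'⟩)
  refine irr_of_ap hΔ' hW' hp2 h1 hℓp hg' fun hd => h4 ?_
  have h5 := dvd_sub hd (h ℓ h1 hℓS h3 hg')
  have e : W'.apOfModel ℓ - (↑ℓ + 1) - (W'.apOfModel ℓ - W.apOfModel ℓ) =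
      W.apOfModel ℓ - (↑ℓ + 1) := by ring
  rwa [e] at h5

end local_

end Fermat.Agent.Full
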