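import Fermat.Agent.TwoAdic.Kraus

set_option autoImplicit false

/-!
# Kraus' conditions, including the supersingular case at `2`
-/

namespace Fermat.Agent.Full

open Fermat.Agent.TwoAdic

/-- the condition at `3` -/
theorem exists_b_three {c4 c6 Δ : ℤ} (h : c4^3 - c6^2 = 1728*Δ)
    (h3 : ¬ (3 : ℤ) ∣ c4 ∨ ((3 : ℤ) ∣ c4 ∧ (27 : ℤ) ∣ c6)) : ∃ b'' : ℤ, ∀ b : ℤ, 27 ∣ b - b'' →
      3 ∣ b^2 - c4 ∧ 27 ∣ b^3 - 3*b*c4 - 2*c6 := by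
  rcases h3 with h3 | ⟨h3, h3'⟩
  · have hc27 : IsCoprime (27 : ℤ) c4 := by
      have : (27 : ℤ) = 3^3 := by norm_num
      rw [this]
      exact IsCoprime.pow_left ((Prime.coprime_iff_not_dvd Int.prime_three).mpr h3)
    obtain ⟨b'', hb''⟩ := exists_b (c6 := c6) hc27
    refine ⟨b'', fun b hb => ?_⟩
    have : (27 : ℤ) ∣ b * c4 + c6 := by
      have e : b * c4 + c6 = (b - b'') * c4 + (b'' * c4 + c6) := by ring
      rw [e]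
      exact dvd_add (Dvd.dvd.mul_right hb _) hb''
    obtain ⟨k1, k2⟩ := dvd_cube hc27 h (by norm_num) this
    exact ⟨dvd_trans (by norm_num) k1, k2⟩
  · refine ⟨0, fun b hb => ?_⟩
    rw [sub_zero] at hb
    constructor
    · have : (3 : ℤ) ∣ b := dvd_trans (by norm_num) hb
      exact dvd_sub (this.trans (dvd_pow_self _ two_ne_zero)) h3
    · exact dvd_sub (dvd_sub (hb.trans (dvd_pow_self _ three_ne_zero))
        (Dvd.dvd.mul_right (Dvd.dvd.mul_left hb _) _)) (Dvd.dvd.mul_left h3' _)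

/-- the supersingular case at `2` -/
theorem kraus_ss {c4 c6 Δ : ℤ} (h : c4^3 - c6^2 = 1728*Δ) (h4 : (16 : ℤ) ∣ c4)
    (h6 : (32 : ℤ) ∣ c6 ∨ (32 : ℤ) ∣ c6 - 8)
    (h3 : ¬ (3 : ℤ) ∣ c4 ∨ ((3 : ℤ) ∣ c4 ∧ (27 : ℤ) ∣ c6)) :
    ∃ W : WeierstrassCurve ℤ, W.c₄ = c4 ∧ W.c₆ = c6 ∧ W.Δ = Δ := by
  obtain ⟨c, hc⟩ := h4
  obtain ⟨b'', hb''⟩ := exists_b_three h h3
  obtain ⟨a2, ha2⟩ : ∃ a2 : ℤ, a2 = 7 * b'' := ⟨_, rfl⟩
  obtain ⟨k3, k4⟩ := hb'' (4 * a2) ⟨b'', by rw [ha2]; ring⟩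
  obtain ⟨a3, ha3⟩ : ∃ a3 : ℤ, (32 : ℤ) ∣ c6 + 216 * a3^2 := by
    rcases h6 with h6 | h6
    · exact ⟨0, by simpa using h6⟩
    · exact ⟨1, by omega⟩
  obtain ⟨a4, ha4⟩ : (3 : ℤ) ∣ a2^2 - c := by
    have e : (4 * a2)^2 - c4 = 16 * (a2^2 - c) := by rw [hc]; ring
    rw [e] at k3
    omega
  obtain ⟨a6, ha6⟩ : (864 : ℤ) ∣ 32 * a2^3 - 96 * a2 * c - c6 - 216 * a3^2 := by
    have e0 : (864 : ℤ) = 32 * 27 := by norm_num
    rw [e0]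
    refine IsCoprime.mul_dvd ⟨11, -13, by norm_num⟩ ?_ ?_
    · have e : 32 * a2^3 - 96 * a2 * c - c6 - 216 * a3^2 =
        32 * (a2^3 - 3 * a2 * c) - (c6 + 216 * a3^2) := by ring
      rw [e]
      exact dvd_sub (dvd_mul_right _ _) ha3
    · have e : 2 * (32 * a2^3 - 96 * a2 * c - c6 - 216 * a3^2) =
        ((4 * a2)^3 - 3 * (4 * a2) * c4 - 2 * c6) - 27 * (16 * a3^2) := by rw [hc]; ring
      have h27 : (27 : ℤ) ∣ 2 * (32 * a2^3 - 96 * a2 * c - c6 - 216 * a3^2) := by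
        rw [e]
        exact dvd_sub k4 (dvd_mul_right _ _)
      exact IsCoprime.dvd_of_dvd_mul_left ⟨1, -13, by norm_num⟩ h27
  let W : WeierstrassCurve ℤ := ⟨0, a2, a3, a4, a6⟩
  have e4 : W.c₄ = c4 := by
    simp only [W, WeierstrassCurve.c₄, WeierstrassCurve.b₂, WeierstrassCurve.b₄]
    linear_combination 16 * ha4 - hc
  have e6 : W.c₆ = c6 := by
    simp only [W, WeierstrassCurve.c₆, WeierstrassCurve.b₂, WeierstrassCurve.b₄,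
      WeierstrassCurve.b₆]
    linear_combination ha6 - 96 * a2 * ha4
  refine ⟨W, e4, e6, ?_⟩
  have h1 := W.c_relation
  rw [e4, e6, h] at h1
  have h1728 : (1728 : ℤ) ≠ 0 := by norm_num
  exact mul_left_cancel₀ h1728 h1

/-- **Kraus' conditions.** -/
theorem kraus_gen {c4 c6 Δ : ℤ} (h : c4^3 - c6^2 = 1728*Δ)
    (h2 : (¬ (2 : ℤ) ∣ c4 ∧ (4 : ℤ) ∣ c6 + 1) ∨
      ((16 : ℤ) ∣ c4 ∧ ((32 : ℤ) ∣ c6 ∨ (32 : ℤ) ∣ c6 - 8)))
    (h3 : ¬ (3 : ℤ) ∣ c4 ∨ ((3 : ℤ) ∣ c4 ∧ (27 : ℤ) ∣ c6)) :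
    ∃ W : WeierstrassCurve ℤ, W.c₄ = c4 ∧ W.c₆ = c6 ∧ W.Δ = Δ := by
  rcases h2 with ⟨h2, h4⟩ | ⟨h4, h6⟩
  · exact kraus h h2 h4 h3
  · exact kraus_ss h h4 h6 h3

/-- the conditions at `2` hold for an integral equation -/
theorem kraus_two (W : WeierstrassCurve ℤ) : (¬ (2 : ℤ) ∣ W.c₄ ∧ (4 : ℤ) ∣ W.c₆ + 1) ∨
    ((16 : ℤ) ∣ W.c₄ ∧ ((32 : ℤ) ∣ W.c₆ ∨ (32 : ℤ) ∣ W.c₆ - 8)) := by
  by_cases h : (2 : ℤ) ∣ W.c₄
  · right
    have ha1 : Even W.a₁ := by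
      by_contra hcon
      rw [Int.not_even_iff_odd] at hcon
      obtain ⟨t, ht⟩ := hcon
      have h1 : W.c₄ = 2 * ((4 * (t^2 + t + W.a₂) + 1) * (2 * (t^2 + t + W.a₂)) +
        2 * (t^2 + t + W.a₂) - 12 * (2 * W.a₄ + W.a₁ * W.a₃)) + 1 := by
        simp only [WeierstrassCurve.c₄, WeierstrassCurve.b₂, WeierstrassCurve.b₄]
        rw [ht]; ring
      omega
    obtain ⟨r, hr⟩ := ha1
    have hb2 : W.b₂ = 4 * (r^2 + W.a₂) := by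
      simp only [WeierstrassCurve.b₂]; rw [hr]; ring
    have hb4 : W.b₄ = 2 * (W.a₄ + r * W.a₃) := by
      simp only [WeierstrassCurve.b₄]; rw [hr]; ring
    have hb6 : W.b₆ = W.a₃^2 + 4 * W.a₆ := rfl
    constructor
    · refine ⟨(r^2 + W.a₂)^2 - 3 * (W.a₄ + r * W.a₃), ?_⟩
      simp only [WeierstrassCurve.c₄]
      rw [hb2, hb4]; ring
    · have h6 : W.c₆ = 32 * (-2 * (r^2 + W.a₂)^3 + 9 * (r^2 + W.a₂) * (W.a₄ + r * W.a₃) -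
        27 * W.a₆) - 216 * W.a₃^2 := by
        simp only [WeierstrassCurve.c₆]
        rw [hb2, hb4, hb6]; ring
      rcases Int.even_or_odd W.a₃ with ⟨s, hs⟩ | ⟨s, hs⟩
      · left
        have h8 : W.a₃^2 = 4 * s^2 := by rw [hs]; ring
        rw [h6, h8]
        exact ⟨_, (show _ = 32 * (-2 * (r^2 + W.a₂)^3 + 9 * (r^2 + W.a₂) *
          (W.a₄ + r * W.a₃) - 27 * W.a₆ - 27 * s^2) by ring)⟩
      · right
        obtain ⟨u, hu⟩ : (2 : ℤ) ∣ s * (s + 1) := (Int.even_mul_succ_self s).two_dvd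
        have h8 : W.a₃^2 = 8 * u + 1 := by
          rw [hs]; linear_combination 4 * hu
        rw [h6, h8]
        exact ⟨_, (show _ = 32 * (-2 * (r^2 + W.a₂)^3 + 9 * (r^2 + W.a₂) *
          (W.a₄ + r * W.a₃) - 27 * W.a₆ - 54 * u - 7) by ring)⟩
  · exact Or.inl ⟨h, c6_mod_four W h⟩

end Fermat.Agent.Full
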