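import Fermat.Agent.Full.LiftFin
import Fermat.Agent.Full.IndexTwoAll

set_option autoImplicit false

/-!
# The modularity lifting theorem for semistable curves, `p = 3, 5`
-/

namespace Fermat.Agent.Full

/-- **The modularity lifting theorem** for semistable elliptic curves, `p = 3, 5`. -/
theorem liftStmt : LiftStmt := liftStmt_of_ind indexTwoStmt

end Fermat.Agent.Full
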