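import Fermat.Agent.Full.LiftSetup
import Fermat.Agent.Full.ChooseFR
import Fermat.Agent.LL.S59SetupProof

set_option autoImplicit false

/-!
# Existence of the setup
-/

open CongruenceSubgroup IsLocalRing Polynomial ModularFormClass

namespace Fermat.Agent.Full

open Fermat.Agent.LL Fermat.Agent.DefRing

local notation "Γℚ" => (AlgebraicClosure ℚ ≃ₐ[ℚ] AlgebraicClosure ℚ)

theorem Aux.not_dvd_cond {p : ℕ} {W : WeierstrassCurve ℤ} {r : ℕ} (A : Aux p W r)
    (hΔ : W.Δ ≠ 0) : ¬ r ∣ Wire.cond W := fun h ↦ A.good ((Wire.dvd_cond hΔ A.prime).1 h)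

theorem Aux.squarefree {p : ℕ} {W : WeierstrassCurve ℤ} {r : ℕ} (A : Aux p W r)
    (hΔ : W.Δ ≠ 0) : Squarefree (Wire.cond W * r) :=
  Nat.squarefree_mul_iff.2 ⟨((Nat.Prime.coprime_iff_not_dvd A.prime).2 (A.not_dvd_cond hΔ)).symm,
    Wire.squarefree_cond W, A.prime.prime.squarefree⟩

theorem setupStmtL (hIT : IndexTwoStmt) (hR : ExistRStmt) (I : Inputs) : SetupStmtL := by
  classical
  intro p hpF W H hmod N0 hocc hlev hram hpmin
  have hp : p.Prime := hpF.out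
  have hp2 : p ≠ 2 := H.ne2
  obtain ⟨hN0, 𝔪, h𝔪, hpm, f, S1, hf, hcong⟩ := id hocc
  have hfe : f.IsNormalizedEigenform := hf.isNormalizedEigenform
  obtain ⟨𝒪, i1, i2, i3, i4, i5, i6, hp𝒪, j, ι, b, hj, -, hι, hb, hsplit⟩ :=
    exists_dvr59 hp 𝔪 h𝔪 hpm hfe ∅
  have hchar : CharP (ResidueField 𝒪) p := charP_residueField hp hp𝒪
  let ialg : Algebra (ZMod p) (ResidueField 𝒪) := ZMod.algebra _ p
  obtain ⟨habs, hodd, hcyc, hspl, hind, hunr, hunri, hfrob⟩ :=
    curveResL (k := ResidueField 𝒪) hIT H hsplit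
  -- the auxiliary prime
  obtain ⟨r, -, hr⟩ := hR p W H ∅
  have hcr := hr.squarefree H.Δ_ne
  -- the set `S0`
  obtain ⟨S0, hS0⟩ : ∃ S0, S0 = insert r (insert p ((Wire.cond W).primeFactors ∪ S1)) := ⟨_, rfl⟩
  have hS0_r : r ∈ S0 := hS0 ▸ Finset.mem_insert_self _ _
  have hS0_p : p ∈ S0 := hS0 ▸ Finset.mem_insert_of_mem (Finset.mem_insert_self _ _)
  have hS0_bad : ∀ q : ℕ, q.Prime → (q : ℤ) ∣ W.Δ → q ∈ S0 := by
    intro q hq hqW
    rw [hS0]
    exact Finset.mem_insert_of_mem (Finset.mem_insert_of_mem (Finset.mem_union_left _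
      (Nat.mem_primeFactors.2 ⟨hq, (Wire.dvd_cond H.Δ_ne hq).2 hqW, Wire.cond_ne_zero W⟩)))
  have hS0_1 : S1 ⊆ S0 := by
    rw [hS0]
    exact ((Finset.subset_union_right).trans (Finset.subset_insert _ _)).trans
      (Finset.subset_insert _ _)
  have hgood : ∀ ℓ : ℕ, ℓ.Prime → ℓ ∉ S0 → W.IsGoodPrimeFor ℓ := fun ℓ hℓ hℓS h ↦
    hℓS (hS0_bad ℓ hℓ h)
  have hne_p : ∀ ℓ : ℕ, ℓ ∉ S0 → ℓ ≠ p := fun ℓ hℓS h ↦ hℓS (h ▸ hS0_p)
  -- the context
  have hCtx : Ctx p j (rhoBar59 p W H.Δ_ne 𝒪) S0 (fun ℓ ↦ ((W.apOfModel ℓ : ℤ) : 𝒪)) := by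
    refine { prime := hp, ne2 := hp2, mem := hp𝒪, inj := hj, abs := habs, odd := hodd,
             frob := ?_, pS := hS0_p, noneis := ?_ }
    · intro ℓ hℓ hℓS P hP σ hσ
      beta_reduce
      rw [map_intCast]
      exact hfrob ℓ hℓ (hne_p ℓ hℓS) (hgood ℓ hℓ hℓS) P hP σ hσ
    · intro S m hm
      obtain ⟨ℓ, h1, h2, h3, -, h4⟩ := Wire.noneis_W (k := ResidueField 𝒪) W hp2 H.Δ_ne H.irr S hm
      refine ⟨ℓ, h1, h2, h3, ?_⟩
      beta_reduce
      rw [map_intCast]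
      exact h4
  -- the form
  obtain ⟨hbc, hcongTo⟩ := congTo_of_occ (c := cW W) h𝔪 hι hfe hb hcong
  have hcongTo0 : CongTo j (fun ℓ ↦ ((W.apOfModel ℓ : ℤ) : 𝒪)) S0 (fun ℓ ↦ qCoeff f ℓ) := by
    obtain ⟨A, i1, i2, i3, i4, i5, φ, t', h1, h2⟩ := hcongTo
    exact ⟨A, i1, i2, i3, i4, i5, φ, t', h1, fun ℓ hℓ hℓS ↦ h2 ℓ hℓ fun h ↦ hℓS (hS0_1 h)⟩
  have hcN : N0 ∣ Wire.cond W := Wire.dvd_cond_of_squarefree H.Δ_ne hlev.1 hlev.2
  have hrN : ¬ r ∣ N0 := fun h ↦ hr.not_dvd_cond H.Δ_ne (h.trans hcN)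
  obtain ⟨P, hP⟩ := exists_pt_of_congTo hCtx I (Finset.Subset.refl S0) hcongTo0 hf
    (fun q hq hqN ↦ hS0_bad q hq (hlev.2 q hq hqN)) (fun ℓ _ _ ↦ rfl)
  -- `Smin`
  obtain ⟨Smin, hSmin⟩ : ∃ Smin : Finset ℕ, Smin = insert p ((Wire.cond W).primeFactors.filter
    (fun q ↦ q ≠ p ∧ ¬ (rhoBar59 p W H.Δ_ne 𝒪).IsUnramifiedAt q)) := ⟨_, rfl⟩
  have hSmin_iff : ∀ q : ℕ, q.Prime → q ≠ p →
      (q ∈ Smin ↔ ¬ (rhoBar59 p W H.Δ_ne 𝒪).IsUnramifiedAt q) := by
    intro q hq hqp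
    rw [hSmin, Finset.mem_insert, Finset.mem_filter, Nat.mem_primeFactors]
    constructor
    · rintro (h | h)
      · exact absurd h hqp
      · exact h.2.2
    · intro h
      refine Or.inr ⟨⟨hq, ?_, Wire.cond_ne_zero W⟩, hqp, h⟩
      rw [Wire.dvd_cond H.Δ_ne hq]
      by_contra h1
      exact h (hunr q hq hqp h1)
  have hSmin_prime : ∀ q ∈ Smin, q.Prime := by
    intro q hq
    rw [hSmin, Finset.mem_insert, Finset.mem_filter] at hq
    rcases hq with rfl | h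
    · exact hp
    · exact Nat.prime_of_mem_primeFactors h.1
  have hSS0 : Smin ⊆ S0 := by
    intro q hq
    rw [hSmin, Finset.mem_insert, Finset.mem_filter] at hq
    rcases hq with rfl | h
    · exact hS0_p
    · exact hS0_bad q (Nat.prime_of_mem_primeFactors h.1)
        ((Wire.dvd_cond H.Δ_ne (Nat.prime_of_mem_primeFactors h.1)).1
          (Nat.dvd_of_mem_primeFactors h.1))
  have hdvd_iff : ∀ q : ℕ, q.Prime → q ≠ p → (q ∣ N0 ↔ q ∈ Smin) := by
    intro q hq hqp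
    rw [hSmin_iff q hq hqp]
    constructor
    · intro h
      rw [hunri q hq hqp (hlev.2 q hq h)]
      exact hram q hq h hqp
    · intro h
      by_contra h1
      exact h (P.unramified (hP.unr q hq hqp h1))
  obtain ⟨m, ql, hqlp, hqli, hprod, hqlN⟩ := exists_enum (Wire.squarefree_cond W) hcN
  have hprod' : N0 * r * ∏ k, ql k = Wire.cond W * r := by
    rw [← hprod]; ring
  obtain ⟨F, hFv, hF0, hFW⟩ := exists_F_aux hp2 H.Δ_ne H.irr hmod hr S0 j
  refine ⟨𝒪, i1, i2, i3, i4, i5, i6, ialg, j, S0, Smin, m, ql, F, r,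
    { mem := hp𝒪, inj := hj, split := hsplit, ql_prime := hqlp, ql_inj := hqli, lev := hprod,
      aux := hr, S0_bad := hS0_bad, S0_p := hS0_p, S0_r := hS0_r,
      Smin_p := hSmin ▸ Finset.mem_insert_self _ _,
      Smin_prime := hSmin_prime, Smin_iff := hSmin_iff, dvd_iff := hdvd_iff, ql_notMem := ?_,
      base := ?_, F_W := hFW }⟩
  · intro k hk h
    exact hqlN k ((hdvd_iff (ql k) (hqlp k) hk).2 h)
  · intro Pc hPc
    exact
      { hCtx with
        ql_prime := hqlp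
        sqf := by rw [hprod']; exact hcr
        three := Or.inr ⟨r, hr.prime, by have := hr.mod; omega, Dvd.intro_left N0 rfl⟩
        memS := fun q hq h ↦ by
          rw [hprod'] at h
          rcases hq.dvd_mul.1 h with h | h
          · exact hS0_bad q hq ((Wire.dvd_cond H.Δ_ne hq).1 h)
          · rw [(Nat.prime_dvd_prime_iff_eq hq hr.prime).1 h]
            exact hS0_r
        form := ⟨N0, hN0, f, Dvd.intro r rfl, hfe, hcongTo0⟩
        Sp := hSmin ▸ Finset.mem_insert_self _ _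
        SS0 := hSS0
        SN := by
          intro q hq hqN
          rcases hq.dvd_mul.1 hqN with h | h
          · by_cases hqp : q = p
            · rw [hqp, hSmin]
              exact Or.inl (Finset.mem_insert_self _ _)
            · exact Or.inl ((hdvd_iff q hq hqp).1 h)
          · rw [(Nat.prime_dvd_prime_iff_eq hq hr.prime).1 h]
            exact Or.inr (hr.harmless H.Δ_ne (ResidueField 𝒪))
        pmin := by
          intro hpN S hS M _ g hg hM hc
          rw [hprod'] at hM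
          have hpN0 : p ∣ N0 := (hp.dvd_mul.1 hpN).resolve_right fun h ↦
            hr.ne ((Nat.prime_dvd_prime_iff_eq hp hr.prime).1 h).symm
          have hoc : OccZ p (cW W) M := OccZ.of_congTo hp hp𝒪 (c := cW W) (fun ℓ _ _ ↦ by
            rw [cW, sub_self]; exact Ideal.zero_mem _) hg hc
          have hrM : ¬ r ∣ M := by
            refine hr.not_dvd hp2 H.Δ_ne H.irr hoc fun h ↦ ?_
            exact hr.prime.one_lt.ne' (Nat.isUnit_iff.1
              ((hcr.squarefree_of_dvd hM) r (by rw [← sq]; exact h)))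
          have hMc : M ∣ Wire.cond W :=
            (Nat.Coprime.symm ((Nat.Prime.coprime_iff_not_dvd hr.prime).2
              hrM)).dvd_of_dvd_mul_right hM
          exact hpmin hpN0 M ⟨(Wire.squarefree_cond W).squarefree_of_dvd hMc, fun q hq hqM ↦
            (Wire.dvd_cond H.Δ_ne hq).1 (hqM.trans hMc)⟩ hoc
        pcond := hPc
        F_vars := hFv
        F_zero := by
          intro M hM g hg hMd
          rw [hprod'] at hMd
          exact hF0 M hM g hg hMd }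

end Fermat.Agent.Full
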