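import Fermat.Agent.Wire.StepL

set_option autoImplicit false

/-!
# Mazur's principle for `W[p]`, `W` semistable, `p = 3, 5`
-/

open Polynomial WeierstrassCurve ModularFormClass CongruenceSubgroup Fermat.Agent.ECRep

namespace Fermat.Agent.Full

open Fermat.Agent.Wire

local notation "ℤbar" => integralClosure ℤ ℂ
local notation "Γℚ" => (AlgebraicClosure ℚ ≃ₐ[ℚ] AlgebraicClosure ℚ)
local notation "Qb" => AlgebraicClosure ℚ

variable {p : ℕ} {W : WeierstrassCurve ℤ} [Fact p.Prime]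

/-- the trace of inertia at `q ≠ p` is `2` -/
theorem curve_trace_inertia_ss (hΔ : W.Δ ≠ 0) (hW : W.IsSemistableModel) (k : Type) [Field k]
    [Algebra (ZMod p) k] {q : ℕ} (hq : q.Prime) (hqp : q ≠ p)
    {A : ValuationSubring Qb} (hA : A.LiesOverPrime q) {σ : Γℚ}
    (hσ : σ ∈ A.inertiaSubgroupIn ℚ) :
    LinearMap.trace k _ (((curveRho p W hΔ).baseChange k).ρ σ) = 2 := by
  by_cases hqΔ : (q : ℤ) ∣ W.Δ
  · exact curve_trace_inertia hΔ hW k hq hqp hqΔ hA hσ
  · have h1 : (curveRho p W hΔ).ρ σ = 1 := resRep_isUnramifiedAt W hΔ hq hqp hqΔ A hA σ hσ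
    have h2 : ((curveRho p W hΔ).baseChange k).ρ σ = 1 :=
      (LL.baseChange_eq_one_iff (curveRho p W hΔ) k σ).mpr h1
    have h3 := ((curveRho p W hΔ).baseChange k).finrank_eq
    have h4 := LinearMap.trace_id k ((curveRho p W hΔ).baseChange k).V
    rw [h3] at h4
    rw [h2]
    exact_mod_cast h4

/-- **Mazur's principle for `W[p]`.** -/
theorem mpL (h35 : p = 3 ∨ p = 5) (hΔ : W.Δ ≠ 0) (hW : W.IsSemistableModel)
    (hirr : W.ModRepIsIrreducible p)
    (hind : ∀ (k : Type) [Field k] [Algebra (ZMod p) k] (K : Type) [Field K] [Algebra k K]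
      (G : Subgroup Γℚ), G.index = 2 →
      ∀ V : Submodule K (((curveRho p W hΔ).baseChange k).baseChange K).V,
        (∀ τ ∈ G, ∀ x ∈ V, (((curveRho p W hΔ).baseChange k).baseChange K).ρ τ x ∈ V) →
        V = ⊥ ∨ V = ⊤) {N : ℕ} [NeZero N]
    (hsq : Squarefree N) (hocc : Occ59 p W N) (hmin : ∀ M, M ∣ N → Occ59 p W M → M = N)
    {q : ℕ} (hq : q.Prime) (hqN : q ∣ N) (hqp : q ≠ p) (hunr : (curveRho p W hΔ).IsUnramifiedAt q) :
    p ∣ q - 1 ∧ ∀ P : ValuationSubring Qb, P.LiesOverPrime q → ∀ σ : Γℚ, P.IsFrobeniusAt σ q →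
      (curveRho p W hΔ).ρ σ = 1 ∨ (curveRho p W hΔ).ρ σ = -1 := by
  classical
  have hp : p.Prime := Fact.out
  have hp2 : p ≠ 2 := by rcases h35 with rfl | rfl <;> norm_num
  obtain ⟨_, g, 𝔪, S, hg, h𝔪, hp𝔪, hc⟩ := hocc
  letI : Field (ℤbar ⧸ 𝔪) := Ideal.Quotient.field 𝔪
  let K : Type := ℤbar ⧸ 𝔪
  letI : Field K := Ideal.Quotient.field 𝔪
  let ψ : ℤbar →+* K := Ideal.Quotient.mk 𝔪
  have hchar : CharP K p := by
    rw [CharP.charP_iff_prime_eq_zero hp, ← map_natCast ψ]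
    exact Ideal.Quotient.eq_zero_iff_mem.mpr hp𝔪
  letI : Algebra (ZMod p) K := ZMod.algebra K p
  have hψ : ∀ ℓ : ℕ, ℓ.Prime → ℓ ∉ S → ∀ a : ℤbar, (a : ℂ) = qCoeff g ℓ →
      ψ a = ((W.apOfModel ℓ : ℤ) : K) := by
    intro ℓ hℓ hℓS a ha
    have h3 := hc ℓ hℓ hℓS a ha
    have h4 : ψ (a - ((W.apOfModel ℓ : ℤ) : ℤbar)) = 0 := Ideal.Quotient.eq_zero_iff_mem.mpr h3
    rwa [map_sub, map_intCast, sub_eq_zero] at h4
  have hqN2 : ¬ q ^ 2 ∣ N := by
    intro h
    have := hsq q (by rwa [← pow_two])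
    exact hq.one_lt.ne' (Nat.isUnit_iff.mp this)
  have D : MazurQ.MPData N q p ψ g ((curveRho p W hΔ).baseChange K) :=
    { hf := hg.isNormalizedEigenform
      irr := curve_absIrr W hp2 hΔ hirr K
      frob := fun ℓ hℓ hℓN hℓp P hP σ hσ a ha =>
        frob_of_cong hΔ hg.isNormalizedEigenform ψ S hψ hℓ hℓN hℓp hP hσ a ha
      unr := (curve_unr_iff_base W K hΔ q).mpr hunr
      hno := by
        intro L _ _ ψ' g' hg'
        by_contra hcon
        push Not at hcon
        have hcharL : CharP L p := charP_of_injective_algebraMap (algebraMap K L).injective p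
        have hNq : N / q ∣ N := Nat.div_dvd_of_dvd hqN
        have hNq0 : NeZero (N / q) := ⟨fun h => NeZero.ne N (by
          rw [← Nat.div_mul_cancel hqN, h, zero_mul])⟩
        obtain ⟨M', hM', hocc'⟩ := occ59_of_eigenform (W := W) hp ψ' hg'
          (S ∪ N.primeFactors ∪ {p}) (by
            intro ℓ hℓ hℓS b hb
            simp only [Finset.mem_union, Finset.mem_singleton, not_or, Nat.mem_primeFactors,
              not_and] at hℓS
            obtain ⟨⟨h1, h3⟩, h4⟩ := hℓS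
            have hℓN : ¬ ℓ ∣ N := fun h => h3 hℓ h (NeZero.ne N)
            have hint : qCoeff g ℓ ∈ ℤbar :=
              Eigenform.isIntegral_qCoeff_prime hg.isNormalizedEigenform hℓ
            rw [hcon ℓ hℓ hℓN h4 ⟨_, hint⟩ b rfl hb, hψ ℓ hℓ h1 ⟨_, hint⟩ rfl, map_intCast])
        have h5 := hmin M' (hM'.trans hNq) hocc'
        rw [h5] at hM'
        have h6 := Nat.le_of_dvd (Nat.pos_of_ne_zero hNq0.ne) hM'
        have h7 := Nat.div_lt_self (Nat.pos_of_ne_zero (NeZero.ne N)) hq.one_lt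
        omega }
  have key : MazurQ.MPConcl q ((curveRho p W hΔ).baseChange K) := by
    rcases h35 with h35 | h35
    · subst h35
      obtain ⟨P, hP⟩ := Frob.exists_liesOverPrime Qb Nat.prime_two
      exact MazurQ.mp_three (MazurQ.mpRigid Nat.prime_three) hq hqp hqN hqN2 D
        (fun K' _ _ G hG V hV => hind K K' G hG V hV) hP
        (fun σ hσ => curve_trace_inertia_ss hΔ hW K Nat.prime_two (by norm_num) hP hσ)
    · exact LL.mpStmtGe5 N q p hq hp (by omega) hqp hqN hqN2 K ψ g hg.isNormalizedEigenform _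
        D.irr D.frob D.unr D.hno
  obtain ⟨h3, h4⟩ := key
  constructor
  · have h5 : ((q - 1 : ℕ) : K) = 0 := by
      rw [Nat.cast_sub hq.one_le, h3, Nat.cast_one, sub_self]
    rwa [CharP.cast_eq_zero_iff K p] at h5
  · intro P hP σ hσ
    rcases h4 P hP σ hσ with h | h
    · exact Or.inl ((LL.baseChange_eq_one_iff (curveRho p W hΔ) K σ).mp h)
    · exact Or.inr (bc_eq_neg_one _ K σ h)

end Fermat.Agent.Full
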