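import Fermat.Agent.Full.AutBuildR
import Fermat.Agent.LL.NoT
import Fermat.Agent.LL.GlueStrict

set_option autoImplicit false

/-!
# No primes to be removed by patching: from the base data with harmless primes
-/

open CongruenceSubgroup Fermat.Agent.Top IsLocalRing Fermat.Agent.TWMod Polynomial
open scoped MatrixGroups TensorProduct

namespace Fermat.Agent.Full

open Fermat.Agent.LL

local notation "Γℚ" => (AlgebraicClosure ℚ ≃ₐ[ℚ] AlgebraicClosure ℚ)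

section

variable {p : ℕ} [hpp : Fact p.Prime] {𝒪 : Type} [CommRing 𝒪] [IsDomain 𝒪]
    [IsDiscreteValuationRing 𝒪] [IsAdicComplete (maximalIdeal 𝒪) 𝒪] [Finite (ResidueField 𝒪)]
    [CharZero 𝒪] {j : 𝒪 →+* ℂ} {ρbar : ResidualGaloisRep (ResidueField 𝒪)} {S0 : Finset ℕ}
    {b : ℕ → 𝒪} {N0 : ℕ} {Smin T : Finset ℕ} {ζ : 𝒪}

/-- **No primes to be removed by patching**, for a general condition `PC` at `p`. -/
theorem BaseR.T_eq_empty {PC : TW.LCond} (B : BaseR p j ρbar S0 b N0 Smin T ζ PC) (I : Inputs)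
    (hSS : SpecSS) (hNew : SpecNew) (hLow : TWLow.SpecLowerStrong)
    (hPC : GlueStable p PC) (hGen : GenStmtP p PC)
    (hcyc : (GaloisRepAdic.ofResidualGaloisRep ρbar).DetIsCyclotomic p)
    (hsplit : ∀ σ : Γℚ, ∃ α β : ResidueField 𝒪,
      LinearMap.charpoly (ρbar.ρ σ) = (X - C α) * (X - C β))
    (hind : ∀ (K : Type) [Field K] [Algebra (ResidueField 𝒪) K] (G : Subgroup Γℚ), G.index = 2 →
      ∀ V : Submodule K (ρbar.baseChange K).V,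
        (∀ σ ∈ G, ∀ x ∈ V, (ρbar.baseChange K).ρ σ x ∈ V) → V = ⊥ ∨ V = ⊤)
    (hSprime : ∀ q ∈ Smin, q.Prime)
    (hSmin : ∀ q : ℕ, q.Prime → q ≠ p → (q ∈ Smin ↔ ¬ ρbar.IsUnramifiedAt q))
    (hsc : ∀ l ∈ T, ∀ P : ValuationSubring (AlgebraicClosure ℚ), P.LiesOverPrime l →
        ∀ σ : Γℚ, P.IsFrobeniusAt σ l → ∃ c : ResidueField 𝒪, ρbar.ρ σ = c • 1)
    {V : ℕ} (hV : ∀ l ∈ T, ∀ v, p ^ v ∣ l - 1 → v ≤ V)
    (hμ : ∀ z : ℂ, z ^ p ^ V = 1 → ∃ o : 𝒪, j o = z) : T = ∅ := by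
  obtain ⟨ϖ, hϖ⟩ := IsDiscreteValuationRing.exists_irreducible 𝒪
  refine no_TP B.ne2 hPC hGen B.mem B.inj B.abs hcyc hsplit hind B.Sp hSprime hSmin
    (fun l hl ↦ ⟨B.Tpr l hl, fun h ↦ B.ST l h hl, B.Tone l hl, hsc l hl⟩) hϖ hV hμ S0
    (fun r ↦ 2 ^ r * Module.finrank ℂ (H1 (kap (1 : DirichletCharacter ℂ N0)) ℂ)) ?_
  intro r qv hinj hq hd
  exact ⟨_, exists_autOutR B I hSS hNew hLow hϖ
    { inj := hinj, prime := fun k ↦ (hq k).1, notin := fun k ↦ (hq k).2.1,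
      one := fun k ↦ (hq k).2.2.2.2, dist := fun k ↦ hd k }⟩

/-- the flat case -/
theorem BaseR.T_eq_empty_flat (B : BaseR p j ρbar S0 b N0 Smin T ζ
      (fun _ _ _ ρ' => ρ'.IsFlatAt p)) (I : Inputs)
    (hSS : SpecSS) (hNew : SpecNew) (hLow : TWLow.SpecLowerStrong)
    (hcyc : (GaloisRepAdic.ofResidualGaloisRep ρbar).DetIsCyclotomic p)
    (hsplit : ∀ σ : Γℚ, ∃ α β : ResidueField 𝒪,
      LinearMap.charpoly (ρbar.ρ σ) = (X - C α) * (X - C β))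
    (hind : ∀ (K : Type) [Field K] [Algebra (ResidueField 𝒪) K] (G : Subgroup Γℚ), G.index = 2 →
      ∀ V : Submodule K (ρbar.baseChange K).V,
        (∀ σ ∈ G, ∀ x ∈ V, (ρbar.baseChange K).ρ σ x ∈ V) → V = ⊥ ∨ V = ⊤)
    (hSprime : ∀ q ∈ Smin, q.Prime)
    (hSmin : ∀ q : ℕ, q.Prime → q ≠ p → (q ∈ Smin ↔ ¬ ρbar.IsUnramifiedAt q))
    (hsc : ∀ l ∈ T, ∀ P : ValuationSubring (AlgebraicClosure ℚ), P.LiesOverPrime l →
        ∀ σ : Γℚ, P.IsFrobeniusAt σ l → ∃ c : ResidueField 𝒪, ρbar.ρ σ = c • 1)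
    {V : ℕ} (hV : ∀ l ∈ T, ∀ v, p ^ v ∣ l - 1 → v ≤ V)
    (hμ : ∀ z : ℂ, z ^ p ^ V = 1 → ∃ o : 𝒪, j o = z) : T = ∅ :=
  B.T_eq_empty I hSS hNew hLow (glueStable_flat p) (genStmtP_flat p B.ne2) hcyc hsplit hind
    hSprime hSmin hsc hV hμ

/-- the strictly ordinary case -/
theorem BaseR.T_eq_empty_strict (B : BaseR p j ρbar S0 b N0 Smin T ζ
      (fun _ _ _ ρ' => ρ'.IsStrictOrdinaryAt p)) (I : Inputs)
    (hSS : SpecSS) (hNew : SpecNew) (hLow : TWLow.SpecLowerStrong)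
    (hcyc : (GaloisRepAdic.ofResidualGaloisRep ρbar).DetIsCyclotomic p)
    (hsplit : ∀ σ : Γℚ, ∃ α β : ResidueField 𝒪,
      LinearMap.charpoly (ρbar.ρ σ) = (X - C α) * (X - C β))
    (hind : ∀ (K : Type) [Field K] [Algebra (ResidueField 𝒪) K] (G : Subgroup Γℚ), G.index = 2 →
      ∀ V : Submodule K (ρbar.baseChange K).V,
        (∀ σ ∈ G, ∀ x ∈ V, (ρbar.baseChange K).ρ σ x ∈ V) → V = ⊥ ∨ V = ⊤)
    (hSprime : ∀ q ∈ Smin, q.Prime)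
    (hSmin : ∀ q : ℕ, q.Prime → q ≠ p → (q ∈ Smin ↔ ¬ ρbar.IsUnramifiedAt q))
    (hsc : ∀ l ∈ T, ∀ P : ValuationSubring (AlgebraicClosure ℚ), P.LiesOverPrime l →
        ∀ σ : Γℚ, P.IsFrobeniusAt σ l → ∃ c : ResidueField 𝒪, ρbar.ρ σ = c • 1)
    {V : ℕ} (hV : ∀ l ∈ T, ∀ v, p ^ v ∣ l - 1 → v ≤ V)
    (hμ : ∀ z : ℂ, z ^ p ^ V = 1 → ∃ o : 𝒪, j o = z) : T = ∅ :=
  B.T_eq_empty I hSS hNew hLow (glueStable_strict B.ne2) (genStmtP_strict p B.ne2) hcyc hsplit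
    hind hSprime hSmin hsc hV hμ

end

end Fermat.Agent.Full
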