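import Fermat.Agent.Full.LiftDef
import Fermat.Agent.Full.NoTBaseR
import Fermat.Agent.Full.MPL
import Fermat.Agent.Wire.StepLStmt

set_option autoImplicit false

/-!
# Step L without a condition at `2`
-/

open CongruenceSubgroup IsLocalRing Polynomial ModularFormClass WeierstrassCurve Fermat.Agent.ECRep

namespace Fermat.Agent.Full

open Fermat.Agent.Wire

local notation "Γℚ" => (AlgebraicClosure ℚ ≃ₐ[ℚ] AlgebraicClosure ℚ)
local notation "Qb" => AlgebraicClosure ℚ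
local notation "Zb" => integralClosure ℤ ℂ

theorem unr_emptyR (hIT : IndexTwoStmt) (I : LL.Inputs) (hSS : TWMod.SpecSS)
    (hNew : TWMod.SpecNew)
    (hLow : TWLow.SpecLowerStrong) (hOrd : LL.NFOrdStmt) {p : ℕ} [hpp : Fact p.Prime]
    {W : WeierstrassCurve ℤ} (h : HypL p W) {r : ℕ} (Ar : Aux p W r) {N : ℕ}
    (hsq : Squarefree N) (hrN : ¬ r ∣ N)
    (hocc : LL.OccZ p (LL.cW W) N) (hmin : ∀ M, M ∣ N → LL.OccZ p (LL.cW W) M → M = N)
    (hMP : ∀ q : ℕ, q.Prime → q ∣ N → q ≠ p → (curveRho p W h.Δ_ne).IsUnramifiedAt q →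
      p ∣ q - 1 ∧ ∀ P : ValuationSubring Qb, P.LiesOverPrime q → ∀ σ : Γℚ,
        P.IsFrobeniusAt σ q → (curveRho p W h.Δ_ne).ρ σ = 1 ∨ (curveRho p W h.Δ_ne).ρ σ = -1) :
    ∀ q : ℕ, q.Prime → q ∣ N → q ≠ p → ¬ (curveRho p W h.Δ_ne).IsUnramifiedAt q := by
  classical
  have hp : p.Prime := hpp.out
  have hp2 : p ≠ 2 := h.ne2
  have hr : r.Prime := Ar.prime
  have hrp : r ≠ p := Ar.ne
  obtain ⟨hN0, 𝔪, h𝔪, hpm, g, S, hg, hgc⟩ := hocc
  have hocc' : LL.OccZ p (LL.cW W) N := ⟨hN0, 𝔪, h𝔪, hpm, g, S, hg, hgc⟩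
  -- the coefficient ring
  set V : ℕ := N + 1 with hVdef
  obtain ⟨F1, hF1⟩ := exists_split_finset hp
  obtain ⟨F2, hF2⟩ := exists_roots_finset (p ^ V) (pow_pos hp.pos V)
  obtain ⟨𝒪, i1, i2, i3, i4, i5, i6, hp𝒪, j, ι, b', hj, hF, hι, hb'⟩ :=
    LL.exists_dvr_eigen hp 𝔪 h𝔪 hpm hg.isNormalizedEigenform (F1 ∪ F2)
  have hchar0 : (p : ResidueField 𝒪) = 0 := by
    rw [← map_natCast (residue 𝒪)]
    exact (residue_eq_zero_iff _).mpr hp𝒪
  haveI hchar : CharP (ResidueField 𝒪) p := (CharP.charP_iff_prime_eq_zero hp).mpr hchar0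
  letI halg : Algebra (ZMod p) (ResidueField 𝒪) := ZMod.algebra _ p
  have hμ : ∀ z : ℂ, z ^ p ^ V = 1 → ∃ o : 𝒪, j o = z := by
    intro z hz
    obtain ⟨w, hw, hwz⟩ := hF2 z hz
    obtain ⟨o, ho⟩ := hF w (Finset.mem_union_right _ hw)
    exact ⟨o, by rw [ho, hwz]⟩
  obtain ⟨ζ, hζp, hζ1⟩ : ∃ ζ : 𝒪, ζ ^ p = 1 ∧ ζ ≠ 1 := by
    have hprim := Complex.isPrimitiveRoot_exp p hp.ne_zero
    obtain ⟨o, ho⟩ := hμ (Complex.exp (2 * Real.pi * Complex.I / p)) (by
      rw [hVdef, pow_succ', pow_mul, hprim.pow_eq_one, one_pow])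
    refine ⟨o, ?_, ?_⟩
    · apply hj
      rw [map_pow, ho, hprim.pow_eq_one, map_one]
    · rintro rfl
      rw [map_one] at ho
      exact hprim.ne_one hp.one_lt ho.symm
  have hsplit := hF1 𝒪 hp𝒪 j hj (fun z hz => hF z (Finset.mem_union_left _ hz))
  obtain ⟨habs, hodd, hdet, hspl, hind, hgood, hbad, hfrob⟩ :=
    curveResL hIT (k := ResidueField 𝒪) h hsplit
  set ρbar : ResidualGaloisRep (ResidueField 𝒪) :=
    (curveRho p W h.Δ_ne).baseChange (ResidueField 𝒪) with hρbar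
  have hunr : ∀ q, ρbar.IsUnramifiedAt q ↔ (curveRho p W h.Δ_ne).IsUnramifiedAt q :=
    fun q => curve_unr_iff_base W (ResidueField 𝒪) h.Δ_ne q
  -- the sets of primes
  set Smin : Finset ℕ := insert p ((cond W).primeFactors.filter
    fun q => ¬ (curveRho p W h.Δ_ne).IsUnramifiedAt q) with hSmin
  set T : Finset ℕ := N.primeFactors.filter
    fun q => q ≠ p ∧ (curveRho p W h.Δ_ne).IsUnramifiedAt q with hT
  set S0 : Finset ℕ := insert p (insert r (S ∪ N.primeFactors ∪ (cond W).primeFactors)) with hS0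
  have hram_bad : ∀ q : ℕ, q.Prime → q ≠ p → ¬ (curveRho p W h.Δ_ne).IsUnramifiedAt q →
      (q : ℤ) ∣ W.Δ := by
    intro q hq hqp hr
    by_contra hg'
    exact hr ((hunr q).mp (hgood q hq hqp hg'))
  have hpS0 : p ∈ S0 := Finset.mem_insert_self _ _
  have hrS0 : r ∈ S0 := Finset.mem_insert_of_mem (Finset.mem_insert_self _ _)
  have hbadS0 : ∀ q : ℕ, q.Prime → (q : ℤ) ∣ W.Δ → q ∈ S0 := fun q hq hqΔ =>
    Finset.mem_insert_of_mem (Finset.mem_insert_of_mem (Finset.mem_union_right _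
      (Nat.mem_primeFactors.mpr ⟨hq, (dvd_cond h.Δ_ne hq).mpr hqΔ, cond_ne_zero W⟩)))
  have hNS0 : ∀ q : ℕ, q.Prime → q ∣ N * r → q ∈ S0 := fun q hq hqN => by
    rcases hq.dvd_mul.mp hqN with hqN | hqr
    · exact Finset.mem_insert_of_mem (Finset.mem_insert_of_mem (Finset.mem_union_left _
        (Finset.mem_union_right _ (Nat.mem_primeFactors.mpr ⟨hq, hqN, hN0.ne⟩))))
    · rw [(Nat.prime_dvd_prime_iff_eq hq hr).mp hqr]
      exact hrS0
  have hSS0 : S ⊆ S0 := fun q hq =>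
    Finset.mem_insert_of_mem (Finset.mem_insert_of_mem (Finset.mem_union_left _
      (Finset.mem_union_left _ hq)))
  have hcop : Nat.Coprime N r := ((Nat.Prime.coprime_iff_not_dvd hr).mpr hrN).symm
  have hsqr : Squarefree (N * r) := (Nat.squarefree_mul hcop).mpr ⟨hsq, hr.prime.squarefree⟩
  have hpNr : p ∣ N * r → p ∣ N := fun hh => (hp.dvd_mul.mp hh).resolve_right fun h1 =>
    hrp ((Nat.prime_dvd_prime_iff_eq hp hr).mp h1).symm
  -- the residual system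
  have hctx : LL.Ctx p j ρbar S0 (fun ℓ ↦ ((W.apOfModel ℓ : ℤ) : 𝒪)) :=
    LL.ctxW_int hp2 hp𝒪 hj h.Δ_ne h.irr hpS0 hbadS0
  have hform : LL.CongTo j (fun ℓ ↦ ((W.apOfModel ℓ : ℤ) : 𝒪)) S0 (fun ℓ ↦ qCoeff g ℓ) :=
    LL.congTo_of_dvr (c := LL.cW W) h𝔪.ne_top hι hg.isNormalizedEigenform hb'
      (fun ℓ hℓ hℓS => hgc ℓ hℓ (fun hh => hℓS (hSS0 hh)))
  have hU1 : ∀ S' : Finset ℕ, ∀ (M : ℕ) (_ : NeZero M) (g' : CuspForm (Gamma0 M) 2),
      g'.IsNewform → M ∣ N * r →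
      LL.CongTo j (fun ℓ ↦ ((W.apOfModel ℓ : ℤ) : 𝒪)) S' (fun ℓ ↦ qCoeff g' ℓ) → M = N := by
    intro S' M hM0 g' hg' hMN hc
    have hoccM : LL.OccZ p (LL.cW W) M := LL.occZ_of_congTo (c := LL.cW W) hp hp𝒪 (b := fun ℓ ↦
      ((W.apOfModel ℓ : ℤ) : 𝒪)) (S := S') (by
        intro ℓ _ _
        rw [map_intCast]
        rfl) hg' hc
    have hMsq := hsqr.squarefree_of_dvd hMN
    have hrM : ¬ r ∣ M := Ar.not_dvd hp2 h.Δ_ne h.irr hoccM fun h1 =>
      hr.one_lt.ne' (Nat.isUnit_iff.mp (hMsq r (by rwa [← pow_two])))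
    exact hmin M ((((Nat.Prime.coprime_iff_not_dvd hr).mpr hrM).symm).dvd_of_dvd_mul_right hMN)
      hoccM
  have hTmem : ∀ l ∈ T, l.Prime ∧ l ∣ N ∧ l ≠ p ∧ (curveRho p W h.Δ_ne).IsUnramifiedAt l := by
    intro l hl
    rw [hT, Finset.mem_filter, Nat.mem_primeFactors] at hl
    exact ⟨hl.1.1, hl.1.2.1, hl.2.1, hl.2.2⟩
  have hSminmem : ∀ l ∈ Smin, l = p ∨ (l.Prime ∧ (l : ℤ) ∣ W.Δ ∧
      ¬ (curveRho p W h.Δ_ne).IsUnramifiedAt l) := by
    intro l hl
    rw [hSmin, Finset.mem_insert, Finset.mem_filter, Nat.mem_primeFactors] at hl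
    rcases hl with rfl | ⟨⟨h1, h3, -⟩, h4⟩
    · exact Or.inl rfl
    · exact Or.inr ⟨h1, (dvd_cond h.Δ_ne h1).mp h3, h4⟩
  have hbase : ∀ PC : TW.LCond, LL.PCond p j ρbar PC (fun M ↦ (p ∣ M ↔ p ∣ N * r)) →
      BaseR p j ρbar S0 (fun ℓ ↦ ((W.apOfModel ℓ : ℤ) : 𝒪)) (N * r) Smin T ζ PC := by
    intro PC hPC
    exact
      { toCtx := hctx
        sqf := hsqr
        three := Or.inr ⟨r, hr, by have := Ar.mod; omega, dvd_mul_left _ _⟩
        memS := hNS0
        form := ⟨N, g, dvd_mul_right _ _, hg.isNormalizedEigenform, hform⟩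
        pT := fun hh => (hTmem p hh).2.2.1 rfl
        Tdvd := fun l hl => (hTmem l hl).2.1.mul_right r
        Tpr := fun l hl => (hTmem l hl).1
        Tone := fun l hl => (hMP l (hTmem l hl).1 (hTmem l hl).2.1 (hTmem l hl).2.2.1
          (hTmem l hl).2.2.2).1
        ζpow := hζp
        ζne := hζ1
        min := fun S' _ M hM0 g' hg' hMN hc l hl => by
          rw [hU1 S' M hM0 g' hg' hMN hc]
          exact (hTmem l hl).2.1
        pmin := fun hpN S' _ M hM0 g' hg' hMN hc => by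
          rw [hU1 S' M hM0 g' hg' hMN hc]
          exact hpNr hpN
        Sp := Finset.mem_insert_self _ _
        SS0 := by
          intro q hq
          rcases hSminmem q hq with rfl | ⟨h1, h3, -⟩
          · exact hpS0
          · exact hbadS0 q h1 h3
        ST := by
          intro l hl hlT
          rcases hSminmem l hl with rfl | ⟨-, -, h3⟩
          · exact (hTmem _ hlT).2.2.1 rfl
          · exact h3 (hTmem l hlT).2.2.2
        SN := by
          intro q hq hqN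
          rcases hq.dvd_mul.mp hqN with hqN | hqr
          swap
          · right; right
            rw [(Nat.prime_dvd_prime_iff_eq hq hr).mp hqr]
            exact Ar.harmless h.Δ_ne (ResidueField 𝒪)
          by_cases hqp : q = p
          · left
            rw [hqp]
            exact Finset.mem_insert_self _ _
          · by_cases hu : (curveRho p W h.Δ_ne).IsUnramifiedAt q
            · right; left
              rw [hT, Finset.mem_filter, Nat.mem_primeFactors]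
              exact ⟨⟨hq, hqN, hN0.ne⟩, hqp, hu⟩
            · left
              rw [hSmin, Finset.mem_insert, Finset.mem_filter, Nat.mem_primeFactors]
              exact Or.inr ⟨⟨hq, (dvd_cond h.Δ_ne hq).mpr (hram_bad q hq hqp hu),
                cond_ne_zero W⟩, hu⟩
        pcond := hPC }
  have hSprime : ∀ q ∈ Smin, q.Prime := by
    intro q hq
    rcases hSminmem q hq with rfl | ⟨h1, -, -⟩
    · exact hp
    · exact h1
  have hSminiff : ∀ q : ℕ, q.Prime → q ≠ p → (q ∈ Smin ↔ ¬ ρbar.IsUnramifiedAt q) := by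
    intro q hq hqp
    rw [hunr q]
    constructor
    · intro hm
      rcases hSminmem q hm with h1 | ⟨-, -, h3⟩
      · exact absurd h1 hqp
      · exact h3
    · intro hr
      rw [hSmin, Finset.mem_insert, Finset.mem_filter, Nat.mem_primeFactors]
      exact Or.inr ⟨⟨hq, (dvd_cond h.Δ_ne hq).mpr (hram_bad q hq hqp hr), cond_ne_zero W⟩, hr⟩
  have hsc : ∀ l ∈ T, ∀ P : ValuationSubring Qb, P.LiesOverPrime l →
      ∀ σ : Γℚ, P.IsFrobeniusAt σ l → ∃ c : ResidueField 𝒪, ρbar.ρ σ = c • 1 := by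
    intro l hl P hP σ hσ
    exact exists_scalar_of_pm _ _ ((hMP l (hTmem l hl).1 (hTmem l hl).2.1 (hTmem l hl).2.2.1
      (hTmem l hl).2.2.2).2 P hP σ hσ)
  have hV : ∀ l ∈ T, ∀ v, p ^ v ∣ l - 1 → v ≤ V := by
    intro l hl v hv
    have hl' := hTmem l hl
    have h1 : 0 < l - 1 := by have := hl'.1.one_lt; omega
    have h3 := Nat.le_of_dvd h1 hv
    have h4 := Nat.le_of_dvd (Nat.pos_of_ne_zero hN0.ne) hl'.2.1
    have h5 := Nat.lt_pow_self hp.one_lt (n := v)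
    omega
  have hTempty : T = ∅ := by
    by_cases hpN : p ∣ N
    · exact (hbase _ (LL.pcond_strict hOrd hp hp2 hp𝒪 habs
        (fun M hM => hM.mpr (hpN.mul_right r)))).T_eq_empty_strict
        I hSS hNew hLow hdet hspl hind hSprime hSminiff hsc hV hμ
    · exact (hbase _ (LL.pcond_flat (fun M hM hh => hpN (hpNr (hM.mp hh))))).T_eq_empty_flat
        I hSS hNew hLow hdet hspl hind hSprime hSminiff hsc hV hμ
  intro q hq hqN hqp hu
  have hqT : q ∈ T := by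
    rw [hT, Finset.mem_filter, Nat.mem_primeFactors]
    exact ⟨⟨hq, hqN, hN0.ne⟩, hqp, hu⟩
  rw [hTempty] at hqT
  exact Finset.notMem_empty _ hqT

/-- **Step L.** -/
theorem stepLStmtR (hIT : IndexTwoStmt) (hR : ExistRStmt) : StepLStmtR := by
  classical
  intro p W h M₀ hsq₀ hocc₀ hp₀
  have hp : p.Prime := h.prime
  have : Fact p.Prime := ⟨hp⟩
  have hp2 : p ≠ 2 := h.ne2
  -- the ambient level
  set Nst : ℕ := ∏ q ∈ M₀.primeFactors ∪ (cond W).primeFactors, q with hNst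
  have hpr : ∀ q ∈ M₀.primeFactors ∪ (cond W).primeFactors, q.Prime := by
    intro q hq
    rcases Finset.mem_union.mp hq with hq | hq <;> exact Nat.prime_of_mem_primeFactors hq
  have hNsq : Squarefree Nst := by
    refine Finset.squarefree_prod_of_pairwise_isCoprime (fun a ha b hb hab => ?_) fun a ha =>
      (hpr a ha).prime.squarefree
    exact Nat.coprime_iff_isRelPrime.mp ((Nat.coprime_primes (hpr a ha) (hpr b hb)).mpr hab)
  have hdiv : ∀ M : ℕ, Squarefree M → (∀ q : ℕ, q.Prime → q ∣ M → q ∣ M₀ ∨ q ∣ cond W) →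
      M ∣ Nst := by
    intro M hM hq
    rw [← Nat.prod_primeFactors_of_squarefree hM]
    refine Finset.prod_dvd_prod_of_subset _ _ _ fun q hqM => ?_
    have hq' := Nat.prime_of_mem_primeFactors hqM
    rcases hq q hq' (Nat.dvd_of_mem_primeFactors hqM) with h1 | h1
    · exact Finset.mem_union_left _ (Nat.mem_primeFactors.mpr ⟨hq', h1, hsq₀.ne_zero⟩)
    · exact Finset.mem_union_right _ (Nat.mem_primeFactors.mpr ⟨hq', h1, cond_ne_zero W⟩)
  have hM₀ : M₀ ∣ Nst := hdiv M₀ hsq₀ fun q _ h1 => Or.inl h1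
  -- the auxiliary prime
  obtain ⟨r, hrS, Ar⟩ := hR p W h Nst.primeFactors
  have hrN : ∀ N : ℕ, N ∣ Nst → ¬ r ∣ N := fun N hN hd =>
    hrS (Nat.mem_primeFactors.mpr ⟨Ar.prime, hd.trans hN, hNsq.ne_zero⟩)
  -- the properties of a minimal level
  have hfin : ∀ N : ℕ, LL.OccZ p (LL.cW W) N → N ∣ Nst →
      (∀ M, M ∣ N → LL.OccZ p (LL.cW W) M → M = N) →
      ((p : ℤ) ∣ W.Δ ∨ ¬ p ∣ N) → (p ∣ N → ∀ M, M ∣ Nst → LL.OccZ p (LL.cW W) M → p ∣ M) →
      ∃ N0 : ℕ, LL.OccZ p (LL.cW W) N0 ∧ LL.LevOK W N0 ∧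
        (∀ q : ℕ, q.Prime → q ∣ N0 → q ≠ p → ¬ p ∣ padicValInt q W.Δ) ∧
        (p ∣ N0 → ∀ M : ℕ, LL.LevOK W M → LL.OccZ p (LL.cW W) M → p ∣ M) := by
    intro N hocc hN hmin hpΔ hall
    have hN0 : NeZero N := ⟨hocc.ne_zero⟩
    have hsq := hNsq.squarefree_of_dvd hN
    have hram := unr_emptyR hIT LL.inputs (TWMod.specSS Twist.specTwist) TWNew.specNew
      TWLow.specLowerStrong S33Lib.nfOrdStmt h Ar hsq (hrN N hN) hocc hmin
      (fun q hq hqN hqp hu => mpL h.h35 h.Δ_ne h.ss h.irr (hIT p W h) hsq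
        (occ59_iff_occZ.mpr hocc)
        (fun M hM ho => hmin M hM (occ59_iff_occZ.mp ho)) hq hqN hqp hu)
    have hbad : ∀ q : ℕ, q.Prime → q ∣ N → q ≠ p → (q : ℤ) ∣ W.Δ := by
      intro q hq hqN hqp
      by_contra hg
      exact hram q hq hqN hqp (resRep_isUnramifiedAt W h.Δ_ne hq hqp hg)
    refine ⟨N, hocc, ⟨hsq, fun q hq hqN => ?_⟩, fun q hq hqN hqp hd => ?_,
      fun hpN M hM hoccM => hall hpN M (hdiv M hM.1 fun q hq hqM =>
        Or.inr ((dvd_cond h.Δ_ne hq).mpr (hM.2 q hq hqM))) hoccM⟩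
    · by_cases hqp : q = p
      · subst hqp
        exact hpΔ.resolve_right (fun hh => hh hqN)
      · exact hbad q hq hqN hqp
    · have hqΔ := hbad q hq hqN hqp
      exact hram q hq hqN hqp
        ((resRep_isUnramifiedAt_iff h.Δ_ne hq hqp hqΔ (h.ss q hq hqΔ)).mpr hd)
  by_cases hA : ∃ M, M ∣ Nst ∧ LL.OccZ p (LL.cW W) M ∧ ¬ p ∣ M
  · obtain ⟨h1, h3, h4⟩ := Nat.find_spec hA
    refine hfin (Nat.find hA) h3 h1 (fun M hM hocc => ?_) (Or.inr h4) (fun h5 => absurd h5 h4)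
    have h5 := Nat.find_min' hA ⟨hM.trans h1, hocc, fun h => h4 (h.trans hM)⟩
    exact le_antisymm (Nat.le_of_dvd (Nat.pos_of_ne_zero h3.ne_zero) hM) h5
  · push Not at hA
    have hB : ∃ M, M ∣ Nst ∧ LL.OccZ p (LL.cW W) M := ⟨M₀, hM₀, hocc₀⟩
    obtain ⟨h1, h3⟩ := Nat.find_spec hB
    refine hfin (Nat.find hB) h3 h1 (fun M hM hocc => ?_)
      (Or.inl (hp₀ (hA M₀ hM₀ hocc₀))) (fun _ => hA)
    have h5 := Nat.find_min' hB ⟨hM.trans h1, hocc⟩
    exact le_antisymm (Nat.le_of_dvd (Nat.pos_of_ne_zero h3.ne_zero) hM) h5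

end Fermat.Agent.Full
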