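import Fermat.Agent.Full.LiftSkel
import Fermat.Agent.Full.LiftSetupProof
import Fermat.Agent.Full.CaseL
import Fermat.Agent.Full.StepLR
import Fermat.Agent.Full.ExistR
import Fermat.Agent.LL.S59Fin

set_option autoImplicit false

/-!
# The modularity lifting theorem without conditions at `2`
-/

namespace Fermat.Agent.Full

open Fermat.Agent.LL

/-- **The modularity lifting theorem**, for `p = 3, 5`, from the irreducibility on subgroups of
index two. -/
theorem liftStmt_of_ind (hIT : IndexTwoStmt) : LiftStmt :=
  liftStmt_of (stepLStmtR hIT existRStmt) (setupStmtL hIT existRStmt inputs)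
    (caseFlatL hIT inputs (TWMod.specSS Twist.specTwist) TWNew.specNew TWLow.specLowerStrong)
    (caseStrictL hIT inputs (TWMod.specSS Twist.specTwist) TWNew.specNew TWLow.specLowerStrong
      S33Lib.nfOrdStmt)
    (casePeuL hIT inputs (TWMod.specSS Twist.specTwist) TWNew.specNew TWLow.specLowerStrong
      S33Lib.nfOrdStmt)

end Fermat.Agent.Full
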