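import Fermat.Agent.Full.LiftDef
import Fermat.Agent.Full.ChainBaseR
import Fermat.Agent.LL.S59Setup

set_option autoImplicit false

/-!
# The setup for the raising steps of the modularity lifting theorem without conditions at `2`
-/

open CongruenceSubgroup IsLocalRing Polynomial ModularFormClass

namespace Fermat.Agent.Full

open Fermat.Agent.LL

local notation "Γℚ" => (AlgebraicClosure ℚ ≃ₐ[ℚ] AlgebraicClosure ℚ)

/-- The output of Step L, the auxiliary prime `r`, the coefficient ring, the primes `ql` at which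
the level has to be raised, and the polynomial `F`. The raising starts at level `N0 * r`. -/
structure SetupL (p : ℕ) [Fact p.Prime] (W : WeierstrassCurve ℤ) (hΔ : W.Δ ≠ 0) (N0 r : ℕ)
    {𝒪 : Type} [CommRing 𝒪] [IsDomain 𝒪] [IsDiscreteValuationRing 𝒪]
    [IsAdicComplete (maximalIdeal 𝒪) 𝒪] [Finite (ResidueField 𝒪)] [CharZero 𝒪]
    [Algebra (ZMod p) (ResidueField 𝒪)] (j : 𝒪 →+* ℂ) (S0 Smin : Finset ℕ) {m : ℕ}
    (ql : Fin m → ℕ) (F : MvPolynomial ℕ 𝒪) : Prop where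
  mem : (p : 𝒪) ∈ maximalIdeal 𝒪
  inj : Function.Injective j
  split : ∀ a b : ℤ, ∃ α β : ResidueField 𝒪, (X ^ 2 - C (a : ResidueField 𝒪) * X +
      C (b : ResidueField 𝒪) : Polynomial (ResidueField 𝒪)) = (X - C α) * (X - C β)
  ql_prime : ∀ k, (ql k).Prime
  ql_inj : Function.Injective ql
  /-- `N0 * ∏ ql` is the conductor of the curve -/
  lev : N0 * ∏ k, ql k = Wire.cond W
  /-- the auxiliary prime -/
  aux : Aux p W r
  S0_bad : ∀ q : ℕ, q.Prime → (q : ℤ) ∣ W.Δ → q ∈ S0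
  S0_p : p ∈ S0
  S0_r : r ∈ S0
  /-- `Smin` consists of `p` and of the primes where `ρbar` is ramified -/
  Smin_p : p ∈ Smin
  Smin_prime : ∀ q ∈ Smin, q.Prime
  Smin_iff : ∀ q : ℕ, q.Prime → q ≠ p →
    (q ∈ Smin ↔ ¬ (rhoBar59 p W hΔ 𝒪).IsUnramifiedAt q)
  /-- the primes of `N0` other than `p` are exactly those in `Smin` -/
  dvd_iff : ∀ q : ℕ, q.Prime → q ≠ p → (q ∣ N0 ↔ q ∈ Smin)
  ql_notMem : ∀ k, ql k ≠ p → ql k ∉ Smin
  /-- the base data, for every choice of the conditions at `p` -/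
  base : ∀ Pc : ℕ → TW.LCond, (∀ i ≤ m, PCond p j (rhoBar59 p W hΔ 𝒪) (Pc i)
      (fun M ↦ (p ∣ N0 * r → p ∣ M) ∧ (p ∣ M → p ∣ lvN (N0 * r) ql i))) →
    ChainBaseR p j (rhoBar59 p W hΔ 𝒪) S0 (fun ℓ ↦ ((W.apOfModel ℓ : ℤ) : 𝒪)) (N0 * r) Smin ql
      Pc F
  F_W : MvPolynomial.eval (fun ℓ ↦ ((W.apOfModel ℓ : ℤ) : 𝒪)) F ≠ 0

/-- A contradiction from the setup, under a hypothesis `Q` on `p`, the curve and `N0`. -/
def CaseStmtL (Q : ℕ → WeierstrassCurve ℤ → ℕ → Prop) : Prop :=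
  ∀ (p : ℕ) [Fact p.Prime] (W : WeierstrassCurve ℤ) (H : HypL p W) (N0 r : ℕ) (𝒪 : Type)
    [CommRing 𝒪] [IsDomain 𝒪] [IsDiscreteValuationRing 𝒪] [IsAdicComplete (maximalIdeal 𝒪) 𝒪]
    [Finite (ResidueField 𝒪)] [CharZero 𝒪] [Algebra (ZMod p) (ResidueField 𝒪)] (j : 𝒪 →+* ℂ)
    (S0 Smin : Finset ℕ) (m : ℕ) (ql : Fin m → ℕ) (F : MvPolynomial ℕ 𝒪),
    SetupL p W H.Δ_ne N0 r j S0 Smin ql F → Q p W N0 → False

/-- the flat case: `W` has good reduction at `p` -/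
def CaseFlatL : Prop := CaseStmtL fun p W _ ↦ ¬ (p : ℤ) ∣ W.Δ

/-- the strict case: `p ∣ N0` -/
def CaseStrictL : Prop := CaseStmtL fun p _ N0 ↦ p ∣ N0

/-- the peu ramifie case: `W` has multiplicative reduction at `p`, and `p` does not divide `N0`;
then `p = ql k` for some `k` -/
def CasePeuL : Prop := CaseStmtL fun p W N0 ↦ ¬ p ∣ N0 ∧ (p : ℤ) ∣ W.Δ

/-- existence of the setup -/
def SetupStmtL : Prop :=
  ∀ (p : ℕ) [Fact p.Prime] (W : WeierstrassCurve ℤ) (H : HypL p W),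
    ¬ Mlc1IsModularModelOfExactConductorLevel W →
  ∀ N0 : ℕ, OccZ p (cW W) N0 → LevOK W N0 →
    (∀ q : ℕ, q.Prime → q ∣ N0 → q ≠ p → ¬ p ∣ padicValInt q W.Δ) →
    (p ∣ N0 → ∀ M : ℕ, LevOK W M → OccZ p (cW W) M → p ∣ M) →
  ∃ (𝒪 : Type) (_ : CommRing 𝒪) (_ : IsDomain 𝒪) (_ : IsDiscreteValuationRing 𝒪)
    (_ : IsAdicComplete (maximalIdeal 𝒪) 𝒪) (_ : Finite (ResidueField 𝒪)) (_ : CharZero 𝒪)
    (_ : Algebra (ZMod p) (ResidueField 𝒪)) (j : 𝒪 →+* ℂ) (S0 Smin : Finset ℕ) (m : ℕ)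
    (ql : Fin m → ℕ) (F : MvPolynomial ℕ 𝒪) (r : ℕ), SetupL p W H.Δ_ne N0 r j S0 Smin ql F

end Fermat.Agent.Full
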