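import Fermat.Agent.Full.LiftSetup
import Fermat.Agent.Wire.StartStmt

set_option autoImplicit false

/-!
# The modularity lifting theorem without conditions at `2`, from its parts
-/

open CongruenceSubgroup IsLocalRing Polynomial ModularFormClass

namespace Fermat.Agent.Full

open Fermat.Agent.LL

theorem liftStmt_of (hL : StepLStmtR) (hsetup : SetupStmtL) (h1 : CaseFlatL)
    (h2 : CaseStrictL) (h3 : CasePeuL) : LiftStmt := by
  intro p hp W W₀ hΔ hW hirr hΔ₀ hW₀ hp₀ hc hmod₀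
  by_contra hmod
  have H : HypL p W := ⟨hp, hΔ, hW, hirr⟩
  have hpp : p.Prime := H.prime
  have : Fact p.Prime := ⟨hpp⟩
  -- the start
  obtain ⟨M₀, hM0, g, hg, hsq, hM, hpM, hcong⟩ := Wire.start59_mod hΔ hΔ₀ hp₀ hpp hc hmod₀
  obtain ⟨𝔪, h𝔪, hp𝔪⟩ := Wire.exists_maximal_over hpp
  have hocc : OccZ p (cW W) M₀ := by
    refine ⟨hM0, 𝔪, h𝔪, hp𝔪, g,
      insert p ((Wire.cond W).primeFactors ∪ (Wire.cond W₀).primeFactors), hg, ?_⟩
    intro ℓ hℓ hℓS z hz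
    rw [Finset.mem_insert, Finset.mem_union, not_or, not_or] at hℓS
    exact hcong 𝔪 hp𝔪 ℓ hℓ
      (fun hd => hℓS.2.1 (Nat.mem_primeFactors.mpr ⟨hℓ, hd, Wire.cond_ne_zero W⟩))
      (fun hd => hℓS.2.2 (Nat.mem_primeFactors.mpr ⟨hℓ, hd, Wire.cond_ne_zero W₀⟩)) hℓS.1 z hz
  obtain ⟨N0, h4, h5, h6, h7⟩ := hL p W H M₀ hsq hocc hpM
  obtain ⟨𝒪, _, _, _, _, _, _, _, j, S0, Smin, m, ql, F, r, hset⟩ :=
    hsetup p W H hmod N0 h4 h5 h6 h7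
  by_cases hpW : (p : ℤ) ∣ W.Δ
  · by_cases hpN : p ∣ N0
    · exact h2 p W H N0 r 𝒪 j S0 Smin m ql F hset hpN
    · exact h3 p W H N0 r 𝒪 j S0 Smin m ql F hset ⟨hpN, hpW⟩
  · exact h1 p W H N0 r 𝒪 j S0 Smin m ql F hset hpW

end Fermat.Agent.Full
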