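import Fermat.Agent.Flat.Final
import Fermat.Agent.Full.IndexFive

set_option autoImplicit false

/-!
# Inertia at `p` on two-dimensional flat representations, `p ≥ 5`

There is an element of inertia at `p` whose determinant is not a square in `𝔽_p` and whose trace
is not zero.
-/

open GaloisRep Fermat.Agent.CFT.Loc Fermat.Agent.CFT Matrix

namespace Fermat.Agent.Full

open Fermat.Agent.Flat

local notation "M₂" => Matrix (Fin 2) (Fin 2)

variable {p : ℕ} [hp : Fact p.Prime]

/-- a generator of tame inertia acts on the `p`-th roots of unity by a generator of `𝔽_p^*` -/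
theorem exists_gen_data {π ζ : PadicAlgCl p} (hπ : IsPi π) (hζ : IsPrimitiveRoot ζ p) :
    ∃ (σ₀ : inertiaLoc p) (a : ZMod p), orderOf (psi π (σ₀ : GalLoc p)) = p ^ 2 - 1 ∧
      (σ₀ : GalLoc p) ζ = ζ ^ a.val ∧ psi π (σ₀ : GalLoc p) ^ (p + 1) = (a.val : ResF p) ∧
      orderOf a = p - 1 := by
  obtain ⟨σ₀, hord, -⟩ := hπ.exists_generator
  obtain ⟨a, ha⟩ := exists_zmod_val hζ (σ₀ : GalLoc p)
  have hord' : orderOf (psi π (σ₀ : GalLoc p)) = p ^ 2 - 1 := by
    rw [← hord, ← orderOf_units, hπ.psiI_apply]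
  have hcyc := hπ.psi_cyc hζ σ₀.2 ha
  refine ⟨σ₀, a, hord', ha, hcyc, ?_⟩
  have h1 : orderOf (psi π (σ₀ : GalLoc p) ^ (p + 1)) = p - 1 := by
    have hp1 := hp.out.one_lt
    have h2 : p ^ 2 - 1 = (p + 1) * (p - 1) := by
      have := Nat.sq_sub_sq p 1
      rwa [one_pow] at this
    rw [orderOf_pow_of_dvd (by omega) (by rw [hord', h2]; exact dvd_mul_right _ _), hord', h2,
      Nat.mul_div_cancel_left _ (by omega)]
  rw [← h1, hcyc]
  have h3 : (a.val : ResF p) = ZMod.castHom dvd_rfl (ResF p) a := by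
    rw [← map_natCast (ZMod.castHom dvd_rfl (ResF p)) a.val, ZMod.natCast_zmod_val]
  rw [h3]
  exact (orderOf_injective (ZMod.castHom dvd_rfl (ResF p)).toMonoidHom
    (ZMod.castHom dvd_rfl (ResF p)).injective a).symm

/-- an element of order `p - 1` of `𝔽_p` is not a square -/
theorem not_isSquare_of_orderOf (hp2 : p ≠ 2) {a : ZMod p} (h : orderOf a = p - 1) :
    ¬ IsSquare a := by
  rintro ⟨s, rfl⟩
  have h3 : 3 ≤ p := by have := hp.out.two_le; omega
  have hodd : p % 2 = 1 := (hp.out.eq_two_or_odd).resolve_left hp2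
  have hs : s ≠ 0 := by
    rintro rfl
    rw [mul_zero] at h
    have h0 : orderOf (0 : ZMod p) = 0 := by
      rw [orderOf_eq_zero_iff']
      intro n hn
      rw [zero_pow hn.ne']
      exact zero_ne_one
    omega
  have h1 : (s * s) ^ ((p - 1) / 2) = 1 := by
    rw [← pow_two, ← pow_mul, Nat.mul_div_cancel' (by omega)]
    exact ZMod.pow_card_sub_one_eq_one hs
  have h2 := orderOf_dvd_of_pow_eq_one h1
  rw [h] at h2
  have := Nat.le_of_dvd (by omega) h2
  omega

/-- **The local element.** -/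
theorem exists_tau {k : Type} [Field k] [Algebra (ZMod p) k] [CharP k p] [Finite k]
    {r : GalLoc p →* M₂ k} (hp5 : 5 ≤ p) (hlc : (locLevels p).LC r) (hfl : FlatV r)
    (hdet : ∀ τ ∈ inertiaLoc p, ∀ (ζ : PadicAlgCl p) (a : ℕ), IsPrimitiveRoot ζ p →
      τ ζ = ζ ^ a → (r τ).det = a)
    (hsplit : ∀ σ, ∃ α β : k,
      (r σ).charpoly = (Polynomial.X - Polynomial.C α) * (Polynomial.X - Polynomial.C β)) :
    ∃ τ ∈ inertiaLoc p, ∃ a : ZMod p, ¬ IsSquare a ∧ (r τ).det = algebraMap (ZMod p) k a ∧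
      (r τ).trace ≠ 0 := by
  classical
  have hp2 : p ≠ 2 := by omega
  obtain ⟨π, hπ⟩ : ∃ π : PadicAlgCl p, IsPi π := exists_isPi
  obtain ⟨ζ, hζ⟩ : ∃ ζ : PadicAlgCl p, IsPrimitiveRoot ζ p := exists_primitive
  obtain ⟨F, hF, hFπ⟩ := hπ.exists_frob
  obtain ⟨σ₀, a, hord, ha, hcyc, horda⟩ := exists_gen_data hπ hζ
  have hval : ∀ b : ZMod p, (b.val : k) = algebraMap (ZMod p) k b := by
    intro b
    rw [← map_natCast (algebraMap (ZMod p) k) b.val, ZMod.natCast_zmod_val]
  have hsq : p ^ 2 - 1 = (p + 1) * (p - 1) := by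
    have := Nat.sq_sub_sq p 1
    rwa [one_pow] at this
  refine ⟨σ₀, σ₀.2, a, not_isSquare_of_orderOf hp2 horda, ?_, ?_⟩
  · rw [hdet σ₀ σ₀.2 ζ a.val hζ ha, hval]
  by_cases hline : NoLine r
  · obtain ⟨O, hO⟩ := id hfl
    obtain ⟨P, r', χ, β, γ, hP, h, hform⟩ := exists_superForm hO hlc hline
      ⟨σ₀, σ₀.2, fun h1 => by
        have h2 := hdet σ₀ σ₀.2 ζ a.val hζ ha
        rw [h1, Matrix.det_one, hval] at h2
        have h3 : a = 1 := by
          apply (algebraMap (ZMod p) k).injective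
          rw [← h2, map_one]
        rw [h3, orderOf_one] at horda
        omega⟩ hsplit hF
    have hS : SD p r' F χ β γ π ζ :=
      { hp2 := hp2
        form := hform
        hπ := hπ
        hζ := hζ
        frob := hF
        fix := hFπ
        cyc := fun τ a ha => by
          have h1 := hdet τ τ.2 ζ a hζ ha
          rw [← det_conj hP h, hform.inertia, Matrix.det_fin_two_of, mul_zero, sub_zero] at h1
          rw [pow_succ', h1]
        flat := FlatV_conj hP h ⟨O, hO⟩ }
    obtain ⟨lam, hlam⟩ := hS.exists_lam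
    rw [(conj_trace_det hP.ne_zero (h σ₀)).1, hform.inertia, Matrix.trace_fin_two_of]
    intro h0
    have h1 : (chi2 χ hform.sq σ₀ : K2 p k) ^ (2 * p) = (chi2 χ hform.sq σ₀ : K2 p k) ^ 2 := by
      apply Subtype.ext
      change (χ σ₀ : k) ^ (2 * p) = (χ σ₀ : k) ^ 2
      have h2 : (χ σ₀ : k) ^ p = -(χ σ₀ : k) := by linear_combination h0
      rw [mul_comm, pow_mul, h2, neg_sq]
    have h2 := congrArg lam h1
    rw [map_pow, map_pow, hlam σ₀] at h2
    have h3 : psi π (σ₀ : GalLoc p) ^ (2 * (p - 1)) = 1 := by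
      have h4 : psi π (σ₀ : GalLoc p) ^ 2 ≠ 0 := pow_ne_zero _ (hπ.psi_ne_zero _)
      apply mul_right_cancel₀ h4
      rw [← pow_add, one_mul, ← h2]
      congr 1
      omega
    have h5 := orderOf_dvd_of_pow_eq_one h3
    rw [hord, hsq] at h5
    have h6 : p + 1 ∣ 2 := Nat.dvd_of_mul_dvd_mul_right (by omega) h5
    have := Nat.le_of_dvd (by omega) h6
    omega
  · obtain ⟨P, r', hP, h, hR⟩ := exists_RD hp2 hπ hζ hF hFπ hfl hlc
      (fun τ hτ a ha => hdet τ hτ ζ a hζ ha) hline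
    rw [(conj_trace_det hP.ne_zero (h σ₀)).1, Matrix.trace_fin_two, hR.one σ₀ σ₀.2,
      hR.cyc σ₀ σ₀.2 a.val ha, hval]
    intro h0
    have h1 : a + 1 = 0 := by
      apply (algebraMap (ZMod p) k).injective
      rw [map_add, map_one, map_zero, h0]
    have h2 : a ^ 2 = 1 := by
      have : a = -1 := by linear_combination h1
      rw [this, neg_sq, one_pow]
    have h3 := orderOf_dvd_of_pow_eq_one h2
    rw [horda] at h3
    have := Nat.le_of_dvd (by omega) h3
    omega

end Fermat.Agent.Full
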