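import Fermat.Agent.Full.IndGrp
import Fermat.Agent.MazurQ.MPAll

/-!
# Mazur's principle for `p = 3`, without a condition at `2`
-/

set_option autoImplicit false

open Polynomial

namespace Fermat.Agent.Full

open Fermat.Agent.MazurQ.Exist

local notation "Qb" => AlgebraicClosure ℚ
local notation "Γℚ" => (AlgebraicClosure ℚ ≃ₐ[ℚ] AlgebraicClosure ℚ)
local notation "ℤbar" => integralClosure ℤ ℂ

/-- a Galois element acting on the twelfth roots of unity by a given power -/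
theorem exists_pow12 {a : ℕ} (ha : a.Coprime 12) :
    ∃ g : Γℚ, ∀ z : Qb, z ^ 12 = 1 → g z = z ^ a := by
  obtain ⟨q, hq12, hq, hqc⟩ := Nat.forall_exists_prime_gt_and_eq_mod
    ((ZMod.isUnit_iff_coprime a 12).2 ha) 12
  rw [ZMod.natCast_eq_natCast_iff] at hqc
  obtain ⟨P, hP, σ, hσ⟩ := TwoAdic.exists_place_frob hq
  refine ⟨σ, fun z hz => ?_⟩
  rw [CycChar.frobenius_apply_eq hP (m := 12) ?_ hσ hz]
  · exact pow_eq_of_modEq hz hqc
  · rw [Nat.coprime_comm, hq.coprime_iff_not_dvd]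
    exact fun h => absurd (Nat.le_of_dvd (by norm_num) h) (by omega)

/-- **Existence of good elements, `p = 3`**, without a condition at `2`. -/
theorem exists_good_three' {K : Type} [Field K] [CharP K 3] (ρbar : ResidualGaloisRep K)
    (hdet : ∀ (σ : Γℚ) (c : ℕ), (∀ μ : Qb, μ ^ 3 = 1 → σ μ = μ ^ c) →
      LinearMap.det (ρbar.ρ σ) = (c : K))
    (hind : ∀ (K' : Type) [Field K'] [Algebra K K'] (G : Subgroup Γℚ), G.index = 2 →
      ∀ V : Submodule K' (ρbar.baseChange K').V,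
        (∀ σ ∈ G, ∀ x ∈ V, (ρbar.baseChange K').ρ σ x ∈ V) → V = ⊥ ∨ V = ⊤) :
    ∃ g : Γℚ, (∀ ζ : Qb, ζ ^ 12 = 1 → g ζ = ζ⁻¹) ∧
      LinearMap.trace K _ (ρbar.ρ g) ^ 2 ≠ (1 + LinearMap.det (ρbar.ρ g)) ^ 2 := by
  classical
  have hK3 : (3 : K) = 0 := by exact_mod_cast CharP.cast_eq_zero K 3
  by_contra hcon
  push Not at hcon
  set L := AlgebraicClosure K with hL
  let r := ρbar.baseChange L
  let b : Module.Basis (Fin 2) L r.V := Module.finBasisOfFinrankEq L r.V r.finrank_eq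
  obtain ⟨ζ, hζ⟩ : ∃ ζ : Qb, IsPrimitiveRoot ζ 12 :=
    HasEnoughRootsOfUnity.exists_primitiveRoot Qb 12
  have hω : IsPrimitiveRoot (ζ ^ 4) 3 := hζ.pow (by norm_num) (by norm_num)
  have hi : (ζ ^ 3) ^ 2 = -1 := by
    have h1 : IsPrimitiveRoot (ζ ^ 6) 2 := hζ.pow (by norm_num) (by norm_num)
    rw [← pow_mul]
    exact h1.eq_neg_one_of_two_right
  have hmem : ∀ n : ℕ, (ζ ^ n) ^ 12 = 1 := fun n => by
    rw [← pow_mul, mul_comm, pow_mul, hζ.pow_eq_one, one_pow]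
  obtain ⟨g₀, hg₀⟩ := exists_pow12 (a := 11) (by norm_num)
  obtain ⟨τ, hτ⟩ := exists_pow12 (a := 7) (by norm_num)
  have hτω : τ (ζ ^ 4) = ζ ^ 4 := by
    rw [hτ _ (hmem 4), ← pow_mul]
    exact pow_eq_of_modEq hζ.pow_eq_one (by decide)
  have hτi : τ (ζ ^ 3) = -(ζ ^ 3) := by
    have h1 : IsPrimitiveRoot (ζ ^ 6) 2 := hζ.pow (by norm_num) (by norm_num)
    have h2 := h1.eq_neg_one_of_two_right
    rw [hτ _ (hmem 3), ← pow_mul,
      pow_eq_of_modEq hζ.pow_eq_one (show 3 * 7 ≡ 6 + 3 [MOD 12] by decide), pow_add, h2]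
    ring
  let N : Subgroup Γℚ := MulAction.stabilizer Γℚ ζ
  have hN : ∀ x : Γℚ, x ∈ N ↔ x ζ = ζ := fun x => MulAction.mem_stabilizer_iff
  let χ : Γℚ →* (ZMod 3)ˣ := hω.autToPow ℚ
  have hχ : ∀ g : Γℚ, g ∈ χ.ker ↔ g (ζ ^ 4) = ζ ^ 4 := by
    intro g
    have h1 : (ζ ^ 4) ^ (χ g : ZMod 3).val = g (ζ ^ 4) := hω.autToPow_spec ℚ g
    rw [MonoidHom.mem_ker, ← h1]
    constructor
    · intro h
      rw [h, Units.val_one, ZMod.val_one, pow_one]
    · intro h
      have h2 : (χ g : ZMod 3).val = 1 :=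
        hω.pow_inj (ZMod.val_lt _) (by norm_num) (h.trans (pow_one _).symm)
      apply Units.ext
      rw [← ZMod.natCast_zmod_val (χ g : ZMod 3), h2]
      rfl
  have hindex : χ.ker.index = 2 := by
    have h1 : χ.range = ⊤ := by
      rw [eq_top_iff]
      intro u _
      have h2 : ∀ u : (ZMod 3)ˣ, u = 1 ∨ u = -1 := by decide
      rcases h2 u with rfl | rfl
      · exact χ.range.one_mem
      · refine ⟨g₀, ?_⟩
        rcases h2 (χ g₀) with h3 | h3
        · exfalso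
          have h4 := (hχ g₀).1 (MonoidHom.mem_ker.2 h3)
          rw [hg₀ _ (hmem 4), ← pow_mul,
            pow_eq_of_modEq hζ.pow_eq_one (show 4 * 11 ≡ 8 [MOD 12] by decide)] at h4
          exact absurd (hζ.pow_inj (by norm_num) (by norm_num) h4) (by norm_num)
        · exact h3
    rw [Subgroup.index_ker, h1, Subgroup.card_top, Nat.card_eq_fintype_card, ZMod.card_units]
  have hirr : ∀ H' : Subgroup Γℚ, H'.index = 2 → NoLine (matRep r b) H' :=
    fun H' hH' => noLine_matRep r b (hind L H' hH')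
  have hC : ∀ x ∈ N, (matRep r b (g₀ * x)).trace = 0 ∧ (matRep r b (g₀ * x)).det = -1 := by
    intro x hx
    have h1 : ∀ z : Qb, z ^ 12 = 1 → (g₀ * x) z = z⁻¹ := by
      intro z hz
      obtain ⟨i, -, rfl⟩ := hζ.eq_pow_of_pow_eq_one hz
      rw [AlgEquiv.mul_apply, map_pow, (hN x).1 hx, hg₀ _ hz, inv_eq_pow hz]
    have hd : LinearMap.det (ρbar.ρ (g₀ * x)) = -1 := by
      rw [hdet (g₀ * x) 2 (fun μ hμ => by
        rw [h1 μ (by rw [show 12 = 3 * 4 from rfl, pow_mul, hμ, one_pow])]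
        apply inv_eq_of_mul_eq_one_left
        rw [← pow_succ, hμ])]
      push_cast
      linear_combination hK3
    have ht := hcon _ h1
    rw [hd] at ht
    have ht' : LinearMap.trace K _ (ρbar.ρ (g₀ * x)) = 0 := by
      have : LinearMap.trace K _ (ρbar.ρ (g₀ * x)) ^ 2 = 0 := by
        rw [ht]; ring
      exact (pow_eq_zero_iff two_ne_zero).1 this
    rw [trace_matRep, det_matRep, trace_baseChange', det_baseChange', hd, ht', map_zero, map_neg,
      map_one]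
    exact ⟨rfl, rfl⟩
  have hζ0 : ζ ≠ 0 := hζ.ne_zero (by norm_num)
  have hζeq : ζ = ζ ^ 4 * (ζ ^ 3)⁻¹ := by field_simp
  have hNiff : ∀ g : Γℚ, g (ζ ^ 4) = ζ ^ 4 → g (ζ ^ 3) = ζ ^ 3 → g ∈ N := by
    intro g h1 h2
    rw [hN]
    calc g ζ = g (ζ ^ 4 * (ζ ^ 3)⁻¹) := by rw [← hζeq]
      _ = ζ ^ 4 * (ζ ^ 3)⁻¹ := by rw [map_mul, map_inv₀, h1, h2]
      _ = ζ := hζeq.symm
  have hτinv : ∀ x : Qb, τ⁻¹ (τ x) = x := fun x => AlgEquiv.symm_apply_apply τ x
  refine false_of_ind (ρ := matRep r b) (N := N) (H := χ.ker) ?_ (comm_of hC)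
    (hirr _ hindex) (τ := τ) ?_ hirr
  · -- normality
    intro g x hx
    rw [hN]
    obtain ⟨i, hi', hgi⟩ := hζ.eq_pow_of_pow_eq_one (show (g ζ) ^ 12 = 1 by
      rw [← map_pow, hζ.pow_eq_one, map_one])
    rw [AlgEquiv.mul_apply, AlgEquiv.mul_apply, ← hgi, map_pow, (hN x).1 hx, hgi]
    exact AlgEquiv.symm_apply_apply g ζ
  · intro g hg
    have h1 := (hχ g).1 hg
    have h2 : (g (ζ ^ 3) - ζ ^ 3) * (g (ζ ^ 3) + ζ ^ 3) = 0 := by
      have h3 : (g (ζ ^ 3)) ^ 2 = -1 := by rw [← map_pow, hi, map_neg, map_one]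
      linear_combination h3 - hi
    rcases mul_eq_zero.1 h2 with h3 | h3
    · exact Or.inl (hNiff g h1 (sub_eq_zero.1 h3))
    · right
      refine hNiff _ ?_ ?_
      · rw [AlgEquiv.mul_apply, h1]
        conv_lhs => rw [← hτω]
        exact hτinv _
      · rw [AlgEquiv.mul_apply, eq_neg_of_add_eq_zero_left h3, ← hτi]
        exact hτinv _

/-- **Mazur's principle for `p = 3`**, all levels, when `ρbar` is absolutely irreducible on
subgroups of index two. -/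
theorem mp_three' {N q : ℕ} [NeZero N] {K : Type} [Field K] [CharP K 3]
    {ψ : ℤbar →+* K} {f : CuspForm (CongruenceSubgroup.Gamma0 N) 2} {ρbar : ResidualGaloisRep K}
    (hq : q.Prime) (hq3 : q ≠ 3) (hqN : q ∣ N) (hqN2 : ¬ q ^ 2 ∣ N)
    (D : MazurQ.MPData N q 3 ψ f ρbar)
    (hind : ∀ (K' : Type) [Field K'] [Algebra K K'] (G : Subgroup Γℚ), G.index = 2 →
      ∀ V : Submodule K' (ρbar.baseChange K').V,
        (∀ σ ∈ G, ∀ x ∈ V, (ρbar.baseChange K').ρ σ x ∈ V) → V = ⊥ ∨ V = ⊤) :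
    MazurQ.MPConcl q ρbar :=
  MazurQ.mp_of_good Nat.prime_three (MazurQ.mpRigid Nat.prime_three) hq hq3 hqN hqN2 D
    (exists_good_three' ρbar (D.det_cyc Nat.prime_three) hind)

end Fermat.Agent.Full
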