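import Fermat.Agent.Eigenform.Recursion

set_option autoImplicit false

/-!
# Existence of an eigensystem with given values at the primes
-/

namespace Fermat.Agent.Full

open FormalHecke

variable {R : Type*} [CommRing R]

/-- the values at prime powers -/
def eigU (e t : R) : ℕ → R
  | 0 => 1
  | 1 => t
  | (r + 2) => t * eigU e t (r + 1) - e * eigU e t r

theorem eigU_rec (e t : R) (r : ℕ) :
    eigU e t (r + 1) + e * (if r = 0 then 0 else eigU e t (r - 1)) = t * eigU e t r := by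
  cases r with
  | zero => simp [eigU]
  | succ r => simp [eigU]

/-- the multiplicative extension -/
def mkEigen (e t : ℕ → R) (n : ℕ) : R :=
  if n = 0 then 0 else ∏ p ∈ n.primeFactors, eigU (e p) (t p) (n.factorization p)

theorem mkEigen_mul (e t : ℕ → R) {ℓ : ℕ} (hℓ : ℓ.Prime) (k : ℕ) {m : ℕ} (hm : m ≠ 0)
    (hℓm : ¬ ℓ ∣ m) : mkEigen e t (ℓ ^ k * m) = eigU (e ℓ) (t ℓ) k * mkEigen e t m := by
  classical
  have h0 : ℓ ^ k * m ≠ 0 := mul_ne_zero (pow_ne_zero _ hℓ.ne_zero) hm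
  rw [mkEigen, mkEigen, if_neg h0, if_neg hm]
  rcases Nat.eq_zero_or_pos k with rfl | hk
  · rw [pow_zero, one_mul, eigU, one_mul]
  have hfac : ∀ p, (ℓ ^ k * m).factorization p = (if p = ℓ then k else 0) + m.factorization p := by
    intro p
    rw [Nat.factorization_mul (pow_ne_zero _ hℓ.ne_zero) hm, Finsupp.add_apply,
      Nat.Prime.factorization_pow hℓ, Finsupp.single_apply]
    congr 1
    simp only [eq_comm]
  have hmℓ : m.factorization ℓ = 0 := Nat.factorization_eq_zero_of_not_dvd hℓm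
  have hpf : (ℓ ^ k * m).primeFactors = insert ℓ m.primeFactors := by
    rw [Nat.primeFactors_mul (pow_ne_zero _ hℓ.ne_zero) hm, Nat.primeFactors_prime_pow hk.ne' hℓ]
    rfl
  have hnot : ℓ ∉ m.primeFactors := fun h => hℓm (Nat.dvd_of_mem_primeFactors h)
  rw [hpf, Finset.prod_insert hnot, hfac, if_pos rfl, hmℓ, add_zero]
  congr 1
  refine Finset.prod_congr rfl fun p hp => ?_
  have hpℓ : p ≠ ℓ := fun h => hnot (h ▸ hp)
  rw [hfac, if_neg hpℓ, zero_add]

theorem mkEigen_one (e t : ℕ → R) : mkEigen e t 1 = 1 := by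
  simp [mkEigen]

theorem mkEigen_zero (e t : ℕ → R) : mkEigen e t 0 = 0 := by
  simp [mkEigen]

theorem mkEigen_prime (e t : ℕ → R) {ℓ : ℕ} (hℓ : ℓ.Prime) : mkEigen e t ℓ = t ℓ := by
  have h := mkEigen_mul e t hℓ 1 one_ne_zero (fun h => hℓ.one_lt.ne' (Nat.dvd_one.mp h))
  rw [pow_one, mul_one, mkEigen_one, mul_one] at h
  rw [h]
  rfl

theorem isEigensystem_mkEigen (e t : ℕ → R) : IsEigensystem e (mkEigen e t) := by
  refine ⟨mkEigen_one e t, fun ℓ hℓ n => ?_⟩
  rcases Nat.eq_zero_or_pos n with rfl | hn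
  · simp [mkEigen_zero]
  obtain ⟨r, m, hm, rfl⟩ := Nat.exists_eq_pow_mul_and_not_dvd hn.ne' ℓ hℓ.ne_one
  have hm0 : m ≠ 0 := by
    rintro rfl
    exact hm (dvd_zero _)
  rw [← mul_assoc, ← pow_succ', mkEigen_mul e t hℓ _ hm0 hm, mkEigen_mul e t hℓ _ hm0 hm,
    mkEigen_prime e t hℓ, ← mul_assoc, ← eigU_rec, add_mul, mul_assoc (e ℓ)]
  congr 2
  cases r with
  | zero => rw [pow_zero, one_mul, if_neg hm, if_pos rfl, zero_mul]
  | succ r =>
    have h2 : ℓ ∣ ℓ ^ (r + 1) * m := (dvd_pow_self ℓ r.succ_ne_zero).mul_right m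
    have h3 : ℓ ^ (r + 1) * m / ℓ = ℓ ^ r * m := by
      rw [pow_succ', mul_assoc, Nat.mul_div_cancel_left _ hℓ.pos]
    rw [if_pos h2, h3, mkEigen_mul e t hℓ _ hm0 hm, if_neg r.succ_ne_zero, Nat.add_sub_cancel]

/-- uniqueness -/
theorem eigen_unique {e a b : ℕ → R} (ha : IsEigensystem e a) (hb : IsEigensystem e b)
    (h : ∀ ℓ : ℕ, ℓ.Prime → a ℓ = b ℓ) {n : ℕ} (hn : 0 < n) : a n = b n := by
  have key := Eigenform.eq_zero_of_eigen (e := e) (t := a) (c := fun n => a n - b n)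
    (fun ℓ hℓ n => by
      have h1 := ha.2 ℓ hℓ n
      have h2 := hb.2 ℓ hℓ n
      rw [← h ℓ hℓ] at h2
      by_cases hd : ℓ ∣ n
      · rw [if_pos hd] at h1 h2 ⊢
        linear_combination h1 - h2
      · rw [if_neg hd] at h1 h2 ⊢
        linear_combination h1 - h2)
    (by rw [ha.1, hb.1, sub_self]) n hn
  exact sub_eq_zero.mp key

end Fermat.Agent.Full
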