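import Fermat.Prelude.Def_FLTPrelim_Modularity

/-!
# Good reduction at `2`: the trace of Frobenius at `2` in terms of the coefficients
-/

set_option autoImplicit false

open WeierstrassCurve

namespace Fermat.Agent.Full

/-! ### Point counts over `𝔽₂` -/

/-- the number of affine solutions -/
def cnt2 (a₁ a₂ a₃ a₄ a₆ : ZMod 2) : ℕ :=
  (Finset.univ.filter fun p : ZMod 2 × ZMod 2 =>
    p.2 ^ 2 + a₁ * p.1 * p.2 + a₃ * p.2 = p.1 ^ 3 + a₂ * p.1 ^ 2 + a₄ * p.1 + a₆).card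

theorem card_point_two (V : WeierstrassCurve (ZMod 2)) (hΔ : V.Δ ≠ 0) :
    Nat.card V.toAffine.Point = cnt2 V.a₁ V.a₂ V.a₃ V.a₄ V.a₆ + 1 := by
  have key : ∀ x y : ZMod 2, V.toAffine.Nonsingular x y ↔
      y ^ 2 + V.a₁ * x * y + V.a₃ * y = x ^ 3 + V.a₂ * x ^ 2 + V.a₄ * x + V.a₆ := by
    intro x y
    rw [← Affine.equation_iff_nonsingular_of_Δ_ne_zero hΔ, Affine.equation_iff]
  let S := {p : ZMod 2 × ZMod 2 // p ∈ Finset.univ.filter fun p : ZMod 2 × ZMod 2 =>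
    p.2 ^ 2 + V.a₁ * p.1 * p.2 + V.a₃ * p.2 = p.1 ^ 3 + V.a₂ * p.1 ^ 2 + V.a₄ * p.1 + V.a₆}
  let f : V.toAffine.Point → Option S := fun P => match P with
    | 0 => none
    | .some x y h => some ⟨(x, y), by
        rw [Finset.mem_filter]
        exact ⟨Finset.mem_univ _, (key x y).1 h⟩⟩
  have hf : Function.Bijective f := by
    constructor
    · intro P Q hPQ
      match P, Q, hPQ with
      | 0, 0, _ => rfl
      | 0, .some x y h, hPQ => exact absurd hPQ (by simp [f])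
      | .some x y h, 0, hPQ => exact absurd hPQ (by simp [f])
      | .some x y h, .some x' y' h', hPQ =>
        obtain ⟨e1, e2⟩ := Prod.mk.inj (congrArg Subtype.val (Option.some.inj hPQ))
        subst e1 e2
        rfl
    · intro Q
      match Q with
      | none => exact ⟨0, rfl⟩
      | some ⟨(x, y), h⟩ =>
        rw [Finset.mem_filter] at h
        exact ⟨.some x y ((key x y).2 h.2), rfl⟩
  rw [Nat.card_eq_of_bijective f hf, Nat.card_eq_fintype_card, Fintype.card_option,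
    Fintype.card_coe]
  rfl

/-- the trace of Frobenius at `2` -/
theorem ap_two (W : WeierstrassCurve ℤ) (hΔ : ¬ (2 : ℤ) ∣ W.Δ) :
    W.apOfModel 2 = 2 - (cnt2 W.a₁ W.a₂ W.a₃ W.a₄ W.a₆ : ℤ) := by
  rw [WeierstrassCurve.apOfModel, WeierstrassCurve.traceOfFrobenius, WeierstrassCurve.card,
    card_point_two]
  · simp only [Nat.card_eq_fintype_card, ZMod.card, WeierstrassCurve.reductionMod, map_a₁, map_a₂,
      map_a₃, map_a₄, map_a₆, eq_intCast]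
    push_cast
    ring
  · rw [WeierstrassCurve.reductionMod, map_Δ, eq_intCast]
    intro h
    apply hΔ
    have h1 := (ZMod.intCast_zmod_eq_zero_iff_dvd W.Δ 2).1 h
    exact_mod_cast h1

/-- the discriminant modulo `2` -/
theorem delta_two (a₁ a₂ a₃ a₄ a₆ : ZMod 2) :
    (⟨a₁, a₂, a₃, a₄, a₆⟩ : WeierstrassCurve (ZMod 2)).Δ =
      a₁ * (a₂ * a₃ + a₁ * a₄ + a₃ * a₄ + a₆ + a₁ * a₃) + a₃ := by
  simp only [WeierstrassCurve.Δ, WeierstrassCurve.b₂, WeierstrassCurve.b₄, WeierstrassCurve.b₆,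
    WeierstrassCurve.b₈]
  revert a₁ a₂ a₃ a₄ a₆
  decide

theorem delta_two_cast (W : WeierstrassCurve ℤ) : ((W.Δ : ℤ) : ZMod 2) =
    W.a₁ * (W.a₂ * W.a₃ + W.a₁ * W.a₄ + W.a₃ * W.a₄ + W.a₆ + W.a₁ * W.a₃) + W.a₃ := by
  rw [← delta_two]
  have h := map_Δ W (Int.castRingHom (ZMod 2))
  rw [eq_intCast] at h
  rw [← h]
  rfl

theorem two_dvd_iff (n : ℤ) : (2 : ℤ) ∣ n ↔ (n : ZMod 2) = 0 := by
  rw [ZMod.intCast_zmod_eq_zero_iff_dvd]; rfl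

/-- supersingular reduction at `2`, trace `± 2` -/
theorem coeffs_of_ap_two (W : WeierstrassCurve ℤ) (hΔ : ¬ (2 : ℤ) ∣ W.Δ)
    (h : W.apOfModel 2 = 2 ∨ W.apOfModel 2 = -2) :
    (2 : ℤ) ∣ W.a₁ ∧ ¬ (2 : ℤ) ∣ W.a₃ ∧ ¬ (2 : ℤ) ∣ W.a₂ + W.a₄ := by
  have h1 : (cnt2 W.a₁ W.a₂ W.a₃ W.a₄ W.a₆) = 0 ∨ (cnt2 W.a₁ W.a₂ W.a₃ W.a₄ W.a₆) = 4 := by
    have h2 := ap_two W hΔ
    rcases h with h | h
    · left; rw [h] at h2; omega
    · right; rw [h] at h2; omega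
  rw [two_dvd_iff, delta_two_cast] at hΔ
  rw [two_dvd_iff, two_dvd_iff, two_dvd_iff]
  push_cast
  generalize (W.a₁ : ZMod 2) = a₁ at *
  generalize (W.a₂ : ZMod 2) = a₂ at *
  generalize (W.a₃ : ZMod 2) = a₃ at *
  generalize (W.a₄ : ZMod 2) = a₄ at *
  generalize (W.a₆ : ZMod 2) = a₆ at *
  revert a₁ a₂ a₃ a₄ a₆
  decide

/-- **[B]** the invariants of a curve with good reduction at `2` and trace `± 2` -/
theorem exists_ce_of_ap_two (W : WeierstrassCurve ℤ) (hΔ : ¬ (2 : ℤ) ∣ W.Δ)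
    (h : W.apOfModel 2 = 2 ∨ W.apOfModel 2 = -2) :
    ∃ c e : ℤ, W.c₄ = 16 * c ∧ W.c₆ = 8 * e ∧ c % 2 = 1 ∧ e % 4 = 1 := by
  obtain ⟨⟨α, hα⟩, h3, h24⟩ := coeffs_of_ap_two W hΔ h
  obtain ⟨δ, hδ⟩ : ∃ δ, W.a₃ = 2 * δ + 1 := ⟨W.a₃ / 2, by omega⟩
  obtain ⟨ε, hε⟩ : ∃ ε, W.a₂ + W.a₄ = 2 * ε + 1 := ⟨(W.a₂ + W.a₄) / 2, by omega⟩
  refine ⟨(α ^ 2 + W.a₂) ^ 2 - 3 * (W.a₄ + α * W.a₃),
    -8 * (α ^ 2 + W.a₂) ^ 3 + 36 * (α ^ 2 + W.a₂) * (W.a₄ + α * W.a₃) -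
      27 * (W.a₃ ^ 2 + 4 * W.a₆), ?_, ?_, ?_, ?_⟩
  · simp only [WeierstrassCurve.c₄, WeierstrassCurve.b₂, WeierstrassCurve.b₄, hα]; ring
  · simp only [WeierstrassCurve.c₆, WeierstrassCurve.b₂, WeierstrassCurve.b₄,
      WeierstrassCurve.b₆, hα]; ring
  · have e1 : W.a₄ = 2 * ε + 1 - W.a₂ := by linarith
    rw [e1, hδ]
    obtain ⟨u, hu⟩ : ∃ u, α ^ 2 = α + 2 * u := by
      obtain ⟨k, rfl | rfl⟩ := Int.even_or_odd' α
      · exact ⟨2 * k ^ 2 - k, by ring⟩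
      · exact ⟨2 * k ^ 2 + k, by ring⟩
    obtain ⟨v, hv⟩ : ∃ v, (α + 2 * u + W.a₂) ^ 2 = (α + 2 * u + W.a₂) + 2 * v := by
      obtain ⟨k, hk | hk⟩ := Int.even_or_odd' (α + 2 * u + W.a₂)
      · exact ⟨2 * k ^ 2 - k, by rw [hk]; ring⟩
      · exact ⟨2 * k ^ 2 + k, by rw [hk]; ring⟩
    rw [hu, hv]
    have : α + 2 * u + W.a₂ + 2 * v - 3 * (2 * ε + 1 - W.a₂ + α * (2 * δ + 1)) =
        2 * (u + v - 3 * ε - 2 + 2 * W.a₂ - α - 3 * α * δ) + 1 := by ring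
    rw [this]
    omega
  · rw [hδ]
    have : -8 * (α ^ 2 + W.a₂) ^ 3 + 36 * (α ^ 2 + W.a₂) * (W.a₄ + α * (2 * δ + 1)) -
        27 * ((2 * δ + 1) ^ 2 + 4 * W.a₆) = 4 * (-2 * (α ^ 2 + W.a₂) ^ 3 +
          9 * (α ^ 2 + W.a₂) * (W.a₄ + α * (2 * δ + 1)) - 27 * (δ ^ 2 + δ) - 27 * W.a₆ - 7) + 1 := by
      ring
    rw [this]
    omega

theorem ss2 (W : WeierstrassCurve ℤ) (hg : ¬ (2 : ℤ) ∣ W.Δ)
    (ha : W.apOfModel 2 = 2 ∨ W.apOfModel 2 = -2) :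
    ∃ c e : ℤ, W.c₄ = 16 * c ∧ W.c₆ = 8 * e ∧ Odd c ∧ e % 4 = 1 := by
  obtain ⟨c, e, h1, h2, h3, h4⟩ := exists_ce_of_ap_two W hg ha
  exact ⟨c, e, h1, h2, Int.odd_iff.2 h3, h4⟩

end Fermat.Agent.Full
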