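import Fermat.Agent.Full.Model3
import Fermat.Agent.Full.Ss2
import Fermat.Agent.Full.Congr5
import Fermat.Agent.TwoAdic.CurveOfLoc

set_option autoImplicit false

/-!
# Curves with the same `3`-torsion and prescribed reduction at `2`
-/

open WeierstrassCurve
open Fermat.Agent.TwoAdic

namespace Fermat.Agent.Full

theorem delta_model (W : WeierstrassCurve ℤ) (s t : ℤ) :
    (model3 W s t).Δ = W.Δ * (G3 W s t)^3 := by
  have h1 := (model3 W s t).c_relation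
  have h2 := W.c_relation
  have h3 := hC_disc W.c₄ W.c₆ (4*s + W.b₂*t) t
  rw [c4_model, c6_model, hD_model, ← h2] at h3
  have h4 : (28991029248 : ℤ) ≠ 0 := by norm_num
  apply mul_left_cancel₀ h4
  linear_combination 16777216 * h1 + h3

theorem model3_map {R S : Type*} [CommRing R] [CommRing S] (φ : R →+* S)
    (W : WeierstrassCurve R) (s t : R) :
    (model3 W s t).map φ = model3 (W.map φ) (φ s) (φ t) := by
  ext <;> simp only [model3, WeierstrassCurve.map, WeierstrassCurve.b₂, WeierstrassCurve.b₄,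
    WeierstrassCurve.b₆, WeierstrassCurve.b₈, map_add, map_sub, map_mul, map_pow, map_ofNat]

/-- at the primes dividing `t` nothing changes if `s ≡ 1` modulo `t` -/
theorem model3_zero {R : Type*} [CommRing R] (W : WeierstrassCurve R) :
    model3 W 1 0 = W := by
  ext <;> simp [model3]

theorem reductionMod_model {W : WeierstrassCurve ℤ} {s t : ℤ} {q : ℕ} (hs : (q : ℤ) ∣ s - 1)
    (ht : (q : ℤ) ∣ t) : (model3 W s t).reductionMod q = W.reductionMod q := by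
  rw [WeierstrassCurve.reductionMod, model3_map]
  have e1 : (Int.castRingHom (ZMod q)) t = 0 := by
    rw [eq_intCast, ZMod.intCast_zmod_eq_zero_iff_dvd]; exact ht
  have e2 : (Int.castRingHom (ZMod q)) s = 1 := by
    have := (ZMod.intCast_zmod_eq_zero_iff_dvd (s - 1) q).mpr hs
    push_cast at this
    rw [eq_intCast]
    linear_combination this
  rw [e1, e2, model3_zero]
  rfl

theorem dvd_of_reductionMod {W W' : WeierstrassCurve ℤ} {q : ℕ}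
    (h : W.reductionMod q = W'.reductionMod q) :
    ((q : ℤ) ∣ W.Δ ↔ (q : ℤ) ∣ W'.Δ) ∧ ((q : ℤ) ∣ W.c₄ ↔ (q : ℤ) ∣ W'.c₄) := by
  have h1 : (W.map (Int.castRingHom (ZMod q))).Δ = (W'.map (Int.castRingHom (ZMod q))).Δ := by
    have := congrArg WeierstrassCurve.Δ h
    exact this
  have h2 : (W.map (Int.castRingHom (ZMod q))).c₄ = (W'.map (Int.castRingHom (ZMod q))).c₄ := by
    have := congrArg WeierstrassCurve.c₄ h
    exact this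
  rw [map_Δ, map_Δ, eq_intCast, eq_intCast] at h1
  rw [map_c₄, map_c₄, eq_intCast, eq_intCast] at h2
  simp only [← ZMod.intCast_zmod_eq_zero_iff_dvd, h1, h2, and_self]

/-- the members of the pencil near `W` -/
structure Near (W : WeierstrassCurve ℤ) (s t : ℤ) : Prop where
  one : t ∣ s - 1
  cop : IsCoprime s t
  three : (3 : ℤ) ∣ t
  two : ¬ (2 : ℤ) ∣ t
  bad : ∀ q : ℕ, q.Prime → (q : ℤ) ∣ W.Δ → (q : ℤ) ∣ t

section

variable {W : WeierstrassCurve ℤ} {s t : ℤ}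

theorem Near.red (h : Near W s t) {q : ℕ} (hq : (q : ℤ) ∣ t) :
    (model3 W s t).reductionMod q = W.reductionMod q :=
  reductionMod_model (hq.trans h.one) hq

theorem Near.G_ne (h : Near W s t) : G3 W s t ≠ 0 := by
  intro h0
  have h3 : ((3 : ℕ) : ℤ) ∣ t := by exact_mod_cast h.three
  have h1 : (3 : ℤ) ∣ G3 W s t - s^4 := by
    have : G3 W s t - s^4 = t * (W.b₂*s^3 + 9*W.b₄*s^2*t + 27*W.b₆*s*t^2 + 27*W.b₈*t^3) := by
      unfold G3; ring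
    rw [this]
    exact Dvd.dvd.mul_right h.three _
  rw [h0, zero_sub, dvd_neg] at h1
  have h2 := Int.prime_three.dvd_of_dvd_pow h1
  exact Int.prime_three.not_isUnit (h.cop.isUnit_of_dvd' h2 h.three)

theorem Near.delta_ne (h : Near W s t) (hΔ : W.Δ ≠ 0) : (model3 W s t).Δ ≠ 0 := by
  rw [delta_model]
  exact mul_ne_zero hΔ (pow_ne_zero _ h.G_ne)

theorem bad_dvd_model {q : ℕ} (hq : (q : ℤ) ∣ W.Δ) :
    (q : ℤ) ∣ (model3 W s t).Δ := by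
  rw [delta_model]
  exact Dvd.dvd.mul_right hq _

theorem Near.three_iff (h : Near W s t) : (3 : ℤ) ∣ (model3 W s t).Δ ↔ (3 : ℤ) ∣ W.Δ := by
  exact_mod_cast (dvd_of_reductionMod (h.red (q := 3) (by exact_mod_cast h.three))).1

theorem Near.semistable (h : Near W s t) (hss : W.IsSemistableModel)
    (h2 : (2 : ℤ) ∣ (model3 W s t).Δ → ¬ (2 : ℤ) ∣ (model3 W s t).c₄) :
    (model3 W s t).IsSemistableModel := by
  intro q hq hqΔ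
  have hp : Prime (q : ℤ) := Nat.prime_iff_prime_int.mp hq
  by_cases hq2 : q = 2
  · subst hq2
    exact_mod_cast h2 (by exact_mod_cast hqΔ)
  by_cases hqt : (q : ℤ) ∣ t
  · have h1 := dvd_of_reductionMod (h.red hqt)
    rw [h1.2]
    exact hss q hq (h1.1.mp hqΔ)
  · have hq3 : q ≠ 3 := by
      rintro rfl
      exact hqt (by exact_mod_cast h.three)
    have hqW : ¬ (q : ℤ) ∣ W.Δ := fun h' => hqt (h.bad q hq h')
    rw [delta_model] at hqΔ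
    have hG : (q : ℤ) ∣ G3 W s t := hp.dvd_of_dvd_pow ((hp.dvd_or_dvd hqΔ).resolve_left hqW)
    have h256 : ¬ (q : ℤ) ∣ 256 := by
      intro h'
      have e : (256 : ℤ) = 2^8 := by norm_num
      rw [e] at h'
      have h3 := hp.dvd_of_dvd_pow h'
      have h4 : q ∣ 2 := by exact_mod_cast h3
      exact hq2 ((Nat.prime_dvd_prime_iff_eq hq Nat.prime_two).mp h4)
    intro hc4
    have hcop : IsCoprime (4*s + W.b₂*t) t := by
      apply IsCoprime.add_mul_right_left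
      apply IsCoprime.mul_left _ h.cop
      have : (4 : ℤ) = 2^2 := by norm_num
      rw [this]
      exact IsCoprime.pow_left ((Prime.coprime_iff_not_dvd Int.prime_two).mpr h.two)
    refine not_dvd_hC4 (c4 := W.c₄) (c6 := W.c₆) hq hq2 hq3 ?_ hcop ?_ ?_
    · rw [← W.c_relation]
      intro h4
      rcases hp.dvd_or_dvd h4 with h4 | h4
      · have : (1728 : ℤ) = 2^6 * 3^3 := by norm_num
        rw [this] at h4
        rcases hp.dvd_or_dvd h4 with h4 | h4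
        · have h5 := hp.dvd_of_dvd_pow h4
          have h6 : q ∣ 2 := by exact_mod_cast h5
          exact hq2 ((Nat.prime_dvd_prime_iff_eq hq Nat.prime_two).mp h6)
        · have h5 := hp.dvd_of_dvd_pow h4
          have h6 : q ∣ 3 := by exact_mod_cast h5
          exact hq3 ((Nat.prime_dvd_prime_iff_eq hq Nat.prime_three).mp h6)
      · exact hqW h4
    · rw [hD_model]; exact Dvd.dvd.mul_left hG _
    · rw [c4_model]; exact Dvd.dvd.mul_left hc4 _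

theorem Near.congr (h : Near W s t) (hΔ : W.Δ ≠ 0) : ∀ ℓ : ℕ, ℓ.Prime → W.IsGoodPrimeFor ℓ →
    (model3 W s t).IsGoodPrimeFor ℓ → ℓ ≠ 3 →
      (3 : ℤ) ∣ ((model3 W s t).apOfModel ℓ - W.apOfModel ℓ) :=
  congr3_of_family hΔ (h.delta_ne hΔ) (s := 4) (l := 4*s + W.b₂*t) (m := t) (by norm_num)
    (by rw [c4_model]; norm_num) (by rw [c6_model]; norm_num)

theorem Near.ap_eq (h : Near W s t) {q : ℕ} (hq : (q : ℤ) ∣ t) :
    (model3 W s t).apOfModel q = W.apOfModel q := by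
  rw [WeierstrassCurve.apOfModel, WeierstrassCurve.apOfModel, h.red hq]

theorem Near.good (h : Near W s t) {q : ℕ} (hq : (q : ℤ) ∣ t) (hg : W.IsGoodPrimeFor q) :
    (model3 W s t).IsGoodPrimeFor q :=
  fun h' => hg ((dvd_of_reductionMod (h.red hq)).1.mp h')

end

/-- a suitable `t`, and both parities of `s` -/
theorem exists_near (W : WeierstrassCurve ℤ) (h2 : ¬ (2 : ℤ) ∣ W.Δ) {ℓ₀ : ℕ}
    (hℓ₀ : ¬ 2 ∣ ℓ₀) (e : ZMod 2) : ∃ s t : ℤ, Near W s t ∧ (ℓ₀ : ℤ) ∣ t ∧ (s : ZMod 2) = e := by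
  obtain ⟨t, ht⟩ : ∃ t : ℤ, t = 3 * W.Δ * ℓ₀ := ⟨_, rfl⟩
  have ht2 : ¬ (2 : ℤ) ∣ t := by
    rw [ht]
    intro h
    rcases Int.prime_two.dvd_or_dvd h with h | h
    · rcases Int.prime_two.dvd_or_dvd h with h | h
      · omega
      · exact h2 h
    · exact hℓ₀ (by exact_mod_cast h)
  have key : ∀ k : ℤ, Near W (1 + k * t) t := fun k => by
    refine ⟨⟨k, by ring⟩, ⟨1, -k, by ring⟩, ⟨W.Δ * ℓ₀, by rw [ht]; ring⟩, ht2, fun q _ hq => ?_⟩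
    rw [ht, mul_comm (3 : ℤ), mul_assoc]
    exact Dvd.dvd.mul_right hq _
  have htodd : (t : ZMod 2) = 1 := by
    have h1 : (t : ZMod 2) ≠ 0 := by
      intro h
      apply ht2
      exact_mod_cast (ZMod.intCast_zmod_eq_zero_iff_dvd t 2).1 h
    revert h1
    generalize (t : ZMod 2) = x
    revert x
    decide
  have hd : (ℓ₀ : ℤ) ∣ t := by rw [ht]; exact dvd_mul_left _ _
  by_cases he : e = 1
  · exact ⟨1 + 0 * t, t, key 0, hd, by push_cast; rw [he]; ring⟩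
  · refine ⟨1 + 1 * t, t, key 1, hd, ?_⟩
    push_cast
    rw [htodd]
    revert he
    revert e
    decide


/-! ### Reduction at `2` -/

/-- the coefficients of `model3 W s 1` over `𝔽₂`: number of affine points -/
def cnt3 (W : WeierstrassCurve (ZMod 2)) (s : ZMod 2) : ℕ :=
  cnt2 (model3 W s 1).a₁ (model3 W s 1).a₂ (model3 W s 1).a₃ (model3 W s 1).a₄ (model3 W s 1).a₆

theorem key2 : ∀ a₁ a₂ a₃ a₄ a₆ s : ZMod 2,
    (⟨a₁, a₂, a₃, a₄, a₆⟩ : WeierstrassCurve (ZMod 2)).Δ ≠ 0 →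
    (cnt2 a₁ a₂ a₃ a₄ a₆ = 2 →
      (model3 (⟨a₁, a₂, a₃, a₄, a₆⟩ : WeierstrassCurve (ZMod 2)) s 1).Δ = 0 ∧
      (model3 (⟨a₁, a₂, a₃, a₄, a₆⟩ : WeierstrassCurve (ZMod 2)) s 1).c₄ ≠ 0) ∧
    (cnt2 a₁ a₂ a₃ a₄ a₆ = 1 → s = a₃ →
      (model3 (⟨a₁, a₂, a₃, a₄, a₆⟩ : WeierstrassCurve (ZMod 2)) s 1).Δ ≠ 0 ∧
      cnt3 (⟨a₁, a₂, a₃, a₄, a₆⟩ : WeierstrassCurve (ZMod 2)) s = 4) ∧
    (cnt2 a₁ a₂ a₃ a₄ a₆ = 3 → s = a₃ →
      (model3 (⟨a₁, a₂, a₃, a₄, a₆⟩ : WeierstrassCurve (ZMod 2)) s 1).Δ ≠ 0 ∧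
      cnt3 (⟨a₁, a₂, a₃, a₄, a₆⟩ : WeierstrassCurve (ZMod 2)) s = 0) ∧
    (cnt2 a₁ a₂ a₃ a₄ a₆ = 0 →
      (model3 (⟨a₁, a₂, a₃, a₄, a₆⟩ : WeierstrassCurve (ZMod 2)) s 1).Δ ≠ 0 ∧
      cnt3 (⟨a₁, a₂, a₃, a₄, a₆⟩ : WeierstrassCurve (ZMod 2)) s = 3) ∧
    (cnt2 a₁ a₂ a₃ a₄ a₆ = 4 →
      (model3 (⟨a₁, a₂, a₃, a₄, a₆⟩ : WeierstrassCurve (ZMod 2)) s 1).Δ ≠ 0 ∧
      cnt3 (⟨a₁, a₂, a₃, a₄, a₆⟩ : WeierstrassCurve (ZMod 2)) s = 1) := by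
  decide +kernel

/-- the statement `key2` for the reduction of an integral model -/
theorem two_of_key {W : WeierstrassCurve ℤ} (hg : ¬ (2 : ℤ) ∣ W.Δ) {s t : ℤ}
    (ht : ¬ (2 : ℤ) ∣ t) :
    (W.apOfModel 2 = 0 → (2 : ℤ) ∣ (model3 W s t).Δ ∧ ¬ (2 : ℤ) ∣ (model3 W s t).c₄) ∧
    (W.apOfModel 2 = 1 → (s : ZMod 2) = (W.a₃ : ZMod 2) → ¬ (2 : ℤ) ∣ (model3 W s t).Δ ∧
      (model3 W s t).apOfModel 2 = -2) ∧
    (W.apOfModel 2 = -1 → (s : ZMod 2) = (W.a₃ : ZMod 2) → ¬ (2 : ℤ) ∣ (model3 W s t).Δ ∧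
      (model3 W s t).apOfModel 2 = 2) ∧
    (W.apOfModel 2 = 2 → ¬ (2 : ℤ) ∣ (model3 W s t).Δ ∧ (model3 W s t).apOfModel 2 = -1) ∧
    (W.apOfModel 2 = -2 → ¬ (2 : ℤ) ∣ (model3 W s t).Δ ∧ (model3 W s t).apOfModel 2 = 1) := by
  have htodd : (Int.castRingHom (ZMod 2)) t = 1 := by
    rw [eq_intCast]
    have h1 : (t : ZMod 2) ≠ 0 := fun h => ht ((two_dvd_iff t).mpr h)
    revert h1
    generalize (t : ZMod 2) = x
    revert x
    decide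
  have hmap : (model3 W s t).map (Int.castRingHom (ZMod 2)) =
      model3 (⟨(W.a₁ : ZMod 2), W.a₂, W.a₃, W.a₄, W.a₆⟩ : WeierstrassCurve (ZMod 2)) s 1 := by
    rw [model3_map, htodd]
    rfl
  have hΔ' : (((model3 W s t).Δ : ℤ) : ZMod 2) =
      (model3 (⟨(W.a₁ : ZMod 2), W.a₂, W.a₃, W.a₄, W.a₆⟩ : WeierstrassCurve (ZMod 2)) s 1).Δ := by
    rw [← hmap, map_Δ, eq_intCast]
  have hc' : (((model3 W s t).c₄ : ℤ) : ZMod 2) =
      (model3 (⟨(W.a₁ : ZMod 2), W.a₂, W.a₃, W.a₄, W.a₆⟩ : WeierstrassCurve (ZMod 2)) s 1).c₄ := by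
    rw [← hmap, map_c₄, eq_intCast]
  have hcnt : cnt2 ((model3 W s t).a₁ : ZMod 2) (model3 W s t).a₂ (model3 W s t).a₃
      (model3 W s t).a₄ (model3 W s t).a₆ =
      cnt3 (⟨(W.a₁ : ZMod 2), W.a₂, W.a₃, W.a₄, W.a₆⟩ : WeierstrassCurve (ZMod 2)) s := by
    unfold cnt3
    rw [← hmap]
    rfl
  have hΔ0 : (⟨(W.a₁ : ZMod 2), W.a₂, W.a₃, W.a₄, W.a₆⟩ : WeierstrassCurve (ZMod 2)).Δ ≠ 0 := by
    have : (⟨(W.a₁ : ZMod 2), W.a₂, W.a₃, W.a₄, W.a₆⟩ : WeierstrassCurve (ZMod 2)) =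
      W.map (Int.castRingHom (ZMod 2)) := rfl
    rw [this, map_Δ, eq_intCast]
    exact fun h => hg ((two_dvd_iff _).mpr h)
  obtain ⟨k0, k1, k3, k2, k4⟩ := key2 _ _ _ _ _ (s : ZMod 2) hΔ0
  rw [← hΔ', ← hc'] at k0
  rw [← hΔ', ← hcnt] at k1 k2 k3 k4
  have hap := ap_two W hg
  refine ⟨fun h => ?_, fun h hs => ?_, fun h hs => ?_, fun h => ?_, fun h => ?_⟩
  · have := k0 (by omega)
    exact ⟨(two_dvd_iff _).mpr this.1, fun h' => this.2 ((two_dvd_iff _).mp h')⟩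
  · have := k1 (by omega) hs
    have hg' : ¬ (2 : ℤ) ∣ (model3 W s t).Δ := fun h' => this.1 ((two_dvd_iff _).mp h')
    refine ⟨hg', ?_⟩
    rw [ap_two _ hg', this.2]
    norm_num
  · have := k3 (by omega) hs
    have hg' : ¬ (2 : ℤ) ∣ (model3 W s t).Δ := fun h' => this.1 ((two_dvd_iff _).mp h')
    refine ⟨hg', ?_⟩
    rw [ap_two _ hg', this.2]
    norm_num
  · have := k2 (by omega)
    have hg' : ¬ (2 : ℤ) ∣ (model3 W s t).Δ := fun h' => this.1 ((two_dvd_iff _).mp h')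
    refine ⟨hg', ?_⟩
    rw [ap_two _ hg', this.2]
    norm_num
  · have := k4 (by omega)
    have hg' : ¬ (2 : ℤ) ∣ (model3 W s t).Δ := fun h' => this.1 ((two_dvd_iff _).mp h')
    refine ⟨hg', ?_⟩
    rw [ap_two _ hg', this.2]
    norm_num

/-- **(S3a)** -/
theorem exists_mult_of_ap_zero (W : WeierstrassCurve ℤ) (hΔ : W.Δ ≠ 0)
    (hss : W.IsSemistableModel) (hg : ¬ (2 : ℤ) ∣ W.Δ) (ha : W.apOfModel 2 = 0) :
    ∃ Y : WeierstrassCurve ℤ, Y.Δ ≠ 0 ∧ Y.IsSemistableModel ∧ (2 : ℤ) ∣ Y.Δ ∧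
      ((3 : ℤ) ∣ Y.Δ ↔ (3 : ℤ) ∣ W.Δ) ∧
      (∀ q : ℕ, q.Prime → (q : ℤ) ∣ W.Δ → (q : ℤ) ∣ Y.Δ) ∧
      ∀ ℓ : ℕ, ℓ.Prime → W.IsGoodPrimeFor ℓ → Y.IsGoodPrimeFor ℓ → ℓ ≠ 3 →
        (3 : ℤ) ∣ (Y.apOfModel ℓ - W.apOfModel ℓ) := by
  obtain ⟨s, t, hN, -, -⟩ := exists_near W hg (ℓ₀ := 1) (by norm_num) 1
  have h2 := (two_of_key hg hN.two (s := s)).1 ha
  exact ⟨model3 W s t, hN.delta_ne hΔ, hN.semistable hss fun _ => h2.2, h2.1, hN.three_iff,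
    fun q _ hq => bad_dvd_model hq, hN.congr hΔ⟩

/-- **(S3b)** -/
theorem exists_ss_of_ap_one (W : WeierstrassCurve ℤ) (hΔ : W.Δ ≠ 0)
    (hss : W.IsSemistableModel) (hg : ¬ (2 : ℤ) ∣ W.Δ)
    (ha : W.apOfModel 2 = 1 ∨ W.apOfModel 2 = -1) {ℓ₀ : ℕ} (hℓ₀ : ℓ₀.Prime) (hℓ₀2 : ℓ₀ ≠ 2) :
    ∃ Y : WeierstrassCurve ℤ, Y.Δ ≠ 0 ∧ Y.IsSemistableModel ∧ ¬ (2 : ℤ) ∣ Y.Δ ∧
      Y.apOfModel 2 = -2 * W.apOfModel 2 ∧
      ((3 : ℤ) ∣ Y.Δ ↔ (3 : ℤ) ∣ W.Δ) ∧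
      (∀ q : ℕ, q.Prime → (q : ℤ) ∣ W.Δ → (q : ℤ) ∣ Y.Δ) ∧
      (W.IsGoodPrimeFor ℓ₀ → Y.IsGoodPrimeFor ℓ₀) ∧ Y.apOfModel ℓ₀ = W.apOfModel ℓ₀ ∧
      ∀ ℓ : ℕ, ℓ.Prime → W.IsGoodPrimeFor ℓ → Y.IsGoodPrimeFor ℓ → ℓ ≠ 3 →
        (3 : ℤ) ∣ (Y.apOfModel ℓ - W.apOfModel ℓ) := by
  obtain ⟨s, t, hN, hℓt, hs⟩ := exists_near W hg (ℓ₀ := ℓ₀)
    (fun h => hℓ₀2 ((Nat.prime_dvd_prime_iff_eq Nat.prime_two hℓ₀).mp h).symm) (W.a₃ : ZMod 2)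
  have h2 : ¬ (2 : ℤ) ∣ (model3 W s t).Δ ∧ (model3 W s t).apOfModel 2 = -2 * W.apOfModel 2 := by
    rcases ha with h | h
    · have := (two_of_key hg hN.two).2.1 h hs
      rw [h]; exact this
    · have := (two_of_key hg hN.two).2.2.1 h hs
      rw [h]; exact this
  exact ⟨model3 W s t, hN.delta_ne hΔ, hN.semistable hss fun h => absurd h h2.1, h2.1, h2.2,
    hN.three_iff, fun q _ hq => bad_dvd_model hq, hN.good hℓt, hN.ap_eq hℓt, hN.congr hΔ⟩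

/-- **(S3c)** -/
theorem exists_ord_of_ap_two (W : WeierstrassCurve ℤ) (hΔ : W.Δ ≠ 0)
    (hss : W.IsSemistableModel) (hg : ¬ (2 : ℤ) ∣ W.Δ)
    (ha : W.apOfModel 2 = 2 ∨ W.apOfModel 2 = -2) :
    ∃ Y : WeierstrassCurve ℤ, Y.Δ ≠ 0 ∧ Y.IsSemistableModel ∧ ¬ (2 : ℤ) ∣ Y.Δ ∧
      W.apOfModel 2 = -2 * Y.apOfModel 2 ∧ (Y.apOfModel 2 = 1 ∨ Y.apOfModel 2 = -1) ∧
      ((3 : ℤ) ∣ Y.Δ ↔ (3 : ℤ) ∣ W.Δ) ∧
      (∀ q : ℕ, q.Prime → (q : ℤ) ∣ W.Δ → (q : ℤ) ∣ Y.Δ) ∧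
      ∀ ℓ : ℕ, ℓ.Prime → W.IsGoodPrimeFor ℓ → Y.IsGoodPrimeFor ℓ → ℓ ≠ 3 →
        (3 : ℤ) ∣ (Y.apOfModel ℓ - W.apOfModel ℓ) := by
  obtain ⟨s, t, hN, -, -⟩ := exists_near W hg (ℓ₀ := 1) (by norm_num) 1
  have h2 : ¬ (2 : ℤ) ∣ (model3 W s t).Δ ∧ W.apOfModel 2 = -2 * (model3 W s t).apOfModel 2 ∧
      ((model3 W s t).apOfModel 2 = 1 ∨ (model3 W s t).apOfModel 2 = -1) := by
    rcases ha with h | h
    · have := (two_of_key hg hN.two (s := s)).2.2.2.1 h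
      rw [h, this.2]
      exact ⟨this.1, by norm_num, Or.inr rfl⟩
    · have := (two_of_key hg hN.two (s := s)).2.2.2.2 h
      rw [h, this.2]
      exact ⟨this.1, by norm_num, Or.inl rfl⟩
  exact ⟨model3 W s t, hN.delta_ne hΔ, hN.semistable hss fun h => absurd h h2.1, h2.1, h2.2.1,
    h2.2.2, hN.three_iff, fun q _ hq => bad_dvd_model hq, hN.congr hΔ⟩

end Fermat.Agent.Full
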