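import Fermat.Agent.Full.TopLift
import Fermat.Agent.Full.S3Fin

set_option autoImplicit false

/-!
# All semistable curves are modular
-/

open WeierstrassCurve

namespace Fermat.Agent.Full

theorem s3aTop : S3aTop := fun W hΔ hW h2 ha ↦ by
  obtain ⟨Y, h1, h3, h4, h5, -, h6⟩ := exists_mult_of_ap_zero W hΔ hW h2 ha
  exact ⟨Y, h1, h3, h4, h5.1, h6⟩

theorem s3bTop : S3bTop := fun W ℓ₀ hΔ hW h2 ha hℓ hℓ2 _ hg ↦ by
  obtain ⟨Y, h1, h3, h4, h5, h6, -, h7, h8, h9⟩ := exists_ss_of_ap_one W hΔ hW h2 ha hℓ hℓ2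
  refine ⟨Y, h1, h3, h4, ?_, h7 hg, h8, h6.1, h9⟩
  rcases ha with h | h <;> rw [h] at h5
  · right; rw [h5]; norm_num
  · left; rw [h5]; norm_num

theorem s3cTop : S3cTop := fun W hΔ hW h2 ha ↦ by
  obtain ⟨Y, h1, h3, h4, -, h5, h6, -, h7⟩ := exists_ord_of_ap_two W hΔ hW h2 ha
  exact ⟨Y, h1, h3, h4, h5, h6.1, h7⟩

/-- **Every semistable integral Weierstrass curve is modular of exact conductor level.** -/
theorem modAll : ModAll := modAll_of s3aTop s3bTop s3cTop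

end Fermat.Agent.Full
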