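import Fermat.Agent.TwoAdic.Hesse

set_option autoImplicit false

/-!
# An integral model of the Hesse pencil

For a Weierstrass equation `W` over a ring, `model3 W s t` is a Weierstrass equation whose
coefficients are forms in `s`, `t` with integral coefficients, with invariants
`hC4 / 2 ^ 8`, `hC6 / 2 ^ 12` at `(l, m) = (4 s + b₂ t, t)`.
-/

open WeierstrassCurve
open Fermat.Agent.TwoAdic

namespace Fermat.Agent.Full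

variable {R : Type*} [CommRing R]

/-- the integral model of the Hesse pencil -/
def model3 (W : WeierstrassCurve R) (s t : R) : WeierstrassCurve R where
  a₁ := W.a₁*s + W.a₃*t
  a₂ := W.a₂*s^2 + (3*W.a₄ + W.a₁*W.a₃)*s*t - (W.a₃^2 + 3*W.a₆)*t^2
  a₃ := W.a₃*s^3 + W.a₁*W.b₆*s*t^2 + W.a₁*W.b₈*t^3
  a₄ := W.a₄*s^4 + (4*W.a₃^2 + 18*W.a₆)*s^3*t +
    (13*W.b₈ - 2*W.a₄^2 - 2*W.a₁*W.a₃*W.a₄ - W.a₁^2*W.a₃^2 - 2*W.a₁^2*W.a₆)*s^2*t^2 +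
    ((4*W.a₁^2 + 18*W.a₂)*W.b₈ - (15*W.a₄ + 8*W.a₁*W.a₃)*W.b₆)*s*t^3 +
    ((27*W.a₄ + 13*W.a₁*W.a₃)*W.b₈ - 15*W.b₆^2)*t^4
  a₆ := W.a₆*s^6 + 3*W.b₈*s^5*t + (3*W.b₂*W.b₈ - (7*W.a₄ + 4*W.a₁*W.a₃)*W.b₆)*s^4*t^2 +
    ((17*W.a₄ + 8*W.a₁*W.a₃)*W.b₈ + W.b₂^2*W.b₈ - W.b₂*W.b₄*W.b₆ - 18*W.b₆^2)*s^3*t^3 +
    (9*W.b₂*W.b₄*W.b₈ - 24*W.b₆*W.b₈ - (9*W.a₁^2 + 35*W.a₂)*W.b₆^2)*s^2*t^4 +
    ((22*W.a₁^2 + 90*W.a₂)*W.b₆*W.b₈ - 135*W.b₈^2 - 21*W.b₄*W.b₆^2)*s*t^5 +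
    (27*W.b₄*W.b₆*W.b₈ - 19*W.b₆^3 - (7*W.a₁^2 + 27*W.a₂)*W.b₈^2)*t^6

/-- the discriminant form -/
def G3 (W : WeierstrassCurve R) (s t : R) : R :=
  s^4 + W.b₂*s^3*t + 9*W.b₄*s^2*t^2 + 27*W.b₆*s*t^3 + 27*W.b₈*t^4

theorem hD_model (W : WeierstrassCurve R) (s t : R) :
    hD W.c₄ W.c₆ (4*s + W.b₂*t) t = 256 * G3 W s t := by
  simp only [hD, G3, WeierstrassCurve.c₄, WeierstrassCurve.c₆, WeierstrassCurve.b₂,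
    WeierstrassCurve.b₄, WeierstrassCurve.b₆, WeierstrassCurve.b₈]
  ring

theorem b2_model (W : WeierstrassCurve R) (s t : R) :
    (model3 W s t).b₂ = W.b₂*s^2 + 6*W.b₄*s*t - 3*W.b₆*t^2 := by
  simp only [model3, WeierstrassCurve.b₂, WeierstrassCurve.b₄, WeierstrassCurve.b₆]
  ring

theorem b4_model (W : WeierstrassCurve R) (s t : R) :
    (model3 W s t).b₄ = W.b₄*s^4 + 9*W.b₆*s^3*t + (30*W.b₈ - W.b₂*W.b₆)*s^2*t^2 +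
      (9*W.b₂*W.b₈ - 15*W.b₄*W.b₆)*s*t^3 + (27*W.b₄*W.b₈ - 30*W.b₆^2)*t^4 := by
  simp only [model3, WeierstrassCurve.b₂, WeierstrassCurve.b₄, WeierstrassCurve.b₆,
    WeierstrassCurve.b₈]
  ring

theorem b6_model (W : WeierstrassCurve R) (s t : R) :
    (model3 W s t).b₆ = W.b₆*s^6 + 12*W.b₈*s^5*t + (12*W.b₂*W.b₈ - 14*W.b₄*W.b₆)*s^4*t^2 +
      (34*W.b₄*W.b₈ - 72*W.b₆^2 - 4*W.b₂*W.b₄*W.b₆ + 4*W.b₂^2*W.b₈)*s^3*t^3 +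
      (36*W.b₂*W.b₄*W.b₈ - 96*W.b₆*W.b₈ - 35*W.b₂*W.b₆^2)*s^2*t^4 +
      (90*W.b₂*W.b₆*W.b₈ - 540*W.b₈^2 - 84*W.b₄*W.b₆^2)*s*t^5 +
      (108*W.b₄*W.b₆*W.b₈ - 76*W.b₆^3 - 27*W.b₂*W.b₈^2)*t^6 := by
  simp only [model3, WeierstrassCurve.b₂, WeierstrassCurve.b₄, WeierstrassCurve.b₆,
    WeierstrassCurve.b₈]
  ring

theorem c4_model (W : WeierstrassCurve R) (s t : R) :
    hC4 W.c₄ W.c₆ (4*s + W.b₂*t) t = 256 * (model3 W s t).c₄ := by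
  have h : (model3 W s t).c₄ = (model3 W s t).b₂^2 - 24 * (model3 W s t).b₄ := rfl
  rw [h, b2_model, b4_model]
  simp only [hC4, WeierstrassCurve.c₄, WeierstrassCurve.c₆, WeierstrassCurve.b₂,
    WeierstrassCurve.b₄, WeierstrassCurve.b₆, WeierstrassCurve.b₈]
  ring

set_option maxHeartbeats 4000000 in
theorem c6_model (W : WeierstrassCurve R) (s t : R) :
    hC6 W.c₄ W.c₆ (4*s + W.b₂*t) t = 4096 * (model3 W s t).c₆ := by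
  have h : (model3 W s t).c₆ = -(model3 W s t).b₂^3 +
    36 * (model3 W s t).b₂ * (model3 W s t).b₄ - 216 * (model3 W s t).b₆ := rfl
  rw [h, b2_model, b4_model, b6_model]
  simp only [hC6, WeierstrassCurve.c₄, WeierstrassCurve.c₆, WeierstrassCurve.b₂,
    WeierstrassCurve.b₄, WeierstrassCurve.b₆, WeierstrassCurve.b₈]
  ring

end Fermat.Agent.Full
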