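import Fermat.Agent.Full.UnrO
import Fermat.Agent.Full.ExistR
import Fermat.Agent.S58Lib.Integral
import Fermat.Prelude.Def_FLTPrelim_ModularRep

set_option autoImplicit false

/-!
# Ribet's level lowering at squarefree levels, for semistable curves and all odd primes
-/

open CongruenceSubgroup IsLocalRing Polynomial ModularFormClass WeierstrassCurve Fermat.Agent.ECRep
open scoped WeierstrassCurve.Affine

namespace Fermat.Agent.Full

open Fermat.Agent.Wire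

local notation "Γℚ" => (AlgebraicClosure ℚ ≃ₐ[ℚ] AlgebraicClosure ℚ)
local notation "Qb" => AlgebraicClosure ℚ
local notation "Zb" => integralClosure ℤ ℂ

/-- **All primes `q ≠ p` of a minimal squarefree level are ramified**, for all odd `p`. -/
theorem unr_empty_odd {p : ℕ} [hpp : Fact p.Prime] {W : WeierstrassCurve ℤ} (h : HypO p W)
    {N : ℕ} (hsq : Squarefree N) (hocc : LL.OccZ p (LL.cW W) N)
    (hmin : ∀ M, M ∣ N → LL.OccZ p (LL.cW W) M → M = N) :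
    ∀ q : ℕ, q.Prime → q ∣ N → q ≠ p → ¬ (curveRho p W h.Δ_ne).IsUnramifiedAt q := by
  have hN0 : NeZero N := ⟨hocc.ne_zero⟩
  by_cases h5 : 5 ≤ p
  · exact unr_emptyO LL.inputs (TWMod.specSS Twist.specTwist) TWNew.specNew
      TWLow.specLowerStrong S33Lib.nfOrdStmt h5 h hsq hocc hmin
      (fun q hq hqN hqp hu => mpO h5 h.Δ_ne h.irr hsq (occ59_iff_occZ.mpr hocc)
        (fun M hM ho => hmin M hM (occ59_iff_occZ.mp ho)) hq hqN hqp hu)
  · have h3 : p = 3 := by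
      have h1 := hpp.out.two_le
      have h2 := h.ne2
      have h4 : p ≠ 4 := by
        rintro rfl
        exact absurd hpp.out (by norm_num)
      omega
    have h' : HypL p W := ⟨Or.inl h3, h.Δ_ne, h.ss, h.irr⟩
    obtain ⟨r, hrS, Ar⟩ := existRStmt p W h' N.primeFactors
    have hrN : ¬ r ∣ N := fun hd => hrS (Nat.mem_primeFactors.mpr ⟨Ar.prime, hd, hN0.ne⟩)
    exact unr_emptyR indexTwoStmt LL.inputs (TWMod.specSS Twist.specTwist) TWNew.specNew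
      TWLow.specLowerStrong S33Lib.nfOrdStmt h' Ar hsq hrN hocc hmin
      (fun q hq hqN hqp hu => mpL h'.h35 h.Δ_ne h.ss h.irr (indexTwoStmt p W h') hsq
        (occ59_iff_occZ.mpr hocc)
        (fun M hM ho => hmin M hM (occ59_iff_occZ.mp ho)) hq hqN hqp hu)

/-- the newform of a residual modularity statement -/
theorem occZ_of_residually {p : ℕ} {W : WeierstrassCurve ℤ} (hΔ : W.Δ ≠ 0) {M : ℕ} (hM : M ≠ 0)
    (h : W.IsResiduallyModularOfLevel p M) :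
    ∃ N, N ∣ M ∧ LL.OccZ p (LL.cW W) N := by
  classical
  obtain ⟨f, 𝔪, hf, h𝔪, hpm, hc⟩ := h
  have : NeZero M := ⟨hM⟩
  obtain ⟨N, hN, g, hg, hgf⟩ := Newform.exists_newform hf
  have hN0 : NeZero N := ⟨fun h0 => hM (Nat.eq_zero_of_zero_dvd (h0 ▸ hN))⟩
  refine ⟨N, hN, hN0, 𝔪, h𝔪, hpm, g, insert p (M.primeFactors ∪ W.Δ.natAbs.primeFactors), hg,
    fun ℓ hℓ hℓS z hz => ?_⟩
  rw [Finset.mem_insert, Finset.mem_union, not_or, not_or] at hℓS
  have hℓM : ¬ ℓ ∣ M := fun hd => hℓS.2.1 (Nat.mem_primeFactors.mpr ⟨hℓ, hd, hM⟩)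
  have hgood : W.IsGoodPrimeFor ℓ := fun hd => hℓS.2.2 (Nat.mem_primeFactors.mpr
    ⟨hℓ, Int.natCast_dvd.1 hd, Int.natAbs_ne_zero.2 hΔ⟩)
  obtain ⟨a, ha, hab⟩ := hc ℓ hℓ hgood hℓM hℓS.1
  have h1 : z = a := Subtype.ext (by rw [hz, hgf ℓ hℓ hℓM, ha])
  rw [h1]
  exact hab

/-- back to residual modularity, at all multiples of the level -/
theorem residually_of_occZ {p : ℕ} [hpp : Fact p.Prime] {W : WeierstrassCurve ℤ} (hΔ : W.Δ ≠ 0)
    {N : ℕ} (h : LL.OccZ p (LL.cW W) N) {M : ℕ} (hM : M ≠ 0) (hN : N ∣ M) :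
    W.IsResiduallyModularOfLevel p M := by
  classical
  obtain ⟨hN0, 𝔪, h𝔪, hpm, g, S, hg, hc⟩ := h
  obtain ⟨d, rfl⟩ := hN
  have hd : d ≠ 0 := right_ne_zero_of_mul hM
  obtain ⟨F, hF, hFg⟩ := S58Lib.exists_raise d hd hN0.ne hg.isNormalizedEigenform
  refine ⟨F, 𝔪, hF, h𝔪, hpm, fun ℓ hℓ hgood hℓM hℓp => ?_⟩
  have hint : qCoeff g ℓ ∈ Zb := Eigenform.isIntegral_qCoeff_prime hg.isNormalizedEigenform hℓ
  refine ⟨⟨_, hint⟩, (hFg ℓ hℓ hℓM).symm, ?_⟩
  letI : Field (Zb ⧸ 𝔪) := Ideal.Quotient.field 𝔪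
  have hchar : CharP (Zb ⧸ 𝔪) p := by
    rw [CharP.charP_iff_prime_eq_zero hpp.out, ← map_natCast (Ideal.Quotient.mk 𝔪)]
    exact Ideal.Quotient.eq_zero_iff_mem.mpr hpm
  letI : Algebra (ZMod p) (Zb ⧸ 𝔪) := ZMod.algebra _ p
  obtain ⟨P, hP⟩ := Frob.exists_liesOverPrime Qb hℓ
  obtain ⟨σ, hσ⟩ := Frob.exists_isFrobeniusAt P hℓ hP
  have h1 := frob_of_cong (p := p) hΔ hg.isNormalizedEigenform (Ideal.Quotient.mk 𝔪) S
    (fun ℓ' hℓ' hS a ha => by
      have h2 := hc ℓ' hℓ' hS a ha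
      rw [← Ideal.Quotient.eq_zero_iff_mem, map_sub, map_intCast, sub_eq_zero] at h2
      exact h2) hℓ (fun hd => hℓM (hd.mul_right d)) hℓp hP hσ ⟨_, hint⟩ rfl
  rw [curve_charpoly_frob W (Zb ⧸ 𝔪) hΔ hℓ hℓp hgood hP hσ] at h1
  have h2 := congrArg (fun f ↦ f.coeff 1) h1
  simp only [coeff_add, coeff_sub, coeff_X_pow, coeff_C_mul, coeff_X_one, coeff_C, mul_one,
    one_ne_zero, if_false, add_zero, OfNat.one_ne_ofNat, zero_sub, neg_inj] at h2
  rw [← Ideal.Quotient.eq_zero_iff_mem, map_sub, map_intCast, h2, sub_self]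

/-- **Level lowering at `q ≠ p`.** -/
theorem level_lower {p : ℕ} [hpp : Fact p.Prime] {W : WeierstrassCurve ℤ} (h : HypO p W)
    {M q : ℕ} (hM : Squarefree M) (hq : q.Prime) (hqp : q ≠ p) (hqM : q ∣ M)
    (hunr : (curveRho p W h.Δ_ne).IsUnramifiedAt q) (hres : W.IsResiduallyModularOfLevel p M) :
    W.IsResiduallyModularOfLevel p (M / q) := by
  classical
  have hex := occZ_of_residually h.Δ_ne hM.ne_zero hres
  obtain ⟨hNM, hocc⟩ := Nat.find_spec hex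
  set N := Nat.find hex with hN
  have hNpos : 0 < N := Nat.pos_of_ne_zero hocc.ne_zero
  have hmin : ∀ M', M' ∣ N → LL.OccZ p (LL.cW W) M' → M' = N := fun M' hM' ho =>
    le_antisymm (Nat.le_of_dvd hNpos hM') (Nat.find_min' hex ⟨hM'.trans hNM, ho⟩)
  have hqN : ¬ q ∣ N := fun hd =>
    unr_empty_odd h (hM.squarefree_of_dvd hNM) hocc hmin q hq hd hqp hunr
  obtain ⟨M', rfl⟩ := hqM
  rw [Nat.mul_div_cancel_left _ hq.pos]
  exact residually_of_occZ h.Δ_ne hocc (right_ne_zero_of_mul hM.ne_zero)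
    (((Nat.Prime.coprime_iff_not_dvd hq).mpr hqN).symm.dvd_of_dvd_mul_left hNM)

end Fermat.Agent.Full
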