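import Fermat.Agent.Full.MkEigen
import Fermat.Agent.IntStr.Main
import Fermat.Agent.IntStr.AutC
import Fermat.Agent.Newform.StrongMult
import Fermat.Agent.Newform.Exist
import Fermat.Agent.Eigenform.Converse
import Fermat.Agent.S49
import Fermat.Prelude.Def_WeierstrassCurve_Mlc1RowStatement

set_option autoImplicit false

/-!
# Form (i) of the residual modularity at `3` (S46), from modularity
-/

open CuspForm ModularFormClass CongruenceSubgroup FormalHecke EisensteinWeightOne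

namespace Fermat.Agent.Full

theorem IsEigensystem_map {R S : Type*} [CommRing R] [CommRing S] (φ : R →+* S) {e a : ℕ → R}
    (h : IsEigensystem e a) : IsEigensystem (fun ℓ => φ (e ℓ)) (fun n => φ (a n)) := by
  refine ⟨by show φ (a 1) = 1; rw [h.1, map_one], fun ℓ hℓ n => ?_⟩
  have := congrArg φ (h.2 ℓ hℓ n)
  rw [map_add, map_mul, map_mul] at this
  rw [← this]
  congr 2
  split_ifs
  · rfl
  · rw [map_zero]

section Conj

variable {N : ℕ} [NeZero N]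

/-- the conjugate of a normalised eigenform by an automorphism of the complex numbers -/
theorem exists_conj_eigenform {f : CuspForm (Gamma0 N) 2} (hf : f.IsNormalizedEigenform)
    (σ : ℂ →+* ℂ) : ∃ f' : CuspForm (Gamma0 N) 2, f'.IsNormalizedEigenform ∧
      ∀ n, qCoeff f' n = σ (qCoeff f n) := by
  obtain ⟨F, hF, he⟩ := IntStr.galois_cusp σ (IntStr.IsCF.of_cuspForm f)
  have hc : ∀ n, qCoeff hF.toCuspForm n = σ (qCoeff f n) := by
    intro n
    have := congrArg (PowerSeries.coeff n) he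
    rw [PowerSeries.coeff_map] at this
    exact this
  refine ⟨hF.toCuspForm, ⟨?_, ?_, ?_, ?_⟩, hc⟩
  · rw [hc, hf.qCoeff_one, map_one]
  · intro m n hmn
    rw [hc, hc, hc, hf.qCoeff_mul_of_coprime m n hmn, map_mul]
  · intro p r hp hpN
    rw [hc, hc, hc, hc, hf.qCoeff_prime_pow_of_not_dvd p r hp hpN, map_sub, map_mul, map_mul,
      map_natCast]
  · intro p r hp hpN
    rw [hc, hc, hc, hf.qCoeff_prime_pow_of_dvd p r hp hpN, map_mul]

/-- a newform whose coefficients at almost all primes are integers has integral coefficients at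
all primes -/
theorem int_prime_of_newform {g : CuspForm (Gamma0 N) 2} (hg : g.IsNewform) (s : Finset ℕ)
    (h : ∀ ℓ : ℕ, ℓ.Prime → ℓ ∉ s → ∃ m : ℤ, qCoeff g ℓ = m) {ℓ : ℕ} (hℓ : ℓ.Prime) :
    ∃ m : ℤ, qCoeff g ℓ = m := by
  have hfix : ∀ σ : ℂ ≃+* ℂ, σ (qCoeff g ℓ) = qCoeff g ℓ := by
    intro σ
    obtain ⟨g', hg', hc⟩ := exists_conj_eigenform hg.1 (σ : ℂ →+* ℂ)
    have h1 : g' = g := Newform.eq_of_newform s hg hg' fun l hl hls => by
      obtain ⟨m, hm⟩ := h l hl hls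
      rw [hc, hm, map_intCast]
    have h2 := hc ℓ
    rw [h1] at h2
    exact h2.symm
  obtain ⟨x, hx⟩ : qCoeff g ℓ ∈ Set.range (algebraMap ℚ ℂ) := by
    by_contra hne
    obtain ⟨σ, hσ⟩ := IntStr.exists_ringEquiv_ne hne
    exact hσ (hfix σ)
  have hint := Eigenform.isIntegral_qCoeff_prime hg.1 hℓ
  rw [← hx] at hint
  have hint' : IsIntegral ℤ x := (isIntegral_algebraMap_iff (algebraMap ℚ ℂ).injective).mp hint
  obtain ⟨m, hm⟩ := IsIntegrallyClosed.isIntegral_iff.mp hint'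
  refine ⟨m, ?_⟩
  rw [← hx, ← hm]
  simp

/-- the integral eigensystem of a newform with integral coefficients -/
theorem exists_int_eigensystem {g : CuspForm (Gamma0 N) 2} (hg : g.IsNewform) (s : Finset ℕ)
    (h : ∀ ℓ : ℕ, ℓ.Prime → ℓ ∉ s → ∃ m : ℤ, qCoeff g ℓ = m) :
    ∃ c : ℕ → ℤ, IsEigensystem (fun ℓ => if ℓ ∣ N then 0 else (ℓ : ℤ)) c ∧ c 0 = 0 ∧
      ∀ n, (c n : ℂ) = qCoeff g n := by
  classical
  have hint := fun (ℓ : ℕ) (hℓ : ℓ.Prime) => int_prime_of_newform hg s h hℓ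
  let t : ℕ → ℤ := fun ℓ => if hℓ : ℓ.Prime then (hint ℓ hℓ).choose else 0
  have ht : ∀ ℓ : ℕ, ℓ.Prime → (t ℓ : ℂ) = qCoeff g ℓ := by
    intro ℓ hℓ
    simp only [t, dif_pos hℓ]
    exact (hint ℓ hℓ).choose_spec.symm
  refine ⟨mkEigen (fun ℓ => if ℓ ∣ N then 0 else (ℓ : ℤ)) t, isEigensystem_mkEigen _ _,
    mkEigen_zero _ _, ?_⟩
  have hA := isEigensystem_mkEigen (fun ℓ => if ℓ ∣ N then 0 else (ℓ : ℤ)) t
  intro n
  rcases Nat.eq_zero_or_pos n with rfl | hn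
  · rw [mkEigen_zero, Int.cast_zero, Eigenform.qCoeff_cuspForm_zero]
  have hB := IsEigensystem_map (Int.castRingHom ℂ) hA
  have he : (fun ℓ : ℕ => Int.castRingHom ℂ (if ℓ ∣ N then 0 else (ℓ : ℤ))) =
      fun ℓ : ℕ => if ℓ ∣ N then (0 : ℂ) else (ℓ : ℂ) := by
    funext ℓ
    split_ifs
    · exact map_zero _
    · simp
  rw [he] at hB
  exact eigen_unique hB (b := fun n => qCoeff g n)
    ⟨hg.1.qCoeff_one, fun ℓ hℓ n => Eigenform.qCoeff_mul_prime hg.1 hℓ n⟩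
    (fun ℓ hℓ => by
      show ((mkEigen _ t ℓ : ℤ) : ℂ) = _
      rw [mkEigen_prime _ _ hℓ, ht ℓ hℓ]) hn

end Conj

theorem hasIntegralBasis (N : ℕ) [NeZero N] : CuspForm.HasIntegralBasis N := by
  rw [CuspForm.HasIntegralBasis, eq_top_iff, ← IntStr.hasIntegralStructure N 2,
    Submodule.span_le]
  intro f hf
  have hf' : f ∈ CuspForm.intLattice N 2 := hf
  rw [CuspForm.intLattice] at hf'
  induction hf' using Submodule.span_induction with
  | mem x hx =>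
    refine Submodule.subset_span fun n => ?_
    obtain ⟨m, hm⟩ := hx n
    rw [Subring.mem_bot]
    exact ⟨m, hm.symm⟩
  | zero => exact zero_mem _
  | add x y hx hy h1 h2 => exact add_mem (h1 hx) (h2 hy)
  | smul a x hx h1 =>
    rw [← Int.cast_smul_eq_zsmul ℂ]
    exact Submodule.smul_mem _ _ (h1 hx)

/-- the statement S46 for one curve, from its modularity -/
theorem s46_of_mod (W : WeierstrassCurve ℤ)
    (h : Mlc1IsModularModelOfExactConductorLevel W) :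
    ∃ (N : ℕ) (_ : NeZero N) (a : ℕ → ℤ),
      CuspForm.HasIntegralBasis N ∧
      FormalHecke.IsEigensystem
        (fun ℓ => if ℓ ∣ N then 0 else ((chiNegThree ℓ : ℤ) : ℤ)) a ∧
      CuspForm.IsLatticeRealized N a ∧
      (∀ q : ℕ, q.Prime → q ≠ 3 → ¬ q ^ 3 ∣ N) ∧
      ∀ ℓ : ℕ, ℓ.Prime → W.IsGoodPrimeFor ℓ → ¬ ℓ ∣ N → ℓ ≠ 3 →
        (3 : ℤ) ∣ (a ℓ - W.apOfModel ℓ) := by
  obtain ⟨N₀, hN₀, hsq, hbad, f, hf, hfW⟩ := h
  have : NeZero N₀ := ⟨hN₀.ne'⟩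
  have hgood : ∀ ℓ : ℕ, ℓ.Prime → W.IsGoodPrimeFor ℓ → ¬ ℓ ∣ N₀ := fun ℓ hℓ hg hd =>
    hg ((hbad ℓ hℓ).mp hd)
  obtain ⟨M, hM, g, hg, hgf⟩ := Newform.exists_newform hf
  have hM0 : M ≠ 0 := fun h => hN₀.ne' (Nat.eq_zero_of_zero_dvd (h ▸ hM))
  have : NeZero M := ⟨hM0⟩
  have hgW : ∀ ℓ : ℕ, ℓ.Prime → ¬ ℓ ∣ N₀ → qCoeff g ℓ = (W.apOfModel ℓ : ℂ) := by
    intro ℓ hℓ hd
    rw [hgf ℓ hℓ hd]
    exact hfW ℓ hℓ (fun h => hd ((hbad ℓ hℓ).mpr h)) hd
  obtain ⟨c, hc, hc0, hcg⟩ := exists_int_eigensystem hg N₀.primeFactors fun ℓ hℓ hs =>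
    ⟨W.apOfModel ℓ, hgW ℓ hℓ fun hd => hs (Nat.mem_primeFactors.mpr ⟨hℓ, hd, hN₀.ne'⟩)⟩
  let e : ℕ → ℤ := fun ℓ => if ℓ ∣ M then 0 else ((chiNegThree ℓ : ℤ) : ℤ)
  let a : ℕ → ℤ := mkEigen e c
  have ha : IsEigensystem e a := isEigensystem_mkEigen _ _
  have hac : ∀ n, (3 : ℤ) ∣ c n - a n := by
    intro n
    rcases Nat.eq_zero_or_pos n with rfl | hn
    · rw [hc0]
      show (3 : ℤ) ∣ 0 - mkEigen e c 0
      rw [mkEigen_zero, sub_zero]
      exact dvd_zero _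
    have h1 := IsEigensystem_map (Int.castRingHom (ZMod 3)) hc
    have h2 := IsEigensystem_map (Int.castRingHom (ZMod 3)) ha
    have he : (fun ℓ => Int.castRingHom (ZMod 3) (e ℓ)) =
        fun ℓ => Int.castRingHom (ZMod 3) (if ℓ ∣ M then 0 else (ℓ : ℤ)) := by
      funext ℓ
      show Int.castRingHom (ZMod 3) (if ℓ ∣ M then 0 else ((chiNegThree ℓ : ℤ) : ℤ)) = _
      split_ifs
      · rfl
      · have h3 := S49.three_dvd_chiNegThree_sub ℓ
        have h4 : (((chiNegThree ℓ - (ℓ : ℤ)) : ℤ) : ZMod 3) = 0 :=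
          (ZMod.intCast_zmod_eq_zero_iff_dvd _ 3).mpr (by exact_mod_cast h3)
        rw [Int.cast_sub, sub_eq_zero] at h4
        exact h4
    rw [he] at h2
    have h5 := eigen_unique h1 h2 (fun ℓ hℓ => by
      show _ = Int.castRingHom (ZMod 3) (mkEigen e c ℓ)
      rw [mkEigen_prime _ _ hℓ]) hn
    have h6 : (((c n - a n : ℤ)) : ZMod 3) = 0 := by
      rw [Int.cast_sub, sub_eq_zero]
      exact h5
    exact_mod_cast (ZMod.intCast_zmod_eq_zero_iff_dvd _ 3).mp h6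
  refine ⟨M, ⟨hM0⟩, a, hasIntegralBasis M, ha, ⟨g, fun n => ?_, c, hcg, fun n => ?_⟩, ?_, ?_⟩
  · rw [Subring.mem_bot]
    exact ⟨c n, hcg n⟩
  · have h1 := (hac n).sub (S49.three_dvd_bridgeProduct_sub a n)
    have h2 : c n - a n - ((bridgeProduct a).coeff n - a n) =
        c n - (bridgeProduct a).coeff n := by ring
    rwa [h2] at h1
  · intro q hq _ hd
    have h1 : q * q ∣ N₀ := by
      refine (Dvd.intro q ?_ : q * q ∣ q ^ 3).trans (hd.trans hM)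
      ring
    exact hq.one_lt.ne' (Nat.isUnit_iff.mp (hsq q h1))
  · intro ℓ hℓ hgd _ _
    have h1 : a ℓ = W.apOfModel ℓ := by
      have h2 : (c ℓ : ℂ) = (W.apOfModel ℓ : ℂ) := by
        rw [hcg ℓ, hgW ℓ hℓ (hgood ℓ hℓ hgd)]
      show mkEigen e c ℓ = _
      rw [mkEigen_prime _ _ hℓ]
      exact_mod_cast h2
    rw [h1, sub_self]
    exact dvd_zero _

end Fermat.Agent.Full
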