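import Fermat.Agent.Icosa.Disc

set_option autoImplicit false

/-!
# The `5`-family at `2` for a curve with good supersingular reduction, `a_2 = ±2`

With `c₄ = 16 c`, `c₆ = 8 e`, `c`, `e` odd, `e ≡ 1 mod 4`, the member `(4 L : M)`, `M` odd, of the
`5`-family has a model with multiplicative reduction at `2`.
-/

open Fermat.Agent.Icosa

namespace Fermat.Agent.Full

/-- leading part of `D5` -/
def D5_r (c e L M : ℤ) : ℤ :=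
    L^12 + e*L^9*M^3 + c^2*L^8*M^4 + e^2*L^6*M^6 + c^4*L^4*M^8 + e^3*L^3*M^9 + c^2*e^2*L^2*M^10 +
    c^4*e*L*M^11 + e^4*M^12 + c^6*M^12

/-- part 0 of `D5` -/
def D5_0 (c e L M : ℤ) : ℤ :=
    (-33)*c*L^10*M^2 + (27)*e*L^9*M^3 + (-743)*c^2*L^8*M^4 + (198)*c*e*L^7*M^5 +
    (-83)*e^2*L^6*M^6 + (2970)*c^3*L^6*M^6 + (297)*c^2*e*L^5*M^7 + (495)*c*e^2*L^4*M^8 +
    (-33413)*c^4*L^4*M^8 + (-138)*e^3*L^3*M^9 + (8910)*c^3*e*L^3*M^9 + (1039)*c^2*e^2*L^2*M^10 +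
    (-66825)*c^5*L^2*M^10 + (-60)*c*e^3*L*M^11 + (3847)*c^4*e*L*M^11 + (12)*e^4*M^12 +
    (-1512)*c^3*e^2*M^12 + (45562)*c^6*M^12

def D5 (c e L M : ℤ) : ℤ :=
    D5_r c e L M + 2 * (D5_0 c e L M)

/-- leading part of `A5` -/
def A5_r (c e L M : ℤ) : ℤ :=
    e^2*L^16*M^4 + e^6*L^4*M^16 + c^8*e^2*M^20

/-- part 0 of `A5` -/
def A5_0 (c e L M : ℤ) : ℤ :=
    (8)*c*L^20 + (-20)*e*L^19*M + (1520)*c^2*L^18*M^2 + (-1140)*c*e*L^17*M^3 +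
    (712)*e^2*L^16*M^4 + (-6840)*c^3*L^16*M^4 + (-15504)*c^2*e*L^15*M^5 +
    (-7980)*c*e^2*L^14*M^6 + (820800)*c^4*L^14*M^6 + (2850)*e^3*L^13*M^7 +
    (-259920)*c^3*e*L^13*M^7 + (140790)*c^2*e^2*L^12*M^8 + (-8002800)*c^5*L^12*M^8 +
    (-123500)*c*e^3*L^11*M^9 + (7736040)*c^4*e*L^11*M^9 + (30875)*e^4*L^10*M^10 +
    (-702468)*c^3*e^2*L^10*M^10 + (-80028000)*c^6*L^10*M^10

/-- part 1 of `A5` -/
def A5_1 (c e L M : ℤ) : ℤ :=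
    (-857090)*c^2*e^3*L^9*M^11 + (54685800)*c^5*e*L^9*M^11 + (74100)*c*e^4*L^8*M^12 +
    (900315)*c^4*e^2*L^8*M^12 + (-360126000)*c^7*L^8*M^12 + (-14250)*e^5*L^7*M^13 +
    (362520)*c^3*e^3*L^7*M^13 + (35089200)*c^6*e*L^7*M^13 + (561450)*c^2*e^4*L^6*M^14 +
    (-61898580)*c^5*e^2*L^6*M^14 + (1662120000)*c^8*L^6*M^14 + (-114000)*c*e^5*L^5*M^15 +
    (13788414)*c^4*e^3*L^5*M^15 + (-415530000)*c^7*e*L^5*M^15 + (17812)*e^6*L^4*M^16 +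
    (-2383740)*c^3*e^4*L^4*M^16 + (89338950)*c^6*e^2*L^4*M^16 + (-623295000)*c^9*L^4*M^16

/-- part 2 of `A5` -/
def A5_2 (c e L M : ℤ) : ℤ :=
    (-88350)*c^2*e^5*L^3*M^17 + (11173140)*c^5*e^3*L^3*M^17 + (-353200500)*c^8*e*L^3*M^17 +
    (-19000)*c*e^6*L^2*M^18 + (3957795)*c^4*e^4*L^2*M^18 + (-272864700)*c^7*e^2*L^2*M^18 +
    (6232950000)*c^10*L^2*M^18 + (2500)*e^7*L*M^19 + (-489600)*c^3*e^5*L*M^19 +
    (31943970)*c^6*e^3*L*M^19 + (-694372500)*c^9*e*L*M^19 + (-5500)*c^2*e^6*M^20 +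
    (1064448)*c^5*e^4*M^20 + (-68662688)*c^8*e^2*M^20 + (1476225000)*c^11*M^20

def A5 (c e L M : ℤ) : ℤ :=
    A5_r c e L M + 2 * (A5_0 c e L M +
      A5_1 c e L M +
      A5_2 c e L M)

/-- leading part of `B5` -/
def B5_r (c e L M : ℤ) : ℤ :=
    (-1)*e^3*L^24*M^6 + (2)*e^4*L^21*M^9 + (2)*c^2*e^3*L^20*M^10 + e^5*L^18*M^12 +
    (2)*c^2*e^4*L^17*M^13 + c^4*e^3*L^16*M^14 + e^7*L^12*M^18 + (2)*c^4*e^5*L^10*M^20 +
    (2)*e^8*L^9*M^21 + (2)*c^2*e^7*L^8*M^22 + c^8*e^3*L^8*M^22 + (-1)*e^9*L^6*M^24 +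
    (2)*c^2*e^8*L^5*M^25 + (2)*c^8*e^4*L^5*M^25 + c^4*e^7*L^4*M^26 + (2)*c^10*e^3*L^4*M^26 +
    c^8*e^5*L^2*M^28 + (2)*c^10*e^4*L*M^29 + (-1)*c^12*e^3*M^30

/-- part 0 of `B5` -/
def B5_0 (c e L M : ℤ) : ℤ :=
    (2)*e*L^30 + (-480)*c^2*L^29*M + (870)*c*e*L^28*M^2 + (-725)*e^2*L^27*M^3 +
    (-18560)*c^3*L^27*M^3 + (54810)*c^2*e*L^26*M^4 + (-11745)*c*e^2*L^25*M^5 +
    (-1528416)*c^4*L^25*M^5 + (4894)*e^3*L^24*M^6 + (874350)*c^3*e*L^24*M^6 +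
    (-978750)*c^2*e^2*L^23*M^7 + (30067200)*c^5*L^23*M^7 + (450225)*c*e^3*L^22*M^8 +
    (-17108550)*c^4*e*L^22*M^8 + (-125063)*e^4*L^21*M^9 + (10505250)*c^3*e^2*L^21*M^9 +
    (-388994400)*c^6*L^21*M^9 + (-6768383)*c^2*e^3*L^20*M^10

/-- part 1 of `B5` -/
def B5_1 (c e L M : ℤ) : ℤ :=
    (493266510)*c^5*e*L^20*M^10 + (5702850)*c*e^4*L^19*M^11 + (-338118975)*c^4*e^2*L^19*M^11 +
    (-2593296000)*c^7*L^19*M^11 + (-1188094)*e^5*L^18*M^12 + (-50375175)*c^3*e^3*L^18*M^12 +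
    (8263429650)*c^6*e*L^18*M^12 + (47048512)*c^2*e^4*L^17*M^13 +
    (-1308804075)*c^5*e^2*L^17*M^13 + (-110863404000)*c^8*L^17*M^13 +
    (-1345159744)*c^4*e^3*L^16*M^14 + (86381068950)*c^7*e*L^16*M^14 +
    (310235040)*c^3*e^4*L^15*M^15 + (-19893821940)*c^6*e^2*L^15*M^15 +
    (-145422675)*c^2*e^5*L^14*M^16 + (14833112850)*c^5*e^3*L^14*M^16 +
    (-353377100250)*c^8*e*L^14*M^16 + (42771375)*c*e^6*L^13*M^17

/-- part 2 of `B5` -/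
def B5_2 (c e L M : ℤ) : ℤ :=
    (-3652675425)*c^4*e^4*L^13*M^17 + (-19401095700)*c^7*e^2*L^13*M^17 +
    (4988853180000)*c^10*L^13*M^17 + (-5940469)*e^7*L^12*M^18 + (-148274100)*c^3*e^5*L^12*M^18 +
    (86766011325)*c^6*e^3*L^12*M^18 + (-3388262784750)*c^9*e*L^12*M^18 +
    (261880875)*c^2*e^6*L^11*M^19 + (-31643613900)*c^5*e^4*L^11*M^19 +
    (870460062525)*c^8*e^2*L^11*M^19 + (5251424400000)*c^11*L^11*M^19 +
    (-26263125)*c*e^7*L^10*M^20 + (1900444747)*c^4*e^5*L^10*M^20 +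
    (75777729930)*c^7*e^3*L^10*M^20 + (-5749215671250)*c^10*e*L^10*M^20 +
    (3126562)*e^8*L^9*M^21 + (-312856350)*c^3*e^6*L^9*M^21 + (10582538625)*c^6*e^4*L^9*M^21

/-- part 3 of `B5` -/
def B5_3 (c e L M : ℤ) : ℤ :=
    (-769297206375)*c^9*e^2*L^9*M^21 + (35447114700000)*c^12*L^9*M^21 +
    (-34892438)*c^2*e^7*L^8*M^22 + (3760279200)*c^5*e^5*L^8*M^22 +
    (-53890919494)*c^8*e^3*L^8*M^22 + (-2806229913750)*c^11*e*L^8*M^22 +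
    (-5872500)*c*e^8*L^7*M^23 + (1851677550)*c^4*e^6*L^7*M^23 +
    (-194877738000)*c^7*e^4*L^7*M^23 + (8353617743250)*c^10*e^2*L^7*M^23 +
    (-123294312000000)*c^13*L^7*M^23 + (611719)*e^9*L^6*M^24 + (-173793375)*c^3*e^7*L^6*M^24 +
    (17210007225)*c^6*e^5*L^6*M^24 + (-708975591075)*c^9*e^3*L^6*M^24 +
    (10178202318750)*c^12*e*L^6*M^24 + (17372812)*c^2*e^8*L^5*M^25 +
    (-4350256389)*c^5*e^6*L^5*M^25

/-- part 4 of `B5` -/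
def B5_4 (c e L M : ℤ) : ℤ :=
    (412221118207)*c^8*e^4*L^5*M^25 + (-17524488408750)*c^11*e^2*L^5*M^25 +
    (282035738700000)*c^14*L^5*M^25 + (-4893750)*c*e^9*L^4*M^26 + (1249721831)*c^4*e^7*L^4*M^26 +
    (-119842832340)*c^7*e^5*L^4*M^26 + (5114751798937)*c^10*e^3*L^4*M^26 +
    (-81971452743750)*c^13*e*L^4*M^26 + (453125)*e^10*L^3*M^27 + (-106749000)*c^3*e^8*L^3*M^27 +
    (8777073735)*c^6*e^6*L^3*M^27 + (-249242876550)*c^9*e^4*L^3*M^27 +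
    (-2026008095625)*c^12*e^2*L^3*M^27 + (154117890000000)*c^15*L^3*M^27 +
    (-2555625)*c^2*e^9*L^2*M^28 + (654079050)*c^5*e^7*L^2*M^28 +
    (-62783458324)*c^8*e^5*L^2*M^28 + (2678725900125)*c^11*e^3*L^2*M^28

/-- part 5 of `B5` -/
def B5_5 (c e L M : ℤ) : ℤ :=
    (-42864038156250)*c^14*e*L^2*M^28 + (-75000)*c*e^10*L*M^29 + (29892375)*c^4*e^8*L*M^29 +
    (-4580243820)*c^7*e^6*L*M^29 + (341386298662)*c^10*e^4*L*M^29 +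
    (-12468380878125)*c^13*e^2*L*M^29 + (179361337500000)*c^16*L*M^29 + (6250)*e^11*M^30 +
    (-2090000)*c^3*e^9*M^30 + (279038925)*c^6*e^7*M^30 + (-18595676088)*c^9*e^5*M^30 +
    (618652067344)*c^12*e^3*M^30 + (-8220727968750)*c^15*e*M^30

def B5 (c e L M : ℤ) : ℤ :=
    B5_r c e L M + 4 * (B5_0 c e L M +
      B5_1 c e L M +
      B5_2 c e L M +
      B5_3 c e L M +
      B5_4 c e L M +
      B5_5 c e L M)

set_option maxHeartbeats 4000000 in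
set_option maxRecDepth 4000 in
theorem dd_two5 (c e L M : ℤ) : DD (16*c) (8*e) (4*L) M = 2^24 * D5 c e L M := by
  unfold DD D5 D5_r D5_0; ring

set_option maxHeartbeats 4000000 in
set_option maxRecDepth 4000 in
theorem cc4_two5 (c e L M : ℤ) : CC4 (16*c) (8*e) (4*L) M = 2^40 * A5 c e L M := by
  unfold CC4 CC4_0 CC4_1 CC4_2 A5 A5_r A5_0 A5_1 A5_2; ring

set_option maxHeartbeats 4000000 in
set_option maxRecDepth 4000 in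
theorem cc6_two5 (c e L M : ℤ) : CC6 (16*c) (8*e) (4*L) M = 2^60 * B5 c e L M := by
  unfold CC6 CC6_0 CC6_1 CC6_2 CC6_3 B5 B5_r B5_0 B5_1 B5_2 B5_3 B5_4 B5_5; ring

/-- the discriminant of the new curve -/
theorem A5_disc (c e L M : ℤ) :
    A5 c e L M ^ 3 - B5 c e L M ^ 2 = ((16*c)^3 - (8*e)^2) * D5 c e L M ^ 5 := by
  have h := CC_disc (16*c) (8*e) (4*L) M
  rw [dd_two5, cc4_two5, cc6_two5] at h
  have h2 : (2 ^ 120 : ℤ) ≠ 0 := by norm_num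
  refine mul_left_cancel₀ h2 ?_
  linear_combination h

/-! ### Parity -/

theorem odd_zmod {a : ℤ} (h : Odd a) : ((a : ℤ) : ZMod 4) = 1 ∨ ((a : ℤ) : ZMod 4) = 3 := by
  obtain ⟨k, rfl⟩ := h
  push_cast
  generalize ((k : ℤ) : ZMod 4) = x
  revert x
  decide

theorem B5_r_aux : ∀ c L M : ZMod 4, (c = 1 ∨ c = 3) → (M = 1 ∨ M = 3) →
    (-1)*1^3*L^24*M^6 + (2)*1^4*L^21*M^9 + (2)*c^2*1^3*L^20*M^10 + 1^5*L^18*M^12 +
    (2)*c^2*1^4*L^17*M^13 + c^4*1^3*L^16*M^14 + 1^7*L^12*M^18 + (2)*c^4*1^5*L^10*M^20 +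
    (2)*1^8*L^9*M^21 + (2)*c^2*1^7*L^8*M^22 + c^8*1^3*L^8*M^22 + (-1)*1^9*L^6*M^24 +
    (2)*c^2*1^8*L^5*M^25 + (2)*c^8*1^4*L^5*M^25 + c^4*1^7*L^4*M^26 + (2)*c^10*1^3*L^4*M^26 +
    c^8*1^5*L^2*M^28 + (2)*c^10*1^4*L*M^29 + (-1)*c^12*1^3*M^30 = 3 := by
  decide +kernel

/-- `B5 ≡ 3 mod 4` -/
theorem B5_mod {c e L M : ℤ} (hc : Odd c) (he : e % 4 = 1) (hM : Odd M) :
    B5 c e L M % 4 = 3 := by
  have h1 : ((e : ℤ) : ZMod 4) = 1 := by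
    have : e = 1 + 4 * (e / 4) := by omega
    rw [this]
    push_cast
    have h4 : (4 : ZMod 4) = 0 := by decide
    rw [h4, zero_mul, add_zero]
  have h2 : ((B5_r c e L M : ℤ) : ZMod 4) = 3 := by
    have := B5_r_aux c L M (odd_zmod hc) (odd_zmod hM)
    unfold B5_r
    push_cast
    rw [h1]
    exact this
  have h3 : ((B5_r c e L M - 3 : ℤ) : ZMod 4) = 0 := by
    push_cast
    rw [h2, sub_self]
  rw [ZMod.intCast_zmod_eq_zero_iff_dvd] at h3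
  unfold B5
  omega

/-- `A5` is odd -/
theorem odd_A5 {c e L M : ℤ} (hc : Odd c) (he : Odd e) (hM : Odd M) : Odd (A5 c e L M) := by
  unfold A5
  refine Odd.add_even ?_ (even_two_mul _)
  unfold A5_r
  refine Even.add_odd ?_ ((hc.pow.mul he.pow).mul hM.pow)
  rcases Int.even_or_odd L with hL | hL
  · exact ((hL.pow_of_ne_zero (by norm_num)).mul_left _ |>.mul_right _).add
      ((hL.pow_of_ne_zero (by norm_num)).mul_left _ |>.mul_right _)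
  · exact ((he.pow.mul hL.pow).mul hM.pow).add_odd ((he.pow.mul hL.pow).mul hM.pow)

/-- `D5` is even -/
theorem even_D5 {c e L M : ℤ} (hc : Odd c) (he : Odd e) (hM : Odd M) : Even (D5 c e L M) := by
  unfold D5
  refine Even.add ?_ (even_two_mul _)
  unfold D5_r
  have e1 : (L : ZMod 2) = 0 ∨ (L : ZMod 2) = 1 := by
    generalize ((L : ℤ) : ZMod 2) = x
    revert x; decide
  have o : ∀ a : ℤ, Odd a → ((a : ℤ) : ZMod 2) = 1 := by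
    rintro a ⟨k, rfl⟩
    push_cast
    have h2 : (2 : ZMod 2) = 0 := by decide
    rw [h2, zero_mul, zero_add]
  rw [even_iff_two_dvd]
  have h : ((L^12 + e*L^9*M^3 + c^2*L^8*M^4 + e^2*L^6*M^6 + c^4*L^4*M^8 + e^3*L^3*M^9 +
      c^2*e^2*L^2*M^10 + c^4*e*L*M^11 + e^4*M^12 + c^6*M^12 : ℤ) : ZMod 2) = 0 := by
    push_cast
    rw [o c hc, o e he, o M hM]
    rcases e1 with h | h <;> rw [h] <;> decide
  rw [ZMod.intCast_zmod_eq_zero_iff_dvd] at h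
  exact_mod_cast h

/-- the form with `L = 1` -/
theorem two5 {c e M : ℤ} (hc : Odd c) (he : e % 4 = 1) (hM : Odd M) : ∃ c4' c6' D' : ℤ,
    CC4 (16*c) (8*e) 4 M = 2^40 * c4' ∧ CC6 (16*c) (8*e) 4 M = 2^60 * c6' ∧
    DD (16*c) (8*e) 4 M = 2^24 * D' ∧ Odd c4' ∧ (4:ℤ) ∣ c6' + 1 ∧ Even D' := by
  have h4 := cc4_two5 c e 1 M
  have h6 := cc6_two5 c e 1 M
  have hd := dd_two5 c e 1 M
  rw [mul_one] at h4 h6 hd
  have heo : Odd e := Int.odd_iff.2 (by omega)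
  have hB := B5_mod (L := 1) hc he hM
  exact ⟨_, _, _, h4, h6, hd, odd_A5 hc heo hM, by omega, even_D5 hc heo hM⟩

end Fermat.Agent.Full
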