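import Fermat.Agent.Full.Fam5
import Fermat.Agent.Full.Two5Id
import Fermat.Agent.Full.Ss2

set_option autoImplicit false

/-!
# (S5): switch at `5` from supersingular good reduction to multiplicative reduction at `2`
-/

open WeierstrassCurve

namespace Fermat.Agent.Full

/-- **(S5)** If `W` has good reduction at `2` with `a₂ = ±2`, there is a semistable curve `Z` with
multiplicative reduction at `2` which is congruent to `W` modulo `5`. -/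
theorem s5 (W : WeierstrassCurve ℤ) (hΔ : W.Δ ≠ 0) (hW : W.IsSemistableModel)
    (hg : ¬ (2 : ℤ) ∣ W.Δ) (ha : W.apOfModel 2 = 2 ∨ W.apOfModel 2 = -2) :
    ∃ Z : WeierstrassCurve ℤ, Z.Δ ≠ 0 ∧ Z.IsSemistableModel ∧ (2 : ℤ) ∣ Z.Δ ∧
      ((5 : ℤ) ∣ Z.Δ ↔ (5 : ℤ) ∣ W.Δ) ∧
      (∀ q : ℕ, q.Prime → (q : ℤ) ∣ W.Δ → (q : ℤ) ∣ Z.Δ) ∧
      (∀ ℓ : ℕ, ℓ.Prime → W.IsGoodPrimeFor ℓ → Z.IsGoodPrimeFor ℓ → ℓ ≠ 5 →
        (5 : ℤ) ∣ (Z.apOfModel ℓ - W.apOfModel ℓ)) := by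
  obtain ⟨c, e, h4, h6, hc, he⟩ := ss2 W hg ha
  refine fam5 W hΔ hW hg fun M hM => ?_
  rw [h4, h6]
  exact two5 hc he hM

end Fermat.Agent.Full
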