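import Fermat.Agent.Full.LiftDef
import Fermat.Agent.Wire.StartStmt

set_option autoImplicit false

/-!
# The starting point of the modularity lifting theorem
-/

open Polynomial WeierstrassCurve ModularFormClass

namespace Fermat.Agent.Full

open Fermat.Agent.Wire

/-- **Start**: the congruence with a modular curve. -/
def StartStmtL : Prop :=
  ∀ (p : ℕ) (W W₀ : WeierstrassCurve ℤ), HypL p W → W₀.Δ ≠ 0 →
    ((p : ℤ) ∣ W₀.Δ → (p : ℤ) ∣ W.Δ) →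
    (∀ ℓ : ℕ, ℓ.Prime → W.IsGoodPrimeFor ℓ → W₀.IsGoodPrimeFor ℓ → ℓ ≠ p →
      (p : ℤ) ∣ (W₀.apOfModel ℓ - W.apOfModel ℓ)) →
    Mlc1IsModularModelOfExactConductorLevel W₀ →
  ∃ M₀ : ℕ, Squarefree M₀ ∧ LL.OccZ p (LL.cW W) M₀ ∧ (p ∣ M₀ → (p : ℤ) ∣ W.Δ)

theorem startStmtL : StartStmtL := by
  intro p W W₀ h hΔ₀ hp₀ hc hmod
  have hp : p.Prime := h.prime
  obtain ⟨M, hM0, g, hg, hsq, hM, hpM, hcong⟩ := start59_mod h.Δ_ne hΔ₀ hp₀ hp hc hmod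
  obtain ⟨𝔪, h𝔪, hp𝔪⟩ := exists_maximal_over hp
  refine ⟨M, hsq, ⟨hM0, 𝔪, h𝔪, hp𝔪, g,
    insert p ((cond W).primeFactors ∪ (cond W₀).primeFactors), hg, ?_⟩, hpM⟩
  intro ℓ hℓ hℓS z hz
  rw [Finset.mem_insert, Finset.mem_union, not_or, not_or] at hℓS
  exact hcong 𝔪 hp𝔪 ℓ hℓ
    (fun hd => hℓS.2.1 (Nat.mem_primeFactors.mpr ⟨hℓ, hd, cond_ne_zero W⟩))
    (fun hd => hℓS.2.2 (Nat.mem_primeFactors.mpr ⟨hℓ, hd, cond_ne_zero W₀⟩)) hℓS.1 z hz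

end Fermat.Agent.Full
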