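import Fermat.Agent.Full.TopMod
import Fermat.Agent.Full.Lift
import Fermat.Agent.Full.S5
import Fermat.Agent.Full.Conseq

set_option autoImplicit false

/-!
# Modularity of all semistable curves from the 3-family at `2`
-/

open WeierstrassCurve

namespace Fermat.Agent.Full

theorem liftTop : LiftTop :=
  fun p hp W W₀ hΔ hW hirr _ hΔ₀ hW₀ hp₀ hc hmod ↦
    liftStmt p hp W W₀ hΔ hW hirr hΔ₀ hW₀ hp₀ hc hmod

theorem s5Top : S5Top := fun W hΔ hW h2 ha ↦ by
  obtain ⟨Z, h1, h3, h4, h5, -, h6⟩ := s5 W hΔ hW h2 ha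
  exact ⟨Z, h1, h3, h4, h5.1, h6⟩

theorem indRed3Top : IndRed3Top := fun _ hΔ _ hred ↦ ind5_of_red3 hΔ hred

/-- all semistable curves are modular, from the 3-family at `2` -/
theorem modAll_of (h3a : S3aTop) (h3b : S3bTop) (h3c : S3cTop) : ModAll :=
  fun _ hΔ hW ↦ mod_all liftTop h3a h3b h3c s5Top indRed3Top hΔ hW

end Fermat.Agent.Full
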