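import Fermat.Agent.TwoAdic.Final
import Fermat.Agent.Wiring.Modularity
import Fermat.Agent.Full.Irr
import Fermat.Agent.Full.Ss2
import Fermat.Agent.ECRep.Hasse
import Fermat.Agent.S51

/-!
# Modularity of all semistable curves from the lifting theorem and the families at `2`
-/

set_option autoImplicit false

open WeierstrassCurve

namespace Fermat.Agent.Full

/-- congruence of the traces modulo `p` at all common good primes `≠ p` -/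
def CongrP (p : ℕ) (W W₀ : WeierstrassCurve ℤ) : Prop :=
  ∀ ℓ : ℕ, ℓ.Prime → W.IsGoodPrimeFor ℓ → W₀.IsGoodPrimeFor ℓ → ℓ ≠ p →
    (p : ℤ) ∣ (W₀.apOfModel ℓ - W.apOfModel ℓ)

/-- a prime inert in `ℚ(√5)` at which Frobenius has nonzero trace mod `5` or `W` is multiplicative -/
def IndTop (W : WeierstrassCurve ℤ) : Prop :=
  ∃ q : ℕ, q.Prime ∧ (q % 5 = 2 ∨ q % 5 = 3) ∧ ((q : ℤ) ∣ W.Δ ∨ ¬ (5 : ℤ) ∣ W.apOfModel q)

/-- the lifting theorem -/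
def LiftTop : Prop := ∀ (p : ℕ) (_ : p = 3 ∨ p = 5) (W W₀ : WeierstrassCurve ℤ),
  W.Δ ≠ 0 → W.IsSemistableModel → W.ModRepIsIrreducible p → (p = 5 → IndTop W) →
  W₀.Δ ≠ 0 → W₀.IsSemistableModel → ((p : ℤ) ∣ W₀.Δ → (p : ℤ) ∣ W.Δ) → CongrP p W W₀ →
  Mlc1IsModularModelOfExactConductorLevel W₀ → Mlc1IsModularModelOfExactConductorLevel W

/-- the 3-family at `2`, `a₂ = 0` -/
def S3aTop : Prop := ∀ W : WeierstrassCurve ℤ, W.Δ ≠ 0 → W.IsSemistableModel → ¬ (2 : ℤ) ∣ W.Δ →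
  W.apOfModel 2 = 0 → ∃ Y : WeierstrassCurve ℤ, Y.Δ ≠ 0 ∧ Y.IsSemistableModel ∧ (2 : ℤ) ∣ Y.Δ ∧
    ((3 : ℤ) ∣ Y.Δ → (3 : ℤ) ∣ W.Δ) ∧ CongrP 3 W Y

/-- the 3-family at `2`, `a₂ = ±1` -/
def S3bTop : Prop := ∀ (W : WeierstrassCurve ℤ) (ℓ₀ : ℕ), W.Δ ≠ 0 → W.IsSemistableModel →
  ¬ (2 : ℤ) ∣ W.Δ → (W.apOfModel 2 = 1 ∨ W.apOfModel 2 = -1) → ℓ₀.Prime → ℓ₀ ≠ 2 → ℓ₀ ≠ 3 →
  W.IsGoodPrimeFor ℓ₀ → ∃ Y : WeierstrassCurve ℤ, Y.Δ ≠ 0 ∧ Y.IsSemistableModel ∧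
    ¬ (2 : ℤ) ∣ Y.Δ ∧ (Y.apOfModel 2 = 2 ∨ Y.apOfModel 2 = -2) ∧
    Y.IsGoodPrimeFor ℓ₀ ∧ Y.apOfModel ℓ₀ = W.apOfModel ℓ₀ ∧
    ((3 : ℤ) ∣ Y.Δ → (3 : ℤ) ∣ W.Δ) ∧ CongrP 3 W Y

/-- the 3-family at `2`, `a₂ = ±2` -/
def S3cTop : Prop := ∀ W : WeierstrassCurve ℤ, W.Δ ≠ 0 → W.IsSemistableModel → ¬ (2 : ℤ) ∣ W.Δ →
  (W.apOfModel 2 = 2 ∨ W.apOfModel 2 = -2) → ∃ Y : WeierstrassCurve ℤ, Y.Δ ≠ 0 ∧
    Y.IsSemistableModel ∧ ¬ (2 : ℤ) ∣ Y.Δ ∧ (Y.apOfModel 2 = 1 ∨ Y.apOfModel 2 = -1) ∧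
    ((3 : ℤ) ∣ Y.Δ → (3 : ℤ) ∣ W.Δ) ∧ CongrP 3 W Y

/-- the 5-family at `2`, `a₂ = ±2` -/
def S5Top : Prop := ∀ W : WeierstrassCurve ℤ, W.Δ ≠ 0 → W.IsSemistableModel → ¬ (2 : ℤ) ∣ W.Δ →
  (W.apOfModel 2 = 2 ∨ W.apOfModel 2 = -2) → ∃ Z : WeierstrassCurve ℤ, Z.Δ ≠ 0 ∧
    Z.IsSemistableModel ∧ (2 : ℤ) ∣ Z.Δ ∧ ((5 : ℤ) ∣ Z.Δ → (5 : ℤ) ∣ W.Δ) ∧ CongrP 5 W Z

/-- index `2` condition when `W[3]` is reducible -/
def IndRed3Top : Prop := ∀ W : WeierstrassCurve ℤ, W.Δ ≠ 0 → W.IsSemistableModel →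
  ¬ W.ModRepIsIrreducible 3 → IndTop W

/-- the Hasse bound at `2` -/
theorem ap_two_cases {W : WeierstrassCurve ℤ} (h2 : ¬ (2 : ℤ) ∣ W.Δ) :
    W.apOfModel 2 = 0 ∨ (W.apOfModel 2 = 1 ∨ W.apOfModel 2 = -1) ∨
      (W.apOfModel 2 = 2 ∨ W.apOfModel 2 = -2) := by
  have h := ap_two W h2
  have hle : cnt2 W.a₁ W.a₂ W.a₃ W.a₄ W.a₆ ≤ 4 :=
    (Finset.card_le_univ _).trans (by simp)
  omega

section

variable (hL : LiftTop)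
include hL

/-- `2 ∣ Δ`, `W[3]` irreducible -/
theorem mod_two_three {W : WeierstrassCurve ℤ} (hΔ : W.Δ ≠ 0) (hW : W.IsSemistableModel)
    (h2 : (2 : ℤ) ∣ W.Δ) (h3 : W.ModRepIsIrreducible 3) :
    Mlc1IsModularModelOfExactConductorLevel W := by
  obtain ⟨E, hE, hEs, -, hE3, hc, hm⟩ := TwoAdic.twoAdicStmtC W hΔ hW h2
  exact hL 3 (Or.inl rfl) W E hΔ hW h3 (fun h => absurd h (by norm_num)) hE hEs
    (by exact_mod_cast hE3.1) (fun ℓ hℓ hg hg' hℓ3 => by exact_mod_cast hc ℓ hℓ hℓ3 hg hg') hm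

/-- `2 ∣ Δ` -/
theorem mod_two {W : WeierstrassCurve ℤ} (hΔ : W.Δ ≠ 0) (hW : W.IsSemistableModel)
    (h2 : (2 : ℤ) ∣ W.Δ) : Mlc1IsModularModelOfExactConductorLevel W := by
  by_cases h3 : W.ModRepIsIrreducible 3
  · exact mod_two_three hL hΔ hW h2 h3
  have h5 : W.ModRepIsIrreducible 5 := (S51.result W hΔ hW).resolve_left h3
  obtain ⟨W', hΔ', hW', hirr', hc, ⟨D, hD, hD1⟩, -⟩ := Wire.switch_close W hΔ hW 1 one_ne_zero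
  have hm := mod_two_three hL hΔ' hW' (by rw [hD]; exact h2.mul_right _) hirr'
  refine hL 5 (Or.inr rfl) W W' hΔ hW h5 (fun _ => ⟨2, Nat.prime_two, Or.inl rfl, Or.inl
    (by exact_mod_cast h2)⟩) hΔ' hW' (fun h => ?_)
    (fun ℓ hℓ hg hg' hℓ5 => by exact_mod_cast hc ℓ hℓ hg hg' hℓ5) hm
  rw [hD] at h
  have hp5 : Prime ((5 : ℕ) : ℤ) := by norm_num
  rcases hp5.dvd_or_dvd h with h | h
  · exact h
  · exfalso
    have h6 : ((5 : ℕ) : ℤ) ∣ D - 1 := by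
      refine dvd_trans ?_ hD1
      exact ⟨6 * W.Δ, by push_cast; ring⟩
    have h7 := dvd_sub (hp5.dvd_of_dvd_pow h) h6
    have h8 : D - (D - 1) = 1 := by ring
    rw [h8] at h7
    exact absurd h7 (by norm_num)

variable (h3a : S3aTop) (h3b : S3bTop) (h3c : S3cTop) (h5 : S5Top)

include h3b h5 in
/-- `a₂ = ±1` -/
theorem mod_ap_one {W : WeierstrassCurve ℤ} (hΔ : W.Δ ≠ 0) (hW : W.IsSemistableModel)
    (h2 : ¬ (2 : ℤ) ∣ W.Δ) (ha : W.apOfModel 2 = 1 ∨ W.apOfModel 2 = -1)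
    (h3 : W.ModRepIsIrreducible 3) : Mlc1IsModularModelOfExactConductorLevel W := by
  have : Fact (Nat.Prime 5) := ⟨by norm_num⟩
  have hg2 : W.IsGoodPrimeFor 2 := by
    intro h; exact h2 (by exact_mod_cast h)
  have h5W : W.ModRepIsIrreducible 5 := by
    refine irr_of_ap (p := 5) hΔ hW (by norm_num) Nat.prime_two (by norm_num) hg2 ?_
    rcases ha with h | h <;> rw [h] <;> norm_num
  obtain ⟨ℓ₀, hℓ₀, hℓ₀S, hgℓ, hℓne⟩ := exists_good_of_irr (p := 5) hΔ (by norm_num) h5W {2, 3, 5}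
  simp only [Finset.mem_insert, Finset.mem_singleton, not_or] at hℓ₀S
  obtain ⟨Y, hY, hYs, hY2, haY, hYg, hYa, hY3, hYc⟩ := h3b W ℓ₀ hΔ hW h2 ha hℓ₀ hℓ₀S.1 hℓ₀S.2.1 hgℓ
  have h5Y : Y.ModRepIsIrreducible 5 := by
    refine irr_of_ap (p := 5) hY hYs (by norm_num) hℓ₀ hℓ₀S.2.2 hYg ?_
    rw [hYa]
    exact hℓne
  obtain ⟨Z, hZ, hZs, hZ2, hZ5, hZc⟩ := h5 Y hY hYs hY2 haY
  have hmZ := mod_two hL hZ hZs hZ2
  have hmY := hL 5 (Or.inr rfl) Y Z hY hYs h5Y (fun _ => ⟨2, Nat.prime_two, Or.inl rfl, Or.inr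
    (by rcases haY with h | h <;> rw [h] <;> norm_num)⟩) hZ hZs (by exact_mod_cast hZ5) hZc hmZ
  exact hL 3 (Or.inl rfl) W Y hΔ hW h3 (fun h => absurd h (by norm_num)) hY hYs
    (by exact_mod_cast hY3) hYc hmY

include h3a h3b h3c h5 in
/-- `W[3]` irreducible -/
theorem mod_three {W : WeierstrassCurve ℤ} (hΔ : W.Δ ≠ 0) (hW : W.IsSemistableModel)
    (h3 : W.ModRepIsIrreducible 3) : Mlc1IsModularModelOfExactConductorLevel W := by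
  have : Fact (Nat.Prime 3) := ⟨by norm_num⟩
  by_cases h2 : (2 : ℤ) ∣ W.Δ
  · exact mod_two hL hΔ hW h2
  rcases ap_two_cases h2 with ha | ha | ha
  · obtain ⟨Y, hY, hYs, hY2, hY3, hYc⟩ := h3a W hΔ hW h2 ha
    exact hL 3 (Or.inl rfl) W Y hΔ hW h3 (fun h => absurd h (by norm_num)) hY hYs
      (by exact_mod_cast hY3) hYc (mod_two hL hY hYs hY2)
  · exact mod_ap_one hL h3b h5 hΔ hW h2 ha h3
  · obtain ⟨Y, hY, hYs, hY2, haY, hY3, hYc⟩ := h3c W hΔ hW h2 ha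
    have h3Y : Y.ModRepIsIrreducible 3 := irr_of_congr (p := 3) hΔ (by norm_num) hY hYs {3}
      (fun ℓ hℓ hℓ3 hg hg' => hYc ℓ hℓ hg hg' (by simpa using hℓ3)) h3
    exact hL 3 (Or.inl rfl) W Y hΔ hW h3 (fun h => absurd h (by norm_num)) hY hYs
      (by exact_mod_cast hY3) hYc (mod_ap_one hL h3b h5 hY hYs hY2 haY h3Y)

include h3a h3b h3c h5 in
/-- **Every semistable curve is modular.** -/
theorem mod_all (hI : IndRed3Top) {W : WeierstrassCurve ℤ} (hΔ : W.Δ ≠ 0)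
    (hW : W.IsSemistableModel) : Mlc1IsModularModelOfExactConductorLevel W := by
  by_cases h3 : W.ModRepIsIrreducible 3
  · exact mod_three hL h3a h3b h3c h5 hΔ hW h3
  have h5W : W.ModRepIsIrreducible 5 := (S51.result W hΔ hW).resolve_left h3
  obtain ⟨W', hΔ', hW', hirr', hc, ⟨D, hD, hD1⟩, -⟩ := Wire.switch_close W hΔ hW 1 one_ne_zero
  have hm := mod_three hL h3a h3b h3c h5 hΔ' hW' hirr'
  refine hL 5 (Or.inr rfl) W W' hΔ hW h5W (fun _ => hI W hΔ hW h3) hΔ' hW' (fun h => ?_)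
    (fun ℓ hℓ hg hg' hℓ5 => by exact_mod_cast hc ℓ hℓ hg hg' hℓ5) hm
  rw [hD] at h
  have hp5 : Prime ((5 : ℕ) : ℤ) := by norm_num
  rcases hp5.dvd_or_dvd h with h | h
  · exact h
  · exfalso
    have h6 : ((5 : ℕ) : ℤ) ∣ D - 1 := by
      refine dvd_trans ?_ hD1
      exact ⟨6 * W.Δ, by push_cast; ring⟩
    have h7 := dvd_sub (hp5.dvd_of_dvd_pow h) h6
    have h8 : D - (D - 1) = 1 := by ring
    rw [h8] at h7
    exact absurd h7 (by norm_num)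

end

end Fermat.Agent.Full
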