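import Fermat.Agent.TwoAdic.Hesse

set_option autoImplicit false

/-!
# The Hesse pencil at the prime `2`, for curves with good reduction at `2`

For a Weierstrass curve over `ℤ` and an integer `X`, the member `(l : m) = (12 X + b₂ : 1)` of the
Hesse pencil, with
`f = 4X³ + b₂X² + 2b₄X + b₆`, `g = 6X² + b₂X + b₄`, `ψ = 3X⁴ + b₂X³ + 3b₄X² + 3b₆X + b₈`.
-/

open WeierstrassCurve Fermat.Agent.TwoAdic

namespace Fermat.Agent.Full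

section Ids

variable {R : Type*} [CommRing R] (W : WeierstrassCurve R) (X : R)

/-- the 2-division polynomial -/
def f2 : R := 4*X^3 + W.b₂*X^2 + 2*W.b₄*X + W.b₆

/-- `(l² - c₄)/24` -/
def g2 : R := 6*X^2 + W.b₂*X + W.b₄

/-- the 3-division polynomial -/
def psi : R := 3*X^4 + W.b₂*X^3 + 3*W.b₄*X^2 + 3*W.b₆*X + W.b₈

theorem hD_L : hD W.c₄ W.c₆ (12*X + W.b₂) 1 = 2^8 * 27 * psi W X := by
  simp only [hD, psi, WeierstrassCurve.c₄, WeierstrassCurve.c₆]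
  linear_combination -1728 * W.b_relation

theorem hC4_syz (c4 c6 l : R) : hC4 c4 c6 l 1 =
    (l^3 - 3*c4*l - 2*c6)^2 - (l^2 - c4) * hD c4 c6 l 1 := by
  unfold hC4 hD; ring

theorem cub_L : (12*X + W.b₂)^3 - 3*W.c₄*(12*X + W.b₂) - 2*W.c₆ = 432 * f2 W X := by
  simp only [f2, WeierstrassCurve.c₄, WeierstrassCurve.c₆]; ring

theorem quad_L : (12*X + W.b₂)^2 - W.c₄ = 24 * g2 W X := by
  simp only [g2, WeierstrassCurve.c₄]; ring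

theorem hC4_L : hC4 W.c₄ W.c₆ (12*X + W.b₂) 1 =
    2^8 * (81 * (9 * f2 W X^2 - 8 * g2 W X * psi W X)) := by
  rw [hC4_syz, cub_L, quad_L, hD_L]; ring

end Ids

section Int

variable (W : WeierstrassCurve ℤ) (X : ℤ)

/-- syzygy for the covariant of degree 6 -/
theorem hC6_syz (c4 c6 l : ℤ) : 2 * hC6 c4 c6 l 1 =
    2 * (l^3 - 3*c4*l - 2*c6)^3 - 3 * (l^3 - 3*c4*l - 2*c6) * (l^2 - c4) * hD c4 c6 l 1 +
      l * hD c4 c6 l 1^2 := by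
  unfold hC6 hD; ring

theorem hC6_L : hC6 W.c₄ W.c₆ (12*X + W.b₂) 1 =
    2^12 * (729 * (27 * f2 W X^3 - 36 * f2 W X * g2 W X * psi W X +
      8 * (12*X + W.b₂) * psi W X^2)) := by
  have h := hC6_syz W.c₄ W.c₆ (12*X + W.b₂)
  rw [cub_L, quad_L, hD_L] at h
  have h2 : (2 : ℤ) ≠ 0 := two_ne_zero
  apply mul_left_cancel₀ h2
  rw [h]; ring

/-- the pair near the point -/
theorem near {l m : ℤ} (hl : (2 : ℤ)^20 ∣ l - (12*X + W.b₂)) (hm : (2 : ℤ)^20 ∣ m - 1) :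
    ∃ r4 r6 rD : ℤ,
      hC4 W.c₄ W.c₆ l m = 4^4 * (81 * (9 * f2 W X^2 - 8 * g2 W X * psi W X) + 2^12 * r4) ∧
      hC6 W.c₄ W.c₆ l m = 4^6 * (729 * (27 * f2 W X^3 - 36 * f2 W X * g2 W X * psi W X +
        8 * (12*X + W.b₂) * psi W X^2) + 2^8 * r6) ∧
      hD W.c₄ W.c₆ l m = 2^8 * (27 * psi W X + 2^12 * rD) := by
  have hl' : (Int.castRingHom (ZMod (2^20))) l = Int.castRingHom (ZMod (2^20)) (12*X + W.b₂) := by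
    rw [← sub_eq_zero, ← map_sub]
    exact (ZMod.intCast_zmod_eq_zero_iff_dvd _ _).2 (by exact_mod_cast hl)
  have hm' : (Int.castRingHom (ZMod (2^20))) m = Int.castRingHom (ZMod (2^20)) 1 := by
    rw [← sub_eq_zero, ← map_sub]
    exact (ZMod.intCast_zmod_eq_zero_iff_dvd _ _).2 (by exact_mod_cast hm)
  have key : ∀ a b : ℤ, Int.castRingHom (ZMod (2^20)) a = Int.castRingHom (ZMod (2^20)) b →
      ∃ r, a = b + 2^20 * r := by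
    intro a b h
    rw [← sub_eq_zero, ← map_sub, eq_intCast] at h
    obtain ⟨r, hr⟩ := (ZMod.intCast_zmod_eq_zero_iff_dvd (a - b) (2^20)).1 h
    refine ⟨r, ?_⟩
    have : a - b = 2^20 * r := by rw [hr]; push_cast; ring
    linarith
  obtain ⟨r4, h4⟩ := key (hC4 W.c₄ W.c₆ l m) (hC4 W.c₄ W.c₆ (12*X + W.b₂) 1) (by
    rw [map_hC4, map_hC4, hl', hm'])
  obtain ⟨r6, h6⟩ := key (hC6 W.c₄ W.c₆ l m) (hC6 W.c₄ W.c₆ (12*X + W.b₂) 1) (by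
    rw [map_hC6, map_hC6, hl', hm'])
  obtain ⟨rD, hDr⟩ := key (hD W.c₄ W.c₆ l m) (hD W.c₄ W.c₆ (12*X + W.b₂) 1) (by
    rw [map_hD, map_hD, hl', hm'])
  refine ⟨r4, r6, rD, ?_, ?_, ?_⟩
  · rw [h4, hC4_L]; ring
  · rw [h6, hC6_L]; ring
  · rw [hDr, hD_L]; ring

theorem f2_eq : f2 W X = (W.a₁*X + W.a₃)^2 + 4 * (X^3 + W.a₂*X^2 + W.a₄*X + W.a₆) := by
  simp only [f2, WeierstrassCurve.b₂, WeierstrassCurve.b₄, WeierstrassCurve.b₆]; ring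

theorem g2_eq : g2 W X = W.a₁*(W.a₁*X + W.a₃) + 2 * (3*X^2 + 2*W.a₂*X + W.a₄) := by
  simp only [g2, WeierstrassCurve.b₂, WeierstrassCurve.b₄]; ring

theorem psi_ord (h : ¬ (2 : ℤ) ∣ W.Δ) (h1 : ¬ (2 : ℤ) ∣ W.a₁) : ¬ (2 : ℤ) ∣ psi W X := by
  have h2 : ∀ x : ℤ, (2 : ℤ) ∣ x ↔ (x : ZMod 2) = 0 := fun x =>
    (ZMod.intCast_zmod_eq_zero_iff_dvd x 2).symm
  rw [h2] at h h1 ⊢
  simp only [psi, WeierstrassCurve.Δ, WeierstrassCurve.b₂, WeierstrassCurve.b₄,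
    WeierstrassCurve.b₆, WeierstrassCurve.b₈] at h ⊢
  push_cast at h ⊢
  generalize (W.a₁ : ZMod 2) = x1 at *
  generalize (W.a₂ : ZMod 2) = x2 at *
  generalize (W.a₃ : ZMod 2) = x3 at *
  generalize (W.a₄ : ZMod 2) = x4 at *
  generalize (W.a₆ : ZMod 2) = x6 at *
  generalize (X : ZMod 2) = x at *
  revert x1 x2 x3 x4 x6 x
  decide

theorem a3_odd (h : ¬ (2 : ℤ) ∣ W.Δ) (h1 : (2 : ℤ) ∣ W.a₁) : ¬ (2 : ℤ) ∣ W.a₃ := by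
  have h2 : ∀ x : ℤ, (2 : ℤ) ∣ x ↔ (x : ZMod 2) = 0 := fun x =>
    (ZMod.intCast_zmod_eq_zero_iff_dvd x 2).symm
  rw [h2] at h h1 ⊢
  simp only [WeierstrassCurve.Δ, WeierstrassCurve.b₂, WeierstrassCurve.b₄,
    WeierstrassCurve.b₆, WeierstrassCurve.b₈] at h
  push_cast at h
  generalize (W.a₁ : ZMod 2) = x1 at *
  generalize (W.a₂ : ZMod 2) = x2 at *
  generalize (W.a₃ : ZMod 2) = x3 at *
  generalize (W.a₄ : ZMod 2) = x4 at *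
  generalize (W.a₆ : ZMod 2) = x6 at *
  revert x1 x2 x3 x4 x6
  decide

theorem psi_ss (h : ¬ (2 : ℤ) ∣ W.Δ) (h1 : (2 : ℤ) ∣ W.a₁) :
    (2 : ℤ) ∣ psi W X ↔ (2 : ℤ) ∣ W.a₂ + W.a₄ := by
  have h3 := a3_odd W h h1
  have h2 : ∀ x : ℤ, (2 : ℤ) ∣ x ↔ (x : ZMod 2) = 0 := fun x =>
    (ZMod.intCast_zmod_eq_zero_iff_dvd x 2).symm
  rw [h2] at h1 h3
  rw [h2, h2]
  simp only [psi, WeierstrassCurve.b₂, WeierstrassCurve.b₄,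
    WeierstrassCurve.b₆, WeierstrassCurve.b₈]
  push_cast
  generalize (W.a₁ : ZMod 2) = x1 at *
  generalize (W.a₂ : ZMod 2) = x2 at *
  generalize (W.a₃ : ZMod 2) = x3 at *
  generalize (W.a₄ : ZMod 2) = x4 at *
  generalize (W.a₆ : ZMod 2) = x6 at *
  generalize (X : ZMod 2) = x at *
  revert x1 x2 x3 x4 x6 x
  decide

/-- the new curve has odd `c₄` -/
theorem two_odd {l m : ℤ} (hl : (2 : ℤ)^20 ∣ l - (12*X + W.b₂)) (hm : (2 : ℤ)^20 ∣ m - 1)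
    (hf : ¬ (2 : ℤ) ∣ W.a₁*X + W.a₃) :
    ∃ C4 C6 D' : ℤ, hC4 W.c₄ W.c₆ l m = 4^4 * C4 ∧ hC6 W.c₄ W.c₆ l m = 4^6 * C6 ∧
      (hD W.c₄ W.c₆ l m)^3 = 4^12 * D' ∧ ¬ (2 : ℤ) ∣ C4 ∧ (4 : ℤ) ∣ C6 + 1 ∧
      ((2 : ℤ) ∣ D' ↔ (2 : ℤ) ∣ psi W X) := by
  obtain ⟨r4, r6, rD, h4, h6, hDr⟩ := near W X hl hm
  obtain ⟨t, ht⟩ : ∃ t, W.a₁*X + W.a₃ = 2*t + 1 := by
    have : Odd (W.a₁*X + W.a₃) := by
      rwa [← even_iff_two_dvd, Int.not_even_iff_odd] at hf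
    exact this
  obtain ⟨v, hv⟩ : ∃ v, f2 W X = 4*v + 1 := by
    rw [f2_eq, ht]
    exact ⟨t^2 + t + (X^3 + W.a₂*X^2 + W.a₄*X + W.a₆), by ring⟩
  refine ⟨_, _, (27 * psi W X + 2^12 * rD)^3, h4, h6, ?_, ?_, ?_, ?_⟩
  · rw [hDr]; ring
  · rw [hv]
    rintro ⟨s, hs⟩
    have h1 : 2 * (s - 81*(9*(8*v^2 + 4*v) - 4 * g2 W X * psi W X) - 2^11*r4) = 729 := by
      linear_combination -hs
    omega
  · rw [hv]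
    refine ⟨729*(27*(16*v^3 + 12*v^2 + 3*v) - 9*(4*v+1)*g2 W X*psi W X +
      2*(12*X + W.b₂)*psi W X^2) + 2^6*r6 + 4921, ?_⟩
    ring
  · have hp := Int.prime_two
    constructor
    · intro h
      have h1 := hp.dvd_of_dvd_pow h
      have h2 : (2 : ℤ) ∣ 27 * psi W X := by
        have h3 : (2 : ℤ) ∣ 2^12 * rD := Dvd.dvd.mul_right (by norm_num) _
        exact (Int.dvd_add_left h3).1 h1
      rcases hp.dvd_or_dvd h2 with h3 | h3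
      · norm_num at h3
      · exact h3
    · intro h
      have h3 : (2 : ℤ) ∣ 2^12 * rD := Dvd.dvd.mul_right (by norm_num) _
      exact (dvd_add (Dvd.dvd.mul_left h _) h3).trans (dvd_pow_self _ three_ne_zero)

/-- `a₂ = 0`: the new curve is multiplicative at `2`, for all `X` -/
theorem two_ss0 (h : ¬ (2 : ℤ) ∣ W.Δ) (h1 : (2 : ℤ) ∣ W.a₁) (h24 : (2 : ℤ) ∣ W.a₂ + W.a₄)
    {l m : ℤ} (hl : (2 : ℤ)^20 ∣ l - (12*X + W.b₂)) (hm : (2 : ℤ)^20 ∣ m - 1) :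
    ∃ C4 C6 D' : ℤ, hC4 W.c₄ W.c₆ l m = 4^4 * C4 ∧ hC6 W.c₄ W.c₆ l m = 4^6 * C6 ∧
      (hD W.c₄ W.c₆ l m)^3 = 4^12 * D' ∧ ¬ (2 : ℤ) ∣ C4 ∧ (4 : ℤ) ∣ C6 + 1 ∧ (2 : ℤ) ∣ D' := by
  obtain ⟨C4, C6, D', e4, e6, eD, k4, k6, kD⟩ := two_odd W X hl hm (fun h' =>
    a3_odd W h h1 ((Int.dvd_add_right (Dvd.dvd.mul_right h1 _)).1 h'))
  exact ⟨C4, C6, D', e4, e6, eD, k4, k6, kD.2 ((psi_ss W X h h1).2 h24)⟩

/-- `a₂ = ± 2`: the new curve is good ordinary at `2`, for all `X` -/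
theorem two_ss2 (h : ¬ (2 : ℤ) ∣ W.Δ) (h1 : (2 : ℤ) ∣ W.a₁) (h24 : ¬ (2 : ℤ) ∣ W.a₂ + W.a₄)
    {l m : ℤ} (hl : (2 : ℤ)^20 ∣ l - (12*X + W.b₂)) (hm : (2 : ℤ)^20 ∣ m - 1) :
    ∃ C4 C6 D' : ℤ, hC4 W.c₄ W.c₆ l m = 4^4 * C4 ∧ hC6 W.c₄ W.c₆ l m = 4^6 * C6 ∧
      (hD W.c₄ W.c₆ l m)^3 = 4^12 * D' ∧ ¬ (2 : ℤ) ∣ C4 ∧ (4 : ℤ) ∣ C6 + 1 ∧ ¬ (2 : ℤ) ∣ D' := by
  obtain ⟨C4, C6, D', e4, e6, eD, k4, k6, kD⟩ := two_odd W X hl hm (fun h' =>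
    a3_odd W h h1 ((Int.dvd_add_right (Dvd.dvd.mul_right h1 _)).1 h'))
  exact ⟨C4, C6, D', e4, e6, eD, k4, k6, fun h' => h24 ((psi_ss W X h h1).1 (kD.1 h'))⟩

/-- `a₂ = ± 1`: for `X ≢ a₃ mod 2` the new curve is good ordinary at `2` -/
theorem two_ordE (h : ¬ (2 : ℤ) ∣ W.Δ) (h1 : ¬ (2 : ℤ) ∣ W.a₁) (hX : ¬ (2 : ℤ) ∣ X + W.a₃)
    {l m : ℤ} (hl : (2 : ℤ)^20 ∣ l - (12*X + W.b₂)) (hm : (2 : ℤ)^20 ∣ m - 1) :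
    ∃ C4 C6 D' : ℤ, hC4 W.c₄ W.c₆ l m = 4^4 * C4 ∧ hC6 W.c₄ W.c₆ l m = 4^6 * C6 ∧
      (hD W.c₄ W.c₆ l m)^3 = 4^12 * D' ∧ ¬ (2 : ℤ) ∣ C4 ∧ (4 : ℤ) ∣ C6 + 1 ∧ ¬ (2 : ℤ) ∣ D' := by
  obtain ⟨C4, C6, D', e4, e6, eD, k4, k6, kD⟩ := two_odd W X hl hm (fun h' => by
    apply hX
    obtain ⟨t, ht⟩ : Odd W.a₁ := by rwa [← even_iff_two_dvd, Int.not_even_iff_odd] at h1
    have e : X + W.a₃ = (W.a₁*X + W.a₃) - 2 * (t * X) := by rw [ht]; ring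
    rw [e]
    exact dvd_sub h' (dvd_mul_right _ _))
  exact ⟨C4, C6, D', e4, e6, eD, k4, k6, fun h' => psi_ord W X h h1 (kD.1 h')⟩

/-- `a₂ = ± 1`: for `X ≡ a₃ mod 2` the new curve is good supersingular at `2` -/
theorem two_ordS (h : ¬ (2 : ℤ) ∣ W.Δ) (h1 : ¬ (2 : ℤ) ∣ W.a₁) (hX : (2 : ℤ) ∣ X + W.a₃)
    {l m : ℤ} (hl : (2 : ℤ)^20 ∣ l - (12*X + W.b₂)) (hm : (2 : ℤ)^20 ∣ m - 1) :
    ∃ C4 C6 D' : ℤ, hC4 W.c₄ W.c₆ l m = 4^4 * C4 ∧ hC6 W.c₄ W.c₆ l m = 4^6 * C6 ∧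
      (hD W.c₄ W.c₆ l m)^3 = 4^12 * D' ∧ (16 : ℤ) ∣ C4 ∧ (32 : ℤ) ∣ C6 - 8 ∧
      ¬ (2 : ℤ) ∣ D' := by
  obtain ⟨r4, r6, rD, h4, h6, hDr⟩ := near W X hl hm
  obtain ⟨t, ht⟩ : Odd W.a₁ := by rwa [← even_iff_two_dvd, Int.not_even_iff_odd] at h1
  obtain ⟨w, hw⟩ := hX
  obtain ⟨y, hy⟩ : ∃ y, W.a₁*X + W.a₃ = 2 * y := ⟨t*X + w, by rw [ht]; linear_combination hw⟩
  obtain ⟨v, hv⟩ : ∃ v, f2 W X = 4*v := by
    rw [f2_eq, hy]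
    exact ⟨y^2 + (X^3 + W.a₂*X^2 + W.a₄*X + W.a₆), by ring⟩
  obtain ⟨z, hz⟩ : ∃ z, g2 W X = 2*z := by
    rw [g2_eq, hy]
    exact ⟨W.a₁*y + (3*X^2 + 2*W.a₂*X + W.a₄), by ring⟩
  obtain ⟨s, hs⟩ : Odd (psi W X) := by
    have := psi_ord W X h h1
    rwa [← even_iff_two_dvd, Int.not_even_iff_odd] at this
  have hb2 : W.b₂ = 4 * (t^2 + t + W.a₂) + 1 := by
    simp only [WeierstrassCurve.b₂]; rw [ht]; ring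
  refine ⟨_, _, (27 * psi W X + 2^12 * rD)^3, h4, h6, ?_, ?_, ?_, ?_⟩
  · rw [hDr]; ring
  · rw [hv, hz]
    exact ⟨81*(9*v^2 - z*psi W X) + 2^8*r4, by ring⟩
  · rw [hv, hz, hs, hb2]
    refine ⟨729*(54*v^3 - 9*v*z*(2*s+1) + (3*X + (t^2 + t + W.a₂))*(2*s+1)^2 + (s^2 + s)) +
      8*r6 + 182, ?_⟩
    ring
  · intro h'
    have hp := Int.prime_two
    have h1' := hp.dvd_of_dvd_pow h'
    have h2 : (2 : ℤ) ∣ 27 * psi W X := by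
      have h3 : (2 : ℤ) ∣ 2^12 * rD := Dvd.dvd.mul_right (by norm_num) _
      exact (Int.dvd_add_left h3).1 h1'
    rcases hp.dvd_or_dvd h2 with h3 | h3
    · norm_num at h3
    · exact psi_ord W X h h1 h3

end Int

end Fermat.Agent.Full
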