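import Fermat.Agent.Full.LiftDef
import Fermat.Agent.Full.NoTBaseR
import Fermat.Agent.Full.StepLR
import Fermat.Agent.Full.IndexP

set_option autoImplicit false

/-!
# Ramification at a minimal level, `p ≥ 5`
-/

open CongruenceSubgroup IsLocalRing Polynomial ModularFormClass WeierstrassCurve Fermat.Agent.ECRep

namespace Fermat.Agent.Full

open Fermat.Agent.Wire

local notation "Γℚ" => (AlgebraicClosure ℚ ≃ₐ[ℚ] AlgebraicClosure ℚ)
local notation "Qb" => AlgebraicClosure ℚ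
local notation "Zb" => integralClosure ℤ ℂ

/-- the hypotheses on the curve, `p` odd -/
structure HypO (p : ℕ) (W : WeierstrassCurve ℤ) : Prop where
  ne2 : p ≠ 2
  Δ_ne : W.Δ ≠ 0
  ss : W.IsSemistableModel
  irr : W.ModRepIsIrreducible p

/-- all properties of `W[p]` over a large coefficient field -/
theorem curveResO {p : ℕ} [Fact p.Prime] {W : WeierstrassCurve ℤ}
    {k : Type} [Field k] [Algebra (ZMod p) k] (H : HypO p W)
    (hsplit : ∀ a b : ℤ, ∃ α β : k, (X ^ 2 - C (a : k) * X + C (b : k) : Polynomial k) =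
      (X - C α) * (X - C β)) :
    let ρbar : ResidualGaloisRep k := (curveRho p W H.Δ_ne).baseChange k
    ρbar.IsAbsolutelyIrreducible ∧ ρbar.IsOdd ∧
    (GaloisRepAdic.ofResidualGaloisRep ρbar).DetIsCyclotomic p ∧
    (∀ σ : Γℚ, ∃ α β : k, LinearMap.charpoly (ρbar.ρ σ) = (X - C α) * (X - C β)) ∧
    (∀ (K : Type) [Field K] [Algebra k K] (G : Subgroup Γℚ), G.index = 2 →
      ∀ V : Submodule K (ρbar.baseChange K).V,
        (∀ σ ∈ G, ∀ x ∈ V, (ρbar.baseChange K).ρ σ x ∈ V) → V = ⊥ ∨ V = ⊤) ∧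
    (∀ q : ℕ, q.Prime → q ≠ p → W.IsGoodPrimeFor q → ρbar.IsUnramifiedAt q) ∧
    (∀ q : ℕ, q.Prime → q ≠ p → (q : ℤ) ∣ W.Δ → (ρbar.IsUnramifiedAt q ↔
      p ∣ padicValInt q W.Δ)) ∧
    (∀ q : ℕ, q.Prime → q ≠ p → W.IsGoodPrimeFor q → ∀ A : ValuationSubring Qb,
      A.LiesOverPrime q → ∀ σ : Γℚ, A.IsFrobeniusAt σ q →
      LinearMap.charpoly (ρbar.ρ σ) = X ^ 2 - C ((W.apOfModel q : ℤ) : k) * X + C (q : k)) := by
  have : CharP k p := charP_of_injective_algebraMap (algebraMap (ZMod p) k).injective p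
  exact ⟨curve_absIrr W H.ne2 H.Δ_ne H.irr k, curve_isOdd W k H.Δ_ne,
    curve_det W k H.Δ_ne, curve_split W k H.Δ_ne hsplit,
    fun K _ _ G hG V hV => curve_index_two_odd W H.ne2 H.Δ_ne H.ss H.irr k K G hG V hV,
    fun q hq hqp hg => curve_unr_of_good W k H.Δ_ne hq hqp hg,
    fun q hq hqp hqΔ => curve_unr_iff W k H.Δ_ne H.ss hq hqp hqΔ,
    fun q hq hqp hg A hA σ hσ => curve_charpoly_frob W k H.Δ_ne hq hqp hg hA hσ⟩

/-- **Mazur's principle for `W[p]`**, `p ≥ 5`. -/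
theorem mpO {p : ℕ} [Fact p.Prime] {W : WeierstrassCurve ℤ} (h5 : 5 ≤ p) (hΔ : W.Δ ≠ 0)
    (hirr : W.ModRepIsIrreducible p)
    {N : ℕ} [NeZero N]
    (hsq : Squarefree N) (hocc : Occ59 p W N) (hmin : ∀ M, M ∣ N → Occ59 p W M → M = N)
    {q : ℕ} (hq : q.Prime) (hqN : q ∣ N) (hqp : q ≠ p) (hunr : (curveRho p W hΔ).IsUnramifiedAt q) :
    p ∣ q - 1 ∧ ∀ P : ValuationSubring Qb, P.LiesOverPrime q → ∀ σ : Γℚ, P.IsFrobeniusAt σ q →
      (curveRho p W hΔ).ρ σ = 1 ∨ (curveRho p W hΔ).ρ σ = -1 := by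
  classical
  have hp : p.Prime := Fact.out
  have hp2 : p ≠ 2 := by omega
  obtain ⟨_, g, 𝔪, S, hg, h𝔪, hp𝔪, hc⟩ := hocc
  letI : Field (Zb ⧸ 𝔪) := Ideal.Quotient.field 𝔪
  let K : Type := Zb ⧸ 𝔪
  letI : Field K := Ideal.Quotient.field 𝔪
  let ψ : Zb →+* K := Ideal.Quotient.mk 𝔪
  have hchar : CharP K p := by
    rw [CharP.charP_iff_prime_eq_zero hp, ← map_natCast ψ]
    exact Ideal.Quotient.eq_zero_iff_mem.mpr hp𝔪
  letI : Algebra (ZMod p) K := ZMod.algebra K p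
  have hψ : ∀ ℓ : ℕ, ℓ.Prime → ℓ ∉ S → ∀ a : Zb, (a : ℂ) = qCoeff g ℓ →
      ψ a = ((W.apOfModel ℓ : ℤ) : K) := by
    intro ℓ hℓ hℓS a ha
    have h3 := hc ℓ hℓ hℓS a ha
    have h4 : ψ (a - ((W.apOfModel ℓ : ℤ) : Zb)) = 0 := Ideal.Quotient.eq_zero_iff_mem.mpr h3
    rwa [map_sub, map_intCast, sub_eq_zero] at h4
  have hqN2 : ¬ q ^ 2 ∣ N := by
    intro h
    have := hsq q (by rwa [← pow_two])
    exact hq.one_lt.ne' (Nat.isUnit_iff.mp this)
  have D : MazurQ.MPData N q p ψ g ((curveRho p W hΔ).baseChange K) :=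
    { hf := hg.isNormalizedEigenform
      irr := curve_absIrr W hp2 hΔ hirr K
      frob := fun ℓ hℓ hℓN hℓp P hP σ hσ a ha =>
        frob_of_cong hΔ hg.isNormalizedEigenform ψ S hψ hℓ hℓN hℓp hP hσ a ha
      unr := (curve_unr_iff_base W K hΔ q).mpr hunr
      hno := by
        intro L _ _ ψ' g' hg'
        by_contra hcon
        push Not at hcon
        have hcharL : CharP L p := charP_of_injective_algebraMap (algebraMap K L).injective p
        have hNq : N / q ∣ N := Nat.div_dvd_of_dvd hqN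
        have hNq0 : NeZero (N / q) := ⟨fun h => NeZero.ne N (by
          rw [← Nat.div_mul_cancel hqN, h, zero_mul])⟩
        obtain ⟨M', hM', hocc'⟩ := occ59_of_eigenform (W := W) hp ψ' hg'
          (S ∪ N.primeFactors ∪ {p}) (by
            intro ℓ hℓ hℓS b hb
            simp only [Finset.mem_union, Finset.mem_singleton, not_or, Nat.mem_primeFactors,
              not_and] at hℓS
            obtain ⟨⟨h1, h3⟩, h4⟩ := hℓS
            have hℓN : ¬ ℓ ∣ N := fun h => h3 hℓ h (NeZero.ne N)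
            have hint : qCoeff g ℓ ∈ Zb :=
              Eigenform.isIntegral_qCoeff_prime hg.isNormalizedEigenform hℓ
            rw [hcon ℓ hℓ hℓN h4 ⟨_, hint⟩ b rfl hb, hψ ℓ hℓ h1 ⟨_, hint⟩ rfl, map_intCast])
        have h5 := hmin M' (hM'.trans hNq) hocc'
        rw [h5] at hM'
        have h6 := Nat.le_of_dvd (Nat.pos_of_ne_zero hNq0.ne) hM'
        have h7 := Nat.div_lt_self (Nat.pos_of_ne_zero (NeZero.ne N)) hq.one_lt
        omega }
  have key : MazurQ.MPConcl q ((curveRho p W hΔ).baseChange K) :=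
    LL.mpStmtGe5 N q p hq hp h5 hqp hqN hqN2 K ψ g hg.isNormalizedEigenform _
      D.irr D.frob D.unr D.hno
  obtain ⟨h3, h4⟩ := key
  constructor
  · have h5 : ((q - 1 : ℕ) : K) = 0 := by
      rw [Nat.cast_sub hq.one_le, h3, Nat.cast_one, sub_self]
    rwa [CharP.cast_eq_zero_iff K p] at h5
  · intro P hP σ hσ
    rcases h4 P hP σ hσ with h | h
    · exact Or.inl ((LL.baseChange_eq_one_iff (curveRho p W hΔ) K σ).mp h)
    · exact Or.inr (bc_eq_neg_one _ K σ h)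

/-- all primes `q ≠ p` of a minimal level are ramified -/
theorem unr_emptyO (I : LL.Inputs) (hSS : TWMod.SpecSS)
    (hNew : TWMod.SpecNew)
    (hLow : TWLow.SpecLowerStrong) (hOrd : LL.NFOrdStmt) {p : ℕ} [hpp : Fact p.Prime]
    (h5 : 5 ≤ p) {W : WeierstrassCurve ℤ} (h : HypO p W) {N : ℕ} (hsq : Squarefree N)
    (hocc : LL.OccZ p (LL.cW W) N) (hmin : ∀ M, M ∣ N → LL.OccZ p (LL.cW W) M → M = N)
    (hMP : ∀ q : ℕ, q.Prime → q ∣ N → q ≠ p → (curveRho p W h.Δ_ne).IsUnramifiedAt q →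
      p ∣ q - 1 ∧ ∀ P : ValuationSubring Qb, P.LiesOverPrime q → ∀ σ : Γℚ,
        P.IsFrobeniusAt σ q → (curveRho p W h.Δ_ne).ρ σ = 1 ∨ (curveRho p W h.Δ_ne).ρ σ = -1) :
    ∀ q : ℕ, q.Prime → q ∣ N → q ≠ p → ¬ (curveRho p W h.Δ_ne).IsUnramifiedAt q := by
  classical
  have hp : p.Prime := hpp.out
  have hp2 : p ≠ 2 := h.ne2
  obtain ⟨hN0, 𝔪, h𝔪, hpm, g, S, hg, hgc⟩ := hocc
  have hocc' : LL.OccZ p (LL.cW W) N := ⟨hN0, 𝔪, h𝔪, hpm, g, S, hg, hgc⟩
  -- the coefficient ring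
  set V : ℕ := N + 1 with hVdef
  obtain ⟨F1, hF1⟩ := exists_split_finset hp
  obtain ⟨F2, hF2⟩ := exists_roots_finset (p ^ V) (pow_pos hp.pos V)
  obtain ⟨𝒪, i1, i2, i3, i4, i5, i6, hp𝒪, j, ι, b', hj, hF, hι, hb'⟩ :=
    LL.exists_dvr_eigen hp 𝔪 h𝔪 hpm hg.isNormalizedEigenform (F1 ∪ F2)
  have hchar0 : (p : ResidueField 𝒪) = 0 := by
    rw [← map_natCast (residue 𝒪)]
    exact (residue_eq_zero_iff _).mpr hp𝒪
  haveI hchar : CharP (ResidueField 𝒪) p := (CharP.charP_iff_prime_eq_zero hp).mpr hchar0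
  letI halg : Algebra (ZMod p) (ResidueField 𝒪) := ZMod.algebra _ p
  have hμ : ∀ z : ℂ, z ^ p ^ V = 1 → ∃ o : 𝒪, j o = z := by
    intro z hz
    obtain ⟨w, hw, hwz⟩ := hF2 z hz
    obtain ⟨o, ho⟩ := hF w (Finset.mem_union_right _ hw)
    exact ⟨o, by rw [ho, hwz]⟩
  obtain ⟨ζ, hζp, hζ1⟩ : ∃ ζ : 𝒪, ζ ^ p = 1 ∧ ζ ≠ 1 := by
    have hprim := Complex.isPrimitiveRoot_exp p hp.ne_zero
    obtain ⟨o, ho⟩ := hμ (Complex.exp (2 * Real.pi * Complex.I / p)) (by
      rw [hVdef, pow_succ', pow_mul, hprim.pow_eq_one, one_pow])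
    refine ⟨o, ?_, ?_⟩
    · apply hj
      rw [map_pow, ho, hprim.pow_eq_one, map_one]
    · rintro rfl
      rw [map_one] at ho
      exact hprim.ne_one hp.one_lt ho.symm
  have hsplit := hF1 𝒪 hp𝒪 j hj (fun z hz => hF z (Finset.mem_union_left _ hz))
  obtain ⟨habs, hodd, hdet, hspl, hind, hgood, hbad, hfrob⟩ :=
    curveResO (k := ResidueField 𝒪) h hsplit
  set ρbar : ResidualGaloisRep (ResidueField 𝒪) :=
    (curveRho p W h.Δ_ne).baseChange (ResidueField 𝒪) with hρbar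
  have hunr : ∀ q, ρbar.IsUnramifiedAt q ↔ (curveRho p W h.Δ_ne).IsUnramifiedAt q :=
    fun q => curve_unr_iff_base W (ResidueField 𝒪) h.Δ_ne q
  -- the sets of primes
  set Smin : Finset ℕ := insert p ((cond W).primeFactors.filter
    fun q => ¬ (curveRho p W h.Δ_ne).IsUnramifiedAt q) with hSmin
  set T : Finset ℕ := N.primeFactors.filter
    fun q => q ≠ p ∧ (curveRho p W h.Δ_ne).IsUnramifiedAt q with hT
  set S0 : Finset ℕ := insert p (S ∪ N.primeFactors ∪ (cond W).primeFactors) with hS0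
  have hram_bad : ∀ q : ℕ, q.Prime → q ≠ p → ¬ (curveRho p W h.Δ_ne).IsUnramifiedAt q →
      (q : ℤ) ∣ W.Δ := by
    intro q hq hqp hr
    by_contra hg'
    exact hr ((hunr q).mp (hgood q hq hqp hg'))
  have hpS0 : p ∈ S0 := Finset.mem_insert_self _ _
  have hbadS0 : ∀ q : ℕ, q.Prime → (q : ℤ) ∣ W.Δ → q ∈ S0 := fun q hq hqΔ =>
    Finset.mem_insert_of_mem (Finset.mem_union_right _
      (Nat.mem_primeFactors.mpr ⟨hq, (dvd_cond h.Δ_ne hq).mpr hqΔ, cond_ne_zero W⟩))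
  have hNS0 : ∀ q : ℕ, q.Prime → q ∣ N → q ∈ S0 := fun q hq hqN =>
    Finset.mem_insert_of_mem (Finset.mem_union_left _
      (Finset.mem_union_right _ (Nat.mem_primeFactors.mpr ⟨hq, hqN, hN0.ne⟩)))
  have hSS0 : S ⊆ S0 := fun q hq =>
    Finset.mem_insert_of_mem (Finset.mem_union_left _ (Finset.mem_union_left _ hq))
  -- the residual system
  have hctx : LL.Ctx p j ρbar S0 (fun ℓ ↦ ((W.apOfModel ℓ : ℤ) : 𝒪)) :=
    LL.ctxW_int hp2 hp𝒪 hj h.Δ_ne h.irr hpS0 hbadS0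
  have hform : LL.CongTo j (fun ℓ ↦ ((W.apOfModel ℓ : ℤ) : 𝒪)) S0 (fun ℓ ↦ qCoeff g ℓ) :=
    LL.congTo_of_dvr (c := LL.cW W) h𝔪.ne_top hι hg.isNormalizedEigenform hb'
      (fun ℓ hℓ hℓS => hgc ℓ hℓ (fun hh => hℓS (hSS0 hh)))
  have hU1 : ∀ S' : Finset ℕ, ∀ (M : ℕ) (_ : NeZero M) (g' : CuspForm (Gamma0 M) 2),
      g'.IsNewform → M ∣ N →
      LL.CongTo j (fun ℓ ↦ ((W.apOfModel ℓ : ℤ) : 𝒪)) S' (fun ℓ ↦ qCoeff g' ℓ) → M = N := by
    intro S' M hM0 g' hg' hMN hc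
    have hoccM : LL.OccZ p (LL.cW W) M := LL.occZ_of_congTo (c := LL.cW W) hp hp𝒪 (b := fun ℓ ↦
      ((W.apOfModel ℓ : ℤ) : 𝒪)) (S := S') (by
        intro ℓ _ _
        rw [map_intCast]
        rfl) hg' hc
    exact hmin M hMN hoccM
  have hTmem : ∀ l ∈ T, l.Prime ∧ l ∣ N ∧ l ≠ p ∧ (curveRho p W h.Δ_ne).IsUnramifiedAt l := by
    intro l hl
    rw [hT, Finset.mem_filter, Nat.mem_primeFactors] at hl
    exact ⟨hl.1.1, hl.1.2.1, hl.2.1, hl.2.2⟩
  have hSminmem : ∀ l ∈ Smin, l = p ∨ (l.Prime ∧ (l : ℤ) ∣ W.Δ ∧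
      ¬ (curveRho p W h.Δ_ne).IsUnramifiedAt l) := by
    intro l hl
    rw [hSmin, Finset.mem_insert, Finset.mem_filter, Nat.mem_primeFactors] at hl
    rcases hl with rfl | ⟨⟨h1, h3, -⟩, h4⟩
    · exact Or.inl rfl
    · exact Or.inr ⟨h1, (dvd_cond h.Δ_ne h1).mp h3, h4⟩
  have hbase : ∀ PC : TW.LCond, LL.PCond p j ρbar PC (fun M ↦ (p ∣ M ↔ p ∣ N)) →
      BaseR p j ρbar S0 (fun ℓ ↦ ((W.apOfModel ℓ : ℤ) : 𝒪)) N Smin T ζ PC := by
    intro PC hPC
    exact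
      { toCtx := hctx
        sqf := hsq
        three := Or.inl (by omega)
        memS := hNS0
        form := ⟨N, g, dvd_rfl, hg.isNormalizedEigenform, hform⟩
        pT := fun hh => (hTmem p hh).2.2.1 rfl
        Tdvd := fun l hl => (hTmem l hl).2.1
        Tpr := fun l hl => (hTmem l hl).1
        Tone := fun l hl => (hMP l (hTmem l hl).1 (hTmem l hl).2.1 (hTmem l hl).2.2.1
          (hTmem l hl).2.2.2).1
        ζpow := hζp
        ζne := hζ1
        min := fun S' _ M hM0 g' hg' hMN hc l hl => by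
          rw [hU1 S' M hM0 g' hg' hMN hc]
          exact (hTmem l hl).2.1
        pmin := fun hpN S' _ M hM0 g' hg' hMN hc => by
          rw [hU1 S' M hM0 g' hg' hMN hc]
          exact hpN
        Sp := Finset.mem_insert_self _ _
        SS0 := by
          intro q hq
          rcases hSminmem q hq with rfl | ⟨h1, h3, -⟩
          · exact hpS0
          · exact hbadS0 q h1 h3
        ST := by
          intro l hl hlT
          rcases hSminmem l hl with rfl | ⟨-, -, h3⟩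
          · exact (hTmem _ hlT).2.2.1 rfl
          · exact h3 (hTmem l hlT).2.2.2
        SN := by
          intro q hq hqN
          by_cases hqp : q = p
          · left
            rw [hqp]
            exact Finset.mem_insert_self _ _
          · by_cases hu : (curveRho p W h.Δ_ne).IsUnramifiedAt q
            · right; left
              rw [hT, Finset.mem_filter, Nat.mem_primeFactors]
              exact ⟨⟨hq, hqN, hN0.ne⟩, hqp, hu⟩
            · left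
              rw [hSmin, Finset.mem_insert, Finset.mem_filter, Nat.mem_primeFactors]
              exact Or.inr ⟨⟨hq, (dvd_cond h.Δ_ne hq).mpr (hram_bad q hq hqp hu),
                cond_ne_zero W⟩, hu⟩
        pcond := hPC }
  have hSprime : ∀ q ∈ Smin, q.Prime := by
    intro q hq
    rcases hSminmem q hq with rfl | ⟨h1, -, -⟩
    · exact hp
    · exact h1
  have hSminiff : ∀ q : ℕ, q.Prime → q ≠ p → (q ∈ Smin ↔ ¬ ρbar.IsUnramifiedAt q) := by
    intro q hq hqp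
    rw [hunr q]
    constructor
    · intro hm
      rcases hSminmem q hm with h1 | ⟨-, -, h3⟩
      · exact absurd h1 hqp
      · exact h3
    · intro hr
      rw [hSmin, Finset.mem_insert, Finset.mem_filter, Nat.mem_primeFactors]
      exact Or.inr ⟨⟨hq, (dvd_cond h.Δ_ne hq).mpr (hram_bad q hq hqp hr), cond_ne_zero W⟩, hr⟩
  have hsc : ∀ l ∈ T, ∀ P : ValuationSubring Qb, P.LiesOverPrime l →
      ∀ σ : Γℚ, P.IsFrobeniusAt σ l → ∃ c : ResidueField 𝒪, ρbar.ρ σ = c • 1 := by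
    intro l hl P hP σ hσ
    exact exists_scalar_of_pm _ _ ((hMP l (hTmem l hl).1 (hTmem l hl).2.1 (hTmem l hl).2.2.1
      (hTmem l hl).2.2.2).2 P hP σ hσ)
  have hV : ∀ l ∈ T, ∀ v, p ^ v ∣ l - 1 → v ≤ V := by
    intro l hl v hv
    have hl' := hTmem l hl
    have h1 : 0 < l - 1 := by have := hl'.1.one_lt; omega
    have h3 := Nat.le_of_dvd h1 hv
    have h4 := Nat.le_of_dvd (Nat.pos_of_ne_zero hN0.ne) hl'.2.1
    have h5 := Nat.lt_pow_self hp.one_lt (n := v)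
    omega
  have hTempty : T = ∅ := by
    by_cases hpN : p ∣ N
    · exact (hbase _ (LL.pcond_strict hOrd hp hp2 hp𝒪 habs
        (fun M hM => hM.mpr hpN))).T_eq_empty_strict
        I hSS hNew hLow hdet hspl hind hSprime hSminiff hsc hV hμ
    · exact (hbase _ (LL.pcond_flat (fun M hM hh => hpN (hM.mp hh)))).T_eq_empty_flat
        I hSS hNew hLow hdet hspl hind hSprime hSminiff hsc hV hμ
  intro q hq hqN hqp hu
  have hqT : q ∈ T := by
    rw [hT, Finset.mem_filter, Nat.mem_primeFactors]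
    exact ⟨⟨hq, hqN, hN0.ne⟩, hqp, hu⟩
  rw [hTempty] at hqT
  exact Finset.notMem_empty _ hqT

end Fermat.Agent.Full
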